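import Fermat.Agent.ResidualThree.Interfaces

/-!
# Arithmetic of the Eisenstein integers as pairs

Norm, conjugation and divisibility on `Eis3`, the pairs `(a, b)` standing for `a + b ω`, and the
splitting of the primes `p ≡ 1 (mod 3)`.
-/

noncomputable section

open Complex
open scoped ComplexConjugate

namespace Fermat.Agent.ResidualThree

theorem sqrtThree_mul_self : Real.sqrt 3 * Real.sqrt 3 = 3 :=
  Real.mul_self_sqrt (by norm_num)

theorem omegaC_re : omegaC.re = -1 / 2 := rfl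

theorem omegaC_im : omegaC.im = Real.sqrt 3 / 2 := rfl

theorem sqrtNegThree_re : sqrtNegThree.re = 0 := rfl

theorem sqrtNegThree_im : sqrtNegThree.im = Real.sqrt 3 := rfl

theorem sqrtNegThree_ne_zero : sqrtNegThree ≠ 0 := fun h => by
  have h' := congrArg Complex.im h
  rw [sqrtNegThree_im, Complex.zero_im] at h'
  exact absurd h' (by positivity)

theorem normSq_sqrtNegThree : Complex.normSq sqrtNegThree = 3 := by
  simp [Complex.normSq_apply, sqrtNegThree_re, sqrtNegThree_im]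

theorem conj_sqrtNegThree : conj sqrtNegThree = -sqrtNegThree := by
  apply Complex.ext <;> simp [sqrtNegThree_re, sqrtNegThree_im]

theorem conj_omegaC_eq : conj omegaC = omegaC - sqrtNegThree := by
  apply Complex.ext <;> simp [omegaC_re, omegaC_im, sqrtNegThree_re, sqrtNegThree_im]
  ring

theorem sqrtNegThree_sq : sqrtNegThree * sqrtNegThree = -3 := by
  apply Complex.ext <;> simp [sqrtNegThree_re, sqrtNegThree_im]

namespace Eis3

/-- The conjugate. -/
def bar (x : Eis3) : Eis3 := (x.1 - x.2, -x.2)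

theorem toC_re (x : Eis3) : x.toC.re = (x.1 : ℝ) - (x.2 : ℝ) / 2 := by
  simp [toC, omegaC_re, omegaC_im]
  ring

theorem toC_im (x : Eis3) : x.toC.im = (x.2 : ℝ) * Real.sqrt 3 / 2 := by
  simp [toC, omegaC_re, omegaC_im]
  ring

theorem toC_injective : Function.Injective toC := fun x y h => by
  have h1 := congrArg Complex.im h
  have h2 := congrArg Complex.re h
  rw [toC_im, toC_im] at h1
  rw [toC_re, toC_re] at h2
  have hs : (0 : ℝ) < Real.sqrt 3 := by positivity
  have e2 : (x.2 : ℝ) = y.2 := by nlinarith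
  have e1 : (x.1 : ℝ) = y.1 := by linarith
  exact Prod.ext (by exact_mod_cast e1) (by exact_mod_cast e2)

theorem toC_zero : toC (0, 0) = 0 := by simp [toC]

theorem toC_one : toC (1, 0) = 1 := by simp [toC]

theorem toC_eq_zero {x : Eis3} : x.toC = 0 ↔ x = (0, 0) :=
  ⟨fun h => toC_injective (h.trans toC_zero.symm), fun h => h ▸ toC_zero⟩

theorem toC_add (x y : Eis3) : toC (x + y) = x.toC + y.toC := by
  simp [toC]
  ring

theorem toC_sub (x y : Eis3) : toC (x - y) = x.toC - y.toC := by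
  simp [toC]
  ring

theorem toC_neg (x : Eis3) : toC (-x) = -x.toC := by
  simp [toC]
  ring

theorem toC_intCast (n : ℤ) : toC (n, 0) = (n : ℂ) := by simp [toC]

theorem omegaC_sq : omegaC * omegaC = -1 - omegaC := by
  apply Complex.ext <;> simp [omegaC_re, omegaC_im] <;> nlinarith [sqrtThree_mul_self]

theorem toC_mul (x y : Eis3) : toC (mul x y) = x.toC * y.toC := by
  simp only [toC, mul]
  push_cast
  linear_combination -((x.2 : ℂ) * (y.2 : ℂ)) * omegaC_sq

theorem toC_bar (x : Eis3) : toC (bar x) = conj x.toC := by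
  apply Complex.ext <;> simp [toC_re, toC_im, bar] <;> ring

theorem normForm_nonneg (x : Eis3) : 0 ≤ x.1 ^ 2 - x.1 * x.2 + x.2 ^ 2 := by
  nlinarith [sq_nonneg (2 * x.1 - x.2), sq_nonneg x.2]

theorem norm_cast_eq (x : Eis3) : (x.norm : ℤ) = x.1 ^ 2 - x.1 * x.2 + x.2 ^ 2 := by
  rw [norm, Int.natAbs_of_nonneg (normForm_nonneg x)]

/-- The norm is the squared absolute value. -/
theorem normSq_toC (x : Eis3) : Complex.normSq x.toC = (x.norm : ℝ) := by
  have h := congrArg (Int.cast (R := ℝ)) (norm_cast_eq x)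
  push_cast at h
  rw [Complex.normSq_apply, toC_re, toC_im, h]
  linear_combination ((x.2 : ℝ) ^ 2 / 4) * sqrtThree_mul_self

theorem norm_mul (x y : Eis3) : (mul x y).norm = x.norm * y.norm := by
  have h : ((mul x y).norm : ℝ) = ((x.norm * y.norm : ℕ) : ℝ) := by
    rw [← normSq_toC, toC_mul, Complex.normSq_mul, normSq_toC, normSq_toC, Nat.cast_mul]
  exact_mod_cast h

theorem norm_bar (x : Eis3) : (bar x).norm = x.norm := by
  have h : ((bar x).norm : ℝ) = (x.norm : ℝ) := by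
    rw [← normSq_toC, toC_bar, Complex.normSq_conj, normSq_toC]
  exact_mod_cast h

theorem norm_eq_zero {x : Eis3} : x.norm = 0 ↔ x = (0, 0) := by
  rw [← toC_eq_zero, ← Complex.normSq_eq_zero, normSq_toC, Nat.cast_eq_zero]

theorem norm_intCast (n : ℤ) : Eis3.norm (n, 0) = n.natAbs ^ 2 := by
  simp [norm, Int.natAbs_pow]

theorem mul_comm (x y : Eis3) : mul x y = mul y x := toC_injective (by
  simp only [toC_mul]; ring)

theorem mul_assoc (x y z : Eis3) : mul (mul x y) z = mul x (mul y z) := toC_injective (by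
  simp only [toC_mul]; ring)

theorem mul_one (x : Eis3) : mul x (1, 0) = x := toC_injective (by
  simp [toC_mul, toC_one])

theorem one_mul (x : Eis3) : mul (1, 0) x = x := toC_injective (by
  simp [toC_mul, toC_one])

/-- `x x̄ = N(x)`. -/
theorem mul_bar (x : Eis3) : mul x (bar x) = ((x.norm : ℤ), 0) := toC_injective (by
  rw [toC_mul, toC_bar, Complex.mul_conj, normSq_toC, toC_intCast]
  push_cast
  rfl)

theorem mul_left_cancel {x y z : Eis3} (hx : x ≠ (0, 0)) (h : mul x y = mul x z) : y = z := by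
  refine toC_injective (mul_left_cancel₀ (mt toC_eq_zero.mp hx) ?_)
  rw [← toC_mul, ← toC_mul, h]

theorem sqrtNegThree_eq : sqrtNegThree = toC (1, 2) := by
  apply Complex.ext <;> simp [toC_re, toC_im, sqrtNegThree_re, sqrtNegThree_im]

theorem div_sqrtNegThree_re (x : Eis3) : 2 * (x.toC / sqrtNegThree).re = (x.2 : ℝ) := by
  rw [Complex.div_re, sqrtNegThree_re, sqrtNegThree_im, normSq_sqrtNegThree, toC_im]
  linear_combination ((x.2 : ℝ) / 3) * sqrtThree_mul_self

theorem trace_eq (x : Eis3) : 2 * x.toC.re = ((2 * x.1 - x.2 : ℤ) : ℝ) := by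
  rw [toC_re]
  push_cast
  ring

theorem dvd_iff_toC {x y : Eis3} : dvd x y ↔ ∃ z : Eis3, x.toC * z.toC = y.toC := by
  simp only [dvd, ← toC_mul, toC_injective.eq_iff]

theorem norm_dvd_norm {x y : Eis3} (h : dvd x y) : x.norm ∣ y.norm := by
  obtain ⟨z, rfl⟩ := h
  exact ⟨z.norm, norm_mul x z⟩

/-- An element of norm one has its conjugate as inverse. -/
theorem exists_inv_of_norm_one {u : Eis3} (hu : u.norm = 1) : mul u (bar u) = (1, 0) := by
  rw [mul_bar, hu]
  rfl

/-- `X² + X + 1` has a root modulo a prime `≡ 1 (mod 3)`. -/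
theorem exists_cubeRoot {p : ℕ} [Fact p.Prime] (h3 : p % 3 = 1) :
    ∃ r : ZMod p, r ^ 2 + r + 1 = 0 := by
  have hp := (Fact.out : p.Prime)
  have : NeZero p := ⟨hp.ne_zero⟩
  obtain ⟨g, hg⟩ := IsCyclic.exists_generator (α := (ZMod p)ˣ)
  have hcard : Nat.card (ZMod p)ˣ = p - 1 := by
    rw [Nat.card_eq_fintype_card, ZMod.card_units]
  have hord : orderOf g = p - 1 := by rw [orderOf_eq_card_of_forall_mem_zpowers hg, hcard]
  obtain ⟨k, hk⟩ : 3 ∣ p - 1 := by omega
  have hk0 : k ≠ 0 := fun h => by have := hp.two_le; omega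
  set r : (ZMod p)ˣ := g ^ k with hr
  have hr3 : r ^ 3 = 1 := by
    rw [hr, ← pow_mul, Nat.mul_comm, ← hk, ← hord, pow_orderOf_eq_one]
  have hr1 : r ≠ 1 := fun h => by
    have := orderOf_dvd_of_pow_eq_one (show g ^ k = 1 from h)
    rw [hord, hk] at this
    have := Nat.le_of_dvd (Nat.pos_of_ne_zero hk0) this
    omega
  refine ⟨(r : ZMod p), ?_⟩
  have h : ((r : ZMod p) - 1) * ((r : ZMod p) ^ 2 + (r : ZMod p) + 1) = 0 := by
    have := congrArg (Units.val) hr3
    rw [Units.val_pow_eq_pow_val, Units.val_one] at this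
    linear_combination this
  exact (mul_eq_zero.mp h).resolve_left (sub_ne_zero.mpr fun h => hr1 (Units.ext h))

/-- A prime `p ≡ 1 (mod 3)` is a norm. -/
theorem exists_norm_eq {p : ℕ} (hp : p.Prime) (h3 : p % 3 = 1) : ∃ π : Eis3, π.norm = p := by
  have := Fact.mk hp
  obtain ⟨r, hr⟩ := exists_cubeRoot h3
  set s := p.sqrt with hs
  let f : Fin (s + 1) × Fin (s + 1) → ZMod p := fun ab => (ab.1 : ℕ) + ((ab.2 : ℕ) : ZMod p) * r
  obtain ⟨x, y, hxy, hfxy⟩ := Fintype.exists_ne_map_eq_of_card_lt f (by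
    rw [ZMod.card, Fintype.card_prod, Fintype.card_fin]
    exact Nat.lt_succ_sqrt p)
  set e : Eis3 := (((x.1 : ℕ) : ℤ) - ((y.1 : ℕ) : ℤ), ((x.2 : ℕ) : ℤ) - ((y.2 : ℕ) : ℤ)) with he
  have he0 : e ≠ (0, 0) := fun h => hxy (by
    simp only [he, Prod.mk.injEq] at h
    exact Prod.ext (Fin.ext (by omega)) (Fin.ext (by omega)))
  have hmod : ((e.1 ^ 2 - e.1 * e.2 + e.2 ^ 2 : ℤ) : ZMod p) = 0 := by
    have h1 : ((x.1 : ℕ) : ZMod p) - ((y.1 : ℕ) : ZMod p) =
        -((((x.2 : ℕ) : ZMod p) - ((y.2 : ℕ) : ZMod p)) * r) := by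
      simp only [f] at hfxy
      linear_combination hfxy
    simp only [he]
    push_cast
    rw [h1]
    linear_combination ((((x.2 : ℕ) : ZMod p) - ((y.2 : ℕ) : ZMod p)) ^ 2) * hr
  have hdvd : p ∣ e.norm := by
    have := (ZMod.intCast_zmod_eq_zero_iff_dvd _ p).mp hmod
    rw [← norm_cast_eq] at this
    exact Int.natCast_dvd_natCast.mp this
  have hpos : 0 < e.norm := Nat.pos_of_ne_zero (mt norm_eq_zero.mp he0)
  have hlt : e.norm < 3 * p := by
    have hb : ∀ a : ℤ, -(s : ℤ) ≤ a → a ≤ s → a ^ 2 ≤ (s : ℤ) ^ 2 := fun a h h' => by nlinarith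
    have hx1 := x.1.isLt; have hx2 := x.2.isLt; have hy1 := y.1.isLt; have hy2 := y.2.isLt
    have b1 : e.1 ^ 2 ≤ (s : ℤ) ^ 2 := hb _ (by simp only [he]; omega) (by simp only [he]; omega)
    have b2 : e.2 ^ 2 ≤ (s : ℤ) ^ 2 := hb _ (by simp only [he]; omega) (by simp only [he]; omega)
    have hsq : (s : ℤ) ^ 2 < p := by
      have h1 : s ^ 2 ≤ p := Nat.sqrt_le' p
      have h2 : s ^ 2 ≠ p := fun h => by
        rcases (Nat.prime_def_lt.mp hp) with ⟨-, hdef⟩
        have hs2 : s ≠ 1 := fun hs1 => by rw [hs1] at h; exact hp.ne_one h.symm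
        have hslt : s < p := Nat.sqrt_lt_self hp.one_lt
        exact hs2 (hdef s hslt ⟨s, by rw [← h]; ring⟩)
      exact_mod_cast lt_of_le_of_ne h1 h2
    have : (e.norm : ℤ) < 3 * p := by
      rw [norm_cast_eq]; nlinarith [sq_nonneg (e.1 + e.2)]
    exact_mod_cast this
  obtain ⟨c, hc⟩ := hdvd
  have hc2 : c = 1 ∨ c = 2 := by
    rcases Nat.lt_or_ge c 3 with h | h
    · rcases Nat.eq_zero_or_pos c with rfl | h0
      · omega
      · omega
    · nlinarith [hp.pos]
  rcases hc2 with rfl | rfl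
  · exact ⟨e, by simpa using hc⟩
  exfalso
  have h2 : ((e.1 ^ 2 - e.1 * e.2 + e.2 ^ 2 : ℤ) : ZMod 2) = 0 := by
    rw [← norm_cast_eq, hc]
    push_cast
    rw [show (2 : ZMod 2) = 0 by rfl, mul_zero]
  push_cast at h2
  have hev : (e.1 : ZMod 2) = 0 ∧ (e.2 : ZMod 2) = 0 := by
    revert h2
    generalize (e.1 : ZMod 2) = a
    generalize (e.2 : ZMod 2) = b
    revert a b
    decide
  obtain ⟨⟨a, ha⟩, ⟨b, hb⟩⟩ := And.intro
    ((ZMod.intCast_zmod_eq_zero_iff_dvd _ 2).mp hev.1)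
    ((ZMod.intCast_zmod_eq_zero_iff_dvd _ 2).mp hev.2)
  have h4 : (4 : ℤ) ∣ (e.norm : ℤ) :=
    ⟨a ^ 2 - a * b + b ^ 2, by rw [norm_cast_eq, ha, hb]; push_cast; ring⟩
  rw [hc] at h4
  have : ((p * 2 : ℕ) : ℤ) % 4 = 0 := Int.emod_eq_zero_of_dvd h4
  have hodd : p % 2 = 1 := hp.eq_two_or_odd.resolve_left (by omega)
  omega

/-- An element of prime norm `p` corresponds to a root `r` of `X² + X + 1` modulo `p`, and divides
`y` exactly when `y₁ + y₂ r` vanishes. -/
theorem exists_root_dvd_iff {p : ℕ} (hp : p.Prime) {π : Eis3} (hπ : π.norm = p) (y : Eis3) :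
    ∃ r : ZMod p, (π.1 : ZMod p) + π.2 * r = 0 ∧ r ^ 2 + r + 1 = 0 ∧
      (dvd π y ↔ (y.1 : ZMod p) + y.2 * r = 0) := by
  have := Fact.mk hp
  have hmod : (π.1 : ZMod p) ^ 2 - π.1 * π.2 + (π.2 : ZMod p) ^ 2 = 0 := by
    have h := congrArg (Int.cast (R := ZMod p)) (norm_cast_eq π)
    rw [hπ] at h
    simpa using h.symm
  have h2 : (π.2 : ZMod p) ≠ 0 := fun h => by
    have h1 : (π.1 : ZMod p) = 0 := by
      rw [h] at hmod
      simpa using hmod
    obtain ⟨⟨a, ha⟩, ⟨b, hb⟩⟩ := And.intro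
      ((ZMod.intCast_zmod_eq_zero_iff_dvd _ p).mp h1) ((ZMod.intCast_zmod_eq_zero_iff_dvd _ p).mp h)
    have : (p : ℤ) = (p : ℤ) * ((p : ℤ) * (a ^ 2 - a * b + b ^ 2)) := by
      conv_lhs => rw [← hπ, norm_cast_eq, ha, hb]
      ring
    have h' := mul_left_cancel₀ (a := (p : ℤ)) (by exact_mod_cast hp.ne_zero)
      ((_root_.mul_one (p : ℤ)).trans this)
    exact hp.ne_one (Nat.eq_one_of_dvd_one (Int.natCast_dvd_natCast.mp ⟨_, h'⟩))
  set r : ZMod p := -(π.1 : ZMod p) / π.2 with hr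
  have hπr : (π.1 : ZMod p) + π.2 * r = 0 := by rw [hr]; field_simp; ring
  have hrr : r ^ 2 + r + 1 = 0 := by
    have : (π.2 : ZMod p) ^ 2 * (r ^ 2 + r + 1) = 0 := by
      linear_combination hmod + ((π.2 : ZMod p) * r - π.1 + π.2) * hπr
    exact (mul_eq_zero.mp this).resolve_left (pow_ne_zero 2 h2)
  refine ⟨r, hπr, hrr, ?_, fun hy => ?_⟩
  · rintro ⟨z, rfl⟩
    simp only [mul]
    push_cast
    linear_combination ((z.1 : ZMod p) + z.2 * r) * hπr - (π.2 : ZMod p) * z.2 * hrr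
  · have hd : ∀ i : ℤ, (i : ZMod p) = 0 → ∃ c, i = p * c := fun i hi =>
      (ZMod.intCast_zmod_eq_zero_iff_dvd _ p).mp hi
    obtain ⟨z1, hz1⟩ := hd (mul (bar π) y).1 (by
      simp only [mul, bar]
      push_cast
      linear_combination ((π.1 : ZMod p) - π.2) * hy + (π.2 : ZMod p) * y.2 * hrr -
        r * (y.2 : ZMod p) * hπr)
    obtain ⟨z2, hz2⟩ := hd (mul (bar π) y).2 (by
      simp only [mul, bar]
      push_cast
      linear_combination (-(π.2 : ZMod p)) * hy + (y.2 : ZMod p) * hπr)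
    refine ⟨(z1, z2), toC_injective ?_⟩
    have hbar : toC (bar π) ≠ 0 := fun h => by
      rw [toC_eq_zero, ← norm_eq_zero, norm_bar, hπ] at h
      exact hp.ne_zero h
    apply mul_left_cancel₀ hbar
    rw [toC_mul, ← _root_.mul_assoc, ← toC_mul (bar π) π, mul_comm (bar π) π, mul_bar, hπ,
      toC_intCast, ← toC_mul (bar π) y]
    simp only [toC]
    rw [hz1, hz2]
    push_cast
    ring

/-- An element of prime norm is prime. -/
theorem isPrimeElt_of_norm {p : ℕ} (hp : p.Prime) {π : Eis3} (hπ : π.norm = p) :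
    π.IsPrimeElt := by
  refine ⟨by rw [hπ]; exact hp.one_lt, fun y z h => ?_⟩
  have := Fact.mk hp
  obtain ⟨r, hr, hrr, -⟩ := exists_root_dvd_iff hp hπ y
  have key : ∀ w : Eis3, dvd π w ↔ (w.1 : ZMod p) + w.2 * r = 0 := fun w => by
    obtain ⟨r', hr', -, hw⟩ := exists_root_dvd_iff hp hπ w
    by_cases h2 : (π.2 : ZMod p) = 0
    · have h1 : (π.1 : ZMod p) = 0 := by simpa [h2] using hr
      obtain ⟨⟨a, ha⟩, ⟨b, hb⟩⟩ := And.intro
        ((ZMod.intCast_zmod_eq_zero_iff_dvd _ p).mp h1)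
        ((ZMod.intCast_zmod_eq_zero_iff_dvd _ p).mp h2)
      exfalso
      have : (p : ℤ) = (p : ℤ) * ((p : ℤ) * (a ^ 2 - a * b + b ^ 2)) := by
        conv_lhs => rw [← hπ, norm_cast_eq, ha, hb]
        ring
      have h' := mul_left_cancel₀ (a := (p : ℤ)) (by exact_mod_cast hp.ne_zero)
        ((_root_.mul_one (p : ℤ)).trans this)
      exact hp.ne_one (Nat.eq_one_of_dvd_one (Int.natCast_dvd_natCast.mp ⟨_, h'⟩))
    · rwa [mul_left_cancel₀ h2 (show (π.2 : ZMod p) * r' = π.2 * r by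
        linear_combination hr' - hr)] at hw
  rw [key] at h
  rw [key, key]
  refine mul_eq_zero.mp ?_
  simp only [mul] at h
  push_cast at h
  linear_combination h + (y.2 : ZMod p) * z.2 * hrr

/-- The conjugate of a split prime is a different prime. -/
theorem not_dvd_bar {p : ℕ} (hp : p.Prime) (h3 : p ≠ 3) {π : Eis3} (hπ : π.norm = p) :
    ¬ dvd π (bar π) := by
  have := Fact.mk hp
  obtain ⟨r, hr, hrr, hiff⟩ := exists_root_dvd_iff hp hπ (bar π)
  rw [hiff]
  simp only [bar]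
  intro h
  push_cast at h
  have hB : (π.2 : ZMod p) * (2 * r + 1) = 0 := by linear_combination hr - h
  rcases mul_eq_zero.mp hB with hB | hB
  · have hA : (π.1 : ZMod p) = 0 := by simpa [hB] using hr
    obtain ⟨⟨a, ha⟩, ⟨b, hb⟩⟩ := And.intro
      ((ZMod.intCast_zmod_eq_zero_iff_dvd _ p).mp hA)
      ((ZMod.intCast_zmod_eq_zero_iff_dvd _ p).mp hB)
    have : (p : ℤ) = (p : ℤ) * ((p : ℤ) * (a ^ 2 - a * b + b ^ 2)) := by
      conv_lhs => rw [← hπ, norm_cast_eq, ha, hb]
      ring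
    have h' := mul_left_cancel₀ (a := (p : ℤ)) (by exact_mod_cast hp.ne_zero)
      ((_root_.mul_one (p : ℤ)).trans this)
    exact hp.ne_one (Nat.eq_one_of_dvd_one (Int.natCast_dvd_natCast.mp ⟨_, h'⟩))
  · have : ((3 : ℕ) : ZMod p) = 0 := by
      push_cast
      linear_combination 4 * hrr - (2 * r + 1) * hB
    exact h3 ((Nat.prime_dvd_prime_iff_eq hp Nat.prime_three).mp
      ((ZMod.natCast_eq_zero_iff 3 p).mp this))

/-- The residue of an element modulo `√-3`, in `ℤ/3`. -/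
def modSqrtThree (z : Eis3) : ZMod 3 := ((z.1 + z.2 : ℤ) : ZMod 3)

theorem modSqrtThree_mul (x y : Eis3) :
    modSqrtThree (mul x y) = modSqrtThree x * modSqrtThree y := by
  have h30 : (3 : ZMod 3) = 0 := rfl
  simp only [modSqrtThree, mul]
  push_cast
  linear_combination (-((x.2 : ZMod 3) * y.2)) * h30

theorem modSqrtThree_bar (x : Eis3) : modSqrtThree (bar x) = modSqrtThree x := by
  have h30 : (3 : ZMod 3) = 0 := rfl
  simp only [modSqrtThree, bar]
  push_cast
  linear_combination (-(x.2 : ZMod 3)) * h30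

theorem modSqrtThree_add (x y : Eis3) :
    modSqrtThree (x + y) = modSqrtThree x + modSqrtThree y := by
  simp only [modSqrtThree, Prod.fst_add, Prod.snd_add]
  push_cast
  ring

theorem modSqrtThree_sub (x y : Eis3) :
    modSqrtThree (x - y) = modSqrtThree x - modSqrtThree y := by
  simp only [modSqrtThree, Prod.fst_sub, Prod.snd_sub]
  push_cast
  ring

theorem modSqrtThree_intCast (m : ℤ) : modSqrtThree (m, 0) = (m : ZMod 3) := by
  simp [modSqrtThree]

end Eis3

end Fermat.Agent.ResidualThree
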