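import Fermat.Agent.ResidualThree.Spherical.Decay

/-!
# The two Gaussian kernels attached to geodesic planes and to points

The kernels `kPlane` and `kPoint`, their transforms over planes and their spherical transforms
at the spectral parameter `0`; the latter gives the exponential integral in the antiholomorphic
part of the lift.
-/

noncomputable section

open MeasureTheory Filter Set
open scoped ComplexConjugate ENNReal Topology

namespace Fermat.Agent.ResidualThree

/-- The integral of a kernel over a plane at distance `arcosh C`. -/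
def planeTransform (k : ℝ → ℂ) (C : ℝ) : ℂ :=
  2 * (Real.pi : ℂ) * ∫ u in Ioi (1 : ℝ), k (C * u)

theorem abelTransform_eq_plane (k : ℝ → ℂ) (s : ℝ) :
    abelTransform k s = (Real.cosh s : ℂ) * planeTransform k (Real.cosh s) := by
  have hc : ((Real.cosh s : ℝ) : ℂ) ≠ 0 := by exact_mod_cast (Real.cosh_pos s).ne'
  rw [abelTransform, planeTransform, integral_comp_mul_left_Ioi k 1 (Real.cosh_pos s),
    mul_one, Complex.real_smul, Complex.ofReal_inv]
  field_simp

/-- The kernel whose plane transform is a Gaussian. -/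
def kPlane (a c : ℝ) : ℂ :=
  ((Real.exp (-(a * (c ^ 2 - 1))) * (2 * a * c ^ 2 - 1) / (2 * Real.pi) : ℝ) : ℂ)

/-- The Gaussian kernel. -/
def kPoint (a c : ℝ) : ℂ := ((Real.exp (-(a * c ^ 2)) : ℝ) : ℂ)

theorem continuous_kPlane (a : ℝ) : Continuous (kPlane a) := by
  unfold kPlane; fun_prop

theorem continuous_kPoint (a : ℝ) : Continuous (kPoint a) := by
  unfold kPoint; fun_prop

theorem norm_kPlane_le {a : ℝ} (ha : 0 < a) (c : ℝ) :
    ‖kPlane a c‖ ≤ 5 * Real.exp a * Real.exp (-(a / 2 * c ^ 2)) := by
  have hpi : 1 ≤ 2 * Real.pi := by linarith [Real.pi_gt_three]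
  rw [kPlane, Complex.norm_real, Real.norm_eq_abs, abs_div, abs_mul, Real.abs_exp,
    abs_of_pos (show 0 < 2 * Real.pi by linarith), div_le_iff₀ (by linarith)]
  have h1 : |2 * a * c ^ 2 - 1| ≤ 5 * Real.exp (a / 2 * c ^ 2) := by
    have h := Real.add_one_le_exp (a / 2 * c ^ 2)
    have h0 : 0 ≤ a / 2 * c ^ 2 := by positivity
    rw [abs_le]
    constructor <;> nlinarith [Real.exp_pos (a / 2 * c ^ 2)]
  calc Real.exp (-(a * (c ^ 2 - 1))) * |2 * a * c ^ 2 - 1|
      ≤ Real.exp (-(a * (c ^ 2 - 1))) * (5 * Real.exp (a / 2 * c ^ 2)) := by gcongr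
    _ = 5 * Real.exp a * Real.exp (-(a / 2 * c ^ 2)) := by
        rw [show -(a * (c ^ 2 - 1)) = a + -(a / 2 * c ^ 2) + -(a / 2 * c ^ 2) by ring,
          Real.exp_add, Real.exp_add, Real.exp_neg]
        field_simp
    _ ≤ _ := le_mul_of_one_le_right (by positivity) hpi

theorem norm_kPoint (a c : ℝ) : ‖kPoint a c‖ = Real.exp (-(a * c ^ 2)) := by
  rw [kPoint, Complex.norm_real, Real.norm_eq_abs, Real.abs_exp]

theorem isDecayKernel_kPoint {a : ℝ} (ha : 0 < a) : H3.IsDecayKernel (kPoint a) :=
  H3.IsDecayKernel.of_exp_bound (continuous_kPoint a) (C := 1) ha fun c hc => by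
    rw [norm_kPoint, one_mul]
    exact Real.exp_le_exp.mpr (by nlinarith [mul_le_mul_of_nonneg_left hc (mul_nonneg ha.le
      (zero_le_one.trans hc))])

theorem isDecayKernel_kPlane {a : ℝ} (ha : 0 < a) : H3.IsDecayKernel (kPlane a) :=
  H3.IsDecayKernel.of_exp_bound (continuous_kPlane a) (C := 5 * Real.exp a) (half_pos ha)
    fun c hc => (norm_kPlane_le ha c).trans (mul_le_mul_of_nonneg_left
      (Real.exp_le_exp.mpr (by nlinarith [mul_le_mul_of_nonneg_left hc (mul_nonneg (half_pos ha).le
        (zero_le_one.trans hc))])) (by positivity))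

/-- The plane transform of `kPlane` is a Gaussian. -/
theorem planeTransform_kPlane {a C : ℝ} (ha : 0 < a) (hC : 0 < C) :
    planeTransform (kPlane a) C = ((Real.exp (-(a * (C ^ 2 - 1))) : ℝ) : ℂ) := by
  set g : ℝ → ℝ := fun u => Real.exp (-(a * ((C * u) ^ 2 - 1))) * (2 * a * (C * u) ^ 2 - 1)
  have hd : ∀ u : ℝ, HasDerivAt (fun u => -u * Real.exp (-(a * ((C * u) ^ 2 - 1)))) (g u) u := by
    intro u
    have h0 : HasDerivAt (fun u => C * u) C u := by simpa using (hasDerivAt_id u).const_mul C
    have h1 : HasDerivAt (fun u => -(a * ((C * u) ^ 2 - 1))) (-(a * (2 * (C * u) * C))) u := by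
      convert! (((h0.pow 2).sub_const 1).const_mul a).neg using 1
      norm_num
    convert! (hasDerivAt_id u).neg.mul h1.exp using 1
    simp only [g, Pi.neg_apply, id_eq]
    ring
  have hint : IntegrableOn g (Ioi 1) := by
    have h := ((integrable_exp_neg_mul_sq (show 0 < a / 2 * C ^ 2 by positivity)).const_mul
      (5 * Real.exp a * (2 * Real.pi)))
    refine (h.mono' (by fun_prop) (Eventually.of_forall fun u => ?_)).integrableOn
    have h2 := norm_kPlane_le ha (C * u)
    rw [kPlane, Complex.norm_real, Real.norm_eq_abs, abs_div,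
      abs_of_pos (show 0 < 2 * Real.pi by positivity), div_le_iff₀ (by positivity)] at h2
    rw [Real.norm_eq_abs]
    refine h2.trans_eq ?_
    rw [show -(a / 2 * C ^ 2) * u ^ 2 = -(a / 2 * (C * u) ^ 2) by ring]
    ring
  have hlim : Tendsto (fun u => -u * Real.exp (-(a * ((C * u) ^ 2 - 1)))) atTop (𝓝 0) := by
    have h := ((Real.tendsto_pow_mul_exp_neg_atTop_nhds_zero 1).comp
      (tendsto_id.const_mul_atTop (show 0 < a * C ^ 2 by positivity))).const_mul
      (-(Real.exp a / (a * C ^ 2)))
    rw [mul_zero] at h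
    refine squeeze_zero_norm' ?_ (by simpa using h.neg)
    filter_upwards [eventually_ge_atTop (1 : ℝ)] with u hu
    simp only [norm_mul, norm_neg, Real.norm_eq_abs,
      Real.abs_exp, abs_of_pos (zero_lt_one.trans_le hu), neg_mul]
    rw [show Real.exp a / (a * C ^ 2) * (a * C ^ 2 * u * Real.exp (-(a * C ^ 2 * u))) =
      u * (Real.exp a * Real.exp (-(a * C ^ 2 * u))) by field_simp, ← Real.exp_add]
    refine mul_le_mul_of_nonneg_left (Real.exp_le_exp.mpr ?_) (zero_le_one.trans hu)
    nlinarith [mul_le_mul_of_nonneg_left hu (show 0 ≤ a * C ^ 2 * u by positivity)]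
  have h := integral_Ioi_of_hasDerivAt_of_tendsto' (fun u _ => hd u) hint hlim
  rw [planeTransform]
  simp only [kPlane]
  rw [integral_complex_ofReal, integral_div]
  change 2 * (Real.pi : ℂ) * (((∫ u in Ioi (1 : ℝ), g u) / (2 * Real.pi) : ℝ) : ℂ) = _
  rw [h, mul_one]
  push_cast
  field_simp
  simp

theorem integrable_cosh_mul_exp_sinh {b : ℝ} (hb : 0 < b) :
    Integrable (fun s : ℝ => Real.cosh s * Real.exp (-b * Real.sinh s ^ 2)) ∧
      ∫ s : ℝ, Real.cosh s * Real.exp (-b * Real.sinh s ^ 2) = Real.sqrt (Real.pi / b) := by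
  have himg : Real.sinh '' univ = univ := by
    rw [image_univ]; exact Real.sinh_surjective.range_eq
  have hd : ∀ x ∈ (univ : Set ℝ), HasDerivWithinAt Real.sinh (Real.cosh x) univ x :=
    fun x _ => (Real.hasDerivAt_sinh x).hasDerivWithinAt
  have hinj : InjOn Real.sinh univ := Real.sinh_injective.injOn
  have h1 := integral_image_eq_integral_abs_deriv_smul MeasurableSet.univ hd hinj
    (fun u => Real.exp (-b * u ^ 2))
  have h2 := integrableOn_image_iff_integrableOn_abs_deriv_smul MeasurableSet.univ hd hinj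
    (fun u => Real.exp (-b * u ^ 2))
  simp only [himg, integrableOn_univ, setIntegral_univ, smul_eq_mul,
    abs_of_pos (Real.cosh_pos _)] at h1 h2
  exact ⟨h2.mp (integrable_exp_neg_mul_sq hb), by rw [← h1, integral_gaussian]⟩

/-- The spherical transform of `kPlane` at the parameter `0`. -/
theorem sphZero_kPlane {a : ℝ} (ha : 0 < a) :
    sphZero (kPlane a) = ((Real.sqrt (Real.pi / a) : ℝ) : ℂ) := by
  rw [sphZero, ← (integrable_cosh_mul_exp_sinh ha).2, ← integral_complex_ofReal]
  refine integral_congr_ae (Eventually.of_forall fun s => ?_)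
  simp only
  rw [abelTransform_eq_plane, planeTransform_kPlane ha (Real.cosh_pos s), ← Complex.ofReal_mul]
  congr 1
  rw [Real.cosh_sq]
  ring_nf

/-- The exponential integral, written with a squared variable. -/
def expInt (a : ℝ) : ℝ := ∫ m in Ioi (1 : ℝ), Real.exp (-(a * m ^ 2)) / m

theorem integrableOn_expInt {a : ℝ} (ha : 0 < a) :
    IntegrableOn (fun m : ℝ => Real.exp (-(a * m ^ 2)) / m) (Ioi 1) := by
  refine (integrable_exp_neg_mul_sq ha).integrableOn.mono'
    (show Measurable fun m : ℝ => Real.exp (-(a * m ^ 2)) / m by fun_prop).aestronglyMeasurable ?_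
  filter_upwards [ae_restrict_mem measurableSet_Ioi] with m (hm : 1 < m)
  rw [Real.norm_eq_abs, abs_div, Real.abs_exp, abs_of_pos (zero_lt_one.trans hm), neg_mul]
  exact div_le_self (Real.exp_pos _).le hm.le

theorem expInt_nonneg (a : ℝ) : 0 ≤ expInt a :=
  setIntegral_nonneg measurableSet_Ioi fun m (hm : 1 < m) =>
    div_nonneg (Real.exp_pos _).le (zero_le_one.trans hm.le)

theorem expInt_ge {a : ℝ} (ha : 0 < a) : Real.exp (-(4 * a)) / 2 ≤ expInt a := by
  calc Real.exp (-(4 * a)) / 2 = ∫ _ in Ioc (1 : ℝ) 2, Real.exp (-(4 * a)) / 2 := by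
        rw [setIntegral_const, Real.volume_real_Ioc]; norm_num
    _ ≤ ∫ m in Ioc (1 : ℝ) 2, Real.exp (-(a * m ^ 2)) / m := by
        refine setIntegral_mono_on ?_ ((integrableOn_expInt ha).mono_set Ioc_subset_Ioi_self)
          measurableSet_Ioc fun m hm => ?_
        · exact integrableOn_const (measure_Ioc_lt_top).ne
        · refine div_le_div₀ (Real.exp_pos _).le (Real.exp_le_exp.mpr ?_)
            (zero_lt_one.trans hm.1) hm.2
          nlinarith [hm.1, hm.2, mul_nonneg ha.le (mul_nonneg (sub_nonneg.mpr hm.2)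
            (show (0 : ℝ) ≤ 2 + m by linarith [hm.1]))]
    _ ≤ _ := setIntegral_mono_set (integrableOn_expInt ha)
        ((ae_restrict_mem measurableSet_Ioi).mono fun m (hm : 1 < m) =>
          div_nonneg (Real.exp_pos _).le (zero_le_one.trans hm.le))
        (LE.le.eventuallyLE Ioc_subset_Ioi_self)

theorem hasDerivAt_expInt {a : ℝ} (ha : 0 < a) :
    HasDerivAt expInt (-(Real.exp (-a) / (2 * a))) a := by
  have hb : 0 < a / 2 := half_pos ha
  have hval : ∫ m in Ioi (1 : ℝ), -(m * Real.exp (-(a * m ^ 2))) = -(Real.exp (-a) / (2 * a)) := by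
    have hd : ∀ m : ℝ, HasDerivAt (fun m => Real.exp (-(a * m ^ 2)) / (2 * a))
        (-(m * Real.exp (-(a * m ^ 2)))) m := fun m => by
      have h1 := ((((hasDerivAt_id m).pow 2).const_mul a).neg.exp).div_const (2 * a)
      simp only [id_eq] at h1
      convert! h1 using 1
      simp
      field_simp
    have hlim : Tendsto (fun m => Real.exp (-(a * m ^ 2)) / (2 * a)) atTop (𝓝 0) := by
      have := (Real.tendsto_exp_neg_atTop_nhds_zero.comp
        ((tendsto_pow_atTop two_ne_zero).const_mul_atTop ha)).div_const (2 * a)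
      simpa [Function.comp_def] using this
    rw [integral_Ioi_of_hasDerivAt_of_tendsto' (fun m _ => hd m) ?_ hlim]
    · rw [one_pow, mul_one, zero_sub]
    · refine ((integrable_mul_exp_neg_mul_sq ha).neg).integrableOn.congr_fun
        (fun m _ => ?_) measurableSet_Ioi
      simp [neg_mul]
  rw [← hval]
  refine (hasDerivAt_integral_of_dominated_loc_of_deriv_le
    (F := fun b m => Real.exp (-(b * m ^ 2)) / m)
    (F' := fun b m => -(m * Real.exp (-(b * m ^ 2))))
    (bound := fun m => |m| * Real.exp (-(a / 2) * m ^ 2))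
    (Metric.ball_mem_nhds a hb) (Eventually.of_forall fun b =>
      (show Measurable fun m : ℝ => Real.exp (-(b * m ^ 2)) / m by fun_prop).aestronglyMeasurable)
    (integrableOn_expInt ha) (by fun_prop) ?_ ?_ ?_).2
  · refine Eventually.of_forall fun m b hbm => ?_
    rw [norm_neg, norm_mul, Real.norm_eq_abs, Real.norm_eq_abs, Real.abs_exp]
    refine mul_le_mul_of_nonneg_left (Real.exp_le_exp.mpr ?_) (abs_nonneg _)
    rw [Metric.mem_ball, Real.dist_eq, abs_lt] at hbm
    nlinarith [sq_nonneg m]
  · refine ((integrable_mul_exp_neg_mul_sq hb).norm.congr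
      (Eventually.of_forall fun m => ?_)).integrableOn
    simp
  · filter_upwards [ae_restrict_mem measurableSet_Ioi] with m (hm : 1 < m) b _
    have h := ((((hasDerivAt_id b).mul_const (m ^ 2)).neg.exp).div_const m)
    simp only [id_eq, one_mul] at h
    convert! h using 1
    simp only [Pi.neg_apply]
    field_simp

/-- The spherical transform of `kPoint` at the parameter `0`. -/
theorem sphZero_kPoint {a : ℝ} (ha : 0 < a) :
    sphZero (kPoint a) = ((2 * Real.pi * Real.sqrt (Real.pi / a) * expInt a : ℝ) : ℂ) := by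
  set G : ℝ → ℝ → ℝ := fun s m => Real.cosh s * Real.exp (-(a * (Real.cosh s * m) ^ 2))
  have e : ∀ s, abelTransform (kPoint a) s =
      ((2 * Real.pi * ∫ m in Ioi (1 : ℝ), G s m : ℝ) : ℂ) := by
    intro s
    rw [abelTransform_eq_plane, planeTransform]
    simp only [kPoint]
    rw [integral_complex_ofReal, integral_const_mul]
    push_cast
    ring
  have hG : ∀ (m s : ℝ), G s m =
      Real.exp (-(a * m ^ 2)) * (Real.cosh s * Real.exp (-(a * m ^ 2) * Real.sinh s ^ 2)) := by
    intro m s
    simp only [G]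
    rw [mul_left_comm, ← Real.exp_add, mul_pow, Real.cosh_sq]
    ring_nf
  have hinner : ∀ m : ℝ, 0 < m → ∫ s : ℝ, G s m =
      Real.sqrt (Real.pi / a) * (Real.exp (-(a * m ^ 2)) / m) := by
    intro m hm
    simp only [hG]
    rw [integral_const_mul, (integrable_cosh_mul_exp_sinh (by positivity)).2,
      ← div_div, Real.sqrt_div' _ (sq_nonneg m), Real.sqrt_sq hm.le]
    ring
  have hint : Integrable (Function.uncurry G) (volume.prod (volume.restrict (Ioi (1 : ℝ)))) := by
    refine (integrable_prod_iff' (by fun_prop)).mpr ⟨?_, ?_⟩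
    · filter_upwards [ae_restrict_mem measurableSet_Ioi] with m (hm : 1 < m)
      simp only [Function.uncurry, hG]
      exact (integrable_cosh_mul_exp_sinh (by positivity)).1.const_mul _
    · refine ((integrableOn_expInt ha).const_mul (Real.sqrt (Real.pi / a))).congr ?_
      filter_upwards [ae_restrict_mem measurableSet_Ioi] with m (hm : 1 < m)
      rw [← hinner m (zero_lt_one.trans hm)]
      refine integral_congr_ae (Eventually.of_forall fun s => ?_)
      simp only [Function.uncurry, G, Real.norm_eq_abs, abs_mul, Real.abs_exp,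
        abs_of_pos (Real.cosh_pos s)]
  rw [sphZero]
  simp only [e]
  rw [integral_complex_ofReal, integral_const_mul, integral_integral_swap hint,
    setIntegral_congr_fun measurableSet_Ioi (fun m (hm : 1 < m) => hinner m (zero_lt_one.trans hm)),
    integral_const_mul, expInt]
  ring_nf

end Fermat.Agent.ResidualThree
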