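import Fermat.Agent.ResidualThree.ThetaLift.Cusp
import Fermat.Agent.ResidualThree.ThetaLift.Kernel

/-!
# Unfolding a kernel along an equivariant family of measures

A radial kernel summed over an invariant family of measures, integrated against an
eigenfunction, is the sum of the integrals of the function against the measures times the
spherical transform.
-/

noncomputable section

open MeasureTheory Filter
open scoped ComplexConjugate ENNReal

namespace Fermat.Agent.ResidualThree

/-- A continuous eigenfunction of all radial test kernels at spectral parameter zero. -/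
structure IsEigenFun (F : H3 → ℂ) : Prop where
  cont : Continuous F
  eigen : ∀ k : ℝ → ℂ, Continuous k → HasCompactSupport k → ∀ p,
    (∫ q, k (H3.coshDist p q) * F q ∂H3.vol) = sphZero k * F p

theorem BianchiDatum.isEigenFun {ρ : (AlgebraicClosure ℚ ≃ₐ[ℚ] AlgebraicClosure ℚ) →*
    GL (Fin 2) (ZMod 3)} {n₀ : ℕ} (d : BianchiDatum ρ n₀) : IsEigenFun d.F :=
  ⟨d.continuous, d.eigen⟩

/-- An eigenfunction reproduces itself against every decaying kernel. -/
theorem IsCuspFun.integral_decay {D : ℕ} [NeZero D] {F : H3 → ℂ} (hC : IsCuspFun D F)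
    (hE : IsEigenFun F) {k : ℝ → ℂ} (hk : H3.IsDecayKernel k) (q : H3) :
    ∫ p, k (H3.coshDist q p) * F p ∂H3.vol = sphZero k * F q := by
  obtain ⟨B, -, hB⟩ := hC.bounded
  exact H3.integral_decayKernel_mul hC.continuous hB q
    (fun k' hk' => hE.eigen k' hk'.cont hk'.compact q) hk

variable {ι : Type*}

/-- The measure on `ι × H3` of a family of measures. -/
def familyMeasure [MeasurableSpace ι] (μ : ι → Measure H3) : Measure (ι × H3) :=
  Measure.sum fun i => (μ i).map (Prod.mk i)

instance [Countable ι] [MeasurableSpace ι] (μ : ι → Measure H3) [∀ i, SFinite (μ i)] :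
    SFinite (familyMeasure μ) := by
  unfold familyMeasure; infer_instance

/-- **Unfolding a kernel along an equivariant family of measures.** -/
theorem hasSum_unfold {D : ℕ} [NeZero D] [Countable ι] [MulAction (principalK D) ι]
    {F : H3 → ℂ} (hC : IsCuspFun D F) (hE : IsEigenFun F)
    (μ : ι → Measure H3) [∀ i, SFinite (μ i)]
    (hμ : ∀ (γ : principalK D) (i : ι), (μ i).map (fun q => γ • q) = μ (γ • i))
    {φ : ι → ℂ} {B : ℝ} (hφB : ∀ i, ‖φ i‖ ≤ B) (hφ : ∀ (γ : principalK D) i, φ (γ • i) = φ i)
    {k : ℝ → ℂ} (hk : H3.IsDecayKernel k)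
    (hfin : ∫⁻ p, weightK D p * ∑' i, ∫⁻ q, ‖k (H3.coshDist p q)‖ₑ ∂μ i ∂H3.vol < ∞) :
    HasSum (fun i => sphZero k * (φ i * ∫ q, ((weightK D q).toReal : ℂ) * F q ∂μ i))
        (∫ p, (∑' i, φ i * ∫ q, k (H3.coshDist p q) ∂μ i) * F p ∂measK D) ∧
      Integrable (fun p => (∑' i, φ i * ∫ q, k (H3.coshDist p q) ∂μ i) * F p) (measK D) := by
  classical
  let : MeasurableSpace ι := ⊤
  have : DiscreteMeasurableSpace ι := ⟨fun _ => trivial⟩
  obtain ⟨BF, hBF0, hBF⟩ := hC.bounded
  set w := weightK D with hwdef
  have hw := isOrbitWeight_weightK D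
  set ν := familyMeasure μ with hν
  have : MeasurableConstSMul (principalK D) (ι × H3) := ⟨fun γ =>
    (Measurable.of_discrete.comp measurable_fst).prodMk
      ((measurable_const_smul γ).comp measurable_snd)⟩
  have : SMulInvariantMeasure (principalK D) (ι × H3) ν := by
    refine ⟨fun γ s hs => ?_⟩
    have hs' : MeasurableSet ((fun x : ι × H3 => γ • x) ⁻¹' s) := measurable_const_smul γ hs
    rw [hν, familyMeasure, Measure.sum_apply _ hs', Measure.sum_apply _ hs,
      ← (MulAction.toPerm γ).tsum_eq (fun i => (μ i).map (Prod.mk i) s)]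
    refine tsum_congr fun i => ?_
    rw [MulAction.toPerm_apply, Measure.map_apply measurable_prodMk_left hs',
      Measure.map_apply measurable_prodMk_left hs, ← hμ γ i,
      Measure.map_apply (measurable_const_smul γ) (measurable_prodMk_left hs)]
    rfl
  have : MeasurableConstSMul (principalK D) ((ι × H3) × H3) := ⟨fun γ =>
    ((measurable_const_smul γ).comp measurable_fst).prodMk
      ((measurable_const_smul γ).comp measurable_snd)⟩
  have : SMulInvariantMeasure (principalK D) ((ι × H3) × H3) (ν.prod H3.vol) := by
    refine ⟨fun γ s hs => ?_⟩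
    exact ((measurePreserving_smul γ ν).prod (measurePreserving_smul γ H3.vol)).measure_preimage
      hs.nullMeasurableSet
  set M := ν.prod H3.vol with hM
  have h1 : IsOrbitWeight (principalK D) (fun x : (ι × H3) × H3 => w x.2) 1 :=
    ⟨hw.measurable.comp measurable_snd, fun x => hw.sum_eq x.2⟩
  have h2 : IsOrbitWeight (principalK D) (fun x : (ι × H3) × H3 => w x.1.2) 1 :=
    ⟨hw.measurable.comp (measurable_snd.comp measurable_fst), fun x => hw.sum_eq x.1.2⟩
  set f : (ι × H3) × H3 → ℂ := fun x => φ x.1.1 * (k (H3.coshDist x.2 x.1.2) * F x.2) with hf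
  have hkm : Measurable fun x : (ι × H3) × H3 => k (H3.coshDist x.2 x.1.2) :=
    ((hk.cont.comp H3.continuous_coshDist).measurable.comp
      (measurable_snd.prodMk (measurable_snd.comp measurable_fst)) :)
  have hfm : Measurable f :=
    ((Measurable.of_discrete (f := φ)).comp (measurable_fst.comp measurable_fst)).mul
      (hkm.mul (hC.continuous.measurable.comp measurable_snd))
  have hinv : ∀ (γ : principalK D) (x : (ι × H3) × H3), f (γ • x) = f x := fun γ x => by
    simp only [hf, Prod.smul_fst, Prod.smul_snd, hφ]
    rw [show H3.coshDist (γ • x.2) (γ • x.1.2) = H3.coshDist x.2 x.1.2 from H3.coshDist_smul _ _ _,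
      show F (γ • x.2) = F x.2 from hC.invariant _ γ.2 _]
  have hi1 : Integrable f (M.withDensity fun x => w x.2) := by
    refine Integrable.mono' (g := fun x => max B 0 * BF * ‖k (H3.coshDist x.2 x.1.2)‖) ?_
      hfm.aestronglyMeasurable (Eventually.of_forall fun x => ?_)
    · refine Integrable.const_mul ⟨hkm.norm.aestronglyMeasurable, ?_⟩ _
      rw [hasFiniteIntegral_iff_enorm, lintegral_withDensity_eq_lintegral_mul _ h1.measurable
        hkm.norm.enorm, hM, lintegral_prod_symm _ (h1.measurable.mul hkm.norm.enorm).aemeasurable]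
      refine lt_of_le_of_lt (le_of_eq (lintegral_congr fun p => ?_)) hfin
      have hq : Measurable fun q : H3 => ‖k (H3.coshDist p q)‖ₑ :=
        (hk.cont.comp (H3.continuous_coshDist_right p)).measurable.enorm
      simp only [Pi.mul_apply, enorm_norm]
      rw [lintegral_const_mul _ (hq.fun_comp measurable_snd), hν, familyMeasure,
        lintegral_sum_measure]
      congr 1
      refine tsum_congr fun i => ?_
      rw [lintegral_map (hq.fun_comp measurable_snd) measurable_prodMk_left]
    · rw [hf, norm_mul, norm_mul, mul_assoc]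
      refine mul_le_mul ((hφB _).trans (le_max_left _ _)) ?_ (by positivity) (le_max_right _ _)
      rw [mul_comm]
      exact mul_le_mul_of_nonneg_right (hBF _) (norm_nonneg _)
  have hi2 : Integrable f (M.withDensity fun x => w x.1.2) :=
    (h1.integrable_iff h2 hfm hinv).mp hi1
  have key := h1.integral_comm h2 hfm hinv hi1 hi2
  simp only [ENNReal.toReal_one, Complex.ofReal_one, one_mul] at key
  have hwlt : ∀ q, w q < ∞ := fun q => lt_of_le_of_lt (weightK_le_one q) ENNReal.one_lt_top
  have hI1 : Integrable (fun x => (w x.2).toReal • f x) M :=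
    (integrable_withDensity_iff_integrable_smul' h1.measurable
      (Eventually.of_forall fun x => hwlt _)).mp hi1
  have hI2 : Integrable (fun x => (w x.1.2).toReal • f x) M :=
    (integrable_withDensity_iff_integrable_smul' h2.measurable
      (Eventually.of_forall fun x => hwlt _)).mp hi2
  rw [integral_withDensity_eq_integral_toReal_smul h1.measurable
      (Eventually.of_forall fun x => hwlt _),
    integral_withDensity_eq_integral_toReal_smul h2.measurable
      (Eventually.of_forall fun x => hwlt _)] at key
  have hR : ∀ a : ι × H3, ∫ p, (w a.2).toReal • f (a, p) ∂H3.vol =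
      sphZero k * (φ a.1 * (((w a.2).toReal : ℂ) * F a.2)) := fun a => by
    simp only [hf, Complex.real_smul, ← mul_assoc]
    simp only [mul_assoc]
    rw [integral_const_mul, integral_const_mul]
    simp only [fun p => H3.coshDist_comm p a.2]
    rw [hC.integral_decay hE hk]
    ring
  have hL : ∀ᵐ p ∂H3.vol, ∫ a, (w p).toReal • f (a, p) ∂ν =
      (w p).toReal • ((∑' i, φ i * ∫ q, k (H3.coshDist p q) ∂μ i) * F p) := by
    filter_upwards [hI1.prod_left_ae] with p hp
    rw [hν, familyMeasure] at hp ⊢
    rw [integral_sum_measure hp, ← tsum_mul_right, ← tsum_const_smul'' _]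
    refine tsum_congr fun i => ?_
    rw [MeasurableEmbedding.integral_map (measurableEmbedding_prodMk_left _)]
    simp only [hf, Complex.real_smul]
    rw [integral_const_mul, integral_const_mul, integral_mul_const]
    ring
  have hA : Integrable (fun p => (∑' i, φ i * ∫ q, k (H3.coshDist p q) ∂μ i) * F p) (measK D) := by
    rw [measK, integrable_withDensity_iff_integrable_smul' hw.measurable
      (Eventually.of_forall hwlt)]
    exact hI1.integral_prod_right.congr hL
  refine ⟨?_, hA⟩
  have hB : Integrable (fun a : ι × H3 => sphZero k * (φ a.1 * (((w a.2).toReal : ℂ) * F a.2))) ν :=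
    hI2.integral_prod_left.congr (Eventually.of_forall hR)
  have heq : ∫ p, (∑' i, φ i * ∫ q, k (H3.coshDist p q) ∂μ i) * F p ∂measK D =
      ∫ a, sphZero k * (φ a.1 * (((w a.2).toReal : ℂ) * F a.2)) ∂ν := by
    rw [measK, integral_withDensity_eq_integral_toReal_smul hw.measurable
      (Eventually.of_forall hwlt), ← integral_congr_ae hL, ← integral_prod_symm _ hI1, key,
      integral_prod _ hI2]
    exact integral_congr_ae (Eventually.of_forall hR)
  rw [heq]
  rw [hν, familyMeasure] at hB ⊢
  convert! hasSum_integral_measure hB using 1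
  funext i
  rw [MeasurableEmbedding.integral_map (measurableEmbedding_prodMk_left _), integral_const_mul,
    ← integral_const_mul (φ i)]

end Fermat.Agent.ResidualThree
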