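import Fermat.Agent.ResidualThree.ThetaLift.FamFun
import Fermat.Agent.ResidualThree.ThetaLift.Unfold

/-!
# The theta lift as a function on the upper half-plane

`thetaLift D F` is the integral of the theta kernel against `F`. It lies in a finite family of
such integrals that is stable under `SL₂(ℤ)`, so at every cusp it has an expansion with holomorphic
and antiholomorphic coefficients, and it transforms under `Γ₀(D)` by the character of conductor
`3`.
-/

noncomputable section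

open MeasureTheory Matrix ModularGroup CongruenceSubgroup
open scoped ComplexConjugate MatrixGroups ModularForm

namespace Fermat.Agent.ResidualThree

open Eis (eChar)

local notation "ℍ'" => UpperHalfPlane

/-- `q ^ ((m + 1) / h)`. -/
def qExp (h : ℝ) (τ : ℂ) (m : ℕ) : ℂ :=
  Complex.exp (2 * Real.pi * Complex.I * τ * ((m + 1 : ℕ) : ℂ) / h)

/-- `q ^ (-(m + 1) / h)` with its incomplete Gamma factor. -/
def qExpNeg (h : ℝ) (τ : ℂ) (m : ℕ) : ℂ :=
  ((expInt (4 * Real.pi * τ.im * (m + 1 : ℕ) / h) : ℝ) : ℂ) *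
    Complex.exp (-(2 * Real.pi * Complex.I * τ * ((m + 1 : ℕ) : ℂ) / h))

/-- An expansion of period `h` with coefficient sequences `a` and `b`. -/
def HasHarmExp (h : ℝ) (f : ℍ' → ℂ) (a b : ℕ → ℂ) : Prop :=
  ∀ τ : ℍ', Summable (fun m => a m * qExp h τ m) ∧ Summable (fun m => b m * qExpNeg h τ m) ∧
    f τ = ∑' m, a m * qExp h τ m + ∑' m, b m * qExpNeg h τ m

theorem HasHarmExp.add {h : ℝ} {f g : ℍ' → ℂ} {a b a' b' : ℕ → ℂ} (hf : HasHarmExp h f a b)
    (hg : HasHarmExp h g a' b') : HasHarmExp h (f + g) (a + a') (b + b') := by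
  intro τ
  obtain ⟨h1, h2, h3⟩ := hf τ
  obtain ⟨k1, k2, k3⟩ := hg τ
  simp only [Pi.add_apply, add_mul]
  exact ⟨h1.add k1, h2.add k2, by rw [h1.tsum_add k1, h2.tsum_add k2, h3, k3]; ring⟩

theorem HasHarmExp.smul {h : ℝ} {f : ℍ' → ℂ} {a b : ℕ → ℂ} (hf : HasHarmExp h f a b) (c : ℂ) :
    HasHarmExp h (c • f) (c • a) (c • b) := by
  intro τ
  obtain ⟨h1, h2, h3⟩ := hf τ
  simp only [Pi.smul_apply, smul_eq_mul, mul_assoc]
  exact ⟨h1.mul_left c, h2.mul_left c, by rw [tsum_mul_left, tsum_mul_left, h3]; ring⟩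

/-- The functions with an expansion of period `h`. -/
def harmExpSubmodule (h : ℝ) : Submodule ℂ (ℍ' → ℂ) where
  carrier := {f | ∃ a b, HasHarmExp h f a b}
  zero_mem' := ⟨0, 0, fun τ => by simp [summable_zero]⟩
  add_mem' := fun ⟨_, _, hf⟩ ⟨_, _, hg⟩ => ⟨_, _, hf.add hg⟩
  smul_mem' := fun c _ ⟨_, _, hf⟩ => ⟨_, _, hf.smul c⟩

variable {N : ℕ} [NeZero N] {F : H3 → ℂ} {φ : HermIdx → ℂ}

/-- A dilated lift has an expansion with holomorphic and antiholomorphic terms. -/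
theorem hasHarmExp_lift (hC : IsCuspFun N F) (hE : IsEigenFun F) (hφ : IsPhase N φ) {h : ℝ}
    (hh : 0 < h) (c : ℂ) :
    HasHarmExp h (fun τ : ℍ' => c * lift N F φ ((τ : ℂ) / (h : ℂ)))
      (fun m => c * liftPlus N F φ (m + 1 : ℕ))
      (fun m => c * liftMinus N F φ (-((m + 1 : ℕ) : ℤ))) := by
  intro τ
  have hτ : 0 < ((τ : ℂ) / (h : ℂ)).im := by
    rw [Complex.div_ofReal_im]; exact div_pos τ.im_pos hh
  have H := (hasSum_lift hC hE hφ hτ).mul_left c
  set t : ℤ → ℂ := fun n => c * liftSeriesTerm N F φ ((τ : ℂ) / (h : ℂ)) n with ht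
  have h0 : t 0 = 0 := by simp [ht, liftSeriesTerm]
  have ep : ∀ m : ℕ, t ((m : ℤ) + 1) = c * liftPlus N F φ (m + 1 : ℕ) * qExp h τ m := by
    intro m
    simp only [ht, liftSeriesTerm, qExp, if_pos (show (0 : ℤ) < (m : ℤ) + 1 by omega)]
    rw [show ((m + 1 : ℕ) : ℤ) = (m : ℤ) + 1 by simp,
      show 2 * (Real.pi : ℂ) * Complex.I * ((τ : ℂ) / (h : ℂ)) * (((m : ℤ) + 1 : ℤ) : ℂ) =
        2 * Real.pi * Complex.I * (τ : ℂ) * ((m + 1 : ℕ) : ℂ) / h by push_cast; ring]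
    ring
  have em : ∀ m : ℕ, t (-((m : ℤ) + 1)) =
      c * liftMinus N F φ (-((m + 1 : ℕ) : ℤ)) * qExpNeg h τ m := by
    intro m
    simp only [ht, liftSeriesTerm, qExpNeg, if_neg (show ¬ (0 : ℤ) < -((m : ℤ) + 1) by omega),
      if_pos (show -((m : ℤ) + 1) < 0 by omega), Complex.div_ofReal_im]
    rw [show ((m + 1 : ℕ) : ℤ) = (m : ℤ) + 1 by simp,
      show 4 * Real.pi * ((τ : ℂ).im / h) * -((-((m : ℤ) + 1) : ℤ) : ℝ) =
        4 * Real.pi * (τ : ℂ).im * ((m + 1 : ℕ) : ℝ) / h by push_cast; ring,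
      show 2 * (Real.pi : ℂ) * Complex.I * ((τ : ℂ) / (h : ℂ)) * ((-((m : ℤ) + 1) : ℤ) : ℂ) =
        -(2 * Real.pi * Complex.I * (τ : ℂ) * ((m + 1 : ℕ) : ℂ) / h) by push_cast; ring]
    ring
  have hp : Summable fun m : ℕ => t ((m : ℤ) + 1) :=
    H.summable.comp_injective (i := fun m : ℕ => (m : ℤ) + 1) (fun a b hab => by simpa using hab)
  have hm : Summable fun m : ℕ => t (-((m : ℤ) + 1)) :=
    H.summable.comp_injective (i := fun m : ℕ => -((m : ℤ) + 1)) (fun a b hab => by simpa using hab)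
  refine ⟨hp.congr ep, hm.congr em, ?_⟩
  rw [← tsum_congr ep, ← tsum_congr em]
  refine H.unique ?_
  have := hp.hasSum.of_add_one_of_neg_add_one (f := t) hm.hasSum
  rwa [h0, add_zero] at this

/-- A member of the family. -/
def famFun (D : ℕ) (F : H3 → ℂ) (I : ThetaIdx) : ℍ' → ℂ := fun τ =>
  ∫ p, rowSum (I.toPar D) τ (gK • p) * F p ∂measK (3 * D ^ 2)

variable {D : ℕ} [NeZero D]

instance : NeZero (3 * D ^ 2) := ⟨mul_ne_zero three_ne_zero (pow_ne_zero 2 (NeZero.ne D))⟩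

theorem integral_rowSum (hC : IsCuspFun (3 * D ^ 2) F) (I : ThetaIdx) {τ : ℂ} (hτ : 0 < τ.im) :
    Integrable (fun p => rowSum (I.toPar D) τ (gK • p) * F p) (measK (3 * D ^ 2)) ∧
      ∫ p, rowSum (I.toPar D) τ (gK • p) * F p ∂measK (3 * D ^ 2) =
        famConst D I * lift (3 * D ^ 2) F (I.phase D) (τ / (3 * (D : ℂ) ^ 2)) := by
  simpa only [rowSumW_one] using integral_rowSumW hC D I (w := 1) (fun d => by simp)
    (I.isPhase_phase D) (fun n => by simp) (fun i hi => by rw [ThetaIdx.phase, if_neg hi]) hτ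

theorem famFun_mem_harmExp (hC : IsCuspFun (3 * D ^ 2) F) (hE : IsEigenFun F) (I : ThetaIdx) :
    famFun D F I ∈ harmExpSubmodule (3 * (D : ℝ) ^ 2) := by
  have hD : (0 : ℝ) < D := Nat.cast_pos.mpr (Nat.pos_of_ne_zero (NeZero.ne D))
  rw [show famFun D F I = fun τ : ℍ' => famConst D I *
      lift (3 * D ^ 2) F (I.phase D) ((τ : ℂ) / ((3 * (D : ℝ) ^ 2 : ℝ) : ℂ)) by
    funext τ
    rw [famFun, (integral_rowSum hC I τ.im_pos).2]
    push_cast
    rfl]
  exact ⟨_, _, hasHarmExp_lift hC hE (I.isPhase_phase D) (by positivity) (famConst D I)⟩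

omit [NeZero D] in
theorem famFun_slash_T (I : ThetaIdx) : (famFun D F I) ∣[(1 : ℤ)] T = famFun D F I.tPar := by
  funext τ
  rw [ModularForm.SL_slash_apply, UpperHalfPlane.modular_T_smul, ModularGroup.denom_apply]
  simp only [famFun, UpperHalfPlane.coe_vadd, Complex.ofReal_one, add_comm (1 : ℂ), rowSum_add_one,
    ThetaIdx.toPar_tPar]
  simp [coe_T]

/-- Inversion maps a member to a combination of three members. -/
theorem famFun_slash_S {k : ℕ} (hk : 0 < k) (hD : D = 3 * k) (hC : IsCuspFun (3 * D ^ 2) F)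
    (I : ThetaIdx) : (famFun D F I) ∣[(1 : ℤ)] S = ∑ j : Fin 3,
      (-Complex.I / (Real.sqrt 3 : ℝ) *
        eChar (-(((j : ℕ) : ℂ) / sqrtNegThree * conj (I.toPar D).b0).re)) •
        famFun D F (I.sPar k j) := by
  funext τ
  have hτ0 : (τ : ℂ) ≠ 0 := τ.ne_zero
  rw [ModularForm.SL_slash_apply, UpperHalfPlane.modular_S_smul, ModularGroup.denom_apply,
    Finset.sum_apply]
  simp only [famFun, Pi.smul_apply, smul_eq_mul]
  rw [show (-(τ : ℂ))⁻¹ = -1 / (τ : ℂ) by field_simp]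
  simp only [rowSum_neg_inv _ τ.im_pos, ← ThetaIdx.toPar_sPar hk hD, mul_assoc, Finset.sum_mul,
    Finset.mul_sum]
  rw [integral_finsetSum _ fun j _ => by
    refine Integrable.congr ((integral_rowSum hC (I.sPar k j) τ.im_pos).1.const_mul
      (-Complex.I * τ / (Real.sqrt 3 : ℝ) *
        eChar (-(((j : ℕ) : ℂ) / sqrtNegThree * conj (I.toPar D).b0).re))) ?_
    exact Filter.Eventually.of_forall fun p => by simp only; ring]
  rw [Finset.sum_mul]
  refine Finset.sum_congr rfl fun j _ => ?_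
  simp only [← mul_assoc]
  simp only [mul_assoc _ (rowSum _ _ _) (F _), integral_const_mul]
  simp [ModularGroup.coe_S]
  field_simp

/-- The span of the family. -/
def famSpan (D : ℕ) (F : H3 → ℂ) : Submodule ℂ (ℍ' → ℂ) :=
  Submodule.span ℂ (Set.range (famFun D F))

/-- The span of the family is stable under `SL₂(ℤ)`. -/
theorem famSpan_slash {k : ℕ} (hk : 0 < k) (hD : D = 3 * k) (hC : IsCuspFun (3 * D ^ 2) F)
    (γ : SL(2, ℤ)) : ∀ f ∈ famSpan D F, f ∣[(1 : ℤ)] γ ∈ famSpan D F := by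
  have hgen : ∀ γ : SL(2, ℤ), (∀ I, (famFun D F I) ∣[(1 : ℤ)] γ ∈ famSpan D F) →
      ∀ f ∈ famSpan D F, f ∣[(1 : ℤ)] γ ∈ famSpan D F := by
    intro γ h f hf
    induction hf using Submodule.span_induction with
    | mem x hx => obtain ⟨I, rfl⟩ := hx; exact h I
    | zero => rw [SlashAction.zero_slash]; exact zero_mem _
    | add x y _ _ hx hy => rw [SlashAction.add_slash]; exact add_mem hx hy
    | smul c x _ hx => rw [ModularForm.SL_smul_slash]; exact Submodule.smul_mem _ c hx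
  have hS := hgen S fun I => by
    rw [famFun_slash_S hk hD hC]
    exact Submodule.sum_mem _ fun j _ => Submodule.smul_mem _ _ (Submodule.subset_span ⟨_, rfl⟩)
  have hT := hgen T fun I => by
    rw [famFun_slash_T]; exact Submodule.subset_span ⟨_, rfl⟩
  have hTi := hgen T⁻¹ fun I => by
    rw [show famFun D F I = (famFun D F I.tInv) ∣[(1 : ℤ)] T by
      rw [famFun_slash_T, ThetaIdx.tPar_tInv], ← SlashAction.slash_mul, mul_inv_cancel,
      SlashAction.slash_one]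
    exact Submodule.subset_span ⟨_, rfl⟩
  have hSi : ∀ f ∈ famSpan D F, f ∣[(1 : ℤ)] S⁻¹ ∈ famSpan D F := by
    intro f hf
    rw [show S⁻¹ = S * S * S by decide, SlashAction.slash_mul, SlashAction.slash_mul]
    exact hS _ (hS _ (hS _ hf))
  have hmem : γ ∈ Subgroup.closure {S, T} := by simp [SpecialLinearGroup.SL2Z_generators]
  induction hmem using Subgroup.closure_induction'' with
  | mem x hx => rcases hx with rfl | rfl; exacts [hS, hT]
  | inv_mem x hx => rcases hx with rfl | rfl; exacts [hSi, hTi]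
  | one => intro f hf; rwa [SlashAction.slash_one]
  | mul x y _ _ hx hy => intro f hf; rw [SlashAction.slash_mul]; exact hy _ (hx f hf)

theorem famSpan_le_harmExp (hC : IsCuspFun (3 * D ^ 2) F) (hE : IsEigenFun F) :
    famSpan D F ≤ harmExpSubmodule (3 * (D : ℝ) ^ 2) :=
  Submodule.span_le.mpr (by rintro _ ⟨I, rfl⟩; exact famFun_mem_harmExp hC hE I)

/-! ### The lift of level `3 n₀` -/

/-- The congruence weight. -/
def dvdWeight (D : ℕ) (d : ℤ) : ℂ := if (D : ℤ) ∣ d then 1 else 0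

theorem rowSumW_dvd (D : ℕ) (τ : ℂ) (p : H3) :
    rowSumW (dvdWeight D) (zeroIdx.toPar 1) τ p =
      rowSumDvd D τ p := by
  rw [rowSumW, rowSumDvd]
  congr 1
  refine tsum_congr fun mk => ?_
  simp [dvdWeight, rowTerm, ThetaIdx.toPar, Eis3.toC_zero, Eis.eChar_zero]

theorem sum_eChar_eq (D : ℕ) [NeZero D] (m : ℤ) :
    ∑ k : Fin D, eChar (-(((k : ℕ) : ℝ) / D * (m : ℝ))) = (D : ℂ) * dvdWeight D m := by
  have hD : (D : ℂ) ≠ 0 := Nat.cast_ne_zero.mpr (NeZero.ne D)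
  set ζ : ℂ := eChar (-((m : ℝ) / D)) with hζ
  have hp : ∀ k : ℕ, eChar (-((k : ℝ) / D * (m : ℝ))) = ζ ^ k := fun k => by
    rw [hζ, Eis.eChar, Eis.eChar, ← Complex.exp_nat_mul]
    congr 1
    push_cast
    ring
  have hζD : ζ ^ D = 1 := by
    rw [← hp, div_self (Nat.cast_ne_zero.mpr (NeZero.ne D)), one_mul, ← Int.cast_neg,
      eChar_int_eq_one]
  simp only [hp]
  rw [Fin.sum_univ_eq_sum_range (fun k => ζ ^ k) D, dvdWeight]
  split_ifs with h
  · obtain ⟨c, hc⟩ := h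
    have hD' : (D : ℝ) ≠ 0 := Nat.cast_ne_zero.mpr (NeZero.ne D)
    have h1 : ζ = 1 := by
      rw [hζ, hc, show -((((D : ℤ) * c : ℤ) : ℝ) / D) = ((-c : ℤ) : ℝ) by push_cast; field_simp,
        eChar_int_eq_one]
    simp [h1]
  · have h1 : ζ ≠ 1 := by
      intro h1
      rw [hζ, Eis.eChar, Complex.exp_eq_one_iff] at h1
      obtain ⟨c, hc⟩ := h1
      have h2 : (((-((m : ℝ) / D)) : ℝ) : ℂ) = (c : ℂ) := by
        refine mul_left_cancel₀ (show (2 * (Real.pi : ℂ) * Complex.I) ≠ 0 by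
          simp [Real.pi_ne_zero]) ?_
        rw [hc]; ring
      push_cast at h2
      have h3 : ((m : ℤ) : ℂ) = (((D : ℤ) * -c : ℤ) : ℂ) := by
        push_cast
        rw [← h2]
        field_simp
      exact h ⟨-c, by exact_mod_cast h3⟩
    rw [geom_sum_eq h1, hζD]
    simp

theorem sum_rowSum_eq (D : ℕ) [NeZero D] {τ : ℂ} (hτ : 0 < τ.im) (p : H3) :
    ∑ k : Fin D, rowSum (ThetaIdx.toPar D ⟨0, (k : ℕ), 0, 0, (0, 0), (0, 0)⟩) τ p =
      (D : ℂ) * rowSumDvd D τ p := by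
  simp only [rowSum]
  rw [← Finset.mul_sum, ← Summable.tsum_finsetSum
    fun k _ => (summable_rowTerm _ hτ p).of_norm, rowSumDvd, mul_left_comm (D : ℂ)]
  congr 1
  rw [← tsum_mul_left]
  refine tsum_congr fun mk => ?_
  have h : ∀ k : Fin D, rowTerm (ThetaIdx.toPar D ⟨0, (k : ℕ), 0, 0, (0, 0), (0, 0)⟩) τ p mk =
      eChar (-(((k : ℕ) : ℝ) / D * (mk.2 : ℝ))) *
        (((rowGauss τ p.y (mk.1 : ℝ) (mk.2 : ℝ) : ℝ) : ℂ) *
          hTheta τ (-(mk.2 : ℂ) * p.z) (-(mk.1 : ℂ) * p.z)) := fun k => by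
    simp [rowTerm, ThetaIdx.toPar, Eis3.toC_zero, Eis.eChar_zero]
    ring
  simp only [h]
  rw [← Finset.sum_mul, sum_eChar_eq, dvdWeight]
  split_ifs <;> simp

/-- The lift. -/
def thetaLift (D : ℕ) (F : H3 → ℂ) : ℍ' → ℂ := fun τ =>
  ∫ p, rowSumDvd D τ (gK • p) * F p ∂measK (3 * D ^ 2)

theorem thetaLift_mem_famSpan (hC : IsCuspFun (3 * D ^ 2) F) : thetaLift D F ∈ famSpan D F := by
  have h : thetaLift D F = (D : ℂ)⁻¹ •
      ∑ k : Fin D, famFun D F ⟨0, (k : ℕ), 0, 0, (0, 0), (0, 0)⟩ := by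
    funext τ
    simp only [thetaLift, Pi.smul_apply, Finset.sum_apply, famFun, smul_eq_mul]
    rw [← integral_finsetSum _ fun k _ => (integral_rowSum hC _ τ.im_pos).1, ← integral_const_mul]
    refine integral_congr_ae (Filter.Eventually.of_forall fun p => ?_)
    simp only
    rw [← Finset.sum_mul, sum_rowSum_eq D τ.im_pos, ← mul_assoc, ← mul_assoc,
      inv_mul_cancel₀ (Nat.cast_ne_zero.mpr (NeZero.ne D)), one_mul]
  rw [h]
  exact Submodule.smul_mem _ _ (Submodule.sum_mem _ fun k _ => Submodule.subset_span ⟨_, rfl⟩)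

omit [NeZero D] in
/-- The lift transforms under `Γ₀(D)` by the character of conductor `3`. -/
theorem thetaLift_slash (h3 : 3 ∣ D) {γ : SL(2, ℤ)} (hγ : γ ∈ Gamma0 D) :
    (thetaLift D F) ∣[(1 : ℤ)] γ = chiC (γ 1 1) • thetaLift D F := by
  funext τ
  have hj := jFac_ne_zero γ τ
  rw [ModularForm.SL_slash_apply, Pi.smul_apply, smul_eq_mul, ModularGroup.denom_apply]
  simp only [thetaLift, rowSumDvd_smul h3 hγ, mul_assoc, integral_const_mul]
  simp only [jFac] at hj ⊢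
  rw [_root_.zpow_neg, zpow_one]
  field_simp

/-- The lift has an expansion at every cusp. -/
theorem thetaLift_slash_mem {k : ℕ} (hk : 0 < k) (hD : D = 3 * k) (hC : IsCuspFun (3 * D ^ 2) F)
    (hE : IsEigenFun F) (γ : SL(2, ℤ)) :
    (thetaLift D F) ∣[(1 : ℤ)] γ ∈ harmExpSubmodule (3 * (D : ℝ) ^ 2) :=
  famSpan_le_harmExp hC hE (famSpan_slash hk hD hC γ _ (thetaLift_mem_famSpan hC))

end Fermat.Agent.ResidualThree
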