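import Fermat.Agent.Eis.Expansion
import Fermat.Agent.ResidualThree.ThetaLift.Family

/-!
# The shadow of a harmonic expansion of weight one

For a function with an expansion in holomorphic and antiholomorphic terms, the `∂̄`
derivative is the conjugate of the series `shadow` up to a factor; hence the shadow is holomorphic,
decays at infinity and commutes with the slash action of `SL₂(ℤ)`.
-/

noncomputable section

open Complex Filter Topology Matrix ModularGroup
open UpperHalfPlane hiding I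
open scoped ComplexConjugate MatrixGroups ModularForm Manifold

namespace Fermat.Agent.ResidualThree

/-- The series with coefficients `a` in positive powers of `q ^ (1/h)`. -/
def posSeries (h : ℝ) (a : ℕ → ℂ) (τ : ℂ) : ℂ := ∑' m, a m * qExp h τ m

/-- The series with coefficients `b` in negative powers. -/
def negSeries (h : ℝ) (b : ℕ → ℂ) (τ : ℂ) : ℂ := ∑' m, b m * qExpNeg h τ m

theorem norm_qExp (h : ℝ) (τ : ℂ) (m : ℕ) :
    ‖qExp h τ m‖ = Real.exp (-(2 * Real.pi * τ.im * (m + 1 : ℕ) / h)) := by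
  rw [qExp, Complex.norm_exp]
  congr 1
  simp [Complex.mul_re, Complex.mul_im, Complex.div_ofReal_re]
  ring

theorem norm_qExpNeg (h : ℝ) (τ : ℂ) (m : ℕ) :
    ‖qExpNeg h τ m‖ = expInt (4 * Real.pi * τ.im * (m + 1 : ℕ) / h) *
      Real.exp (2 * Real.pi * τ.im * (m + 1 : ℕ) / h) := by
  rw [qExpNeg, norm_mul, Complex.norm_real, Real.norm_eq_abs, abs_of_nonneg (expInt_nonneg _),
    Complex.norm_exp]
  congr 2
  simp [Complex.mul_re, Complex.mul_im, Complex.div_ofReal_re]
  ring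

theorem expInt_le {a : ℝ} (ha : 0 < a) : expInt a ≤ Real.exp (-a) / a := by
  rw [show Real.exp (-a) / a = ∫ m in Set.Ioi (1 : ℝ), Real.exp (-a * m) by
    rw [integral_exp_mul_Ioi (neg_neg_of_pos ha), mul_one]; field_simp]
  refine MeasureTheory.setIntegral_mono_on (integrableOn_expInt ha)
    (integrableOn_exp_mul_Ioi (neg_neg_of_pos ha) 1) measurableSet_Ioi fun m (hm : 1 < m) => ?_
  refine (div_le_self (Real.exp_pos _).le hm.le).trans (Real.exp_le_exp.mpr ?_)
  nlinarith [mul_le_mul_of_nonneg_left hm.le (show 0 ≤ a * m by positivity)]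

/-- Coefficients of subexponential growth. -/
def IsSubExp (a : ℕ → ℂ) : Prop :=
  ∀ c : ℝ, 0 < c → Summable fun m => ‖a m‖ * Real.exp (-(c * (m + 1 : ℕ)))

theorem IsSubExp.conj {a : ℕ → ℂ} (ha : IsSubExp a) : IsSubExp fun m => conj (a m) :=
  fun c hc => by simpa only [RCLike.norm_conj] using ha c hc

theorem IsSubExp.summable {a : ℕ → ℂ} (ha : IsSubExp a) {h : ℝ} (hh : 0 < h) {τ : ℂ}
    (hτ : 0 < τ.im) : Summable fun m => a m * qExp h τ m := by
  refine Summable.of_norm ((ha (2 * Real.pi * τ.im / h) (by positivity)).congr fun m => ?_)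
  rw [norm_mul, norm_qExp, div_mul_eq_mul_div]

section

variable {h : ℝ} {f : ℍ → ℂ} {a b : ℕ → ℂ}

theorem HasHarmExp.isSubExp (hh : 0 < h) (hf : HasHarmExp h f a b) : IsSubExp a ∧ IsSubExp b := by
  refine ⟨fun c hc => ?_, fun c hc => ?_⟩
  · have hv : 0 < c * h / (2 * Real.pi) := by positivity
    refine (hf ⟨⟨0, c * h / (2 * Real.pi)⟩, hv⟩).1.norm.congr fun m => ?_
    rw [norm_mul, norm_qExp]
    congr 2
    simp
    field_simp
  · have hv : 0 < c * h / (14 * Real.pi) := by positivity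
    set τ : ℍ := ⟨⟨0, c * h / (14 * Real.pi)⟩, hv⟩
    refine Summable.of_nonneg_of_le (fun m => by positivity) (fun m => ?_)
      ((hf τ).2.1.norm.mul_left 2)
    rw [norm_mul, norm_qExpNeg]
    set x : ℝ := 4 * Real.pi * (τ : ℂ).im * (m + 1 : ℕ) / h
    have hx : 0 < x := by
      have : 0 < (τ : ℂ).im := τ.im_pos
      positivity
    calc ‖b m‖ * Real.exp (-(c * (m + 1 : ℕ)))
        = ‖b m‖ * (2 * (Real.exp (-(4 * x)) / 2 * Real.exp (x / 2))) := by
          rw [show 2 * (Real.exp (-(4 * x)) / 2 * Real.exp (x / 2)) =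
            Real.exp (-(4 * x)) * Real.exp (x / 2) by ring, ← Real.exp_add]
          congr 2
          simp [x, τ]
          field_simp
          ring
      _ ≤ ‖b m‖ * (2 * (expInt x * Real.exp (x / 2))) := by gcongr; exact expInt_ge hx
      _ = _ := by
          rw [show x / 2 = 2 * Real.pi * (τ : ℂ).im * (m + 1 : ℕ) / h by simp only [x]; ring]
          ring

theorem hasSum_posSeries (hh : 0 < h) (ha : IsSubExp a) (τ : ℍ) :
    HasSum (fun m => (if m = 0 then 0 else a (m - 1)) * Function.Periodic.qParam h τ ^ m)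
      (posSeries h a τ) := by
  refine (hasSum_nat_add_iff' 1).mp ?_
  simp only [Finset.sum_range_one, if_pos, zero_mul, sub_zero, Nat.succ_ne_zero, if_neg,
    Nat.add_sub_cancel, not_false_eq_true]
  refine (ha.summable hh τ.im_pos).hasSum.congr_fun fun m => ?_
  rw [qExp, Function.Periodic.qParam, ← Complex.exp_nat_mul]
  congr 2
  push_cast
  ring

theorem mdiff_posSeries (hh : 0 < h) (ha : IsSubExp a) : MDiff fun τ : ℍ => posSeries h a τ :=
  Eis.mdifferentiable_of_hasSum hh (hasSum_posSeries hh ha)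

theorem norm_posSeries_le (hh : 0 < h) (ha : IsSubExp a) {v₀ : ℝ} (hv₀ : 0 < v₀) (τ : ℍ)
    (hτ : v₀ ≤ τ.im) : ‖posSeries h a τ‖ ≤ Real.exp (-(2 * Real.pi * (τ.im - v₀) / h)) *
      ∑' m, ‖a m‖ * Real.exp (-(2 * Real.pi * v₀ / h * (m + 1 : ℕ))) := by
  have hs := ha (2 * Real.pi * v₀ / h) (by positivity)
  refine tsum_of_norm_bounded (hs.hasSum.mul_left _) fun m => ?_
  rw [norm_mul, norm_qExp, mul_left_comm, ← Real.exp_add]
  refine mul_le_mul_of_nonneg_left (Real.exp_le_exp.mpr ?_) (norm_nonneg _)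
  rw [UpperHalfPlane.coe_im]
  have h1 : (1 : ℝ) ≤ (m + 1 : ℕ) := by simp
  rw [div_mul_eq_mul_div, ← neg_add, neg_le_neg_iff, ← add_div]
  gcongr
  nlinarith [mul_nonneg (mul_nonneg Real.pi_pos.le (sub_nonneg.mpr hτ)) (sub_nonneg.mpr h1)]

theorem isZeroAtImInfty_posSeries (hh : 0 < h) (ha : IsSubExp a) :
    IsZeroAtImInfty fun τ : ℍ => posSeries h a τ := by
  refine Metric.tendsto_nhds.mpr fun ε hε => ?_
  set C := ∑' m, ‖a m‖ * Real.exp (-(2 * Real.pi * 1 / h * (m + 1 : ℕ)))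
  have hC : 0 ≤ C := tsum_nonneg fun m => by positivity
  have ht : Tendsto (fun y : ℝ => Real.exp (-(2 * Real.pi * (y - 1) / h)) * C) atTop (𝓝 0) := by
    have h1 : Tendsto (fun y : ℝ => 2 * Real.pi * (y - 1) / h) atTop atTop :=
      ((tendsto_atTop_add_const_right _ (-1) tendsto_id).const_mul_atTop
        (by positivity : (0 : ℝ) < 2 * Real.pi)).atTop_div_const hh
    simpa using (Real.tendsto_exp_neg_atTop_nhds_zero.comp h1).mul_const C
  obtain ⟨A, hA⟩ := eventually_atTop.mp (ht.eventually (gt_mem_nhds hε))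
  rw [UpperHalfPlane.atImInfty, Filter.eventually_comap, eventually_atTop]
  refine ⟨max A 1, fun y hy τ hτy => ?_⟩
  subst hτy
  rw [dist_zero_right]
  exact (norm_posSeries_le hh ha one_pos τ (le_of_max_le_right hy)).trans_lt
    (hA _ (le_of_max_le_left hy))

/-- The coefficients of a series are unique. -/
theorem posSeries_eq_zero (hh : 0 < h) (ha : IsSubExp a) (h0 : ∀ τ : ℍ, posSeries h a τ = 0) :
    a = 0 := by
  funext m
  have hq := Eis.qExpansion_eq_of_hasSum hh
    (PowerSeries.mk fun n => if n = 0 then 0 else a (n - 1))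
    (f := fun τ : ℍ => posSeries h a τ) (fun τ => by simpa using hasSum_posSeries hh ha τ)
  have h0' : (fun τ : ℍ => posSeries h a τ) = 0 := funext h0
  rw [h0', qExpansion_zero] at hq
  have hm := congrArg (PowerSeries.coeff (m + 1)) hq
  simpa using hm.symm

/-! ### The derivative -/

/-- The antiholomorphic part of a real linear map. -/
def dbarPart (L : ℂ →L[ℝ] ℂ) : ℂ := (L 1 + I * L I) / 2

theorem clm_apply_eq_re_im (L : ℂ →L[ℝ] ℂ) (w : ℂ) : L w = w.re • L 1 + w.im • L I := by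
  conv_lhs => rw [← Complex.re_add_im w]
  rw [show ((w.re : ℂ) + (w.im : ℂ) * I) = w.re • (1 : ℂ) + w.im • I by simp, map_add, map_smul,
    map_smul]

theorem dbarPart_comp_mul (L : ℂ →L[ℝ] ℂ) (c : ℂ) :
    dbarPart (L.comp (c • (1 : ℂ →L[ℝ] ℂ))) = conj c * dbarPart L := by
  simp only [dbarPart, ContinuousLinearMap.comp_apply, _root_.smul_apply,
    one_apply_eq_self, smul_eq_mul, mul_one]
  rw [clm_apply_eq_re_im L c, clm_apply_eq_re_im L (c * I)]
  simp only [Complex.real_smul, Complex.mul_re, Complex.mul_im, Complex.I_re, Complex.I_im]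
  apply Complex.ext <;> simp <;> ring

theorem dbarPart_hol (c : ℂ) : dbarPart (c • (1 : ℂ →L[ℝ] ℂ)) = 0 := by
  simp [dbarPart]
  linear_combination c * I_sq

theorem dbarPart_add (L L' : ℂ →L[ℝ] ℂ) : dbarPart (L + L') = dbarPart L + dbarPart L' := by
  simp [dbarPart]; ring

theorem dbarPart_smul (c : ℂ) (L : ℂ →L[ℝ] ℂ) : dbarPart (c • L) = c * dbarPart L := by
  simp [dbarPart]; ring

/-- The derivative of a negative term. -/
def negTermDeriv (h : ℝ) (z : ℂ) (m : ℕ) : ℂ →L[ℝ] ℂ :=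
  ((expInt (4 * Real.pi * z.im * (m + 1 : ℕ) / h) : ℝ) : ℂ) •
      ((Complex.exp (-(2 * Real.pi * I * z * ((m + 1 : ℕ) : ℂ) / h)) *
        (-(2 * Real.pi * I * ((m + 1 : ℕ) : ℂ) / h))) • (1 : ℂ →L[ℝ] ℂ)) +
    Complex.exp (-(2 * Real.pi * I * z * ((m + 1 : ℕ) : ℂ) / h)) •
      (Complex.ofRealCLM.comp
        ((-(Real.exp (-(4 * Real.pi * z.im * (m + 1 : ℕ) / h)) / (2 * z.im))) • Complex.imCLM))

theorem hasFDerivAt_qExpNeg (hh : 0 < h) {z : ℂ} (hz : 0 < z.im) (m : ℕ) :
    HasFDerivAt (fun w => qExpNeg h w m) (negTermDeriv h z m) z := by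
  set k : ℝ := 4 * Real.pi * (m + 1 : ℕ) / h with hk
  have hk0 : 0 < k := by positivity
  have e : ∀ y : ℝ, 4 * Real.pi * y * (m + 1 : ℕ) / h = k * y := fun y => by rw [hk]; ring
  have h1 : HasFDerivAt (fun w : ℂ => ((expInt (k * w.im) : ℝ) : ℂ))
      (Complex.ofRealCLM.comp ((-(Real.exp (-(k * z.im)) / (2 * z.im))) • Complex.imCLM)) z := by
    have hg : HasDerivAt (fun y : ℝ => expInt (k * y)) (-(Real.exp (-(k * z.im)) / (2 * z.im)))
        z.im := by
      convert! (hasDerivAt_expInt (mul_pos hk0 hz)).comp z.im ((hasDerivAt_id z.im).const_mul k)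
        using 1
      simp only [mul_one]
      field_simp
    exact Complex.ofRealCLM.hasFDerivAt.comp z
      (hg.comp_hasFDerivAt z Complex.imCLM.hasFDerivAt)
  set c : ℂ := -(2 * Real.pi * I * ((m + 1 : ℕ) : ℂ) / h) with hc
  have h2 : HasFDerivAt (fun w : ℂ => Complex.exp (-(2 * Real.pi * I * w * ((m + 1 : ℕ) : ℂ) / h)))
      ((Complex.exp (-(2 * Real.pi * I * z * ((m + 1 : ℕ) : ℂ) / h)) * c) • (1 : ℂ →L[ℝ] ℂ)) z := by
    have hh' : (fun w : ℂ => Complex.exp (-(2 * Real.pi * I * w * ((m + 1 : ℕ) : ℂ) / h))) =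
        fun w => Complex.exp (c * w) := funext fun w => by rw [hc]; congr 1; ring
    rw [hh', show -(2 * Real.pi * I * z * ((m + 1 : ℕ) : ℂ) / h) = c * z by rw [hc]; ring]
    exact ((hasDerivAt_id z).const_mul c).cexp.complexToReal_fderiv.congr_fderiv (by simp)
  have h3 := h1.fun_mul h2
  simp only [qExpNeg, negTermDeriv, e]
  exact h3

theorem dbarPart_negTermDeriv (h : ℝ) (z : ℂ) (m : ℕ) :
    dbarPart (negTermDeriv h z m) = -I / (4 * (z.im : ℂ)) * conj (qExp h z m) := by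
  rw [negTermDeriv, dbarPart_add, dbarPart_smul, dbarPart_hol, mul_zero, zero_add, dbarPart_smul,
    dbarPart, qExp, ← Complex.exp_conj]
  simp only [ContinuousLinearMap.comp_apply, _root_.smul_apply, Complex.imCLM_apply,
    Complex.ofRealCLM_apply, Complex.one_im, Complex.I_im, smul_eq_mul, mul_one, mul_zero,
    Complex.ofReal_zero, zero_add, Complex.ofReal_neg, Complex.ofReal_div, Complex.ofReal_mul,
    Complex.ofReal_exp]
  have e : Complex.exp (conj (2 * (Real.pi : ℂ) * I * z * ((m + 1 : ℕ) : ℂ) / h)) =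
      Complex.exp (-(2 * Real.pi * I * z * ((m + 1 : ℕ) : ℂ) / h)) *
        Complex.exp (-(4 * (Real.pi : ℂ) * (z.im : ℂ) * ((m + 1 : ℕ) : ℂ) / h)) := by
    rw [← Complex.exp_add]
    congr 1
    apply Complex.ext <;>
      simp [Complex.div_ofReal_re, Complex.div_ofReal_im, Complex.mul_re, Complex.mul_im] <;> ring
  rw [e]
  push_cast
  ring

theorem norm_negTermDeriv_le (hh : 0 < h) {v₀ : ℝ} (hv₀ : 0 < v₀) {z : ℂ} (hz : v₀ < z.im)
    (m : ℕ) : ‖negTermDeriv h z m‖ ≤ Real.exp (-(2 * Real.pi * v₀ / h * (m + 1 : ℕ))) / v₀ := by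
  have hv : 0 < z.im := hv₀.trans hz
  set x := 4 * Real.pi * z.im * (m + 1 : ℕ) / h with hx
  have hx0 : 0 < x := by positivity
  set E := Complex.exp (-(2 * Real.pi * I * z * ((m + 1 : ℕ) : ℂ) / h)) with hE
  have hEn : ‖E‖ = Real.exp (x / 2) := by
    rw [hE, Complex.norm_exp]
    congr 1
    simp [hx, Complex.mul_re, Complex.mul_im, Complex.div_ofReal_re]
    ring
  have hb : ∀ w : ℂ, ‖negTermDeriv h z m w‖ ≤ Real.exp (-(x / 2)) / z.im * ‖w‖ := by
    intro w
    simp only [negTermDeriv, ← hx, ← hE, _root_.add_apply,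
      _root_.smul_apply, ContinuousLinearMap.comp_apply, one_apply_eq_self,
      Complex.imCLM_apply, Complex.ofRealCLM_apply, smul_eq_mul]
    refine (norm_add_le _ _).trans ?_
    simp only [norm_mul, norm_neg, norm_div, Complex.norm_real, Real.norm_eq_abs, Complex.norm_I,
      Complex.norm_natCast, Complex.norm_ofNat, hEn, Real.abs_exp,
      abs_of_pos hv, abs_two, abs_of_pos hh, abs_of_pos Real.pi_pos,
      abs_of_nonneg (expInt_nonneg x)]
    have e1 : Real.exp (x / 2) * Real.exp (-x) = Real.exp (-(x / 2)) := by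
      rw [← Real.exp_add]; ring_nf
    have b1 : expInt x * (Real.exp (x / 2) * (2 * Real.pi * 1 * (m + 1 : ℕ) / h) * ‖w‖) ≤
        Real.exp (-(x / 2)) / (2 * z.im) * ‖w‖ := by
      refine (mul_le_mul_of_nonneg_right (expInt_le hx0) (by positivity)).trans_eq ?_
      rw [← e1, hx]
      field_simp
      ring
    have b2 : Real.exp (x / 2) * (Real.exp (-x) / (2 * z.im) * |w.im|) ≤
        Real.exp (-(x / 2)) / (2 * z.im) * ‖w‖ := by
      rw [← mul_assoc, mul_div_assoc', e1]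
      exact mul_le_mul_of_nonneg_left (Complex.abs_im_le_norm w) (by positivity)
    refine (add_le_add b1 b2).trans_eq ?_
    field_simp
    ring
  refine (ContinuousLinearMap.opNorm_le_bound _ (by positivity) hb).trans
    (div_le_div₀ (Real.exp_pos _).le (Real.exp_le_exp.mpr ?_) hv₀ hz.le)
  rw [hx, neg_le_neg_iff, div_right_comm, div_mul_eq_mul_div]
  refine (div_le_div_of_nonneg_right ?_ hh.le)
  nlinarith [mul_le_mul_of_nonneg_left hz.le (show 0 ≤ Real.pi * (m + 1 : ℕ) by positivity)]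

/-- The `∂̄` derivative of the antiholomorphic part. -/
theorem exists_hasFDerivAt_negSeries (hh : 0 < h) (hb : IsSubExp b)
    (hs : ∀ τ : ℍ, Summable fun m => b m * qExpNeg h τ m) (τ : ℍ) :
    ∃ L : ℂ →L[ℝ] ℂ, HasFDerivAt (negSeries h b) L τ ∧
      dbarPart L = -I / (4 * (τ.im : ℂ)) * conj (posSeries h (fun m => conj (b m)) τ) := by
  set v₀ : ℝ := τ.im / 2
  have hv₀ : 0 < v₀ := half_pos τ.im_pos
  set u : ℕ → ℝ := fun m => ‖b m‖ * Real.exp (-(2 * Real.pi * v₀ / h * (m + 1 : ℕ))) / v₀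
  have hu : Summable u := (hb _ (by positivity)).div_const v₀
  set L : ℕ → ℂ →L[ℝ] ℂ := fun m => b m • negTermDeriv h τ m with hL
  have hLb : ∀ (m : ℕ) (z : ℂ), z ∈ {z : ℂ | v₀ < z.im} → ‖b m • negTermDeriv h z m‖ ≤ u m :=
    fun m z hz => by
      refine (norm_smul _ _).trans_le ?_
      rw [show u m = ‖b m‖ * (Real.exp (-(2 * Real.pi * v₀ / h * (m + 1 : ℕ))) / v₀) from
        mul_div_assoc _ _ _]
      exact mul_le_mul_of_nonneg_left (norm_negTermDeriv_le hh hv₀ hz m) (norm_nonneg _)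
  have hτs : (τ : ℂ) ∈ {z : ℂ | v₀ < z.im} := half_lt_self τ.im_pos
  refine ⟨∑' m, L m, ?_, ?_⟩
  · exact hasFDerivAt_tsum_of_isPreconnected hu (isOpen_lt continuous_const Complex.continuous_im)
      (convex_halfSpace_im_gt v₀).isPreconnected
      (fun m z hz => ((hasFDerivAt_qExpNeg hh (hv₀.trans hz) m).const_smul (b m) :))
      hLb hτs (hs τ) hτs
  · have hLs : Summable L := Summable.of_norm_bounded hu fun m => hLb m _ hτs
    have h1 := (ContinuousLinearMap.apply ℝ ℂ (1 : ℂ)).map_tsum hLs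
    have hI := (ContinuousLinearMap.apply ℝ ℂ I).map_tsum hLs
    simp only [ContinuousLinearMap.apply_apply] at h1 hI
    have s1 := (ContinuousLinearMap.apply ℝ ℂ (1 : ℂ)).summable hLs
    have sI := (ContinuousLinearMap.apply ℝ ℂ I).summable hLs
    simp only [ContinuousLinearMap.apply_apply] at s1 sI
    rw [dbarPart, h1, hI, ← tsum_mul_left, ← s1.tsum_add (sI.mul_left I), ← tsum_div_const,
      posSeries, Complex.conj_tsum, ← tsum_mul_left]
    refine tsum_congr fun m => ?_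
    show dbarPart (b m • negTermDeriv h τ m) = _
    rw [dbarPart_smul, dbarPart_negTermDeriv, map_mul, Complex.conj_conj, UpperHalfPlane.coe_im]
    ring

/-- The shadow. -/
def shadow (h : ℝ) (b : ℕ → ℂ) : ℍ → ℂ := fun τ => posSeries h (fun m => conj (b m)) τ

theorem HasHarmExp.eq_series (hf : HasHarmExp h f a b) (τ : ℍ) :
    f τ = posSeries h a τ + negSeries h b τ := (hf τ).2.2

/-- The `∂̄` derivative of a harmonic expansion is given by its shadow. -/
theorem HasHarmExp.exists_hasFDerivAt (hh : 0 < h) (hf : HasHarmExp h f a b) (τ : ℍ) :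
    ∃ L : ℂ →L[ℝ] ℂ, HasFDerivAt (f ∘ ofComplex) L τ ∧
      dbarPart L = -I / (4 * (τ.im : ℂ)) * conj (shadow h b τ) := by
  obtain ⟨ha, hb⟩ := hf.isSubExp hh
  obtain ⟨L, hL, hLd⟩ := exists_hasFDerivAt_negSeries hh hb (fun σ => (hf σ).2.1) τ
  have hp : DifferentiableAt ℂ ((fun σ : ℍ => posSeries h a σ) ∘ ofComplex) τ :=
    (UpperHalfPlane.mdifferentiable_iff.mp (mdiff_posSeries hh ha)).differentiableAt
      ((isOpen_lt continuous_const Complex.continuous_im).mem_nhds τ.im_pos)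
  refine ⟨deriv ((fun σ : ℍ => posSeries h a σ) ∘ ofComplex) τ • (1 : ℂ →L[ℝ] ℂ) + L, ?_, ?_⟩
  · refine (hp.hasDerivAt.complexToReal_fderiv.fun_add hL).congr_of_eventuallyEq ?_
    filter_upwards [(isOpen_lt continuous_const Complex.continuous_im).mem_nhds τ.im_pos]
      with z (hz : 0 < z.im)
    rw [Function.comp_apply, Function.comp_apply, ofComplex_apply_of_im_pos hz]
    exact hf.eq_series ⟨z, hz⟩
  · rw [dbarPart_add, dbarPart_hol, zero_add, hLd]
    rfl

/-- The shadow commutes with the action of the modular group. -/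
theorem shadow_slash {h' : ℝ} {a' b' : ℕ → ℂ} (hh : 0 < h) (hh' : 0 < h')
    (hf : HasHarmExp h f a b) (γ : SL(2, ℤ)) (hg : HasHarmExp h' (f ∣[(1 : ℤ)] γ) a' b') :
    shadow h b ∣[(1 : ℤ)] γ = shadow h' b' := by
  funext τ
  set j : ℂ := jFac γ τ with hj
  have hj0 : j ≠ 0 := jFac_ne_zero γ τ
  obtain ⟨L, hL, hLd⟩ := hf.exists_hasFDerivAt hh (γ • τ)
  obtain ⟨L', hL', hLd'⟩ := hg.exists_hasFDerivAt hh' τ
  have hinv : HasDerivAt (fun z => (jFac γ z)⁻¹) (-(γ 1 0 : ℂ) / j ^ 2) (τ : ℂ) := by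
    have h1 : HasDerivAt (fun z => jFac γ z) (γ 1 0 : ℂ) (τ : ℂ) := by
      simpa [jFac] using ((hasDerivAt_id (τ : ℂ)).const_mul (γ 1 0 : ℂ)).add_const (γ 1 1 : ℂ)
    exact h1.fun_inv hj0
  have hM : HasDerivAt (fun z => ((γ 0 0 : ℂ) * z + (γ 0 1 : ℂ)) / jFac γ z)
      (1 / j ^ 2) (τ : ℂ) := by
    have h1 : HasDerivAt (fun z => jFac γ z) (γ 1 0 : ℂ) (τ : ℂ) := by
      simpa [jFac] using ((hasDerivAt_id (τ : ℂ)).const_mul (γ 1 0 : ℂ)).add_const (γ 1 1 : ℂ)
    have h2 : HasDerivAt (fun z => (γ 0 0 : ℂ) * z + (γ 0 1 : ℂ)) (γ 0 0 : ℂ) (τ : ℂ) := by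
      simpa using ((hasDerivAt_id (τ : ℂ)).const_mul (γ 0 0 : ℂ)).add_const (γ 0 1 : ℂ)
    convert! h2.fun_div h1 hj0 using 1
    have hdet : (γ 0 0 : ℂ) * (γ 1 1 : ℂ) - (γ 0 1 : ℂ) * (γ 1 0 : ℂ) = 1 := by
      exact_mod_cast (Matrix.det_fin_two (γ : Matrix (Fin 2) (Fin 2) ℤ)).symm.trans γ.det_coe
    simp only [hj, jFac]
    congr 1
    linear_combination -hdet
  have hcomp : HasFDerivAt
      (fun z => (f ∘ ofComplex) (((γ 0 0 : ℂ) * z + (γ 0 1 : ℂ)) / jFac γ z) * (jFac γ z)⁻¹)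
      (f (γ • τ) • ((-(γ 1 0 : ℂ) / j ^ 2) • (1 : ℂ →L[ℝ] ℂ)) +
        j⁻¹ • L.comp ((1 / j ^ 2) • (1 : ℂ →L[ℝ] ℂ))) (τ : ℂ) := by
    have hL0 : HasFDerivAt (f ∘ ofComplex) L
        (((γ 0 0 : ℂ) * (τ : ℂ) + (γ 0 1 : ℂ)) / jFac γ τ) := by
      rw [← coe_smul_eq]; exact hL
    have h3 := (hL0.comp (τ : ℂ) hM.complexToReal_fderiv).fun_mul hinv.complexToReal_fderiv
    simp only [Function.comp_apply] at h3
    rw [← coe_smul_eq, ofComplex_apply] at h3
    exact h3
  have huniq := hL'.unique (hcomp.congr_of_eventuallyEq (by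
    filter_upwards [(isOpen_lt continuous_const Complex.continuous_im).mem_nhds τ.im_pos]
      with z (hz : 0 < z.im)
    simp only [Function.comp_apply, ofComplex_apply_of_im_pos hz]
    rw [ModularForm.SL_slash_apply, ModularGroup.denom_apply, _root_.zpow_neg, zpow_one,
      ← coe_smul_eq γ ⟨z, hz⟩, ofComplex_apply]
    rfl))
  rw [huniq, dbarPart_add, dbarPart_smul, dbarPart_hol, mul_zero, zero_add, dbarPart_smul,
    dbarPart_comp_mul, hLd] at hLd'
  rw [ModularForm.SL_slash_apply, ModularGroup.denom_apply, _root_.zpow_neg, zpow_one]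
  change _ * (jFac γ τ)⁻¹ = _
  rw [← hj]
  have him : ((γ • τ).im : ℂ) = (τ.im : ℂ) / (j * conj j) := by
    rw [Complex.mul_conj, ModularGroup.im_smul_eq_div_normSq, ModularGroup.denom_apply, hj]
    push_cast
    rfl
  have hv : (τ.im : ℂ) ≠ 0 := Complex.ofReal_ne_zero.mpr τ.im_pos.ne'
  have hjc : conj j ≠ 0 := by simpa using hj0
  rw [him, map_div₀, map_one, map_pow] at hLd'
  have key : conj (shadow h b (γ • τ)) = conj (shadow h' b' τ) * conj j := by
    field_simp at hLd'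
    linear_combination -hLd'
  rw [← div_eq_mul_inv, div_eq_iff hj0]
  simpa using congrArg conj key

end

end Fermat.Agent.ResidualThree
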