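import Fermat.Agent.ResidualThree.ThetaLift.ShellZero

/-!
# The lift and its Fourier expansion

The lift of a cusp eigenfunction against a phase on lattice forms is the sum of its shell
integrals: plane periods at positive index, point values with an exponential integral at negative
index, nothing at index zero.
-/

noncomputable section

open MeasureTheory Set Filter
open scoped ComplexConjugate ENNReal Topology

namespace Fermat.Agent.ResidualThree

/-- The term of the theta kernel. -/
def liftTerm (φ : HermIdx → ℂ) (τ : ℂ) (p : H3) (i : HermIdx) : ℂ :=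
  φ i * Complex.exp (2 * Real.pi * Complex.I * τ * (HermIdx.q i : ℂ)) *
    ((Real.exp (-(Real.pi * τ.im * HermIdx.T i p ^ 2)) : ℝ) : ℂ)

/-- The theta kernel, without the factor `√v`. -/
def thetaSum (φ : HermIdx → ℂ) (τ : ℂ) (p : H3) : ℂ := ∑' i, liftTerm φ τ p i

/-- The lift. -/
def lift (D : ℕ) (F : H3 → ℂ) (φ : HermIdx → ℂ) (τ : ℂ) : ℂ :=
  ((Real.sqrt τ.im : ℝ) : ℂ) * ∫ p, thetaSum φ τ p * F p ∂measK D

/-- The coefficient of a positive index. -/
def liftPlus (D : ℕ) (F : H3 → ℂ) (φ : HermIdx → ℂ) (n : ℤ) : ℂ :=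
  planePeriod D F φ n / ((2 * Real.sqrt n : ℝ) : ℂ)

/-- The coefficient of a negative index. -/
def liftMinus (D : ℕ) (F : H3 → ℂ) (φ : HermIdx → ℂ) (n : ℤ) : ℂ :=
  ((Real.pi / Real.sqrt (-n) : ℝ) : ℂ) * pointPeriod D F φ n

/-- The expansion term of index `n`. -/
def liftSeriesTerm (D : ℕ) (F : H3 → ℂ) (φ : HermIdx → ℂ) (τ : ℂ) (n : ℤ) : ℂ :=
  (if 0 < n then liftPlus D F φ n
    else if n < 0 then liftMinus D F φ n * ((expInt (4 * Real.pi * τ.im * -n) : ℝ) : ℂ)
    else 0) * Complex.exp (2 * Real.pi * Complex.I * τ * (n : ℂ))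

theorem norm_liftTerm_eq (φ : HermIdx → ℂ) (τ : ℂ) (p : H3) (i : HermIdx) :
    ‖liftTerm φ τ p i‖ =
      ‖φ i‖ * Real.exp (-(2 * Real.pi * τ.im * (HermIdx.vec i).majorant p)) := by
  rw [liftTerm, norm_mul, norm_mul, Complex.norm_real, Real.norm_eq_abs, Real.abs_exp,
    Complex.norm_exp, mul_assoc, ← Real.exp_add, HermVec.majorant, HermIdx.vec_Q, HermIdx.T]
  congr 2
  simp [Complex.mul_re, Complex.mul_im]
  ring

theorem summable_majorant_exp {c : ℝ} (hc : 0 < c) (p : H3) :
    Summable (fun i : HermIdx => Real.exp (-(c * (HermIdx.vec i).majorant p))) ∧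
      ∑' i : HermIdx, Real.exp (-(c * (HermIdx.vec i).majorant p)) = (majorantSum c p).toReal := by
  have hs : Summable fun i : HermIdx => Real.exp (-(c * (HermIdx.vec i).majorant p)) :=
    (ENNReal.summable_toReal (majorantSum_lt_top hc p).ne).congr
      fun i => ENNReal.toReal_ofReal (Real.exp_pos _).le
  refine ⟨hs, ?_⟩
  rw [majorantSum, ← ENNReal.ofReal_tsum_of_nonneg (fun i => (Real.exp_pos _).le) hs,
    ENNReal.toReal_ofReal (tsum_nonneg fun i => (Real.exp_pos _).le)]

theorem continuous_liftTerm (φ : HermIdx → ℂ) (τ : ℂ) (i : HermIdx) :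
    Continuous fun p => liftTerm φ τ p i :=
  continuous_const.mul (Complex.continuous_ofReal.comp (Real.continuous_exp.comp
    (continuous_const.mul ((HermVec.continuous_T _).pow 2)).neg))

theorem summable_liftTerm {φ : HermIdx → ℂ} {B : ℝ} (hB : ∀ i, ‖φ i‖ ≤ B) {τ : ℂ} (hτ : 0 < τ.im)
    (p : H3) : Summable (liftTerm φ τ p) :=
  Summable.of_norm_bounded
    ((summable_majorant_exp (show 0 < 2 * Real.pi * τ.im by positivity) p).1.mul_left B) fun i => by
      rw [norm_liftTerm_eq]
      exact mul_le_mul_of_nonneg_right (hB i) (Real.exp_pos _).le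

variable {D : ℕ} [NeZero D] {F : H3 → ℂ} {φ : HermIdx → ℂ}

theorem hasSum_integral_liftTerm (hC : IsCuspFun D F) {B : ℝ} (hB : ∀ i, ‖φ i‖ ≤ B) {τ : ℂ}
    (hτ : 0 < τ.im) :
    HasSum (fun i => ∫ p, liftTerm φ τ p i * F p ∂measK D)
        (∫ p, thetaSum φ τ p * F p ∂measK D) ∧
      Integrable (fun p => thetaSum φ τ p * F p) (measK D) := by
  obtain ⟨BF, hBF0, hBF⟩ := hC.bounded
  have hB0 := (norm_nonneg _).trans (hB 0)
  have hc : 0 < 2 * Real.pi * τ.im := by positivity
  have hb : ∀ i p, ‖liftTerm φ τ p i * F p‖ ≤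
      B * BF * Real.exp (-(2 * Real.pi * τ.im * (HermIdx.vec i).majorant p)) := fun i p => by
    rw [norm_mul, norm_liftTerm_eq, mul_right_comm B BF]
    exact mul_le_mul (mul_le_mul_of_nonneg_right (hB i) (Real.exp_pos _).le) (hBF p)
      (norm_nonneg _) (by positivity)
  have hdom : Integrable (fun p => ∑' i : HermIdx,
      B * BF * Real.exp (-(2 * Real.pi * τ.im * (HermIdx.vec i).majorant p))) (measK D) := by
    refine ((integrable_majorantSum hc).const_mul (B * BF)).congr (Eventually.of_forall fun p => ?_)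
    show B * BF * (majorantSum _ p).toReal = ∑' i : HermIdx, _
    rw [tsum_mul_left, (summable_majorant_exp hc p).2]
  have hm : AEStronglyMeasurable (fun p => thetaSum φ τ p * F p) (measK D) :=
    aestronglyMeasurable_of_tendsto_ae (atTop : Filter (Finset HermIdx))
      (f := fun s p => ∑ i ∈ s, liftTerm φ τ p i * F p)
      (fun s => (continuous_finsetSum s fun i _ =>
        (continuous_liftTerm φ τ i).mul hC.continuous).aestronglyMeasurable)
      (Eventually.of_forall fun p => (summable_liftTerm hB hτ p).hasSum.mul_right (F p))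
  refine ⟨hasSum_integral_of_dominated_convergence
    (fun i p => B * BF * Real.exp (-(2 * Real.pi * τ.im * (HermIdx.vec i).majorant p)))
    (fun i => ((continuous_liftTerm φ τ i).mul hC.continuous).aestronglyMeasurable)
    (fun i => Eventually.of_forall (hb i))
    (Eventually.of_forall fun p => (summable_majorant_exp hc p).1.mul_left _) hdom
    (Eventually.of_forall fun p => (summable_liftTerm hB hτ p).hasSum.mul_right (F p)),
    hdom.mono' hm (Eventually.of_forall fun p => ?_)⟩
  rw [show thetaSum φ τ p * F p = ∑' i, liftTerm φ τ p i * F p from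
    ((summable_liftTerm hB hτ p).tsum_mul_right (F p)).symm]
  exact tsum_of_norm_bounded (((summable_majorant_exp hc p).1.mul_left _).hasSum) fun i => hb i p

/-- The expansion of the lift. -/
theorem hasSum_lift (hC : IsCuspFun D F) (hE : IsEigenFun F) (hφ : IsPhase D φ) {τ : ℂ}
    (hτ : 0 < τ.im) : HasSum (liftSeriesTerm D F φ τ) (lift D F φ τ) := by
  obtain ⟨B, hB0, hB⟩ := hφ.bound
  set v := τ.im
  set e : ℤ → ℂ := fun n => Complex.exp (2 * Real.pi * Complex.I * τ * (n : ℂ))
  have h1 : HasSum (fun i => ∫ p, liftTerm φ τ p i * F p ∂measK D)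
      (∫ p, thetaSum φ τ p * F p ∂measK D) := (hasSum_integral_liftTerm hC hB hτ).1
  have h2 : ∀ n : ℤ, HasSum (fun i : Shell n => ∫ p, liftTerm φ τ p i.1 * F p ∂measK D)
      (e n * ∫ p, shellSum φ n v p * F p ∂measK D) := by
    intro n
    convert! (tsum_integral_shell hC hB n hτ).mul_left (e n) using 1
    funext i
    rw [← integral_const_mul, ← integral_const_mul]
    refine integral_congr_ae (Eventually.of_forall fun p => ?_)
    simp only [liftTerm, i.2, e]
    ring
  have h3 : HasSum (fun n : ℤ => e n * ∫ p, shellSum φ n v p * F p ∂measK D)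
      (∫ p, thetaSum φ τ p * F p ∂measK D) :=
    ((Equiv.sigmaFiberEquiv HermIdx.q).hasSum_iff.mpr h1).sigma fun n => h2 n
  have h4 := h3.mul_left ((Real.sqrt v : ℝ) : ℂ)
  convert! h4 using 1
  funext n
  rw [mul_left_comm, liftSeriesTerm, mul_comm]
  congr 1
  rcases lt_trichotomy n 0 with hn | hn | hn
  · rw [if_neg (not_lt.mpr hn.le), if_pos hn, shell_integral_neg hC hE hφ hn hτ, liftMinus]
    push_cast
    ring
  · subst hn
    rw [if_neg (lt_irrefl 0), if_neg (lt_irrefl 0), shell_integral_zero hC hE hφ hτ, mul_zero]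
  · rw [if_pos hn, shell_integral_pos hC hE hφ hn hτ, liftPlus]

end Fermat.Agent.ResidualThree
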