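import Fermat.Agent.ResidualThree.ThetaLift.Congr
import Fermat.Agent.ResidualThree.ThetaLift.Lift

/-!
# The Hecke relation between shell integrals

The shell integrals of the lift of a datum satisfy the Hecke relation at a split prime, with
eigenvalue the coefficient of the datum.
-/

noncomputable section

open MeasureTheory Filter Finset
open scoped ENNReal ComplexConjugate

namespace Fermat.Agent.ResidualThree

local notation "Γℚ" => (AlgebraicClosure ℚ ≃ₐ[ℚ] AlgebraicClosure ℚ)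

/-- `[[π, -b], [0, 1]]`. -/
def hUp (π : Eis3) (hπ : π ≠ (0, 0)) (b : ℤ) : GL (Fin 2) ℂ :=
  Matrix.GeneralLinearGroup.mkOfDetNeZero !![π.toC, -(b : ℂ); 0, 1]
    (by simpa using mt Eis3.toC_eq_zero.mp hπ)

/-- `diag (1, π)`. -/
def hDiag (π : Eis3) (hπ : π ≠ (0, 0)) : GL (Fin 2) ℂ :=
  Matrix.GeneralLinearGroup.mkOfDetNeZero !![1, 0; 0, π.toC]
    (by simpa using mt Eis3.toC_eq_zero.mp hπ)

/-- An integral matrix `g` with `p g⁻¹` integral. -/
def IsCorrespK (p : ℕ) (g : GL (Fin 2) ℂ) : Prop :=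
  IsOMat (g : Matrix (Fin 2) (Fin 2) ℂ) ∧
    IsOMat ((p : ℂ) • ((g⁻¹ : GL (Fin 2) ℂ) : Matrix (Fin 2) (Fin 2) ℂ))

theorem isCorrespK_of_adj {p : ℕ} {π : Eis3} (hπ : π.norm = p) (hπ0 : π ≠ (0, 0))
    {g : GL (Fin 2) ℂ} (e : Fin 2 → Fin 2 → Eis3)
    (he : ∀ i j, (g : Matrix (Fin 2) (Fin 2) ℂ) i j = (e i j).toC)
    (hdet : (g : Matrix (Fin 2) (Fin 2) ℂ).det = π.toC) : IsCorrespK p g := by
  refine ⟨⟨e, he⟩, fun i j => Eis3.mul (Eis3.bar π)
    (![![e 1 1, -e 0 1], ![-e 1 0, e 0 0]] i j), fun i j => ?_⟩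
  have hp : (p : ℂ) = conj π.toC * π.toC := by
    rw [mul_comm, Complex.mul_conj, Eis3.normSq_toC, hπ, Complex.ofReal_natCast]
  have hπC : π.toC ≠ 0 := mt Eis3.toC_eq_zero.mp hπ0
  rw [Matrix.smul_apply, Matrix.coe_units_inv, Matrix.inv_def, hdet, Matrix.adjugate_fin_two,
    Matrix.smul_apply, Ring.inverse_eq_inv', smul_eq_mul, smul_eq_mul, Eis3.toC_mul, Eis3.toC_bar,
    hp]
  fin_cases i <;> fin_cases j <;> simp [he, Eis3.toC_neg] <;> field_simp

theorem gDiag_isCorrespK {p : ℕ} {π : Eis3} (hπ : π.norm = p) (hπ0 : π ≠ (0, 0)) :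
    IsCorrespK p (gDiag π hπ0) := by
  refine isCorrespK_of_adj hπ hπ0 ![![π, (0, 0)], ![(0, 0), (1, 0)]] (fun i j => ?_) ?_
  · fin_cases i <;> fin_cases j <;>
      simp [gDiag, Matrix.GeneralLinearGroup.mkOfDetNeZero, Eis3.toC_zero, Eis3.toC_one]
  · simp [gDiag, Matrix.GeneralLinearGroup.mkOfDetNeZero]

theorem gUp_isCorrespK {p : ℕ} {π : Eis3} (hπ : π.norm = p) (hπ0 : π ≠ (0, 0)) (b : ℤ) :
    IsCorrespK p (gUp π hπ0 b) := by
  refine isCorrespK_of_adj hπ hπ0 ![![(1, 0), (b, 0)], ![(0, 0), π]] (fun i j => ?_) ?_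
  · fin_cases i <;> fin_cases j <;>
      simp [gUp, Matrix.GeneralLinearGroup.mkOfDetNeZero,
        Eis3.toC_intCast]
  · simp [gUp, Matrix.GeneralLinearGroup.mkOfDetNeZero]

theorem hDiag_isCorrespK {p : ℕ} {π : Eis3} (hπ : π.norm = p) (hπ0 : π ≠ (0, 0)) :
    IsCorrespK p (hDiag π hπ0) := by
  refine isCorrespK_of_adj hπ hπ0 ![![(1, 0), (0, 0)], ![(0, 0), π]] (fun i j => ?_) ?_
  · fin_cases i <;> fin_cases j <;>
      simp [hDiag, Matrix.GeneralLinearGroup.mkOfDetNeZero, Eis3.toC_zero, Eis3.toC_one]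
  · simp [hDiag, Matrix.GeneralLinearGroup.mkOfDetNeZero]

theorem hUp_isCorrespK {p : ℕ} {π : Eis3} (hπ : π.norm = p) (hπ0 : π ≠ (0, 0)) (b : ℤ) :
    IsCorrespK p (hUp π hπ0 b) := by
  refine isCorrespK_of_adj hπ hπ0 ![![π, (-b, 0)], ![(0, 0), (1, 0)]] (fun i j => ?_) ?_
  · fin_cases i <;> fin_cases j <;>
      simp [hUp, Matrix.GeneralLinearGroup.mkOfDetNeZero,
        Eis3.toC_intCast]
  · simp [hUp, Matrix.GeneralLinearGroup.mkOfDetNeZero]

/-- The shell function of the lift. -/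
def liftShell (n₀ : ℕ) (n : ℤ) (v : ℝ) (q : H3) : ℂ := shellSum (liftPhase (3 * n₀)) n v q

/-- The normalised shell integral. -/
def shellInt (N n₀ : ℕ) (F : H3 → ℂ) (n : ℤ) (v : ℝ) : ℂ :=
  ((Real.sqrt v : ℝ) : ℂ) * ∫ q, liftShell n₀ n v q * F q ∂measK N

theorem liftShell_smul {n₀ : ℕ} (n : ℤ) (v : ℝ) {g : GL (Fin 2) ℂ} (hg : g ∈ gammaZeroK n₀)
    (q : H3) : liftShell n₀ n v (g • q) = liftShell n₀ n v q := by
  set g' : integralK := ⟨g, hg.1⟩
  rw [liftShell, liftShell, shellSum, shellSum, ← (MulAction.toPerm (β := Shell n) g').tsum_eq]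
  refine tsum_congr fun i => ?_
  show liftPhase (3 * n₀) (g' • i.1) * _ = _
  rw [liftPhase_smul g' hg]
  show _ * ((Real.exp (-(Real.pi * v * HermIdx.T (g' • i.1)
    ((g' : GL (Fin 2) ℂ) • q) ^ 2)) : ℝ) : ℂ)
    = _
  rw [HermIdx.T_smul]

theorem principalK_le_gammaZeroK {n D : ℕ} (h : n ∣ D) : principalK D ≤ gammaZeroK n := by
  intro g hg
  refine ⟨hg.1, ?_⟩
  have h1 := (principalK_anti h hg).2 1 0
  simp [Eis3.red] at h1
  obtain ⟨⟨a, ha⟩, ⟨b, hb⟩⟩ := And.intro ((ZMod.intCast_zmod_eq_zero_iff_dvd _ n).mp h1.1)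
    ((ZMod.intCast_zmod_eq_zero_iff_dvd _ n).mp h1.2)
  refine ⟨(a, b), ?_⟩
  simp only [Eis3.mul]
  ext <;> simp [ha, hb]

variable {n₀ : ℕ} {n : ℤ} {v : ℝ}

theorem summable_shellTerm (n₀ : ℕ) (n : ℤ) (hv : 0 < v) (q : H3) :
    Summable (fun i : Shell n => Real.exp (-(Real.pi * v * HermIdx.T i.1 q ^ 2))) ∧
      ‖liftShell n₀ n v q‖ ≤ ∑' i : Shell n, Real.exp (-(Real.pi * v * HermIdx.T i.1 q ^ 2)) := by
  have hne : ∑' i : Shell n, ENNReal.ofReal (Real.exp (-(Real.pi * v * HermIdx.T i.1 q ^ 2))) ≠ ∞ :=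
    ne_top_of_le_ne_top (ENNReal.mul_ne_top ENNReal.ofReal_ne_top
      (majorantSum_lt_top (by positivity) q).ne) (tsum_shell_exp_le (Real.pi * v) q)
  have hs : Summable fun i : Shell n => Real.exp (-(Real.pi * v * HermIdx.T i.1 q ^ 2)) :=
    (ENNReal.summable_toReal hne).congr fun i => ENNReal.toReal_ofReal (Real.exp_pos _).le
  refine ⟨hs, tsum_of_norm_bounded hs.hasSum fun i => ?_⟩
  rw [norm_mul, Complex.norm_real, Real.norm_eq_abs, Real.abs_exp]
  exact mul_le_of_le_one_left (Real.exp_pos _).le (norm_liftPhase_le _ _)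

theorem norm_liftShell_le (n₀ : ℕ) (n : ℤ) (hv : 0 < v) (q : H3) :
    ENNReal.ofReal ‖liftShell n₀ n v q‖ ≤
      ENNReal.ofReal (Real.exp (2 * (Real.pi * v) * n)) * majorantSum (2 * (Real.pi * v)) q := by
  refine le_trans (ENNReal.ofReal_le_ofReal (summable_shellTerm n₀ n hv q).2) ?_
  rw [ENNReal.ofReal_tsum_of_nonneg (fun i => (Real.exp_pos _).le) (summable_shellTerm n₀ n hv q).1]
  exact tsum_shell_exp_le (Real.pi * v) q

theorem measurable_liftShell (n₀ : ℕ) (n : ℤ) (hv : 0 < v) : Measurable (liftShell n₀ n v) := by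
  have hcont : ∀ i : Shell n, Continuous fun q : H3 => liftPhase (3 * n₀) i.1 *
      ((Real.exp (-(Real.pi * v * HermIdx.T i.1 q ^ 2)) : ℝ) : ℂ) := fun i => by
    have h : Continuous fun q : H3 => HermIdx.T i.1 q := HermVec.continuous_T (HermIdx.vec i.1)
    fun_prop
  have hf : ∀ s : Finset (Shell n), Measurable fun q : H3 => ∑ i ∈ s, liftPhase (3 * n₀) i.1 *
      ((Real.exp (-(Real.pi * v * HermIdx.T i.1 q ^ 2)) : ℝ) : ℂ) := fun s =>
    (continuous_finsetSum s fun i _ => hcont i).measurable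
  refine measurable_of_tendsto_metrizable' atTop hf ?_
  refine tendsto_pi_nhds.mpr fun q => ?_
  have hs : Summable fun i : Shell n => liftPhase (3 * n₀) i.1 *
      ((Real.exp (-(Real.pi * v * HermIdx.T i.1 q ^ 2)) : ℝ) : ℂ) :=
    Summable.of_norm_bounded (summable_shellTerm n₀ n hv q).1 fun i => by
      rw [norm_mul, Complex.norm_real, Real.norm_eq_abs, Real.abs_exp]
      exact mul_le_of_le_one_left (Real.exp_pos _).le (norm_liftPhase_le _ _)
  exact hs.hasSum

/-- The product of a shell function and a cusp function is bounded. -/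
theorem exists_bound_shell_mul {M : ℕ} [NeZero M] {G : H3 → ℂ} (hG : IsCuspFun M G) (n₀ : ℕ)
    (n : ℤ) (hv : 0 < v) : ∃ B : ℝ, ∀ q, ‖liftShell n₀ n v q * G q‖ ≤ B := by
  obtain ⟨C, hC0, hC⟩ := hG.bound_siegel 1
  obtain ⟨C', hC'0, hC'⟩ := hG.bound_siegel 0
  have hc : 0 < 2 * (Real.pi * v) := by positivity
  set K : ℝ := Real.exp (2 * (Real.pi * v) * n) * (majorantConst (2 * (Real.pi * v))).toReal
  have hK : 0 ≤ K := mul_nonneg (Real.exp_pos _).le ENNReal.toReal_nonneg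
  refine ⟨K * (C + C'), fun q => ?_⟩
  obtain ⟨g, hg⟩ := exists_smul_mem_siegelK q
  set p := (g : GL (Fin 2) ℂ) • q with hp
  have hS : ‖liftShell n₀ n v q‖ ≤ K * (p.y + 1) := by
    have h := (norm_liftShell_le n₀ n hv q).trans (mul_le_mul_right
      (show majorantSum (2 * (Real.pi * v)) q ≤
        majorantConst (2 * (Real.pi * v)) * ENNReal.ofReal (p.y + 1) by
        rw [← majorantSum_smul _ g q]
        exact (majorantSum_le hc hg.2).trans_eq (mul_comm _ _)) _)
    rw [← ENNReal.ofReal_toReal (majorantConst_ne_top hc),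
      ← ENNReal.ofReal_mul ENNReal.toReal_nonneg,
      ← ENNReal.ofReal_mul (Real.exp_pos _).le, ← mul_assoc] at h
    exact (ENNReal.ofReal_le_ofReal_iff (mul_nonneg hK (by have := p.y_pos; linarith))).mp h
  have h1 := hC g⁻¹ p hg
  have h0 := hC' g⁻¹ p hg
  rw [Subgroup.coe_inv, hp, inv_smul_smul, ← hp] at h1 h0
  rw [pow_one] at h1
  rw [pow_zero, mul_one] at h0
  rw [norm_mul]
  calc ‖liftShell n₀ n v q‖ * ‖G q‖ ≤ K * (p.y + 1) * ‖G q‖ :=
        mul_le_mul_of_nonneg_right hS (norm_nonneg _)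
    _ = K * (‖G q‖ * p.y + ‖G q‖) := by ring
    _ ≤ _ := mul_le_mul_of_nonneg_left (add_le_add h1 h0) hK

section

variable {ρ : Γℚ →* GL (Fin 2) (ZMod 3)} (d : BianchiDatum ρ n₀)

theorem isCuspFun_comp {p M : ℕ} (hM : n₀ * p ∣ M) {g : GL (Fin 2) ℂ} (hg : IsCorrespK p g) :
    IsCuspFun M (fun q => d.F (g • q)) := by
  refine ⟨d.continuous.comp (H3.continuous_smul_gl g), fun γ hγ q => ?_, fun h A => ?_⟩
  · have h1 := (conj_mem_principalK hg.1 hg.2 (principalK_anti hM hγ)).1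
    have h2 := d.invariant _ (isBianchiGamma0_of_principal dvd_rfl h1) (g • q)
    rwa [mul_smul, mul_smul, inv_smul_smul] at h2
  · obtain ⟨C, hC⟩ := d.decay (g * (h : GL (Fin 2) ℂ)) (fun i j => by
      obtain ⟨e, he⟩ := hg.1.mul (isOMat_of_mem h.2)
      exact ⟨e i j, 1, one_pos, by rw [Units.val_mul, he, Nat.cast_one, div_one]⟩) A
    exact ⟨C, fun q hq => by simp only [← mul_smul]; exact hC q hq⟩

variable {p : ℕ} [Fact p.Prime] {N : ℕ} [NeZero N]

/-- The integral of a shell function against a translate of the form. -/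
def corrInt (N p n₀ : ℕ) (F : H3 → ℂ) (n : ℤ) (v : ℝ) (g : GL (Fin 2) ℂ) : ℂ :=
  ∫ q, liftShell n₀ n v q * F (g • q) ∂measK (N * p)

instance neZero_level : NeZero (N * p) :=
  ⟨Nat.mul_ne_zero (NeZero.ne N) (Fact.out : p.Prime).ne_zero⟩

omit [Fact p.Prime] [NeZero N] in
theorem corrInt_left {g γ : GL (Fin 2) ℂ} (hγ : γ ∈ gammaZeroK n₀) :
    corrInt N p n₀ d.F n v (γ * g) = corrInt N p n₀ d.F n v g := by
  simp only [corrInt, mul_smul, d.invariant γ (isBianchiGamma0_of_gammaZeroK hγ)]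

theorem corrInt_right (hN : n₀ ∣ N) (hv : 0 < v) {g γ : GL (Fin 2) ℂ} (hg : IsCorrespK p g)
    (hγ : γ ∈ gammaZeroK n₀) :
    corrInt N p n₀ d.F n v (g * γ) = corrInt N p n₀ d.F n v g := by
  have hG := isCuspFun_comp d (p := p) (M := N * p) (Nat.mul_dvd_mul_right hN p) hg
  obtain ⟨B, hB⟩ := exists_bound_shell_mul hG n₀ n hv
  have hγO : IsOMat (γ : Matrix (Fin 2) (Fin 2) ℂ) := isOMat_of_mem hγ.1
  have hγi : IsOMat ((1 : ℕ) • ((γ⁻¹ : GL (Fin 2) ℂ) : Matrix (Fin 2) (Fin 2) ℂ)) := by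
    rw [one_smul]; exact isOMat_of_mem (inv_mem hγ.1)
  have hγi' : IsOMat (((1 : ℕ) : ℂ) • ((γ⁻¹ : GL (Fin 2) ℂ) : Matrix (Fin 2) (Fin 2) ℂ)) := by
    rw [Nat.cast_one, one_smul]; exact isOMat_of_mem (inv_mem hγ.1)
  have hnorm : ∀ δ ∈ principalK (N * p), γ * δ * γ⁻¹ ∈ principalK (N * p) ∧
      γ⁻¹ * δ * γ ∈ principalK (N * p) := fun δ hδ =>
    conj_mem_principalK hγO hγi' (by rwa [mul_one])
  have hinv : ∀ δ ∈ principalK (N * p), ∀ q, liftShell n₀ n v (δ • q) * d.F (g • δ • q) =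
      liftShell n₀ n v q * d.F (g • q) := fun δ hδ q => by
    rw [liftShell_smul n v (principalK_le_gammaZeroK (hN.mul_right p) hδ) q]
    congr 1
    exact hG.invariant δ hδ q
  calc ∫ q, liftShell n₀ n v q * d.F ((g * γ) • q) ∂measK (N * p)
      = ∫ q, (fun q => liftShell n₀ n v q * d.F (g • q)) (γ • q) ∂measK (N * p) := by
        simp only [liftShell_smul n v hγ, mul_smul]
    _ = _ := integral_measK_smul (Φ := fun q => liftShell n₀ n v q * d.F (g • q)) dvd_rfl γ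
        (fun δ hδ => (hnorm δ hδ).2)
        (fun δ hδ => (principalK_le _) (hnorm δ hδ).1)
        ((measurable_liftShell n₀ n hv).mul hG.continuous.measurable) hB hinv (fun δ hδ q => by
          have h := hinv _ (hnorm δ hδ).1 (γ • q)
          simpa only [← mul_smul, mul_assoc, inv_mul_cancel, mul_one] using h)

/-- Moving a translate from the shell function to the form. -/
theorem integral_shell_translate (hN : n₀ ∣ N) (hv : 0 < v) {g g' : GL (Fin 2) ℂ} {c : ℂ}
    (hg : IsCorrespK p g) (hg' : IsCorrespK p g')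
    (hgg : ((g' * g : GL (Fin 2) ℂ) : Matrix (Fin 2) (Fin 2) ℂ) = c • 1) :
    ∫ q, liftShell n₀ n v (g • q) * d.F q ∂measK (N * p) = corrInt N p n₀ d.F n v g' := by
  have hsc : ∀ q : H3, g' • g • q = q := fun q => by
    rw [← mul_smul]; exact H3.smul_of_scalar hgg q
  have hG := isCuspFun_comp d (p := p) (M := N * p) (Nat.mul_dvd_mul_right hN p) hg'
  obtain ⟨B, hB⟩ := exists_bound_shell_mul hG n₀ n hv
  have hne : NeZero (N * p * p) :=
    ⟨Nat.mul_ne_zero (NeZero.ne _) (Fact.out : p.Prime).ne_zero⟩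
  have hsmall : ∀ δ ∈ principalK (N * p), g * δ * g⁻¹ ∈ principalK N := fun δ hδ =>
    (conj_mem_principalK hg.1 hg.2 hδ).1
  calc ∫ q, liftShell n₀ n v (g • q) * d.F q ∂measK (N * p)
      = ∫ q, (fun q => liftShell n₀ n v q * d.F (g' • q)) (g • q) ∂measK (N * p) := by
        simp only [hsc]
    _ = _ := integral_measK_smul (Φ := fun q => liftShell n₀ n v q * d.F (g' • q))
      (Dvd.intro p rfl) g
        (fun δ hδ => (conj_mem_principalK hg.1 hg.2 hδ).2)
        (fun δ hδ => (principalK_le _) (hsmall δ hδ))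
        ((measurable_liftShell n₀ n hv).mul hG.continuous.measurable) hB (fun δ hδ q => by
          simp only [liftShell_smul n v (principalK_le_gammaZeroK (hN.mul_right p) hδ) q]
          rw [show d.F (g' • δ • q) = d.F (g' • q) from hG.invariant δ hδ q]) (fun δ hδ q => by
          simp only [hsc]
          rw [d.invariant δ (isBianchiGamma0_of_principal (hN.mul_right p) hδ) q]
          rw [← mul_smul, show g * δ = g * δ * g⁻¹ * g by rw [inv_mul_cancel_right], mul_smul,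
            liftShell_smul n v (principalK_le_gammaZeroK hN (hsmall δ hδ))])

/-- Raising the level multiplies shell integrals by a positive integer. -/
theorem exists_integral_level_mul (hN : n₀ ∣ N) :
    ∃ m : ℕ, 0 < m ∧ ∀ (n : ℤ) (v : ℝ), 0 < v →
      (m : ℂ) * ∫ q, liftShell n₀ n v q * d.F q ∂measK N =
        ∫ q, liftShell n₀ n v q * d.F q ∂measK (N * p) := by
  obtain ⟨m, hm, hW⟩ := exists_isOrbitWeight_of_le (L := N * p) (principalK_anti (Dvd.intro p rfl))
    (principalK_le N)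
  refine ⟨m, hm, fun n v hv => ?_⟩
  obtain ⟨B, hB⟩ := exists_bound_shell_mul (d.isCuspFun hN) n₀ n hv
  have hmeas := (measurable_liftShell n₀ n hv).mul d.continuous.measurable
  have h := (isOrbitWeight_weightK N).integral_comm hW (μ := H3.vol) hmeas (fun γ q => by
    show liftShell n₀ n v ((γ : GL (Fin 2) ℂ) • q) * d.F ((γ : GL (Fin 2) ℂ) • q) = _
    rw [liftShell_smul n v (principalK_le_gammaZeroK hN γ.2),
      d.invariant _ (isBianchiGamma0_of_principal hN γ.2)]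
    rfl)
    (Integrable.of_bound (μ := measK N) hmeas.aestronglyMeasurable B (Eventually.of_forall hB))
    (Integrable.of_bound (μ := measK (N * p)) hmeas.aestronglyMeasurable B
      (Eventually.of_forall hB))
  simpa [measK] using h

omit [Fact p.Prime] in
theorem liftShell_translate {g h : GL (Fin 2) ℂ} {c : ℂ}
    (hgh : ((h * g : GL (Fin 2) ℂ) : Matrix (Fin 2) (Fin 2) ℂ) = c • 1)
    (hdet : ‖(h : Matrix (Fin 2) (Fin 2) ℂ).det‖ = Real.sqrt p) {e : Fin 2 → Fin 2 → Eis3}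
    (he : ∀ i j, (h : Matrix (Fin 2) (Fin 2) ℂ) i j = (e i j).toC) (q : H3) (i : HermIdx) :
    HermIdx.T (HermIdx.actFormula e i) q = Real.sqrt p * HermIdx.T i (g • q) := by
  have hsc : h • g • q = q := by rw [← mul_smul]; exact H3.smul_of_scalar hgh q
  conv_lhs => rw [← hsc]
  rw [HermIdx.T, HermIdx.vec_actFormula he, HermVec.T_smul, hdet]
  rfl

/-- The correlation integrals are constant on the double coset of a split prime. -/
theorem corrInt_coset (hN : n₀ ∣ N) (hv : 0 < v) {π : Eis3} (hπ : π.norm = p) (hpn : ¬ p ∣ n₀)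
    (hπ0 : π ≠ (0, 0)) (c : ℤ) :
    corrInt N p n₀ d.F n v (gUp π hπ0 c) = corrInt N p n₀ d.F n v (gDiag π hπ0) ∧
      corrInt N p n₀ d.F n v (hUp π hπ0 c) = corrInt N p n₀ d.F n v (gDiag π hπ0) ∧
      corrInt N p n₀ d.F n v (hDiag π hπ0) = corrInt N p n₀ d.F n v (gDiag π hπ0) := by
  have hp := (Fact.out : p.Prime)
  set J := corrInt N p n₀ d.F n v with hJdef
  set J₀ := J (gDiag π hπ0) with hJ₀
  obtain ⟨a, b, hab⟩ : ∃ a b : ℤ, a * p + b * n₀ = 1 :=
    Int.isCoprime_iff_nat_coprime.mpr (by simpa using hp.coprime_iff_not_dvd.mpr hpn)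
  have hπC : π.toC ≠ 0 := mt Eis3.toC_eq_zero.mp hπ0
  have hpC : π.toC * conj π.toC = (p : ℂ) := by
    rw [Complex.mul_conj, Eis3.normSq_toC, hπ, Complex.ofReal_natCast]
  have hab' : (a : ℂ) * p + (b : ℂ) * n₀ = 1 := by
    exact_mod_cast congrArg (fun z : ℤ => (z : ℂ)) hab
  let γ₁ : GL (Fin 2) ℂ := Matrix.GeneralLinearGroup.mkOfDetNeZero
    !![(a : ℂ) * conj π.toC, -(b : ℂ); (n₀ : ℂ), π.toC]
    (by rw [Matrix.det_fin_two_of,
          show (a : ℂ) * conj π.toC * π.toC - -(b : ℂ) * n₀ = 1 by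
            linear_combination hab' + (a : ℂ) * hpC]
        exact one_ne_zero)
  have hγ₁ : γ₁ ∈ gammaZeroK n₀ := by
    refine mem_gammaZeroK ![![Eis3.mul (a, 0) (Eis3.bar π), (-b, 0)], ![((n₀ : ℤ), 0), π]]
      (fun i j => ?_) ?_ ⟨(1, 0), Eis3.mul_one _⟩
    · fin_cases i <;> fin_cases j <;> simp [γ₁, Matrix.GeneralLinearGroup.mkOfDetNeZero,
        Eis3.toC_mul, Eis3.toC_bar, Eis3.toC_intCast]
    · simp only [γ₁, Matrix.GeneralLinearGroup.mkOfDetNeZero]
      simp [Matrix.det_fin_two_of]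
      rw [show (a : ℂ) * conj π.toC * π.toC + (b : ℂ) * n₀ = 1 by
        linear_combination hab' + (a : ℂ) * hpC]
      simp
  let γ₂ : GL (Fin 2) ℂ := Matrix.GeneralLinearGroup.mkOfDetNeZero
    !![(a : ℂ) * p, -(b : ℂ); (n₀ : ℂ), 1]
    (by rw [Matrix.det_fin_two_of,
          show (a : ℂ) * p * 1 - -(b : ℂ) * n₀ = 1 by linear_combination hab']
        exact one_ne_zero)
  have hγ₂ : γ₂ ∈ gammaZeroK n₀ := by
    refine mem_gammaZeroK ![![(a * p, 0), (-b, 0)], ![((n₀ : ℤ), 0), (1, 0)]]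
      (fun i j => ?_) ?_ ⟨(1, 0), Eis3.mul_one _⟩
    · fin_cases i <;> fin_cases j <;> simp [γ₂, Matrix.GeneralLinearGroup.mkOfDetNeZero,
        Eis3.toC_intCast]
    · simp only [γ₂, Matrix.GeneralLinearGroup.mkOfDetNeZero]
      simp [Matrix.det_fin_two_of]
      rw [hab']
      simp
  have hcoset : γ₁ * gDiag π hπ0 = hDiag π hπ0 * γ₂ := by
    refine Units.ext ?_
    simp [γ₁, γ₂, gDiag, hDiag, Matrix.GeneralLinearGroup.mkOfDetNeZero, Units.val_mul]
    refine ⟨?_, ?_⟩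
    · linear_combination (a : ℂ) * hpC
    · ring
  let U : ℤ → GL (Fin 2) ℂ := fun b => Matrix.GeneralLinearGroup.mkOfDetNeZero
    !![1, (b : ℂ); 0, 1] (by simp)
  have hU : ∀ b, U b ∈ gammaZeroK n₀ := fun b => by
    refine mem_gammaZeroK ![![(1, 0), (b, 0)], ![(0, 0), (1, 0)]] (fun i j => ?_) ?_
      ⟨(0, 0), by simp [Eis3.mul]⟩
    · fin_cases i <;> fin_cases j <;> simp [U, Matrix.GeneralLinearGroup.mkOfDetNeZero,
        Eis3.toC_intCast]
    · simp [U, Matrix.GeneralLinearGroup.mkOfDetNeZero]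
  have hJdiag : J (hDiag π hπ0) = J₀ := by
    rw [hJ₀, hJdef, ← corrInt_right d hN hv (hDiag_isCorrespK hπ hπ0) hγ₂, ← hcoset,
      corrInt_left d hγ₁]
  have hJgUp : ∀ b, J (gUp π hπ0 b) = J₀ := fun b => by
    rw [show gUp π hπ0 b = hDiag π hπ0 * U b from Units.ext (by
      simp [U, gUp, hDiag, Matrix.GeneralLinearGroup.mkOfDetNeZero, Units.val_mul]), hJdef,
      corrInt_right d hN hv (hDiag_isCorrespK hπ hπ0) (hU b), ← hJdef, hJdiag]
  have hJhUp : ∀ b, J (hUp π hπ0 b) = J₀ := fun b => by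
    rw [show hUp π hπ0 b = U (-b) * gDiag π hπ0 from Units.ext (by
      simp [U, hUp, gDiag, Matrix.GeneralLinearGroup.mkOfDetNeZero, Units.val_mul]), hJdef,
      corrInt_left d (hU _)]
  exact ⟨hJgUp c, hJhUp c, hJdiag⟩

omit [NeZero N] in
/-- The translates of a shell function along the correspondence of a split prime. -/
theorem liftShell_correspond (hv : 0 < v) {π : Eis3} (hπ : π.norm = p) (hp3 : p ≠ 3)
    (hpn : ¬ p ∣ n₀) (hπ0 : π ≠ (0, 0)) (q : H3) :
    ∑ k : Fin p, liftShell n₀ n v (gUp π hπ0 (((3 * n₀ : ℕ) : ℤ) * (k : ℕ)) • q) +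
      liftShell n₀ n v (gDiag π hπ0 • q) = liftShell n₀ ((p : ℤ) * n) (v / p) q +
        (p : ℂ) * if (p : ℤ) ∣ n then liftShell n₀ (n / p) (v * p) q else 0 := by
  have hp := (Fact.out : p.Prime)
  set D := 3 * n₀ with hD
  have hpD : ¬ p ∣ D := fun h => (hp.dvd_mul.mp h).elim
    (fun h3 => hp3 ((Nat.prime_dvd_prime_iff_eq hp Nat.prime_three).mp h3)) hpn
  have hpr : (0 : ℝ) < p := by exact_mod_cast hp.pos
  have hT : ∀ (b : ℤ) (q : H3) (i : HermIdx),
      HermIdx.T (actUp π b i) q = Real.sqrt p * HermIdx.T i (gUp π hπ0 b • q) := fun b q i => by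
    refine liftShell_translate (c := π.toC) (g := gUp π hπ0 b) (h := hUp π hπ0 b) ?_ ?_
      (fun k l => ?_) q i
    · simp [gUp, hUp, Matrix.GeneralLinearGroup.mkOfDetNeZero, Units.val_mul, Matrix.one_fin_two]
      ring
    · simp [hUp, Matrix.GeneralLinearGroup.mkOfDetNeZero, Complex.norm_def, Eis3.normSq_toC, hπ]
    · fin_cases k <;> fin_cases l <;> simp [hUp, Matrix.GeneralLinearGroup.mkOfDetNeZero,
        Eis3.toC_intCast]
  have hT' : ∀ (q : H3) (i : HermIdx),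
      HermIdx.T (actDiag π i) q = Real.sqrt p * HermIdx.T i (gDiag π hπ0 • q) := fun q i => by
    refine liftShell_translate (c := π.toC) (g := gDiag π hπ0) (h := hDiag π hπ0) ?_ ?_
      (fun k l => ?_) q i
    · simp [gDiag, hDiag, Matrix.GeneralLinearGroup.mkOfDetNeZero, Units.val_mul,
        Matrix.one_fin_two]
    · simp [hDiag, Matrix.GeneralLinearGroup.mkOfDetNeZero, Complex.norm_def, Eis3.normSq_toC, hπ]
    · fin_cases k <;> fin_cases l <;> simp [hDiag, Matrix.GeneralLinearGroup.mkOfDetNeZero,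
        Eis3.toC_zero, Eis3.toC_one]
  set f : HermIdx → ℂ := fun j =>
    ((Real.exp (-(Real.pi * (v / p) * HermIdx.T j q ^ 2)) : ℝ) : ℂ) with hf
  have hfs : Summable fun j : Shell ((p : ℤ) * n) => liftPhase D j.1 * f j.1 :=
    Summable.of_norm_bounded (summable_shellTerm n₀ _ (div_pos hv hpr) q).1 fun j => by
      rw [norm_mul, hf, Complex.norm_real, Real.norm_eq_abs, Real.abs_exp]
      exact mul_le_of_le_one_left (Real.exp_pos _).le (norm_liftPhase_le _ _)
  have hterm : ∀ (h : HermIdx → HermIdx) (g : GL (Fin 2) ℂ),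
      (∀ i, HermIdx.T (h i) q = Real.sqrt p * HermIdx.T i (g • q)) →
      liftShell n₀ n v (g • q) = ∑' i : Shell n, liftPhase D i.1 * f (h i.1) := by
    intro h g hh
    refine tsum_congr fun i => ?_
    simp only [hf, hh, mul_pow, Real.sq_sqrt hpr.le]
    congr 3
    field_simp
  rw [Finset.sum_congr (rfl : (univ : Finset (Fin p)) = univ) fun k _ =>
      hterm _ _ (hT ((D : ℤ) * (k : ℕ)) q), hterm _ _ (hT' q),
    tsum_correspond hπ (Dvd.intro n₀ rfl) hpD n f hfs,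
    tsum_dvd_shell (Dvd.intro n₀ rfl) hpD n f]
  congr 2
  split_ifs
  · refine tsum_congr fun i => ?_
    simp only [hf, HermIdx.T, HermIdx.vec, HermVec.T, Prod.smul_fst, Prod.smul_snd, smul_eq_mul,
      Int.cast_mul, Int.cast_natCast]
    rw [show Eis3.toC ((p : ℤ) • i.1.2.1) = ((p : ℝ) : ℂ) * i.1.2.1.toC by
      simp [Eis3.toC]; ring]
    rw [mul_assoc ((p : ℝ) : ℂ), Complex.re_ofReal_mul]
    congr 3
    field_simp
  · rfl

/-- The Hecke relation between the shell integrals. -/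
theorem hecke_shellInt (hN : n₀ ∣ N) {π : Eis3} (hπ : π.norm = p) (hp3 : p ≠ 3)
    (hpn : ¬ p ∣ n₀) (n : ℤ) (hv : 0 < v) :
    (d.c π : ℂ) * shellInt N n₀ d.F n v = shellInt N n₀ d.F ((p : ℤ) * n) (v / p) +
      if (p : ℤ) ∣ n then shellInt N n₀ d.F (n / p) (v * p) else 0 := by
  have hp := (Fact.out : p.Prime)
  have hπ0 : π ≠ (0, 0) := (natCast_ne_zero_of_split hπ).2.1
  set D := 3 * n₀ with hD
  have hpD : ¬ p ∣ D := fun h => (hp.dvd_mul.mp h).elim
    (fun h3 => hp3 ((Nat.prime_dvd_prime_iff_eq hp Nat.prime_three).mp h3)) hpn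
  have hpr : (0 : ℝ) < p := by exact_mod_cast hp.pos
  set J := corrInt N p n₀ d.F n v with hJdef
  set J₀ := J (gDiag π hπ0) with hJ₀
  -- the double coset
  have hJgUp : ∀ b, J (gUp π hπ0 b) = J₀ := fun b =>
    (corrInt_coset d hN hv hπ hpn hπ0 b).1
  have hJhUp : ∀ b, J (hUp π hπ0 b) = J₀ := fun b =>
    (corrInt_coset d hN hv hπ hpn hπ0 b).2.1
  have hJdiag : J (hDiag π hπ0) = J₀ := (corrInt_coset d hN hv hπ hpn hπ0 0).2.2
  -- the translates
  have hM : n₀ ∣ N * p := hN.mul_right p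
  have hG : ∀ g, IsCorrespK p g → IsCuspFun (N * p) (fun q => d.F (g • q)) := fun g hg =>
    isCuspFun_comp d (Nat.mul_dvd_mul_right hN p) hg
  have hint : ∀ g, IsCorrespK p g →
      Integrable (fun q => liftShell n₀ n v q * d.F (g • q)) (measK (N * p)) := fun g hg => by
    obtain ⟨B, hB⟩ := exists_bound_shell_mul (hG g hg) n₀ n hv
    exact Integrable.of_bound
      ((measurable_liftShell n₀ n hv).mul (hG g hg).continuous.measurable).aestronglyMeasurable B
      (Eventually.of_forall hB)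
  have hI : ((Real.sqrt p : ℝ) : ℂ) * (d.c π : ℂ) *
      ∫ q, liftShell n₀ n v q * d.F q ∂measK (N * p) = ((p : ℂ) + 1) * J₀ := by
    rw [← integral_const_mul]
    calc ∫ q, ((Real.sqrt p : ℝ) : ℂ) * (d.c π : ℂ) * (liftShell n₀ n v q * d.F q) ∂measK (N * p)
        = ∫ q, ∑ k : Fin p, liftShell n₀ n v q * d.F (gUp π hπ0 ((D : ℤ) * (k : ℕ)) • q) +
            liftShell n₀ n v q * d.F (gDiag π hπ0 • q) ∂measK (N * p) := by
          refine integral_congr_ae (Eventually.of_forall fun q => ?_)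
          show _ = ∑ k : Fin p, liftShell n₀ n v q * d.F (gUp π hπ0 ((D : ℤ) * (k : ℕ)) • q) +
            liftShell n₀ n v q * d.F (gDiag π hπ0 • q)
          rw [← Finset.mul_sum, ← mul_add, d.hecke_split hπ hp3 hpn hpD hπ0 q]
          ring
      _ = _ := by
          rw [integral_add (integrable_finsetSum _ fun k _ => hint _ (gUp_isCorrespK hπ hπ0 _))
            (hint _ (gDiag_isCorrespK hπ hπ0)),
            integral_finsetSum _ fun k _ => hint _ (gUp_isCorrespK hπ hπ0 _)]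
          change ∑ k : Fin p, J (gUp π hπ0 ((D : ℤ) * (k : ℕ))) + J (gDiag π hπ0) = _
          simp only [hJgUp, ← hJ₀, Finset.sum_const, Finset.card_univ, Fintype.card_fin,
            nsmul_eq_mul]
          ring
  -- the correspondence on the shells
  have hsum := fun q : H3 => liftShell_correspond (n := n) hv hπ hp3 hpn hπ0 q
  -- the identity at level `N p`
  have hF1 : ∀ g, IsCorrespK p g → ∀ g', IsCorrespK p g' → ∀ c : ℂ,
      ((g' * g : GL (Fin 2) ℂ) : Matrix (Fin 2) (Fin 2) ℂ) = c • 1 →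
      Integrable (fun q => liftShell n₀ n v (g • q) * d.F q) (measK (N * p)) := by
    intro g hg g' hg' c hgg
    obtain ⟨B, hB⟩ := exists_bound_shell_mul (hG g' hg') n₀ n hv
    refine Integrable.of_bound (((measurable_liftShell n₀ n hv).comp
      (H3.continuous_smul_gl g).measurable).mul d.continuous.measurable).aestronglyMeasurable B
      (Eventually.of_forall fun q => ?_)
    have h := hB (g • q)
    have hsc : g' • g • q = q := by rw [← mul_smul]; exact H3.smul_of_scalar hgg q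
    rwa [hsc] at h
  have hgh : ∀ b, ((hUp π hπ0 b * gUp π hπ0 b : GL (Fin 2) ℂ) : Matrix (Fin 2) (Fin 2) ℂ) =
      π.toC • 1 := fun b => by
    simp [gUp, hUp, Matrix.GeneralLinearGroup.mkOfDetNeZero, Units.val_mul, Matrix.one_fin_two]
    ring
  have hgh' : ((hDiag π hπ0 * gDiag π hπ0 : GL (Fin 2) ℂ) : Matrix (Fin 2) (Fin 2) ℂ) =
      π.toC • 1 := by
    simp [gDiag, hDiag, Matrix.GeneralLinearGroup.mkOfDetNeZero, Units.val_mul, Matrix.one_fin_two]
  have hvp : 0 < v / p := div_pos hv hpr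
  have hvp' : 0 < v * p := mul_pos hv hpr
  have hint0 : ∀ (m : ℤ) (w : ℝ), 0 < w →
      Integrable (fun q => liftShell n₀ m w q * d.F q) (measK (N * p)) := by
    intro m w hw
    obtain ⟨B, hB⟩ := exists_bound_shell_mul (d.isCuspFun hM) n₀ m hw
    exact Integrable.of_bound
      ((measurable_liftShell n₀ m hw).mul d.continuous.measurable).aestronglyMeasurable B
      (Eventually.of_forall hB)
  have hII : ((p : ℂ) + 1) * J₀ =
      ∫ q, liftShell n₀ ((p : ℤ) * n) (v / p) q * d.F q ∂measK (N * p) + (p : ℂ) *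
        if (p : ℤ) ∣ n then ∫ q, liftShell n₀ (n / p) (v * p) q * d.F q ∂measK (N * p) else 0 := by
    calc ((p : ℂ) + 1) * J₀
        = ∫ q, ∑ k : Fin p, liftShell n₀ n v (gUp π hπ0 ((D : ℤ) * (k : ℕ)) • q) * d.F q +
            liftShell n₀ n v (gDiag π hπ0 • q) * d.F q ∂measK (N * p) := by
          have hu := fun k : Fin p => hF1 _ (gUp_isCorrespK hπ hπ0 ((D : ℤ) * (k : ℕ))) _
            (hUp_isCorrespK hπ hπ0 _) _ (hgh _)
          rw [integral_add (integrable_finsetSum _ fun k _ => hu k)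
            (hF1 _ (gDiag_isCorrespK hπ hπ0) _ (hDiag_isCorrespK hπ hπ0) _ hgh'),
            integral_finsetSum _ fun k _ => hu k,
            integral_shell_translate d hN hv (gDiag_isCorrespK hπ hπ0)
              (hDiag_isCorrespK hπ hπ0) hgh',
            Finset.sum_congr (rfl : (univ : Finset (Fin p)) = univ) fun k _ =>
              integral_shell_translate d hN hv
              (gUp_isCorrespK hπ hπ0 ((D : ℤ) * (k : ℕ))) (hUp_isCorrespK hπ hπ0 _) (hgh _)]
          change _ = ∑ k : Fin p, J (hUp π hπ0 ((D : ℤ) * (k : ℕ))) + J (hDiag π hπ0)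
          simp only [hJhUp, hJdiag, Finset.sum_const, Finset.card_univ, Fintype.card_fin,
            nsmul_eq_mul]
          ring
      _ = ∫ q, liftShell n₀ ((p : ℤ) * n) (v / p) q * d.F q + (p : ℂ) *
            (if (p : ℤ) ∣ n then liftShell n₀ (n / p) (v * p) q * d.F q else 0) ∂measK (N * p) := by
          refine integral_congr_ae (Eventually.of_forall fun q => ?_)
          show ∑ k : Fin p, liftShell n₀ n v (gUp π hπ0 ((D : ℤ) * (k : ℕ)) • q) * d.F q + _ = _
          rw [← Finset.sum_mul, ← add_mul, hsum]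
          split_ifs <;> ring
      _ = _ := by
          by_cases hd : (p : ℤ) ∣ n
          · simp only [if_pos hd]
            rw [integral_add (hint0 _ _ hvp) ((hint0 _ _ hvp').const_mul _), integral_const_mul]
          · simp only [if_neg hd, mul_zero, add_zero]
  obtain ⟨m, hm, hlev⟩ := exists_integral_level_mul d (p := p) hN
  have hE := hI.trans hII
  rw [← hlev n v hv, ← hlev _ _ hvp] at hE
  have hs : (((Real.sqrt p : ℝ)) : ℂ) * ((Real.sqrt p : ℝ) : ℂ) = (p : ℂ) := by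
    rw [← Complex.ofReal_mul, Real.mul_self_sqrt hpr.le, Complex.ofReal_natCast]
  have hs0 : ((Real.sqrt p : ℝ) : ℂ) ≠ 0 := Complex.ofReal_ne_zero.mpr (Real.sqrt_pos.mpr hpr).ne'
  simp only [shellInt, Real.sqrt_div hv.le, Real.sqrt_mul hv.le, Complex.ofReal_mul,
    Complex.ofReal_div]
  have hmC : (m : ℂ) ≠ 0 := Nat.cast_ne_zero.mpr hm.ne'
  by_cases hd : (p : ℤ) ∣ n
  · rw [if_pos hd, ← hlev _ _ hvp'] at hE
    rw [if_pos hd]
    field_simp
    refine mul_left_cancel₀ hmC ?_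
    linear_combination ((Real.sqrt v : ℝ) : ℂ) * hE -
      (m : ℂ) * ((Real.sqrt v : ℝ) : ℂ) *
        (∫ q, liftShell n₀ (n / p) (v * p) q * d.F q ∂measK N) * hs
  · rw [if_neg hd] at hE
    rw [if_neg hd]
    field_simp
    refine mul_left_cancel₀ hmC ?_
    linear_combination ((Real.sqrt v : ℝ) : ℂ) * hE

end

end Fermat.Agent.ResidualThree
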