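import Fermat.Agent.ResidualThree.ThetaLift.Family
import Fermat.Agent.ResidualThree.ThetaLift.Shadow
import Fermat.Agent.ResidualThree.ThetaLift.ShellHecke

/-!
# The expansion of the lift of level `3 n₀` and the Hecke relation of its coefficients

The lift with the phase of level `3 n₀` is supported on indices divisible by `3`, so it has
an expansion of period `1`, and the coefficients of both parts satisfy the Hecke relation of the
datum at a split prime.
-/

noncomputable section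

open MeasureTheory Matrix
open scoped ComplexConjugate

namespace Fermat.Agent.ResidualThree

local notation "Γℚ" => (AlgebraicClosure ℚ ≃ₐ[ℚ] AlgebraicClosure ℚ)

/-- The level of integration. -/
abbrev liftLevel (n₀ : ℕ) : ℕ := 3 * (3 * n₀) ^ 2

theorem dvd_liftLevel (n₀ : ℕ) : n₀ ∣ liftLevel n₀ := ⟨27 * n₀, by unfold liftLevel; ring⟩

theorem isPhase_liftPhase {n₀ N : ℕ} (h : n₀ ∣ N) : IsPhase N (liftPhase (3 * n₀)) :=
  ⟨⟨1, zero_le_one, fun i => norm_liftPhase_le _ i⟩,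
    fun g hg i => liftPhase_smul g (principalK_le_gammaZeroK h hg) i⟩

theorem liftPhase_jMap (D : ℕ) (n : HermIdx) :
    liftPhase D (zeroIdx.jMap 1 n) = dvdWeight D n.2.2 * zeroIdx.phase 1 (zeroIdx.jMap 1 n) := by
  classical
  have h1 : zeroIdx.phase 1 (zeroIdx.jMap 1 n) = 1 := by
    rw [ThetaIdx.phase, if_pos ⟨n, rfl⟩]
    simp [ThetaIdx.phaseInt, Eis3.bar, Eis3.mul, HermIdx.tr, Eis.eChar_zero]
  rw [h1, mul_one, liftPhase, dvdWeight]
  refine if_congr ⟨fun h => ?_, fun h => ⟨?_, ?_, ?_⟩⟩ rfl rfl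
  · simpa [ThetaIdx.jMap] using h.2.2
  · simp [ThetaIdx.jMap]
  · refine ⟨n.2.1.2 - n.2.1.1, ?_⟩
    simp [ThetaIdx.jMap, Eis3.mul]
    ring
  · simpa [ThetaIdx.jMap] using h

theorem liftPhase_eq_zero_of_notMem (D : ℕ) (i : HermIdx)
    (hi : i ∉ Set.range (zeroIdx.jMap 1)) : liftPhase D i = 0 := by
  rw [liftPhase, if_neg]
  rintro ⟨⟨u, hu⟩, ⟨s, hs⟩, -⟩
  refine hi ⟨(u, (s - i.2.1.2, 2 * s - i.2.1.2), i.2.2), ?_⟩
  refine Prod.ext ?_ (Prod.ext ?_ ?_)
  · simp [ThetaIdx.jMap, hu]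
  · simp [ThetaIdx.jMap, Eis3.mul]
    ext <;> simp <;> linarith
  · simp [ThetaIdx.jMap]

theorem three_dvd_q_of_liftPhase {D : ℕ} {i : HermIdx} (h : liftPhase D i ≠ 0) :
    (3 : ℤ) ∣ HermIdx.q i := by
  rw [liftPhase, ne_eq, ite_eq_right_iff, not_forall] at h
  obtain ⟨⟨⟨u, hu⟩, ⟨s, hs⟩, -⟩, -⟩ := h
  obtain ⟨a, ⟨x, y⟩, e⟩ := i
  simp only at hu hs
  refine ⟨3 * s ^ 2 - x * y - u * e, ?_⟩
  have hn : 0 ≤ x ^ 2 - x * y + y ^ 2 := by nlinarith [sq_nonneg (x - y), sq_nonneg x, sq_nonneg y]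
  simp only [HermIdx.q, Eis3.norm]
  rw [Int.natAbs_of_nonneg hn, hu]
  linear_combination (x + y + 3 * s) * hs

theorem liftPlus_eq_zero_of_not_dvd (N : ℕ) (F : H3 → ℂ) (D : ℕ) {n : ℤ} (hn : ¬ (3 : ℤ) ∣ n) :
    liftPlus N F (liftPhase D) n = 0 ∧ liftMinus N F (liftPhase D) n = 0 := by
  have h : ∀ i : Shell n, liftPhase D i.1 = 0 := fun i =>
    by_contra fun h => hn (i.2 ▸ three_dvd_q_of_liftPhase h)
  simp [liftPlus, liftMinus, planePeriod, pointPeriod, h]

variable {ρ : Γℚ →* GL (Fin 2) (ZMod 3)} {n₀ : ℕ} [NeZero n₀]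

/-- The holomorphic coefficients of the lift. -/
def liftCoefP (d : BianchiDatum ρ n₀) (n : ℕ) : ℂ :=
  famConst 1 zeroIdx * liftPlus (liftLevel n₀) d.F (liftPhase (3 * n₀)) ((3 * n : ℕ) : ℤ)

/-- The antiholomorphic coefficients of the lift. -/
def liftCoefM (d : BianchiDatum ρ n₀) (n : ℕ) : ℂ :=
  famConst 1 zeroIdx * liftMinus (liftLevel n₀) d.F (liftPhase (3 * n₀)) (-((3 * n : ℕ) : ℤ))

instance neZero_liftLevel : NeZero (liftLevel n₀) :=
  ⟨mul_ne_zero three_ne_zero (pow_ne_zero 2 (mul_ne_zero three_ne_zero (NeZero.ne n₀)))⟩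

theorem thetaLift_eq (d : BianchiDatum ρ n₀) (τ : UpperHalfPlane) :
    thetaLift (3 * n₀) d.F τ = famConst 1 zeroIdx *
      lift (liftLevel n₀) d.F (liftPhase (3 * n₀)) ((τ : ℂ) / ((3 : ℝ) : ℂ)) := by
  have h := (integral_rowSumW (N := liftLevel n₀) (d.isCuspFun (dvd_liftLevel n₀)) 1 zeroIdx
    (w := dvdWeight (3 * n₀)) (fun m => by rw [dvdWeight]; split_ifs <;> simp)
    (isPhase_liftPhase (dvd_liftLevel n₀)) (liftPhase_jMap _)
    (liftPhase_eq_zero_of_notMem _) τ.im_pos).2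
  simp only [rowSumW_dvd, Nat.cast_one, one_pow, mul_one] at h
  rw [thetaLift, h]
  simp

/-- The expansion of the lift of a datum, of period `1`. -/
theorem hasHarmExp_thetaLift (d : BianchiDatum ρ n₀) :
    HasHarmExp 1 (thetaLift (3 * n₀) d.F) (fun m => liftCoefP d (m + 1))
      (fun m => liftCoefM d (m + 1)) := by
  have H := hasHarmExp_lift (d.isCuspFun (dvd_liftLevel n₀)) d.isEigenFun
    (isPhase_liftPhase (dvd_liftLevel n₀)) (show (0 : ℝ) < 3 by norm_num) (famConst 1 zeroIdx)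
  set i : ℕ → ℕ := fun m => 3 * m + 2 with hi
  have hinj : Function.Injective i := fun a b hab => by simp [hi] at hab; omega
  have hout : ∀ m : ℕ, m ∉ Set.range i → ¬ (3 : ℤ) ∣ ((m + 1 : ℕ) : ℤ) := by
    intro m hm hdvd
    have : 3 ∣ m + 1 := by exact_mod_cast hdvd
    exact hm ⟨(m + 1) / 3 - 1, by simp [hi]; omega⟩
  intro τ
  obtain ⟨h1, h2, h3⟩ := H τ
  set A : ℕ → ℂ := fun m => famConst 1 zeroIdx *
    liftPlus (liftLevel n₀) d.F (liftPhase (3 * n₀)) ((m + 1 : ℕ) : ℤ) * qExp 3 τ m with hA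
  set B : ℕ → ℂ := fun m => famConst 1 zeroIdx *
    liftMinus (liftLevel n₀) d.F (liftPhase (3 * n₀)) (-((m + 1 : ℕ) : ℤ)) * qExpNeg 3 τ m with hB
  have eA : ∀ m, A (i m) = liftCoefP d (m + 1) * qExp 1 τ m := by
    intro m
    simp only [hA, hi, liftCoefP, qExp, show 3 * m + 2 + 1 = 3 * (m + 1) by ring]
    congr 2
    push_cast
    ring
  have eB : ∀ m, B (i m) = liftCoefM d (m + 1) * qExpNeg 1 τ m := by
    intro m
    simp only [hB, hi, liftCoefM, qExpNeg, show 3 * m + 2 + 1 = 3 * (m + 1) by ring]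
    congr 1
    congr 3
    · push_cast; ring
    · push_cast; ring
  have zA : ∀ m, m ∉ Set.range i → A m = 0 := fun m hm => by
    simp only [hA, (liftPlus_eq_zero_of_not_dvd _ d.F _ (hout m hm)).1, mul_zero, zero_mul]
  have zB : ∀ m, m ∉ Set.range i → B m = 0 := fun m hm => by
    simp only [hB, (liftPlus_eq_zero_of_not_dvd _ d.F _ (fun h => hout m hm (dvd_neg.mp h))).2,
      mul_zero, zero_mul]
  refine ⟨((hinj.summable_iff zA).mpr h1).congr eA, ((hinj.summable_iff zB).mpr h2).congr eB, ?_⟩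
  rw [thetaLift_eq]
  refine h3.trans ?_
  rw [← tsum_congr eA, ← tsum_congr eB,
    hinj.tsum_eq (Function.support_subset_iff'.mpr zA),
    hinj.tsum_eq (Function.support_subset_iff'.mpr zB)]

theorem shellInt_pos (d : BianchiDatum ρ n₀) {n : ℤ} (hn : 0 < n) {v : ℝ} (hv : 0 < v) :
    shellInt (liftLevel n₀) n₀ d.F n v =
      liftPlus (liftLevel n₀) d.F (liftPhase (3 * n₀)) n :=
  shell_integral_pos (d.isCuspFun (dvd_liftLevel n₀)) d.isEigenFun
    (isPhase_liftPhase (dvd_liftLevel n₀)) hn hv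

theorem shellInt_neg (d : BianchiDatum ρ n₀) {n : ℤ} (hn : n < 0) {v : ℝ} (hv : 0 < v) :
    shellInt (liftLevel n₀) n₀ d.F n v = liftMinus (liftLevel n₀) d.F (liftPhase (3 * n₀)) n *
      ((expInt (4 * Real.pi * v * -n) : ℝ) : ℂ) := by
  refine (shell_integral_neg (d.isCuspFun (dvd_liftLevel n₀)) d.isEigenFun
    (isPhase_liftPhase (dvd_liftLevel n₀)) hn hv).trans ?_
  rw [liftMinus]
  push_cast
  ring

/-- The relation of the coefficients at a split prime. -/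
theorem hecke_liftCoef (d : BianchiDatum ρ n₀) {p : ℕ} (hp : p.Prime) (hp3 : p ≠ 3)
    (hpn : ¬ p ∣ n₀) {π : Eis3} (hπ : π.norm = p) {m : ℕ} (hm : m ≠ 0) :
    (d.c π : ℂ) * liftCoefP d m = liftCoefP d (p * m) +
        (if p ∣ m then liftCoefP d (m / p) else 0) ∧
      (d.c π : ℂ) * liftCoefM d m = liftCoefM d (p * m) +
        (if p ∣ m then liftCoefM d (m / p) else 0) := by
  have : Fact p.Prime := ⟨hp⟩
  have hpos : (0 : ℝ) < p := Nat.cast_pos.mpr hp.pos
  have hm0 : 0 < m := Nat.pos_of_ne_zero hm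
  have hiff : (p : ℤ) ∣ ((3 * m : ℕ) : ℤ) ↔ p ∣ m := by
    rw [Int.natCast_dvd_natCast, hp.dvd_mul]
    exact or_iff_right fun h => hp3 ((Nat.prime_dvd_prime_iff_eq hp Nat.prime_three).mp h)
  have hdiv : p ∣ m → ((3 * m : ℕ) : ℤ) / (p : ℤ) = ((3 * (m / p) : ℕ) : ℤ) ∧ 0 < m / p ∧
      (-((3 * m : ℕ) : ℤ)) / (p : ℤ) = -((3 * (m / p) : ℕ) : ℤ) := fun h => by
    have h0 : ((3 * m : ℕ) : ℤ) / (p : ℤ) = ((3 * (m / p) : ℕ) : ℤ) := by
      rw [← Int.natCast_div, Nat.mul_div_assoc _ h]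
    refine ⟨h0, Nat.div_pos (Nat.le_of_dvd hm0 h) hp.pos, ?_⟩
    rw [Int.neg_ediv_of_dvd (hiff.mpr h), h0]
  have e3 : (p : ℤ) * ((3 * m : ℕ) : ℤ) = ((3 * (p * m) : ℕ) : ℤ) := by push_cast; ring
  constructor
  · have h := hecke_shellInt d (dvd_liftLevel n₀) hπ hp3 hpn ((3 * m : ℕ) : ℤ) one_pos
    rw [e3, shellInt_pos d (by positivity) one_pos,
      shellInt_pos d (by positivity [hp.pos]) (div_pos one_pos hpos)] at h
    simp only [liftCoefP]
    rw [mul_left_comm, h, mul_add]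
    congr 1
    by_cases hd : p ∣ m
    · rw [if_pos hd, if_pos (hiff.mpr hd), (hdiv hd).1,
        shellInt_pos d (by have := (hdiv hd).2.1; positivity) (mul_pos one_pos hpos)]
    · rw [if_neg hd, if_neg (mt hiff.mp hd), mul_zero]
  · have h := hecke_shellInt d (dvd_liftLevel n₀) hπ hp3 hpn (-((3 * m : ℕ) : ℤ)) one_pos
    have hpm : 0 < p * m := Nat.mul_pos hp.pos hm0
    rw [mul_neg, e3, shellInt_neg d (by simp; omega) one_pos,
      shellInt_neg d (by simp; omega) (div_pos one_pos hpos)] at h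
    set x : ℝ := 4 * Real.pi * (3 * (m : ℝ)) with hx
    have hE : ((expInt x : ℝ) : ℂ) ≠ 0 := by
      have hx0 : 0 < x := by rw [hx]; positivity
      exact Complex.ofReal_ne_zero.mpr
        (lt_of_lt_of_le (by positivity) (expInt_ge hx0)).ne'
    rw [show 4 * Real.pi * 1 * -((-((3 * m : ℕ) : ℤ) : ℤ) : ℝ) = x by rw [hx]; push_cast; ring,
      show 4 * Real.pi * (1 / (p : ℝ)) * -((-((3 * (p * m) : ℕ) : ℤ) : ℤ) : ℝ) = x by
        rw [hx]; push_cast; field_simp] at h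
    refine mul_right_cancel₀ hE ?_
    simp only [liftCoefM]
    by_cases hd : p ∣ m
    · obtain ⟨-, hq0, hq⟩ := hdiv hd
      rw [if_pos (Int.dvd_neg.mpr (hiff.mpr hd)), hq,
        shellInt_neg d (by simp; omega) (mul_pos one_pos hpos),
        show 4 * Real.pi * (1 * (p : ℝ)) * -((-((3 * (m / p) : ℕ) : ℤ) : ℤ) : ℝ) = x by
          have hpm' : ((m / p : ℕ) : ℝ) * p = m := by
            exact_mod_cast Nat.div_mul_cancel hd
          rw [hx]; generalize m / p = k at hpm' ⊢; push_cast;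
          linear_combination (12 * Real.pi) * hpm'] at h
      rw [if_pos hd]
      linear_combination famConst 1 zeroIdx * h
    · rw [if_neg (fun h' => hd (hiff.mp (Int.dvd_neg.mp h')))] at h
      rw [if_neg hd]
      linear_combination famConst 1 zeroIdx * h

end Fermat.Agent.ResidualThree
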