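import Fermat.Agent.ResidualThree.ThetaLift.OrbitOne

/-!
# The first coefficient of the lift and the period

Unfolding along the single orbit shows that the plane period of index `3` is a nonzero multiple
of the period of the datum over the real plane, so the lift does not vanish.
-/

noncomputable section

open MeasureTheory Matrix CongruenceSubgroup Filter
open scoped ENNReal MatrixGroups ModularGroup

namespace Fermat.Agent.ResidualThree

local notation "Γℚ" => (AlgebraicClosure ℚ ≃ₐ[ℚ] AlgebraicClosure ℚ)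

/-- The forms of index one in the support of the phase. -/
abbrev OneIdx (n₀ : ℕ) : Type := {i : Shell 3 // liftPhase (3 * n₀) i.1 ≠ 0}

variable {n₀ : ℕ} [NeZero n₀]

/-- A transporter from the base form. -/
def oneRep (i : OneIdx n₀) : GL (Fin 2) ℂ := (exists_smul_base i.1.2 i.2).choose

theorem oneRep_mem (i : OneIdx n₀) : oneRep i ∈ gammaZeroK n₀ :=
  (exists_smul_base i.1.2 i.2).choose_spec.1

theorem oneRep_smul (i : OneIdx n₀) : oneRep i • HermIdx.vec baseIdx = HermIdx.vec i.1.1 :=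
  (exists_smul_base i.1.2 i.2).choose_spec.2

omit [NeZero n₀] in
theorem liftPhase_baseIdx : liftPhase (3 * n₀) baseIdx = 1 := by
  simp [liftPhase, baseIdx]

theorem fix_base (h : SL(2, ℤ)) (k : Fin 3) :
    (slToGLC h * scalarK k) • HermIdx.vec baseIdx = HermIdx.vec baseIdx := by
  have hd : (h 0 0 : ℂ) * (h 1 1 : ℂ) - (h 0 1 : ℂ) * (h 1 0 : ℂ) = 1 := by
    have h' := h.det_coe
    rw [det_fin_two] at h'
    exact_mod_cast h'
  set w := (omegaPow k).toC
  have hω : w * (starRingEnd ℂ) w = 1 := by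
    rw [Complex.mul_conj, Eis3.normSq_toC, norm_omegaPow]; simp
  refine HermVec.toHerm_injective ?_
  rw [HermVec.toHerm_smul, Units.val_mul, slToGLC_coe, coe_scalarK]
  ext a b
  fin_cases a <;> fin_cases b <;>
    simp [HermVec.toHerm, HermIdx.vec, baseIdx, Matrix.mul_apply, Fin.sum_univ_two,
      ← Eis3.sqrtNegThree_eq, conj_sqrtNegThree]
  · ring
  · linear_combination (sqrtNegThree * ((h 0 0 : ℂ) * h 1 1 - (h 0 1 : ℂ) * h 1 0)) * hω +
      sqrtNegThree * hd
  · linear_combination (-(sqrtNegThree * ((h 0 0 : ℂ) * h 1 1 - (h 0 1 : ℂ) * h 1 0))) * hω -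
      sqrtNegThree * hd
  · ring

theorem scalarK_smul (k : Fin 3) (q : H3) : scalarK k • q = q :=
  H3.smul_of_scalar (c := (omegaPow k).toC) (coe_scalarK k) q

/-- The decomposition of the group along the orbit. -/
def oneMap (x : (OneIdx n₀ × Fin 3) × Gamma0 n₀) : gammaZeroK n₀ :=
  ⟨oneRep x.1.1 * (slToGLC (x.2 : SL(2, ℤ)) * scalarK x.1.2),
    mul_mem (oneRep_mem _) (mul_mem (slToGLC_mem x.2.2) (scalarK_mem _ _))⟩

/-- The decomposition of `Γ₀(n₀)` along the orbit of the base form. -/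
theorem oneMap_bijective : Function.Bijective (oneMap (n₀ := n₀)) := by
  constructor
  · rintro ⟨⟨i, k⟩, h⟩ ⟨⟨j, l⟩, h'⟩ he
    have he' : oneRep i * (slToGLC (h : SL(2, ℤ)) * scalarK k) =
        oneRep j * (slToGLC (h' : SL(2, ℤ)) * scalarK l) := congrArg Subtype.val he
    have hv := congrArg (fun g : GL (Fin 2) ℂ => g • HermIdx.vec baseIdx) he'
    simp only [mul_smul (oneRep _), fix_base, oneRep_smul] at hv
    obtain rfl : i = j := Subtype.ext (Subtype.ext (HermIdx.vec_injective hv))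
    have h2 := congrArg (fun g : GL (Fin 2) ℂ => (g : Matrix (Fin 2) (Fin 2) ℂ))
      (mul_left_cancel he')
    simp only [Units.val_mul, coe_scalarK, Matrix.mul_smul, mul_one, slToGLC_coe] at h2
    have hent : ∀ a b, Eis3.mul (omegaPow k) (((h : SL(2, ℤ)) a b : ℤ), 0) =
        Eis3.mul (omegaPow l) (((h' : SL(2, ℤ)) a b : ℤ), 0) := by
      intro a b
      refine Eis3.toC_injective ?_
      rw [Eis3.toC_mul, Eis3.toC_mul, Eis3.toC_intCast, Eis3.toC_intCast]
      have := congrArg (fun M : Matrix (Fin 2) (Fin 2) ℂ => M a b) h2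
      fin_cases a <;> fin_cases b <;> simpa using this
    obtain ⟨a, b, hab⟩ : ∃ a b, ((h' : SL(2, ℤ)) a b : ℤ) ≠ 0 := by
      by_contra hcon
      push Not at hcon
      have hd := (h' : SL(2, ℤ)).det_coe
      rw [det_fin_two, hcon, hcon] at hd
      simp [hcon] at hd
    have hz : ∃ z, Eis3.mul (Eis3.bar (omegaPow k)) (omegaPow l) = (z, 0) := by
      set z := Eis3.mul (Eis3.bar (omegaPow k)) (omegaPow l) with hz
      have h3 : Eis3.mul z (((h' : SL(2, ℤ)) a b : ℤ), 0) = (((h : SL(2, ℤ)) a b : ℤ), 0) := by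
        rw [hz, Eis3.mul_assoc, ← hent a b, ← Eis3.mul_assoc, Eis3.mul_comm (Eis3.bar _),
          Eis3.exists_inv_of_norm_one (norm_omegaPow k), Eis3.one_mul]
      have h4 := congrArg Prod.snd h3
      simp only [Eis3.mul, mul_zero, sub_zero, zero_add] at h4
      exact ⟨z.1, Prod.ext rfl ((mul_eq_zero.mp h4).resolve_right hab)⟩
    obtain rfl : k = l := omegaPow_real hz.choose_spec
    have hω : omegaPow k ≠ (0, 0) := by fin_cases k <;> simp [omegaPow]
    obtain rfl : h = h' := Subtype.ext (Subtype.ext (Matrix.ext fun a b =>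
      congrArg Prod.fst (Eis3.mul_left_cancel hω (hent a b))))
    rfl
  · rintro ⟨g, hg⟩
    set g' : integralK := ⟨g, hg.1⟩
    have hq : HermIdx.q (g' • baseIdx) = 3 := by rw [HermIdx.q_smul]; rfl
    have hφ : liftPhase (3 * n₀) (g' • baseIdx) ≠ 0 := by
      rw [liftPhase_smul g' hg, liftPhase_baseIdx]; exact one_ne_zero
    set i : OneIdx n₀ := ⟨⟨g' • baseIdx, hq⟩, hφ⟩
    have hfix : ((oneRep i)⁻¹ * g) • HermIdx.vec baseIdx = HermIdx.vec baseIdx := by
      rw [mul_smul, inv_smul_eq_iff, oneRep_smul]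
      exact (HermIdx.vec_smul g' baseIdx).symm
    obtain ⟨k, γ, hγ, he⟩ := exists_of_fix (mul_mem (inv_mem (oneRep_mem i)) hg) hfix
    exact ⟨((i, k), ⟨γ, hγ⟩), Subtype.ext (show oneRep i * (slToGLC γ * scalarK k) = g by
      rw [← he, mul_inv_cancel_left])⟩

/-- The weight on the real plane. -/
def oneWeight (n₀ N : ℕ) [NeZero n₀] (t : UpperHalfPlane) : ℝ≥0∞ :=
  ∑' i : OneIdx n₀, weightK N (oneRep i • toH3 t)

/-- The weight on the real plane sums to a constant over each orbit of `Γ₀(n₀)`. -/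
theorem exists_oneWeight (N : ℕ) [NeZero N] (hN : n₀ ∣ N) :
    ∃ m : ℕ, 0 < m ∧ ∀ t : UpperHalfPlane,
      ∑' h : Gamma0 n₀, oneWeight n₀ N ((h : SL(2, ℤ)) • t) = (m : ℝ≥0∞) / 3 := by
  obtain ⟨m, hm, hW⟩ := exists_isOrbitWeight_of_le (L := N) (principalK_le_gammaZero hN)
    (gammaZeroK_le n₀)
  refine ⟨m, hm, fun t => ?_⟩
  rw [ENNReal.eq_div_iff (by norm_num) (by norm_num), ← hW.sum_eq (toH3 t),
    ← (Equiv.ofBijective _ oneMap_bijective).tsum_eq (fun g : gammaZeroK n₀ =>
      weightK N (g • toH3 t))]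
  have hval : ∀ x : (OneIdx n₀ × Fin 3) × Gamma0 n₀,
      weightK N (oneMap x • toH3 t) = weightK N (oneRep x.1.1 • toH3 ((x.2 : SL(2, ℤ)) • t)) := by
    intro x
    show weightK N ((oneRep x.1.1 * (slToGLC (x.2 : SL(2, ℤ)) * scalarK x.1.2)) • toH3 t) = _
    rw [mul_smul, mul_smul, scalarK_smul, toH3_smul]
  simp only [Equiv.ofBijective_apply, hval, oneWeight]
  rw [ENNReal.tsum_prod', ENNReal.tsum_prod']
  simp only [tsum_fintype, Finset.sum_const, Finset.card_univ, Fintype.card_fin, nsmul_eq_mul,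
    ENNReal.tsum_mul_left]
  rw [ENNReal.tsum_comm]
  norm_num
where
  principalK_le_gammaZero {N : ℕ} (hN : n₀ ∣ N) : principalK N ≤ gammaZeroK n₀ := by
    intro g hg
    refine ⟨hg.1, ?_⟩
    have h1 := (principalK_anti hN hg).2 1 0
    simp [Eis3.red] at h1
    obtain ⟨⟨a, ha⟩, ⟨b, hb⟩⟩ := And.intro ((ZMod.intCast_zmod_eq_zero_iff_dvd _ n₀).mp h1.1)
      ((ZMod.intCast_zmod_eq_zero_iff_dvd _ n₀).mp h1.2)
    refine ⟨(a, b), ?_⟩
    simp only [Eis3.mul]
    ext <;> simp [ha, hb]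

omit [NeZero n₀] in
/-- The decomposition of the modular group into cosets. -/
theorem slTwoSplit_bijective :
    Function.Bijective (fun qh : (SL(2, ℤ) ⧸ Gamma0 n₀) × Gamma0 n₀ =>
      (qh.2 : SL(2, ℤ)) * qh.1.out⁻¹) := by
  constructor
  · rintro ⟨q, h⟩ ⟨q', h'⟩ hqq
    replace hqq : (h : SL(2, ℤ)) * q.out⁻¹ = (h' : SL(2, ℤ)) * q'.out⁻¹ := hqq
    have h1 := congrArg (fun g : SL(2, ℤ) => ((g⁻¹ : SL(2, ℤ)) : SL(2, ℤ) ⧸ Gamma0 n₀)) hqq
    simp only [_root_.mul_inv_rev, inv_inv, QuotientGroup.mk_mul_of_mem _ (inv_mem h.2),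
      QuotientGroup.mk_mul_of_mem _ (inv_mem h'.2), QuotientGroup.out_eq'] at h1
    subst h1
    exact Prod.ext rfl (Subtype.ext (mul_right_cancel hqq))
  · intro g
    obtain ⟨h, hh⟩ := QuotientGroup.mk_out_eq_mul (Gamma0 n₀) g⁻¹
    refine ⟨(((g⁻¹ : SL(2, ℤ)) : SL(2, ℤ) ⧸ Gamma0 n₀), h), ?_⟩
    show (h : SL(2, ℤ)) * (((g⁻¹ : SL(2, ℤ)) : SL(2, ℤ) ⧸ Gamma0 n₀)).out⁻¹ = g
    rw [hh, _root_.mul_inv_rev, inv_inv, mul_inv_cancel_left]

/-- The period over the plane of a form of index one, pulled back to the upper half-plane. -/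
theorem integral_planeMeasure_oneIdx {ρ : Γℚ →* GL (Fin 2) (ZMod 3)} (d : BianchiDatum ρ n₀)
    {N : ℕ} [NeZero N] (i : OneIdx n₀) :
    ∫ q, ((weightK N q).toReal : ℂ) * d.F q ∂HermVec.planeMeasure (HermIdx.vec i.1.1) =
      ∫ t, ((weightK N (oneRep i • toH3 t)).toReal : ℂ) * d.F (toH3 t) := by
  have hg : HermVec.IsPlaneGL (oneRep i) (HermIdx.vec i.1.1) := by
    refine ⟨(Real.sqrt 3)⁻¹, inv_ne_zero (by positivity), ?_⟩
    rw [← oneRep_smul, ← HermVec.smul_real_smul]
    congr 1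
    refine HermVec.toHerm_injective ?_
    rw [HermVec.toHerm_real_smul]
    have hI : ((Real.sqrt 3)⁻¹ : ℝ) * sqrtNegThree = Complex.I := by
      have h3 : Real.sqrt 3 ≠ 0 := by positivity
      apply Complex.ext <;> simp [sqrtNegThree_re, sqrtNegThree_im]
      field_simp
      simp
    ext a b
    fin_cases a <;> fin_cases b <;>
      simp [HermVec.toHerm, HermVec.realPlaneVec, HermIdx.vec, baseIdx, ← Eis3.sqrtNegThree_eq,
        conj_sqrtNegThree, ← hI]
  have hqm : ∀ μ : Measure H3,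
      AEStronglyMeasurable (fun q : H3 => ((weightK N q).toReal : ℂ) * d.F q) μ := fun μ =>
    ((Complex.continuous_ofReal.measurable.comp measurable_weightK.ennreal_toReal).mul
      d.continuous.measurable).aestronglyMeasurable
  rw [HermVec.planeMeasure_eq hg,
    integral_map (HermVec.measurable_planeMap _).aemeasurable (hqm _)]
  refine integral_congr_ae (Eventually.of_forall fun t => ?_)
  show ((weightK N (oneRep i • toH3 t)).toReal : ℂ) * d.F (oneRep i • toH3 t) = _
  rw [d.invariant _ (isBianchiGamma0_of_gammaZeroK (oneRep_mem i))]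

/-- **The first coefficient of the lift does not vanish.** -/
theorem planePeriod_three_ne_zero {ρ : Γℚ →* GL (Fin 2) (ZMod 3)} (d : BianchiDatum ρ n₀)
    (hP : period d.F n₀ ≠ 0) {N : ℕ} [NeZero N] (hN : n₀ ∣ N) :
    planePeriod N d.F (liftPhase (3 * n₀)) 3 ≠ 0 := by
  classical
  obtain ⟨m, hm, hW⟩ := exists_oneWeight (n₀ := n₀) N hN
  obtain ⟨B, hB0, hB⟩ := (d.isCuspFun hN).bounded
  have := Fintype.ofFinite (SL(2, ℤ) ⧸ Gamma0 n₀)
  set c : ℝ≥0∞ := (m : ℝ≥0∞) / 3
  have hctop : c ≠ ∞ := ENNReal.div_ne_top (ENNReal.natCast_ne_top m) (by norm_num)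
  set F0 : UpperHalfPlane → ℂ := fun t => d.F (toH3 t)
  have hF0c : Continuous F0 := d.continuous.comp continuous_toH3
  have hF0 : ∀ (h : Gamma0 n₀) (t : UpperHalfPlane), F0 ((h : SL(2, ℤ)) • t) = F0 t := fun h t => by
    show d.F _ = d.F _
    rw [toH3_smul]
    exact d.invariant _ (isBianchiGamma0_slToGLC h.2) _
  -- measurability of the weights
  have hwm : ∀ i : OneIdx n₀, Measurable fun t => weightK N (oneRep i • toH3 t) := fun i =>
    measurable_weightK.comp ((H3.continuous_smul_gl _).comp continuous_toH3).measurable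
  have hWm : Measurable (oneWeight n₀ N) := Measurable.tsum hwm
  -- finiteness
  have hall : ∀ t : UpperHalfPlane, ∑' g : SL(2, ℤ), oneWeight n₀ N (g • t) =
      (Fintype.card (SL(2, ℤ) ⧸ Gamma0 n₀) : ℝ≥0∞) * c := fun t => by
    rw [← (Equiv.ofBijective _ (slTwoSplit_bijective (n₀ := n₀))).tsum_eq, ENNReal.tsum_prod']
    simp only [Equiv.ofBijective_apply, mul_smul, hW, tsum_fintype, Finset.sum_const,
      Finset.card_univ, nsmul_eq_mul]
  have hWfin : ∫⁻ t, oneWeight n₀ N t ≠ ∞ := by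
    intro hinf
    have h := lintegral_fd_tsum hWm
    have hWg : ∀ g : SL(2, ℤ), AEMeasurable (fun t : UpperHalfPlane => oneWeight n₀ N (g • t))
        ((volume : Measure UpperHalfPlane).restrict ModularGroup.fd) :=
      fun g => (hWm.comp (Hecke.Pet.measurePreserving_sl g).measurable).aemeasurable
    rw [← lintegral_tsum (f := fun (g : SL(2, ℤ)) t => oneWeight n₀ N (g • t)) hWg,
      hinf, ENNReal.mul_top two_ne_zero] at h
    simp only [hall, setLIntegral_const] at h
    exact ENNReal.mul_ne_top (ENNReal.mul_ne_top (ENNReal.natCast_ne_top _) hctop)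
      Hecke.Pet.volume_fd_lt_top.ne h
  have hfinite : ∀ᵐ t : UpperHalfPlane, oneWeight n₀ N t < ∞ := ae_lt_top hWm hWfin
  -- the term attached to a form
  set T : OneIdx n₀ → UpperHalfPlane → ℂ := fun i t =>
    ((weightK N (oneRep i • toH3 t)).toReal : ℂ) * F0 t with hT
  have hterm : ∀ i : OneIdx n₀, ∫ q, ((weightK N q).toReal : ℂ) * d.F q
      ∂HermVec.planeMeasure (HermIdx.vec i.1.1) = ∫ t, T i t := integral_planeMeasure_oneIdx d
  have hTm : ∀ i, Measurable (T i) := fun i =>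
    (Complex.continuous_ofReal.measurable.comp (hwm i).ennreal_toReal).mul hF0c.measurable
  have hTle : ∀ i t, ‖T i t‖ₑ ≤ weightK N (oneRep i • toH3 t) * ENNReal.ofReal B := fun i t => by
    rw [← ofReal_norm, hT, norm_mul, Complex.norm_real, Real.norm_eq_abs,
      abs_of_nonneg ENNReal.toReal_nonneg, ENNReal.ofReal_mul ENNReal.toReal_nonneg]
    exact mul_le_mul' ENNReal.ofReal_toReal_le (ENNReal.ofReal_le_ofReal (hB _))
  have hTfin : ∑' i, ∫⁻ t, ‖T i t‖ₑ ≠ ∞ := by
    refine ne_top_of_le_ne_top (ENNReal.mul_ne_top hWfin (ENNReal.ofReal_ne_top (r := B))) ?_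
    rw [← lintegral_mul_const _ hWm, ← lintegral_tsum fun i => (hTm i).enorm.aemeasurable]
    refine lintegral_mono fun t => ?_
    rw [oneWeight, ← ENNReal.tsum_mul_right]
    exact ENNReal.tsum_le_tsum fun i => hTle i t
  -- the period as an integral
  set f : UpperHalfPlane → ℂ := fun t => ((oneWeight n₀ N t).toReal : ℂ) * F0 t with hf
  have hfm : Measurable f :=
    (Complex.continuous_ofReal.measurable.comp hWm.ennreal_toReal).mul hF0c.measurable
  have hplane : planePeriod N d.F (liftPhase (3 * n₀)) 3 = ∫ t, f t := by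
    rw [planePeriod, ← Function.Injective.tsum_eq (g := fun i : OneIdx n₀ => i.1)
      Subtype.val_injective (fun i hi => ⟨⟨i, fun h0 => hi (by simp [h0])⟩, rfl⟩)]
    have h1 : ∀ i : OneIdx n₀, liftPhase (3 * n₀) i.1.1 = 1 := fun i => by
      have h := i.2
      simp only [liftPhase] at h ⊢
      split_ifs at h ⊢ <;> simp_all
    simp only [h1, one_mul, hterm]
    rw [← integral_tsum (fun i => (hTm i).aestronglyMeasurable) hTfin]
    refine integral_congr_ae ?_
    filter_upwards [hfinite] with t ht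
    simp only [hf, hT, oneWeight]
    rw [tsum_mul_right, ← Complex.ofReal_tsum, ENNReal.tsum_toReal_eq fun i => ?_]
    exact ne_top_of_le_ne_top ht.ne (ENNReal.le_tsum i)
  -- unfolding
  have hfg : ∀ (g : SL(2, ℤ)) (t : UpperHalfPlane), ‖f (g • t)‖ₑ ≤
      oneWeight n₀ N (g • t) * ENNReal.ofReal B := fun g t => by
    rw [← ofReal_norm, hf, norm_mul, Complex.norm_real, Real.norm_eq_abs,
      abs_of_nonneg ENNReal.toReal_nonneg, ENNReal.ofReal_mul ENNReal.toReal_nonneg]
    exact mul_le_mul' ENNReal.ofReal_toReal_le (ENNReal.ofReal_le_ofReal (hB _))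
  have hfin : ∑' g : SL(2, ℤ), ∫⁻ t in (ModularGroup.fd : Set UpperHalfPlane),
      ‖f (g • t)‖ₑ ≠ ∞ := by
    refine ne_top_of_le_ne_top (ENNReal.mul_ne_top (ENNReal.mul_ne_top
      (ENNReal.ofNat_ne_top (n := 2)) hWfin)
      (ENNReal.ofReal_ne_top (r := B))) ?_
    rw [← lintegral_fd_tsum hWm, ← ENNReal.tsum_mul_right]
    refine ENNReal.tsum_le_tsum fun g => ?_
    have hWg : Measurable fun t : UpperHalfPlane => oneWeight n₀ N (g • t) :=
      hWm.comp (Hecke.Pet.measurePreserving_sl g).measurable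
    rw [← lintegral_mul_const _ hWg]
    exact lintegral_mono fun t => hfg g t
  have hpt : ∀ t : UpperHalfPlane, ∑' g : SL(2, ℤ), f (g • t) =
      (c.toReal : ℂ) * ∑ q : SL(2, ℤ) ⧸ Gamma0 n₀, F0 (q.out⁻¹ • t) := by
    intro t
    let e : (SL(2, ℤ) ⧸ Gamma0 n₀) × Gamma0 n₀ → SL(2, ℤ) :=
      fun qh => (qh.2 : SL(2, ℤ)) * qh.1.out⁻¹
    have he : Function.Bijective e := slTwoSplit_bijective
    have hsfin : ∀ s : UpperHalfPlane, ∀ h : Gamma0 n₀, oneWeight n₀ N ((h : SL(2, ℤ)) • s) ≠ ∞ :=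
      fun s h => ne_top_of_le_ne_top hctop ((ENNReal.le_tsum h).trans_eq (hW s))
    have hfs : Summable fun g : SL(2, ℤ) => f (g • t) := by
      refine Summable.of_norm ?_
      refine Summable.of_nonneg_of_le (fun _ => norm_nonneg _) (fun g => ?_)
        ((ENNReal.summable_toReal (f := fun g : SL(2, ℤ) => oneWeight n₀ N (g • t))
          (by rw [hall]; exact ENNReal.mul_ne_top (ENNReal.natCast_ne_top _) hctop)).mul_right B)
      rw [hf, norm_mul, Complex.norm_real, Real.norm_eq_abs, abs_of_nonneg ENNReal.toReal_nonneg]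
      exact mul_le_mul_of_nonneg_left (hB _) ENNReal.toReal_nonneg
    have hse : Summable fun qh => f (e qh • t) := ((Equiv.ofBijective e he).summable_iff.mpr hfs :)
    rw [← (Equiv.ofBijective e he).tsum_eq]
    simp only [Equiv.ofBijective_apply]
    rw [hse.tsum_prod, tsum_fintype, Finset.mul_sum]
    refine Finset.sum_congr rfl fun q _ => ?_
    simp only [e, mul_smul, hf, hF0]
    rw [tsum_mul_right, ← Complex.ofReal_tsum]
    congr 2
    rw [← ENNReal.tsum_toReal_eq (hsfin _), hW]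
  have hunfold := (integral_fd_tsum hfm hfin).2
  rw [hplane]
  intro h0
  rw [h0, mul_zero] at hunfold
  simp only [hpt] at hunfold
  have : IsFiniteMeasure ((volume : Measure UpperHalfPlane).restrict ModularGroup.fd) :=
    ⟨by rw [Measure.restrict_apply_univ]; exact Hecke.Pet.volume_fd_lt_top⟩
  have hint : ∀ q ∈ (Finset.univ : Finset (SL(2, ℤ) ⧸ Gamma0 n₀)),
      Integrable (fun t => F0 (q.out⁻¹ • t))
        ((volume : Measure UpperHalfPlane).restrict ModularGroup.fd) := fun q _ =>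
    Integrable.of_bound ((hF0c.measurable.comp
      (Hecke.Pet.measurePreserving_sl _).measurable).aestronglyMeasurable) B
      (Eventually.of_forall fun t => hB _)
  rw [integral_const_mul, integral_finsetSum _ hint] at hunfold
  refine hP ?_
  rw [period, finsum_eq_sum_of_fintype]
  refine (mul_eq_zero.mp hunfold).resolve_left (Complex.ofReal_ne_zero.mpr ?_)
  refine (ENNReal.toReal_pos (ENNReal.div_ne_zero.mpr ⟨?_, by norm_num⟩) hctop).ne'
  exact Nat.cast_ne_zero.mpr hm.ne'

end Fermat.Agent.ResidualThree
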