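import Fermat.Agent.ResidualThree.Asai.Main
import Fermat.Agent.ResidualThree.ThetaLift.LiftForm
import Fermat.Agent.ResidualThree.ThetaLift.PeriodOne

/-!
# The quadratic descent

The lift of level `3 n₀` has an expansion with holomorphic and antiholomorphic coefficients; either
the latter vanish and the lift is a cusp form, or their conjugates are those of a cusp form.
`strongWeightOne_of_datum` records in addition the lifted traces where `ρ ^ 4 = 1`.
-/

noncomputable section

open Matrix CongruenceSubgroup EisensteinWeightOne UpperHalfPlane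
open scoped ComplexConjugate MatrixGroups ModularForm Manifold

namespace Fermat.Agent.ResidualThree

local notation "Γℚ" => (AlgebraicClosure ℚ ≃ₐ[ℚ] AlgebraicClosure ℚ)

theorem conj_chiC (d : ℤ) : conj (chiC d) = chiC d := by simp [chiC]

theorem chiC_eq_one_of_mem_Gamma1 {D : ℕ} (h3 : 3 ∣ D) {γ : SL(2, ℤ)} (hγ : γ ∈ Gamma1 D) :
    γ ∈ Gamma0 D ∧ chiC (γ 1 1) = 1 := by
  obtain ⟨-, hd, hc⟩ := (Gamma1_mem D γ).mp hγ
  refine ⟨Gamma0_mem.mpr hc, ?_⟩
  rw [← chiC_one]
  refine chiC_congr_emod ?_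
  have h1 : (3 : ℤ) ∣ γ 1 1 - 1 := (Int.natCast_dvd_natCast.mpr h3).trans
    ((ZMod.intCast_zmod_eq_zero_iff_dvd _ D).mp (by push_cast; rw [hd, sub_self]))
  omega

/-- A series with the right properties gives the data of weight one, with exact traces. -/
theorem strongWeightOne_of_series {ρ : Γℚ →* GL (Fin 2) (ZMod 3)} {n₀ : ℕ} [NeZero n₀]
    (d : BianchiDatum ρ n₀) (coef : ℕ → ℂ) (h0 : coef 0 = 0)
    (hsub : IsSubExp fun m => coef (m + 1)) (hne : (fun m => coef (m + 1)) ≠ 0)
    (hslash : ∀ γ : SL(2, ℤ), γ ∈ Gamma0 (3 * n₀) →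
      (fun τ : ℍ => posSeries 1 (fun m => coef (m + 1)) τ) ∣[(1 : ℤ)] γ =
        chiC (γ 1 1) • fun τ : ℍ => posSeries 1 (fun m => coef (m + 1)) τ)
    (hzero : ∀ γ : SL(2, ℤ),
      IsZeroAtImInfty ((fun τ : ℍ => posSeries 1 (fun m => coef (m + 1)) τ) ∣[(1 : ℤ)] γ))
    (hhecke : ∀ (p : ℕ) (π : Eis3), p.Prime → p ≠ 3 → ¬ p ∣ n₀ → π.norm = p → ∀ m : ℕ, m ≠ 0 →
      (d.c π : ℂ) * coef m = coef (p * m) + if p ∣ m then coef (m / p) else 0) :
    StrongWeightOne ρ (3 * n₀) := by
  set f : ℍ → ℂ := fun τ => posSeries 1 (fun m => coef (m + 1)) τ with hf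
  let g : CuspForm (Gamma1 (3 * n₀)) 1 :=
    { toFun := f
      slash_action_eq' := by
        rintro _ ⟨γ, hγ, rfl⟩
        obtain ⟨h1, h2⟩ := chiC_eq_one_of_mem_Gamma1 (dvd_mul_right 3 n₀) hγ
        show f ∣[(1 : ℤ)] γ = f
        rw [hslash γ h1, h2, one_smul]
      holo' := mdiff_posSeries one_pos hsub
      zero_at_cusps' := by
        intro c hc
        rw [Subgroup.IsArithmetic.isCusp_iff_isCusp_SL2Z, isCusp_SL2Z_iff'] at hc
        obtain ⟨γ, rfl⟩ := hc
        rw [OnePoint.IsZeroAt.smul_iff, OnePoint.isZeroAt_infty_iff]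
        exact hzero γ }
  have hcoe : ⇑g = f := rfl
  have hq : ∀ n, ModularFormClass.qCoeff g n = coef n := by
    intro n
    rw [ModularFormClass.qCoeff, hcoe, Eis.qExpansion_eq_of_hasSum one_pos (PowerSeries.mk coef)
      (fun τ => ?_), PowerSeries.coeff_mk]
    refine (hasSum_posSeries one_pos hsub τ).congr_fun fun m => ?_
    rcases Nat.eq_zero_or_pos m with rfl | hm
    · simp [h0]
    · rw [if_neg hm.ne', PowerSeries.coeff_mk, Nat.sub_add_cancel hm]
  refine ⟨g, fun hg => hne (posSeries_eq_zero one_pos hsub fun τ => ?_),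
    fun γ hγ => (hslash γ hγ).trans (by rw [chiNegThree_toNat]; rfl), d.S ∪ (3 * n₀).primeFactors,
    fun p hp hpS hp1 => ?_⟩
  · show f τ = 0
    rw [← hcoe, hg]
    rfl
  · rw [Finset.mem_union, not_or] at hpS
    have hp3 : p ≠ 3 := by omega
    have hpn : ¬ p ∣ n₀ := fun h => hpS.2 (Nat.mem_primeFactors.mpr
      ⟨hp, h.mul_left 3, mul_ne_zero three_ne_zero (NeZero.ne n₀)⟩)
    obtain ⟨π, hπ⟩ := Eis3.exists_norm_eq hp hp1
    refine ⟨d.c π, fun n => ?_, fun A hA σ hσ =>
      (d.c_split p hp hpS.1 hp1 π hπ A hA σ hσ).imp id And.left⟩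
    simp only [hq]
    rcases eq_or_ne n 0 with rfl | hn
    · simp [h0]
    · exact (hhecke p π hp hp3 hpn hπ n hn).symm

/-- **A datum with nonzero period gives weight-one data of level `3 n₀`, with exact traces.** -/
theorem strongWeightOne_of_datum {ρ : Γℚ →* GL (Fin 2) (ZMod 3)} {n₀ : ℕ} [NeZero n₀]
    (d : BianchiDatum ρ n₀) (hP : period d.F n₀ ≠ 0) : StrongWeightOne ρ (3 * n₀) := by
  have hexp := hasHarmExp_thetaLift d
  obtain ⟨hsa, hsb⟩ := hexp.isSubExp one_pos
  have hh : (0 : ℝ) < 3 * ((3 * n₀ : ℕ) : ℝ) ^ 2 := by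
    have := NeZero.pos n₀
    positivity
  have hC : IsCuspFun (3 * (3 * n₀) ^ 2) d.F := d.isCuspFun (dvd_liftLevel n₀)
  -- the expansions at all cusps
  have hcusp : ∀ γ : SL(2, ℤ), ∃ a b : ℕ → ℂ,
      HasHarmExp (3 * ((3 * n₀ : ℕ) : ℝ) ^ 2) (thetaLift (3 * n₀) d.F ∣[(1 : ℤ)] γ) a b ∧
      IsSubExp a ∧ IsSubExp b ∧
      shadow 1 (fun m => liftCoefM d (m + 1)) ∣[(1 : ℤ)] γ =
        shadow (3 * ((3 * n₀ : ℕ) : ℝ) ^ 2) b := fun γ => by
    obtain ⟨a, b, hab⟩ : _ ∈ harmExpSubmodule _ :=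
      thetaLift_slash_mem (D := 3 * n₀) (NeZero.pos n₀) rfl hC d.isEigenFun γ
    obtain ⟨ha, hb⟩ := hab.isSubExp hh
    exact ⟨a, b, hab, ha, hb, shadow_slash one_pos hh hexp γ hab⟩
  by_cases hb0 : (fun m => liftCoefM d (m + 1)) = 0
  · -- the lift is holomorphic
    have hcoef : ∀ m : ℕ, liftCoefP d m = if m = 0 then 0 else liftCoefP d m := fun m => by
      split_ifs with h
      · simp [h, liftCoefP, liftPlus]
      · rfl
    have hf0 : thetaLift (3 * n₀) d.F =
        fun τ : ℍ => posSeries 1 (fun m => liftCoefP d (m + 1)) τ := by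
      funext τ
      rw [hexp.eq_series, hb0]
      simp [negSeries]
    refine strongWeightOne_of_series d (liftCoefP d) (by simpa using hcoef 0) hsa (fun h => ?_)
      (fun γ hγ => by rw [← hf0]; exact thetaLift_slash (dvd_mul_right 3 n₀) hγ) (fun γ => ?_)
      (fun p π hp hp3 hpn hπ m hm => (hecke_liftCoef d hp hp3 hpn hπ hm).1)
    · have h1 := congrFun h 0
      simp only [liftCoefP, liftPlus, Pi.zero_apply, mul_eq_zero, div_eq_zero_iff, zero_add,
        mul_one, Complex.ofReal_eq_zero] at h1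
      rcases h1 with h1 | h1 | h1
      · exact famConst_ne_zero 1 zeroIdx h1
      · exact planePeriod_three_ne_zero d hP (dvd_liftLevel n₀) h1
      · simp at h1
    · obtain ⟨a, b, hab, ha, hb, hsh⟩ := hcusp γ
      have hz : shadow (3 * ((3 * n₀ : ℕ) : ℝ) ^ 2) b = 0 := by
        rw [← hsh, hb0, show shadow 1 (0 : ℕ → ℂ) = 0 from funext fun τ => by
          simp [shadow, posSeries], SlashAction.zero_slash]
      have hbz := posSeries_eq_zero hh hb.conj (fun τ => congrFun hz τ)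
      have hb' : b = 0 := funext fun m => by simpa using congrFun hbz m
      have he : thetaLift (3 * n₀) d.F ∣[(1 : ℤ)] γ =
          fun τ : ℍ => posSeries (3 * ((3 * n₀ : ℕ) : ℝ) ^ 2) a τ := by
        funext τ
        rw [hab.eq_series, hb']
        simp [negSeries]
      rw [← hf0, he]
      exact isZeroAtImInfty_posSeries hh ha
  · -- the shadow
    refine strongWeightOne_of_series d (fun m => conj (liftCoefM d m))
      (by simp [liftCoefM, liftMinus]) hsb.conj (fun h => hb0 ?_) (fun γ hγ => ?_) (fun γ => ?_)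
      (fun p π hp hp3 hpn hπ m hm => ?_)
    · funext m
      simpa using congrFun h m
    · have hg := hexp.smul (chiC (γ 1 1))
      rw [← thetaLift_slash (dvd_mul_right 3 n₀) hγ] at hg
      refine (shadow_slash one_pos one_pos hexp γ hg).trans ?_
      funext τ
      simp only [shadow, posSeries, Pi.smul_apply, smul_eq_mul, map_mul, conj_chiC, mul_assoc,
        tsum_mul_left]
    · obtain ⟨a, b, hab, ha, hb, hsh⟩ := hcusp γ
      show IsZeroAtImInfty (shadow 1 (fun m => liftCoefM d (m + 1)) ∣[(1 : ℤ)] γ)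
      rw [hsh]
      exact isZeroAtImInfty_posSeries hh hb.conj
    · have h := congrArg conj (hecke_liftCoef d hp hp3 hpn hπ hm).2
      simpa [map_add, map_mul, apply_ite conj] using h

/-- The quadratic descent. -/
theorem quadraticDescent : QuadraticDescent := fun ρ hρ hsurj hdet n₀ hn d => by
  have : NeZero n₀ := ⟨hn.ne'⟩
  exact ⟨0, by simpa using
    (strongWeightOne_of_datum d (period_ne_zero hρ hsurj hdet hn d)).weightOneData, fun _ => rfl⟩

end Fermat.Agent.ResidualThree
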