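import Fermat.Agent.ResidualThree.ThetaLift.TameLift

/-!
# The lifts at the cusps

A lift is a dilate of a member of the family of lifts stable under the modular group, so it has an
expansion at every cusp.
-/

noncomputable section

open MeasureTheory Matrix CongruenceSubgroup
open scoped ComplexConjugate MatrixGroups ModularForm

namespace Fermat.Agent.ResidualThree

open Eis (eChar)

local notation "Γℚ" => (AlgebraicClosure ℚ ≃ₐ[ℚ] AlgebraicClosure ℚ)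
local notation "ℍ'" => UpperHalfPlane

/-! ### Affine substitutions -/

theorem qExp_affine {a d h : ℝ} (ha : a ≠ 0) (hd : d ≠ 0) (hh : h ≠ 0) (b : ℝ) (z : ℂ) (m : ℕ) :
    qExp h (((a : ℂ) * z + (b : ℂ)) / (d : ℂ)) m =
      eChar (b * (m + 1 : ℕ) / (d * h)) * qExp (d * h / a) z m := by
  have ha' : (a : ℂ) ≠ 0 := Complex.ofReal_ne_zero.mpr ha
  have hd' : (d : ℂ) ≠ 0 := Complex.ofReal_ne_zero.mpr hd
  have hh' : (h : ℂ) ≠ 0 := Complex.ofReal_ne_zero.mpr hh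
  rw [qExp, qExp, Eis.eChar, ← Complex.exp_add]
  congr 1
  push_cast
  field_simp
  ring

theorem qExpNeg_affine {a d h : ℝ} (ha : a ≠ 0) (hd : d ≠ 0) (hh : h ≠ 0) (b : ℝ) (z : ℂ) (m : ℕ) :
    qExpNeg h (((a : ℂ) * z + (b : ℂ)) / (d : ℂ)) m =
      eChar (-(b * (m + 1 : ℕ) / (d * h))) * qExpNeg (d * h / a) z m := by
  have ha' : (a : ℂ) ≠ 0 := Complex.ofReal_ne_zero.mpr ha
  have hd' : (d : ℂ) ≠ 0 := Complex.ofReal_ne_zero.mpr hd
  have hh' : (h : ℂ) ≠ 0 := Complex.ofReal_ne_zero.mpr hh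
  have e : 4 * Real.pi * (((a : ℂ) * z + (b : ℂ)) / (d : ℂ)).im * (m + 1 : ℕ) / h =
      4 * Real.pi * z.im * (m + 1 : ℕ) / (d * h / a) := by
    simp [Complex.div_ofReal_im]
    field_simp
  rw [qExpNeg, qExpNeg, e, mul_left_comm]
  congr 1
  rw [Eis.eChar, ← Complex.exp_add]
  congr 1
  push_cast
  field_simp
  ring

/-- An expansion after an affine substitution. -/
theorem HasHarmExp.affine {h : ℝ} {f : ℍ' → ℂ} {A B : ℕ → ℂ} (hh : h ≠ 0)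
    (hf : HasHarmExp h f A B) {a d : ℝ} (ha : a ≠ 0) (hd : d ≠ 0) (b : ℝ) (σ : ℍ' → ℍ')
    (hσ : ∀ τ : ℍ', (σ τ : ℂ) = ((a : ℂ) * τ + (b : ℂ)) / (d : ℂ)) :
    HasHarmExp (d * h / a) (fun τ => f (σ τ)) (fun m => A m * eChar (b * (m + 1 : ℕ) / (d * h)))
      (fun m => B m * eChar (-(b * (m + 1 : ℕ) / (d * h)))) := by
  intro τ
  obtain ⟨h1, h2, h3⟩ := hf (σ τ)
  simp only [hσ, qExp_affine ha hd hh, qExpNeg_affine ha hd hh, ← mul_assoc] at h1 h2 h3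
  exact ⟨h1, h2, h3⟩

/-- Hermite normal form: `diag (M, 1) γ` is a unimodular matrix times an upper triangular one with
positive diagonal. -/
theorem exists_upper_decomp {M : ℕ} (hM : 0 < M) (γ : SL(2, ℤ)) :
    ∃ (γ' : SL(2, ℤ)) (a b d : ℤ), 0 < a ∧ 0 < d ∧
      (M : ℤ) * γ 0 0 = γ' 0 0 * a ∧ (M : ℤ) * γ 0 1 = γ' 0 0 * b + γ' 0 1 * d ∧
      γ 1 0 = γ' 1 0 * a ∧ γ 1 1 = γ' 1 0 * b + γ' 1 1 * d := by
  have hdet := γ.det_coe
  rw [Matrix.det_fin_two] at hdet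
  have hM' : (M : ℤ) ≠ 0 := Int.natCast_ne_zero.mpr hM.ne'
  have hg : 0 < Int.gcd ((M : ℤ) * γ 0 0) (γ 1 0) := by
    refine Nat.pos_of_ne_zero fun h => ?_
    obtain ⟨h1, h2⟩ := Int.gcd_eq_zero_iff.mp h
    rw [(mul_eq_zero.mp h1).resolve_left hM', h2] at hdet
    simp at hdet
  obtain ⟨α, hα⟩ := Int.gcd_dvd_left ((M : ℤ) * γ 0 0) (γ 1 0)
  obtain ⟨β, hβ⟩ := Int.gcd_dvd_right ((M : ℤ) * γ 0 0) (γ 1 0)
  have hbez := Int.gcd_eq_gcd_ab ((M : ℤ) * γ 0 0) (γ 1 0)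
  set g : ℤ := ((Int.gcd ((M : ℤ) * γ 0 0) (γ 1 0) : ℕ) : ℤ) with hgdef
  have hg' : 0 < g := by rw [hgdef]; exact_mod_cast hg
  set u := Int.gcdA ((M : ℤ) * γ 0 0) (γ 1 0)
  set v := Int.gcdB ((M : ℤ) * γ 0 0) (γ 1 0)
  have h1 : α * u + β * v = 1 := by
    refine mul_left_cancel₀ hg'.ne' ?_
    rw [mul_one]
    linear_combination -hbez - u * hα - v * hβ
  refine ⟨⟨!![α, -v; β, u], by rw [Matrix.det_fin_two_of]; linear_combination h1⟩, g,
    u * ((M : ℤ) * γ 0 1) + v * γ 1 1, -β * ((M : ℤ) * γ 0 1) + α * γ 1 1, hg', ?_, ?_⟩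
  · have h2 : g * (-β * ((M : ℤ) * γ 0 1) + α * γ 1 1) = M := by
      linear_combination ((M : ℤ) * γ 0 1) * hβ - γ 1 1 * hα + (M : ℤ) * hdet
    exact pos_of_mul_pos_right (by rw [h2]; exact_mod_cast hM) hg'.le
  · simp only [Matrix.of_apply, Matrix.cons_val', Matrix.cons_val_zero, Matrix.cons_val_one,
      Matrix.cons_val_fin_one]
    refine ⟨?_, ?_, ?_, ?_⟩
    · linear_combination hα
    · linear_combination (-((M : ℤ) * γ 0 1)) * h1
    · linear_combination hβ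
    · linear_combination (-γ 1 1) * h1

/-- Expansions at all cusps of a dilate. -/
theorem exists_harmExp_slash_dilate {M : ℕ} (hM : 0 < M) {f g : ℍ' → ℂ} (σ : ℍ' → ℍ')
    (hσ : ∀ τ : ℍ', (σ τ : ℂ) = (M : ℂ) * τ) (hfg : ∀ τ, f τ = g (σ τ)) {h : ℝ} (hh : 0 < h)
    (hg : ∀ γ' : SL(2, ℤ), g ∣[(1 : ℤ)] γ' ∈ harmExpSubmodule h) (γ : SL(2, ℤ)) :
    ∃ h' : ℝ, 0 < h' ∧ f ∣[(1 : ℤ)] γ ∈ harmExpSubmodule h' := by
  obtain ⟨γ', a, b, d, ha, hd, e00, e01, e10, e11⟩ := exists_upper_decomp hM γ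
  have ha' : (0 : ℝ) < a := by exact_mod_cast ha
  have hd' : (0 : ℝ) < d := by exact_mod_cast hd
  let ρ : ℍ' → ℍ' := fun τ => ⟨((a : ℂ) * τ + (b : ℂ)) / (d : ℂ), by
    rw [show (d : ℂ) = ((d : ℝ) : ℂ) by simp, Complex.div_ofReal_im]
    simpa using div_pos (mul_pos ha' τ.im_pos) hd'⟩
  obtain ⟨A, B, hAB⟩ := hg γ'
  have haff := HasHarmExp.affine hh.ne' hAB ha'.ne' hd'.ne' (b : ℝ) ρ fun τ => by
    simp [ρ]
  refine ⟨(d : ℝ) * h / a, by positivity, ?_⟩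
  have e : f ∣[(1 : ℤ)] γ = (d : ℂ)⁻¹ • fun τ => (g ∣[(1 : ℤ)] γ') (ρ τ) := by
    funext τ
    have hd0 : (d : ℂ) ≠ 0 := Int.cast_ne_zero.mpr hd.ne'
    have hj := jFac_ne_zero γ τ
    have hj' := jFac_ne_zero γ' (ρ τ)
    have hρ : (ρ τ : ℂ) * (d : ℂ) = (a : ℂ) * τ + (b : ℂ) := div_mul_cancel₀ _ hd0
    have E00 : (M : ℂ) * (γ 0 0 : ℂ) = (γ' 0 0 : ℂ) * a := by exact_mod_cast e00
    have E01 : (M : ℂ) * (γ 0 1 : ℂ) = (γ' 0 0 : ℂ) * b + (γ' 0 1 : ℂ) * d := by exact_mod_cast e01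
    have E10 : (γ 1 0 : ℂ) = (γ' 1 0 : ℂ) * a := by exact_mod_cast e10
    have E11 : (γ 1 1 : ℂ) = (γ' 1 0 : ℂ) * b + (γ' 1 1 : ℂ) * d := by exact_mod_cast e11
    have hjj : jFac γ τ = (d : ℂ) * jFac γ' (ρ τ) := by
      simp only [jFac]
      linear_combination (τ : ℂ) * E10 + E11 - (γ' 1 0 : ℂ) * hρ
    have hpt : σ (γ • τ) = γ' • ρ τ := by
      refine UpperHalfPlane.ext ?_
      rw [hσ, coe_smul_eq, coe_smul_eq, hjj, ← mul_div_assoc,
        div_eq_div_iff (mul_ne_zero hd0 hj') hj']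
      simp only [jFac]
      linear_combination ((γ' 1 0 : ℂ) * (ρ τ : ℂ) + (γ' 1 1 : ℂ)) *
        ((τ : ℂ) * E00 + E01 - (γ' 0 0 : ℂ) * hρ)
    rw [ModularForm.SL_slash_apply, Pi.smul_apply, smul_eq_mul, ModularForm.SL_slash_apply,
      ModularGroup.denom_apply, ModularGroup.denom_apply, hfg, hpt]
    simp only [jFac] at hjj
    rw [hjj, _root_.zpow_neg, _root_.zpow_neg, zpow_one, zpow_one, mul_inv]
    ring
  rw [e]
  exact Submodule.smul_mem _ _ ⟨_, _, haff⟩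

/-! ### The lifts in the family -/

section Lift

variable {ρ : Γℚ →* GL (Fin 2) (ZMod 3)} {n₀ : ℕ} [NeZero n₀] {d : BianchiDatum ρ n₀}
  (t : TameTwist d) {e : ℕ} (he : n₀ = 3 ^ e * t.D ^ 2)

/-- The index of a residue class. -/
def classIdx {m : ℕ} (r : FormRes m) : ThetaIdx :=
  ⟨(r.1.val : ℤ), 0, 0, (r.2.2.val : ℤ), ((r.2.1.1.val : ℤ), (r.2.1.2.val : ℤ)), (0, 0)⟩

theorem tamePhase_decomp {D k m : ℕ} [NeZero D] [NeZero m] (hk : 3 * k ∣ m) (hD : D ∣ m)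
    (Φ : FormRes D → ℂ) : tamePhase k Φ = ∑ r : FormRes m,
      tamePhase k Φ (zeroIdx.jMap 1 ((classIdx r).a0, (classIdx r).b0, (classIdx r).de)) •
        (classIdx r).phase m := by
  classical
  funext i
  simp only [Finset.sum_apply, Pi.smul_apply, smul_eq_mul]
  have hph : ∀ (r : FormRes m) (j : HermIdx), (classIdx r).phase m j =
      if j ∈ Set.range ((classIdx r).jMap m) then 1 else 0 := fun r j => by
    rw [ThetaIdx.phase]
    refine if_ctx_congr Iff.rfl (fun _ => ?_) fun _ => rfl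
    simp [ThetaIdx.phaseInt, classIdx, HermIdx.tr, Eis3.mul, Eis3.bar, Eis.eChar_zero]
  simp only [hph, mul_ite, mul_one, mul_zero]
  have hrange : ∀ (r : FormRes m) (n : HermIdx), (classIdx r).jMap m n = zeroIdx.jMap 1
      ((m : ℤ) * n.1 + (classIdx r).a0, Eis3.mul ((m : ℤ), 0) n.2.1 + (classIdx r).b0,
        (m : ℤ) * n.2.2 + (classIdx r).de) := fun r n => by
    simp [ThetaIdx.jMap, Eis3.mul]
  by_cases hi : i ∈ Set.range (zeroIdx.jMap 1)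
  · obtain ⟨n, rfl⟩ := hi
    set r₀ : FormRes m := ((n.1 : ZMod m), ((n.2.1.1 : ZMod m), (n.2.1.2 : ZMod m)),
      (n.2.2 : ZMod m)) with hr₀
    have hval : ∀ x : ℤ, ∃ c, x = (m : ℤ) * c + (((x : ZMod m).val : ℕ) : ℤ) := fun x =>
      ⟨x / m, by rw [ZMod.val_intCast]; exact (Int.mul_ediv_add_emod x m).symm⟩
    obtain ⟨c1, h1⟩ := hval n.1
    obtain ⟨c2, h2⟩ := hval n.2.1.1
    obtain ⟨c3, h3⟩ := hval n.2.1.2
    obtain ⟨c4, h4⟩ := hval n.2.2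
    set c : HermIdx := (c1, (c2, c3), c4)
    set n₁ : HermIdx := ((classIdx r₀).a0, (classIdx r₀).b0, (classIdx r₀).de) with hn₁
    have hn : zeroIdx.jMap 1 n = (classIdx r₀).jMap m c := by
      rw [hrange]
      congr 1
      refine Prod.ext h1 (Prod.ext (Prod.ext ?_ ?_) h4) <;>
        simp [Eis3.mul, c, classIdx, hr₀, -ZMod.natCast_val] <;> assumption
    rw [Finset.sum_eq_single r₀ (fun r _ hr => if_neg ?_) (by simp), if_pos ⟨c, hn.symm⟩]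
    · have e' : zeroIdx.jMap 1 n = zeroIdx.jMap 1 n₁ + (m : ℤ) • zeroIdx.jMap 1 c := by
        rw [hn, hrange, hn₁]
        simp [ThetaIdx.jMap, Eis3.mul, Prod.ext_iff]
        refine ⟨?_, ⟨?_, ?_⟩, ?_⟩ <;> ring
      rw [e', tamePhase_add_smul hk hD]
    · rintro ⟨c', hc'⟩
      rw [hrange] at hc'
      have h := ThetaIdx.jMap_injective 1 zeroIdx hc'
      refine hr ?_
      rw [hr₀, ← h]
      simp [classIdx, Eis3.mul]
  · rw [tamePhase_eq_rowPhase, rowPhase_eq_zero_of_notMem k _ i hi, eq_comm]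
    exact Finset.sum_eq_zero fun r _ => if_neg fun ⟨n, hn⟩ => hi ⟨_, (hrange r n).symm.trans hn⟩

/-- A tame lift is a dilate of a member of the span of the family. -/
theorem tameLift_mem_famSpan (Φ : FormRes t.D → ℂ) :
    ∃ g ∈ famSpan (3 * n₀) (tameG t), ∀ (τ : ℍ') (z : ℍ'),
      (z : ℂ) = ((9 * 3 ^ (2 * e) * t.D ^ 3 : ℕ) : ℂ) * τ → tameLift t he Φ τ = g z := by
  have hk : 3 * 3 ^ e ∣ 3 * n₀ := Nat.mul_dvd_mul_left 3 ⟨t.D ^ 2, he⟩
  refine ⟨∑ r : FormRes (3 * n₀), (tamePhase (3 ^ e) Φ (zeroIdx.jMap 1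
      ((classIdx r).a0, (classIdx r).b0, (classIdx r).de)) * (famConst (3 * n₀) (classIdx r))⁻¹) •
      famFun (3 * n₀) (tameG t) (classIdx r),
    Submodule.sum_mem _ fun r _ => Submodule.smul_mem _ _ (Submodule.subset_span ⟨_, rfl⟩),
    fun τ z hz => ?_⟩
  have hτ := im_div_three_mul_pos t.D τ
  rw [tameLift_apply, Finset.sum_apply]
  conv_lhs => rw [tamePhase_decomp hk (t.D_dvd.mul_left 3) Φ]
  rw [lift_sum (isCuspFun_tameG t) _ (fun r _ =>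
    ((classIdx r).isPhase_phase (3 * n₀)).smul _) hτ]
  refine Finset.sum_congr rfl fun r _ => ?_
  have hfam : famFun (3 * n₀) (tameG t) (classIdx r) z = famConst (3 * n₀) (classIdx r) *
      lift (liftLevel n₀) (tameG t) ((classIdx r).phase (3 * n₀))
        ((z : ℂ) / (3 * ((3 * n₀ : ℕ) : ℂ) ^ 2)) :=
    (integral_rowSum (isCuspFun_tameG t) (classIdx r) z.im_pos).2
  have hz' : (z : ℂ) / (3 * ((3 * n₀ : ℕ) : ℂ) ^ 2) = (τ : ℂ) / (3 * (t.D : ℂ)) := by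
    have hD : (t.D : ℂ) ≠ 0 := Nat.cast_ne_zero.mpr (NeZero.ne t.D)
    rw [hz, show (3 * n₀ : ℕ) = 3 * (3 ^ e * t.D ^ 2) from congrArg (3 * ·) he]
    push_cast
    field_simp
    ring
  rw [lift_smul, Pi.smul_apply, smul_eq_mul, hfam, hz', mul_assoc,
    inv_mul_cancel_left₀ (famConst_ne_zero _ _)]

/-- The lifts have expansions at all cusps. -/
theorem tameLift_slash_mem (Φ : FormRes t.D → ℂ) (γ : SL(2, ℤ)) :
    ∃ h : ℝ, 0 < h ∧ tameLift t he Φ ∣[(1 : ℤ)] γ ∈ harmExpSubmodule h := by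
  obtain ⟨g, hg, hfg⟩ := tameLift_mem_famSpan t he Φ
  have hM : 0 < 9 * 3 ^ (2 * e) * t.D ^ 3 := by
    have := NeZero.pos t.D
    positivity
  let σ : ℍ' → ℍ' := fun τ => ⟨((9 * 3 ^ (2 * e) * t.D ^ 3 : ℕ) : ℂ) * τ, by
    rw [← Complex.ofReal_natCast, Complex.im_ofReal_mul]
    exact mul_pos (Nat.cast_pos.mpr hM) τ.im_pos⟩
  refine exists_harmExp_slash_dilate hM σ (fun τ => rfl) (fun τ => hfg τ (σ τ) rfl)
    (h := 3 * ((3 * n₀ : ℕ) : ℝ) ^ 2) (by have := NeZero.pos n₀; positivity) (fun γ' => ?_) γ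
  exact famSpan_le_harmExp (isCuspFun_tameG t) (isEigenFun_tameG t)
    (famSpan_slash (NeZero.pos n₀) rfl (isCuspFun_tameG t) γ' g hg)

/-- The expansion of a tame lift at infinity. -/
theorem hasHarmExp_tameLift (Φ : FormRes t.D → ℂ) :
    HasHarmExp (3 * (t.D : ℝ)) (tameLift t he Φ)
      (fun m => liftPlus (liftLevel n₀) (tameG t) (tamePhase (3 ^ e) Φ) (m + 1 : ℕ))
      (fun m => liftMinus (liftLevel n₀) (tameG t) (tamePhase (3 ^ e) Φ)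
        (-((m + 1 : ℕ) : ℤ))) := by
  have h := hasHarmExp_lift (isCuspFun_tameG t) (isEigenFun_tameG t) (isPhase_tame t he Φ)
    (show (0 : ℝ) < 3 * (t.D : ℝ) by have := NeZero.pos t.D; positivity) 1
  have e1 : tameLift t he Φ = fun τ : ℍ' => 1 * lift (liftLevel n₀) (tameG t)
      (tamePhase (3 ^ e) Φ) ((τ : ℂ) / ((3 * (t.D : ℝ) : ℝ) : ℂ)) := by
    funext τ
    rw [tameLift_apply, one_mul]
    push_cast
    rfl
  rw [e1]
  simpa only [one_mul] using h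

end Lift

end Fermat.Agent.ResidualThree
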