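import Fermat.Agent.ResidualThree.ThetaLift.TameRows

/-!
# The Weil action on functions of lattice forms modulo `D`

The coefficient space in the coordinates `(a, β, δ)` with the form `N β - a δ`.
-/

noncomputable section

open Matrix CongruenceSubgroup ModularGroup
open scoped MatrixGroups

namespace Fermat.Agent.ResidualThree

/-- The residues of lattice forms. -/
abbrev FormRes (D : ℕ) : Type := ZMod D × EisRes D × ZMod D

variable {D : ℕ} [NeZero D]

/-- The quadratic form. -/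
def formQ (z : FormRes D) : ZMod D := normForm z.2.1 - z.1 * z.2.2

/-- The polar form. -/
def formB (z w : FormRes D) : ZMod D := trForm z.2.1 w.2.1 - z.1 * w.2.2 - w.1 * z.2.2

/-- The partial Fourier transform in the first coordinate. -/
def toRow : (FormRes D → ℂ) →ₗ[ℂ] RowCoef D where
  toFun Φ md β := (D : ℂ)⁻¹ * ∑ a, Φ (a, β, md.2) * ZMod.stdAddChar (a * md.1)
  map_add' Φ Φ' := by funext md β; simp [add_mul, Finset.sum_add_distrib, mul_add]
  map_smul' c Φ := by funext md β; simp [mul_assoc, ← Finset.mul_sum, mul_left_comm]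

/-- The inverse transform. -/
def fromRow : RowCoef D →ₗ[ℂ] (FormRes D → ℂ) where
  toFun Ψ z := ∑ M, Ψ (M, z.2.2) z.2.1 * ZMod.stdAddChar (-(z.1 * M))
  map_add' Ψ Ψ' := by funext z; simp [add_mul, Finset.sum_add_distrib]
  map_smul' c Ψ := by funext z; simp [mul_assoc, ← Finset.mul_sum]

theorem sum_stdAddChar_mul (x : ZMod D) :
    ∑ M : ZMod D, (ZMod.stdAddChar (M * x) : ℂ) = if x = 0 then (D : ℂ) else 0 := by
  rw [AddChar.sum_mulShift _ (ZMod.isPrimitive_stdAddChar D), ZMod.card]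
  split_ifs <;> simp

theorem fromRow_toRow (Φ : FormRes D → ℂ) : fromRow (toRow Φ) = Φ := by
  funext z
  obtain ⟨a, β, δ⟩ := z
  simp only [fromRow, toRow, LinearMap.coe_mk, AddHom.coe_mk, mul_assoc, Finset.sum_mul,
    ← Finset.mul_sum]
  rw [Finset.sum_comm]
  have e : ∀ b : ZMod D, ∑ M : ZMod D, Φ (b, β, δ) *
      (ZMod.stdAddChar (b * M) * ZMod.stdAddChar (-(a * M))) =
      Φ (b, β, δ) * if b - a = 0 then (D : ℂ) else 0 := fun b => by
    rw [← sum_stdAddChar_mul, Finset.mul_sum]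
    refine Finset.sum_congr rfl fun M _ => ?_
    rw [← AddChar.map_add_eq_mul]
    congr 2
    ring
  simp only [e, sub_eq_zero, mul_ite, mul_zero, Finset.sum_ite_eq', Finset.mem_univ, if_true]
  have hD : (D : ℂ) ≠ 0 := Nat.cast_ne_zero.mpr (NeZero.ne D)
  field_simp

theorem toRow_fromRow (Ψ : RowCoef D) : toRow (fromRow Ψ) = Ψ := by
  funext ⟨M, δ⟩ β
  simp only [fromRow, toRow, LinearMap.coe_mk, AddHom.coe_mk, Finset.sum_mul]
  rw [Finset.sum_comm]
  have e : ∀ N : ZMod D, ∑ a : ZMod D, Ψ (N, δ) β * ZMod.stdAddChar (-(a * N)) *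
      ZMod.stdAddChar (a * M) = Ψ (N, δ) β * if M - N = 0 then (D : ℂ) else 0 := fun N => by
    rw [← sum_stdAddChar_mul, Finset.mul_sum]
    refine Finset.sum_congr rfl fun a _ => ?_
    rw [mul_assoc, ← AddChar.map_add_eq_mul]
    congr 2
    ring
  simp only [e, sub_eq_zero, mul_ite, mul_zero, Finset.sum_ite_eq, Finset.mem_univ, if_true]
  have hD : (D : ℂ) ≠ 0 := Nat.cast_ne_zero.mpr (NeZero.ne D)
  field_simp

/-- The operator of `γ` on functions of residues of forms. -/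
def fullOp (h3 : IsUnit (3 : ZMod D)) {k : ℕ} (γ : Gamma0 (3 * k)) :
    (FormRes D → ℂ) →ₗ[ℂ] (FormRes D → ℂ) :=
  fromRow.comp ((rowAct h3 γ).comp toRow)

/-- The action is an anti-homomorphism. -/
theorem fullOp_mul (h3 : IsUnit (3 : ZMod D)) {k : ℕ} (γ δ : Gamma0 (3 * k)) :
    fullOp h3 (γ * δ) = (fullOp h3 δ).comp (fullOp h3 γ) := by
  refine LinearMap.ext fun Φ => ?_
  simp only [fullOp, rowAct_mul, LinearMap.comp_apply, toRow_fromRow]

/-- The action of translation. -/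
theorem fullOp_T (h3 : IsUnit (3 : ZMod D)) {k : ℕ} {γ : Gamma0 (3 * k)}
    (hγ : (γ : SL(2, ℤ)) = T) (Φ : FormRes D → ℂ) :
    fullOp h3 γ Φ = fun z => ZMod.stdAddChar (formQ z) * Φ z := by
  have hA : perOp h3 (toGammaThree γ) = normTwist 1 := perOp_eq h3 _ (by
    show HasPerLaw (γ : SL(2, ℤ)) _
    rw [hγ]
    exact hasPerLaw_T)
  funext z
  conv_rhs => rw [← fromRow_toRow Φ]
  obtain ⟨a, β, δ⟩ := z
  simp only [fullOp, LinearMap.comp_apply, fromRow, rowAct, LinearMap.coe_mk, AddHom.coe_mk, hA,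
    hγ, coe_T, normTwist, Finset.mul_sum]
  refine (Fintype.sum_equiv (Equiv.addRight (-δ)) _ _ fun M => ?_)
  simp only [Equiv.coe_addRight, Matrix.of_apply, Matrix.cons_val', Matrix.cons_val_zero,
    Matrix.cons_val_one, Matrix.cons_val_fin_one, Int.cast_one, Int.cast_zero, one_mul, neg_zero,
    zero_mul, zero_add, ← sub_eq_add_neg]
  rw [← mul_assoc (ZMod.stdAddChar (formQ _)), mul_comm (ZMod.stdAddChar (formQ _)),
    mul_comm (ZMod.stdAddChar (normForm β)), mul_assoc, mul_assoc, ← AddChar.map_add_eq_mul,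
    ← AddChar.map_add_eq_mul]
  congr 2
  simp only [formQ]
  ring

theorem fullOp_neg_one (h3 : IsUnit (3 : ZMod D)) {k : ℕ} {γ : Gamma0 (3 * k)}
    (hγ : (γ : SL(2, ℤ)) = -1) (Φ : FormRes D → ℂ) :
    fullOp h3 γ Φ = fun z => Φ (-z) := by
  have hA : perOp h3 (toGammaThree γ) = negPer := perOp_eq h3 _ (by
    show HasPerLaw (γ : SL(2, ℤ)) _
    rw [hγ]
    exact hasPerLaw_neg_one)
  funext z
  conv_rhs => rw [← fromRow_toRow Φ]
  obtain ⟨a, β, δ⟩ := z
  simp only [fullOp, LinearMap.comp_apply, fromRow, rowAct, LinearMap.coe_mk, AddHom.coe_mk, hA,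
    hγ, negPer, Matrix.SpecialLinearGroup.coe_neg, Matrix.SpecialLinearGroup.coe_one,
    Matrix.neg_apply, Matrix.one_apply_eq, Matrix.one_apply_ne (show (1 : Fin 2) ≠ 0 by decide),
    Matrix.one_apply_ne (show (0 : Fin 2) ≠ 1 by decide), neg_zero, Int.cast_zero, Int.cast_neg,
    Int.cast_one, zero_mul, zero_add, sub_zero, neg_one_mul, Prod.neg_mk]
  refine Fintype.sum_equiv (Equiv.neg (ZMod D)) _ _ fun M => ?_
  simp [mul_comm]

theorem perFourier_twice (h3 : IsUnit (3 : ZMod D)) (f : EisRes D → ℂ) (β : EisRes D) :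
    ((D : ℂ) ^ 2) * perFourier (normTwist (-1) (perFourier f)) β = ((D : ℂ) ^ 2)⁻¹ *
      ∑ l, f l * ∑ y, ZMod.stdAddChar (-3 * normForm y - trForm y (β - l)) := by
  have hD : (D : ℂ) ^ 2 ≠ 0 := pow_ne_zero 2 (Nat.cast_ne_zero.mpr (NeZero.ne D))
  have ht := ZMod.inv_mul_of_unit (3 : ZMod D) h3
  let e : EisRes D ≃ EisRes D :=
    ⟨fun y => sqrtPt (-y), fun m => -dualPt m, fun y => by simp [dualPt_sqrtPt h3],
      fun m => by simp [sqrtPt_dualPt h3]⟩
  simp only [perFourier, resFourier, normTwist, LinearMap.coe_mk, AddHom.coe_mk, Finset.mul_sum,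
    Finset.sum_mul]
  rw [← Equiv.sum_comp e, Finset.sum_comm]
  refine Finset.sum_congr rfl fun l _ => Finset.sum_congr rfl fun y _ => ?_
  have hc : ∀ u v w : ZMod D, u + v + w = -3 * normForm y - trForm y (β - l) →
      (ZMod.stdAddChar u : ℂ) * ZMod.stdAddChar v * ZMod.stdAddChar w =
        ZMod.stdAddChar (-3 * normForm y - trForm y (β - l)) := fun u v w h => by
    rw [← AddChar.map_add_eq_mul, ← AddChar.map_add_eq_mul, h]
  rw [← hc (((-1 : ℤ) : ZMod D) * normForm (e y)) (-trForm l (dualPt (e y)))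
    (-trForm (e y) (dualPt β))]
  · field_simp
  · simp only [e, Equiv.coe_fn_mk, dualPt_sqrtPt h3]
    simp only [sqrtPt, dualPt, normForm, trForm, Prod.fst_sub, Prod.snd_sub, Prod.fst_neg,
      Prod.snd_neg]
    push_cast
    linear_combination (β.1 * (-2 * y.1 + y.2) + β.2 * (y.1 - 2 * y.2)) * ht

/-- The operator of `[[1,0],[3,1]]` in Fourier form. -/
theorem fullOp_lower (h3 : IsUnit (3 : ZMod D)) {γ : Gamma0 (3 * 1)}
    (hγ : (γ : SL(2, ℤ)) = lowerThreeQ) (Φ : FormRes D → ℂ) (z : FormRes D) :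
    fullOp h3 γ Φ z = ((D : ℂ) ^ 4)⁻¹ *
      ∑ w, (∑ y, ZMod.stdAddChar (-3 * formQ y - formB (z - w) y)) * Φ w := by
  have hA : perOp h3 (toGammaThree γ) = lowerPer D := perOp_eq h3 _ (by
    show HasPerLaw (γ : SL(2, ℤ)) _
    rw [hγ]
    exact hasPerLaw_lower h3)
  have hD : (D : ℂ) ≠ 0 := Nat.cast_ne_zero.mpr (NeZero.ne D)
  have ht := ZMod.inv_mul_of_unit (3 : ZMod D) h3
  obtain ⟨a, β, δ⟩ := z
  -- the hyperbolic part
  have hH : ∀ (w : FormRes D), ∑ y, (ZMod.stdAddChar (-3 * formQ y - formB ((a, β, δ) - w) y) : ℂ) =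
      ((D : ℂ) * ZMod.stdAddChar ((3 : ZMod D)⁻¹ * (a - w.1) * (w.2.2 - δ))) *
        ∑ y, ZMod.stdAddChar (-3 * normForm y - trForm y (β - w.2.1)) := by
    intro w
    rw [Fintype.sum_prod_type, Finset.mul_sum]
    simp only [Fintype.sum_prod_type (α₁ := EisRes D)]
    rw [Finset.sum_comm]
    refine Finset.sum_congr rfl fun y _ => ?_
    rw [Finset.sum_comm]
    have e : ∀ (d' a' : ZMod D), (ZMod.stdAddChar
        (-3 * formQ (a', y, d') - formB ((a, β, δ) - w) (a', y, d')) : ℂ) =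
        ZMod.stdAddChar (a' * (3 * d' + (δ - w.2.2))) *
          (ZMod.stdAddChar ((a - w.1) * d') *
            ZMod.stdAddChar (-3 * normForm y - trForm y (β - w.2.1))) := by
      intro d' a'
      rw [← AddChar.map_add_eq_mul, ← AddChar.map_add_eq_mul]
      congr 1
      simp only [formQ, formB, trForm, Prod.fst_sub, Prod.snd_sub]
      ring
    simp only [e, ← Finset.sum_mul, sum_stdAddChar_mul, ite_mul, zero_mul]
    rw [Finset.sum_eq_single ((3 : ZMod D)⁻¹ * (w.2.2 - δ))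
      (fun d' _ hd' => if_neg fun h => hd' ?_) (by simp), if_pos]
    · rw [← mul_assoc]
      congr 3
      ring
    · linear_combination (w.2.2 - δ) * ht
    · linear_combination (3 : ZMod D)⁻¹ * h - d' * ht
  simp only [hH, fullOp, LinearMap.comp_apply, fromRow, rowAct, LinearMap.coe_mk, AddHom.coe_mk,
    hA, lowerPer, LinearMap.smul_apply, Pi.smul_apply, smul_eq_mul, hγ, perFourier_twice h3]
  let e : (ZMod D × EisRes D × ZMod D) ≃ FormRes D :=
    { toFun := fun u => (u.2.2, u.2.1, δ - 3 * u.1)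
      invFun := fun w => ((3 : ZMod D)⁻¹ * (δ - w.2.2), w.2.1, w.1)
      left_inv := fun u => by
        refine Prod.ext ?_ rfl
        show (3 : ZMod D)⁻¹ * (δ - (δ - 3 * u.1)) = u.1
        linear_combination u.1 * ht
      right_inv := fun w => by
        refine Prod.ext rfl (Prod.ext rfl ?_)
        show δ - 3 * ((3 : ZMod D)⁻¹ * (δ - w.2.2)) = w.2.2
        linear_combination (w.2.2 - δ) * ht }
  rw [Finset.mul_sum]
  refine Eq.trans ?_ (Equiv.sum_comp e _)
  conv_rhs => rw [Fintype.sum_prod_type]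
  refine Finset.sum_congr rfl fun M _ => ?_
  conv_rhs => rw [Fintype.sum_prod_type]
  rw [Finset.mul_sum, Finset.sum_mul]
  refine Finset.sum_congr rfl fun l _ => ?_
  have hrow : ((lowerThreeQ 0 0 : ZMod D) * M - (lowerThreeQ 0 1 : ZMod D) * δ,
      -(lowerThreeQ 1 0 : ZMod D) * M + (lowerThreeQ 1 1 : ZMod D) * δ) = (M, δ - 3 * M) := by
    simp [lowerThreeQ]; ring
  simp only [hrow, toRow, LinearMap.coe_mk, AddHom.coe_mk, e, Equiv.coe_fn_mk]
  generalize ∑ y : EisRes D,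
    (ZMod.stdAddChar (-3 * normForm y - trForm y (β - l)) : ℂ) = K
  simp only [Finset.mul_sum, Finset.sum_mul]
  refine Finset.sum_congr rfl fun b _ => ?_
  rw [show (3 : ZMod D)⁻¹ * (a - b) * (δ - 3 * M - δ) = b * M + -(a * M) by
    linear_combination (b - a) * M * ht, AddChar.map_add_eq_mul]
  field_simp

end Fermat.Agent.ResidualThree
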