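import Mathlib.Analysis.InnerProductSpace.PiL2
import Mathlib.Analysis.InnerProductSpace.Projection.FiniteDimensional
import Mathlib.LinearAlgebra.Matrix.FixedDetMatrices
import Fermat.Agent.Raising.SquareRemoval.Residual.Integral
import Fermat.Agent.ResidualThree.ThetaLift.TameFull

/-!
# The operators of the lifts are the Weil representation

The representation is unitary, so orthogonal projections onto invariant subspaces commute with it.
-/

noncomputable section

open Matrix CongruenceSubgroup ModularGroup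
open scoped ComplexConjugate MatrixGroups

namespace Fermat.Agent.ResidualThree

open Fermat.Agent.Raising.SquareRemoval (Vd VdChar vdForm lowAct EisQ)

variable {D : ℕ} [NeZero D]

/-- The data of a primitive complex character. -/
def complexVdChar (hsq : Squarefree D) (h3 : ¬ 3 ∣ D) (ψ : AddChar (ZMod D) ℂ)
    (hψ : ψ.IsPrimitive) : VdChar D ℂ where
  sq := hsq
  cop := (Nat.Prime.coprime_iff_not_dvd Nat.prime_three).mpr h3
  unit := (Nat.cast_ne_zero.mpr (NeZero.ne D)).isUnit
  ψ := ψ
  prim := hψ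

theorem isPrimitive_inv_stdAddChar : (ZMod.stdAddChar (N := D))⁻¹.IsPrimitive := fun a ha h =>
  ZMod.isPrimitive_stdAddChar D (neg_ne_zero.mpr ha) (DFunLike.ext _ _ fun x => by
    have := DFunLike.congr_fun h x
    rw [AddChar.mulShift_apply, AddChar.inv_apply, AddChar.one_apply] at this
    rw [AddChar.mulShift_apply, neg_mul, this, AddChar.one_apply])

/-- The Weil data of the lifts. -/
def liftVdChar (hsq : Squarefree D) (h3 : ¬ 3 ∣ D) : VdChar D ℂ :=
  complexVdChar hsq h3 (ZMod.stdAddChar (N := D))⁻¹ isPrimitive_inv_stdAddChar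

/-- The Weil data of the shadows. -/
def shadowVdChar (hsq : Squarefree D) (h3 : ¬ 3 ∣ D) : VdChar D ℂ :=
  complexVdChar hsq h3 ZMod.stdAddChar (ZMod.isPrimitive_stdAddChar D)

variable (c : VdChar D ℂ)

theorem conj_vdChar (x : ZMod D) : conj (c.ψ x) = c.ψ (-x) := by
  rw [AddChar.map_neg_eq_inv, Complex.inv_eq_conj (AddChar.norm_apply c.ψ x)]

theorem conj_uD : conj c.uD = c.uD := by
  have hD : (D : ℂ) ≠ 0 := Nat.cast_ne_zero.mpr (NeZero.ne D)
  have h := c.uD_sq
  have e : (c.uD * (D : ℂ) ^ 2) * (c.uD * (D : ℂ) ^ 2) = 1 := by linear_combination h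
  rcases mul_self_eq_one_iff.mp e with h1 | h1 <;>
  · rw [← eq_mul_inv_iff_mul_eq₀ (pow_ne_zero 2 hD)] at h1
    simp [h1]

/-- The pairing of functions. -/
def vdPair {V : Type} [Fintype V] (f h : V → ℂ) : ℂ := ∑ v, conj (f v) * h v

/-- The adjoint of the representation. -/
theorem rep_adjoint (g : SL(2, ℤ)) (f h : Vd (ZMod D) → ℂ) :
    vdPair (c.rep g f) h = vdPair f (c.rep g⁻¹ h) := by
  let H : Subgroup SL(2, ℤ) :=
    { carrier := {g | (∀ f h, vdPair (c.rep g f) h = vdPair f (c.rep g⁻¹ h)) ∧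
        ∀ f h, vdPair (c.rep g⁻¹ f) h = vdPair f (c.rep g h)}
      one_mem' := by simp
      mul_mem' := fun {a b} ha hb => ⟨fun f h => by
          rw [map_mul, Module.End.mul_apply, ha.1, hb.1, _root_.mul_inv_rev, map_mul,
            Module.End.mul_apply],
        fun f h => by
          rw [_root_.mul_inv_rev, map_mul, Module.End.mul_apply, hb.2, ha.2, map_mul,
            Module.End.mul_apply]⟩
      inv_mem' := fun {a} ha => ⟨fun f h => by rw [inv_inv]; exact ha.2 f h,
        fun f h => by rw [inv_inv]; exact ha.1 f h⟩ }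
  suffices hall : g ∈ H from hall.1 f h
  have htop : Subgroup.closure {S, T} = (⊤ : Subgroup SL(2, ℤ)) :=
    SpecialLinearGroup.SL2Z_generators
  refine (Subgroup.closure_le H).mpr ?_ (htop.symm ▸ Subgroup.mem_top g)
  have hswap : ∀ (a b : Module.End ℂ (Vd (ZMod D) → ℂ)),
      (∀ f h, vdPair (a f) h = vdPair f (b h)) → ∀ f h, vdPair (b f) h = vdPair f (a h) := by
    intro a b hab f h
    have := congrArg conj (hab h f)
    simp only [vdPair, map_sum, map_mul, Complex.conj_conj] at this ⊢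
    simp only [mul_comm (conj (f _))] at this ⊢
    simpa [mul_comm] using this.symm
  rintro x (rfl | rfl)
  · have h1 : ∀ f h, vdPair (c.rep S f) h = vdPair f (c.rep S⁻¹ h) := fun f h => by
      have e : (S⁻¹ : SL(2, ℤ)) = -1 * S := by decide
      rw [e, map_mul]
      simp only [vdPair, Module.End.mul_apply, c.rep_neg_one, c.rep_S, map_mul, map_sum, conj_uD,
        conj_vdChar, neg_neg, (vdForm D).B_neg_left, Finset.mul_sum, Finset.sum_mul]
      rw [Finset.sum_comm]
      refine Finset.sum_congr rfl fun v _ => Finset.sum_congr rfl fun w _ => ?_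
      rw [(vdForm D).B_comm]
      ring
    exact ⟨h1, hswap _ _ h1⟩
  · have h1 : ∀ f h, vdPair (c.rep T f) h = vdPair f (c.rep T⁻¹ h) := fun f h => by
      refine Finset.sum_congr rfl fun v _ => ?_
      rw [c.rep_T, ← _root_.zpow_neg_one, c.rep_T_zpow, map_mul, conj_vdChar]
      push_cast
      rw [neg_one_mul]
      ring
    exact ⟨h1, hswap _ _ h1⟩

/-- The representation is unitary. -/
theorem rep_unitary (g : SL(2, ℤ)) (f h : Vd (ZMod D) → ℂ) :
    vdPair (c.rep g f) (c.rep g h) = vdPair f h := by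
  rw [rep_adjoint, ← Module.End.mul_apply (c.rep g⁻¹), ← map_mul, inv_mul_cancel, map_one,
    Module.End.one_apply]

theorem vdPair_comp {V : Type} [Fintype V] {σ : V → V} (hσ : Function.Bijective σ) (f h : V → ℂ) :
    vdPair (f ∘ σ) (h ∘ σ) = vdPair f h :=
  hσ.sum_comp fun v => conj (f v) * h v

/-- An orthogonal projection commuting with the unitary operators preserving the subspace. -/
theorem exists_unitary_projection {V : Type} [Fintype V] (K : Submodule ℂ (V → ℂ)) :
    ∃ P : (V → ℂ) →ₗ[ℂ] (V → ℂ), (∀ f, P f ∈ K) ∧ (∀ f ∈ K, P f = f) ∧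
      ∀ U : Module.End ℂ (V → ℂ), (∀ f h, vdPair (U f) (U h) = vdPair f h) → (∀ f ∈ K, U f ∈ K) →
        ∀ f, P (U f) = U (P f) := by
  let ι : EuclideanSpace ℂ V ≃ₗ[ℂ] (V → ℂ) := WithLp.linearEquiv 2 ℂ (V → ℂ)
  let K' : Submodule ℂ (EuclideanSpace ℂ V) := K.comap ι.toLinearMap
  have hip : ∀ x y : EuclideanSpace ℂ V, inner ℂ x y = vdPair (ι x) (ι y) := fun x y => by
    rw [PiLp.inner_apply]
    refine Finset.sum_congr rfl fun v _ => ?_
    rw [RCLike.inner_apply']
    rfl
  let P : (V → ℂ) →ₗ[ℂ] (V → ℂ) :=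
    ι.toLinearMap.comp ((K'.starProjection : EuclideanSpace ℂ V →ₗ[ℂ] EuclideanSpace ℂ V).comp
      ι.symm.toLinearMap)
  refine ⟨P, fun f => K'.starProjection_apply_mem (ι.symm f), fun f hf => ?_, fun U hU hUK f => ?_⟩
  · show ι (K'.starProjection (ι.symm f)) = f
    rw [Submodule.starProjection_eq_self_iff.mpr (show ι.symm f ∈ K' by simpa [K'] using hf),
      LinearEquiv.apply_symm_apply]
  · have hinj : Function.Injective U := (injective_iff_map_eq_zero U).mpr fun g hg => by
      have h1 := hU g g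
      rw [hg] at h1
      have h0 : ι.symm g = 0 := by
        rw [← inner_self_eq_zero (𝕜 := ℂ), hip, LinearEquiv.apply_symm_apply, ← h1]
        simp [vdPair]
      simpa using congrArg ι h0
    have hsurj : ∀ s ∈ K, ∃ s' ∈ K, U s' = s := fun s hs => by
      let UK : K →ₗ[ℂ] K := U.restrict hUK
      have hi : Function.Injective UK := fun a b hab =>
        Subtype.ext (hinj (congrArg Subtype.val hab))
      obtain ⟨s', hs'⟩ := LinearMap.surjective_of_injective hi ⟨s, hs⟩
      exact ⟨s', s'.2, congrArg Subtype.val hs'⟩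
    show ι (K'.starProjection (ι.symm (U f))) = U (ι (K'.starProjection (ι.symm f)))
    rw [← LinearEquiv.eq_symm_apply]
    refine Submodule.eq_starProjection_of_mem_orthogonal ?_ ?_
    · simpa [K'] using hUK _ (K'.starProjection_apply_mem (ι.symm f))
    · rw [← map_sub, ← map_sub, Submodule.mem_orthogonal]
      intro s hs
      obtain ⟨s', hs', he⟩ := hsurj (ι s) hs
      rw [hip, LinearEquiv.apply_symm_apply, ← he, hU]
      have hr := (Submodule.mem_orthogonal _ _).mp
        (K'.sub_starProjection_mem_orthogonal (ι.symm f)) (ι.symm s') (by simpa [K'] using hs')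
      rwa [hip, LinearEquiv.apply_symm_apply, map_sub, LinearEquiv.apply_symm_apply] at hr

/-! ### Identification -/

theorem fullOp_one (h3 : IsUnit (3 : ZMod D)) {k : ℕ} :
    fullOp h3 (1 : Gamma0 (3 * k)) = LinearMap.id := by
  have hA : perOp h3 (toGammaThree (1 : Gamma0 (3 * k))) = LinearMap.id :=
    perOp_eq h3 _ fun f τ ξ η => by simp [toGammaThree, jFac, chiC_one]
  refine LinearMap.ext fun Φ => ?_
  have hr : rowAct h3 (1 : Gamma0 (3 * k)) = LinearMap.id := LinearMap.ext
    fun Ψ => funext fun md => by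
    simp [rowAct, hA]
  rw [fullOp, hr, LinearMap.id_comp, LinearMap.comp_apply, fromRow_toRow]
  rfl

/-- **The action of `Γ₀(3k)` on coefficients is the Weil representation.** -/
theorem fullOp_eq_rep (hsq : Squarefree D) (h3 : ¬ 3 ∣ D) (hu : IsUnit (3 : ZMod D)) {k : ℕ}
    (γ : Gamma0 (3 * k)) (Φ : FormRes D → ℂ) :
    fullOp hu γ Φ = (liftVdChar hsq h3).rep (γ : SL(2, ℤ))⁻¹ Φ := by
  set c := liftVdChar hsq h3
  have hψ : ∀ x, c.ψ x = ZMod.stdAddChar (-x) := fun x => AddChar.inv_apply _ x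
  have hQ : ∀ z : FormRes D, (vdForm D).Q z = formQ z := fun z => rfl
  let H : Subgroup SL(2, ℤ) :=
    { carrier := {g | ∃ h : g ∈ Gamma0 (3 * 1), ∀ Φ, fullOp hu ⟨g, h⟩ Φ = c.rep g⁻¹ Φ}
      one_mem' := ⟨one_mem _, fun Φ => by
        rw [inv_one, map_one, Module.End.one_apply,
          show (⟨1, one_mem _⟩ : Gamma0 (3 * 1)) = 1 from rfl, fullOp_one]
        rfl⟩
      mul_mem' := fun {a b} ⟨ha, hA⟩ ⟨hb, hB⟩ => ⟨mul_mem ha hb, fun Φ => by
        rw [show (⟨a * b, mul_mem ha hb⟩ : Gamma0 (3 * 1)) = ⟨a, ha⟩ * ⟨b, hb⟩ from rfl,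
          fullOp_mul, LinearMap.comp_apply, hA, hB, _root_.mul_inv_rev, map_mul,
            Module.End.mul_apply]⟩
      inv_mem' := fun {a} ⟨ha, hA⟩ => ⟨inv_mem ha, fun Φ => by
        have h1 := fullOp_mul hu (⟨a, ha⟩ : Gamma0 (3 * 1)) ⟨a, ha⟩⁻¹
        rw [mul_inv_cancel, fullOp_one] at h1
        have h2 := LinearMap.congr_fun h1 (c.rep a Φ)
        rw [LinearMap.id_apply, LinearMap.comp_apply, hA, ← Module.End.mul_apply (c.rep a⁻¹),
          ← map_mul, inv_mul_cancel, map_one, Module.End.one_apply] at h2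
        rw [inv_inv, h2]
        rfl⟩ }
  have hle : Gamma0 3 ≤ H := by
    refine gamma0Three_le H ⟨Eis.neg_one_mem_Gamma0, fun Φ => ?_⟩
      ⟨by simp, fun Φ => ?_⟩
      ⟨Eis.mem_Gamma0_iff_dvd.mpr ⟨1, by simp [lowerThreeQ]⟩, fun Φ => ?_⟩
    · rw [fullOp_neg_one hu rfl, show ((-1 : SL(2, ℤ)))⁻¹ = -1 by decide]
      funext z
      rw [c.rep_neg_one]
    · rw [fullOp_T hu rfl, ← _root_.zpow_neg_one]
      funext z
      rw [c.rep_T_zpow, hψ, hQ]
      push_cast
      rw [neg_one_mul, neg_neg]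
    · funext z
      rw [fullOp_lower hu rfl, show lowerThreeQ⁻¹ = S * T ^ (3 : ℤ) * (-1) * S by
        ext i j
        simp only [Matrix.SpecialLinearGroup.coe_mul, coe_T_zpow, coe_S, lowerThreeQ,
          Matrix.SpecialLinearGroup.coe_neg, Matrix.SpecialLinearGroup.coe_one,
          Matrix.SpecialLinearGroup.coe_inv, Matrix.adjugate_fin_two]
        fin_cases i <;> fin_cases j <;> simp [Matrix.mul_apply, Fin.sum_univ_two]]
      simp only [map_mul, Module.End.mul_apply, c.rep_S, c.rep_T_zpow, c.rep_neg_one,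
        Finset.mul_sum, Finset.sum_mul]
      rw [Finset.sum_comm, ← Equiv.sum_comp (Equiv.neg (FormRes D))]
      simp only [Equiv.neg_apply]
      refine Finset.sum_congr rfl fun y _ => Finset.sum_congr rfl fun w _ => ?_
      have hu2 : ((D : ℂ) ^ 4)⁻¹ = c.uD ^ 2 := inv_eq_of_mul_eq_one_left c.uD_sq
      rw [hu2, hψ, hψ, hψ]
      have e : -(-(vdForm D).B z y) + (-(((3 : ℤ) : ZMod D) * (vdForm D).Q y) +
          -(-(vdForm D).B (-y) w)) = -(3 * formQ (-y)) - formB (z - w) (-y) := by
        have h1 : ∀ a b : FormRes D, (vdForm D).B a b = formB a b := fun a b => by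
          simp [vdForm, formB, trForm]; ring
        rw [h1, h1, hQ]
        simp [formQ, formB, normForm, trForm]
        ring
      have hψe : (ZMod.stdAddChar (-(-(vdForm D).B z y)) : ℂ) *
          (ZMod.stdAddChar (-(((3 : ℤ) : ZMod D) * (vdForm D).Q y)) *
            ZMod.stdAddChar (-(-(vdForm D).B (-y) w))) =
          ZMod.stdAddChar (-(3 * formQ (-y)) - formB (z - w) (-y)) := by
        rw [← AddChar.map_add_eq_mul, ← AddChar.map_add_eq_mul, e]
      rw [neg_mul]
      linear_combination c.uD ^ 2 * Φ w * hψe.symm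
  obtain ⟨h1, h⟩ := hle (toGammaThree γ).2
  rw [show (γ : SL(2, ℤ)) = (toGammaThree γ : SL(2, ℤ)) from rfl, ← h Φ]
  rfl

end Fermat.Agent.ResidualThree
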