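import Fermat.Agent.ResidualThree.SquarefreeLevel.Family
import Fermat.Agent.ResidualThree.ThetaLift.QuadraticDescent
import Fermat.Agent.ResidualThree.ThetaLift.TameCusp
import Fermat.Agent.ResidualThree.ThetaLift.TameWeil

/-!
# The family of weight-one forms of a tame twist

Either the shadows of the lifts, or the lifts composed with the projection to the holomorphic ones,
form a family; one member, in the frame where the period is `1`, is a form in the split eigensystem
of the datum.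
-/

noncomputable section

open Matrix CongruenceSubgroup UpperHalfPlane EisensteinWeightOne ModularFormClass
open scoped ComplexConjugate MatrixGroups ModularForm Manifold

namespace Fermat.Agent.ResidualThree

open Fermat.Agent.Raising.SquareRemoval (EisQ Vd VdChar lowAct)
open SquarefreeLevel (LowIdx lowEnd)

local notation "Γℚ" => (AlgebraicClosure ℚ ≃ₐ[ℚ] AlgebraicClosure ℚ)

/-- The shadow depends only on the function. -/
theorem shadow_unique {h h' : ℝ} (hh : 0 < h) (hh' : 0 < h') {f : ℍ → ℂ} {a b a' b' : ℕ → ℂ}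
    (hf : HasHarmExp h f a b) (hf' : HasHarmExp h' f a' b') : shadow h b = shadow h' b' := by
  simpa only [SlashAction.slash_one] using
    shadow_slash hh hh' hf 1 (by rwa [SlashAction.slash_one])

theorem shadow_add {h : ℝ} (hh : 0 < h) {b b' : ℕ → ℂ} (hb : IsSubExp b) (hb' : IsSubExp b') :
    shadow h (b + b') = shadow h b + shadow h b' := by
  funext τ
  simp only [shadow, posSeries, Pi.add_apply, map_add, add_mul]
  exact (hb.conj.summable hh τ.im_pos).tsum_add (hb'.conj.summable hh τ.im_pos)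

theorem shadow_const_smul (h : ℝ) (c : ℂ) (b : ℕ → ℂ) :
    shadow h (c • b) = conj c • shadow h b := by
  funext τ
  simp only [shadow, posSeries, Pi.smul_apply, smul_eq_mul, map_mul, mul_assoc, tsum_mul_left]

/-- The coefficients of the `q`-expansion of a series of positive powers. -/
theorem qCoeff_posSeries {coef : ℕ → ℂ} (h0 : coef 0 = 0)
    (hsub : IsSubExp fun m => coef (m + 1)) (n : ℕ) :
    qCoeff (fun τ : ℍ => posSeries 1 (fun m => coef (m + 1)) τ) n = coef n := by
  rw [qCoeff, Eis.qExpansion_eq_of_hasSum one_pos (PowerSeries.mk coef) (fun τ => ?_),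
    PowerSeries.coeff_mk]
  refine (hasSum_posSeries one_pos hsub τ).congr_fun fun m => ?_
  rcases Nat.eq_zero_or_pos m with rfl | hm
  · simp [h0]
  · rw [if_neg hm.ne', PowerSeries.coeff_mk, Nat.sub_add_cancel hm]

/-- Decay of all slashes at infinity is vanishing at every cusp. -/
theorem isZeroAt_of_slash {f : ℍ → ℂ} (h : ∀ γ : SL(2, ℤ), IsZeroAtImInfty (f ∣[(1 : ℤ)] γ))
    (c : OnePoint ℝ) (hc : IsCusp c 𝒮ℒ) : c.IsZeroAt f (1 : ℤ) := by
  rw [isCusp_SL2Z_iff'] at hc
  obtain ⟨γ, rfl⟩ := hc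
  rw [OnePoint.IsZeroAt.smul_iff, OnePoint.isZeroAt_infty_iff]
  exact h γ

variable {ρ : Γℚ →* GL (Fin 2) (ZMod 3)} {n₀ : ℕ} [NeZero n₀] {d : BianchiDatum ρ n₀}
  (t : TameTwist d) {e : ℕ} (he : n₀ = 3 ^ e * t.D ^ 2)

/-- The eigenvalue of a lower triangular matrix. -/
def lowChar (u : LowIdx t.D) : ℂ := conj (chiRes t u.1.1) * chiRes t u.1.2.2

omit [NeZero n₀] in
/-- The eigenvalues are roots of unity of three-power order. -/
theorem exists_lowChar_pow (u : LowIdx t.D) : ∃ k : ℕ, lowChar t u ^ 3 ^ k = 1 := by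
  have hne : ∀ x y : EisQ (ZMod t.D), x * y = 1 → chiRes t x ≠ 0 := fun x y h h0 => by
    have := norm_chiRes t h
    rw [h0, norm_zero] at this
    exact zero_ne_one this
  obtain ⟨i, hi⟩ := t.chi_root _ (hne _ _ u.2)
  obtain ⟨j, hj⟩ := t.chi_root _ (hne _ _ (show u.1.2.2 * u.1.1 = 1 by rw [mul_comm]; exact u.2))
  refine ⟨i + j, ?_⟩
  have h1 : ∀ {x : ℂ} {a b : ℕ}, x ^ 3 ^ a = 1 → x ^ 3 ^ (a + b) = 1 := fun h => by
    rw [pow_add, pow_mul, h, one_pow]
  rw [lowChar, mul_pow, ← map_pow, chiRes, chiRes, h1 hi, map_one, add_comm i j, h1 hj, one_mul]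

/-- The shadow of a lift. -/
def tameShadow (e : ℕ) (Φ : FormRes t.D → ℂ) : ℍ → ℂ :=
  shadow (3 * (t.D : ℝ)) fun m =>
    liftMinus (liftLevel n₀) (tameG t) (tamePhase (3 ^ e) Φ) (-((m + 1 : ℕ) : ℤ))

omit [NeZero n₀] in
theorem three_mul_D_pos : (0 : ℝ) < 3 * (t.D : ℝ) := by
  have := NeZero.pos t.D
  positivity

include he in
theorem tameShadow_add (Φ Ψ : FormRes t.D → ℂ) :
    tameShadow t e (Φ + Ψ) = tameShadow t e Φ + tameShadow t e Ψ := by
  have h := hasHarmExp_tameLift t he (Φ + Ψ)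
  rw [map_add] at h
  have h1 := hasHarmExp_tameLift t he Φ
  have h2 := hasHarmExp_tameLift t he Ψ
  rw [tameShadow, shadow_unique (three_mul_D_pos t) (three_mul_D_pos t) h (h1.add h2),
    shadow_add (three_mul_D_pos t) (h1.isSubExp (three_mul_D_pos t)).2
      (h2.isSubExp (three_mul_D_pos t)).2]
  rfl

include he in
theorem tameShadow_eq_of_eq_smul {Φ Ψ : FormRes t.D → ℂ} {k : ℂ}
    (h : tameLift t he Φ = k • tameLift t he Ψ) :
    tameShadow t e Φ = conj k • tameShadow t e Ψ := by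
  have h1 := hasHarmExp_tameLift t he Φ
  rw [h] at h1
  rw [tameShadow, shadow_unique (three_mul_D_pos t) (three_mul_D_pos t) h1
    ((hasHarmExp_tameLift t he Ψ).smul k), shadow_const_smul]
  rfl

include he in
theorem tameShadow_smul (c : ℂ) (Φ : FormRes t.D → ℂ) :
    tameShadow t e (c • Φ) = conj c • tameShadow t e Φ :=
  tameShadow_eq_of_eq_smul t he (map_smul _ _ _)

/-- The transformation law in terms of the representation. -/
theorem tameLift_slash_rep {γ : SL(2, ℤ)} (hγ : γ ∈ Gamma0 (3 ^ (e + 1)))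
    (Φ : FormRes t.D → ℂ) : tameLift t he Φ ∣[(1 : ℤ)] γ = chiC (γ 1 1) •
      tameLift t he ((liftVdChar t.squarefree_D t.not_three).rep γ⁻¹ Φ) := by
  have hγ' : γ ∈ Gamma0 (3 * 3 ^ e) := by rwa [← pow_succ']
  rw [← fullOp_eq_rep t.squarefree_D t.not_three t.isUnit_three ⟨γ, hγ'⟩]
  exact tameLift_slash t he ⟨γ, hγ'⟩ Φ

include he in
/-- The shadows transform by the representation. -/
theorem tameShadow_slash {γ : SL(2, ℤ)} (hγ : γ ∈ Gamma0 (3 ^ (e + 1)))
    (Φ : FormRes t.D → ℂ) : tameShadow t e Φ ∣[(1 : ℤ)] γ = chiC (γ 1 1) •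
      tameShadow t e ((liftVdChar t.squarefree_D t.not_three).rep γ⁻¹ Φ) := by
  have hg := (hasHarmExp_tameLift t he ((liftVdChar t.squarefree_D t.not_three).rep γ⁻¹ Φ)).smul
    (chiC (γ 1 1))
  rw [← tameLift_slash_rep t he hγ] at hg
  rw [tameShadow, shadow_slash (three_mul_D_pos t) (three_mul_D_pos t)
    (hasHarmExp_tameLift t he Φ) γ hg, shadow_const_smul, conj_chiC]
  rfl

include he in
theorem tameShadow_comp_low (u : LowIdx t.D) (Φ : FormRes t.D → ℂ) :
    tameShadow t e (lowEnd t.D u Φ) = conj (lowChar t u) • tameShadow t e Φ :=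
  tameShadow_eq_of_eq_smul t he (tameLift_comp_lowAct t he u.2 Φ)

include he in
theorem tameShadow_zero : tameShadow t e 0 = 0 := by
  simpa using tameShadow_smul t he 0 0

include he in
theorem isZeroAtImInfty_tameShadow_slash (Φ : FormRes t.D → ℂ) (γ : SL(2, ℤ)) :
    IsZeroAtImInfty (tameShadow t e Φ ∣[(1 : ℤ)] γ) := by
  obtain ⟨h, hh, a, b, hab⟩ := tameLift_slash_mem t he Φ γ
  rw [tameShadow, shadow_slash (three_mul_D_pos t) hh (hasHarmExp_tameLift t he Φ) γ hab]
  exact isZeroAtImInfty_posSeries hh (hab.isSubExp hh).2.conj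

/-- The shadows as a linear map. -/
def shadowLift : (FormRes t.D → ℂ) →ₗ[ℂ] (ℍ → ℂ) where
  toFun Φ := tameShadow t e fun v => conj (Φ v)
  map_add' Φ Ψ := by
    rw [← tameShadow_add t he]
    congr 1
    funext v
    exact map_add _ _ _
  map_smul' c Φ := by
    have e1 : (fun v => conj ((c • Φ) v)) = conj c • fun v => conj (Φ v) := funext fun v => by
      simp
    rw [e1, tameShadow_smul t he, Complex.conj_conj, RingHom.id_apply]

theorem shadowLift_apply (Φ : FormRes t.D → ℂ) :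
    shadowLift t he Φ = tameShadow t e fun v => conj (Φ v) := rfl

/-- **The shadows form a family.** -/
theorem isLiftFam_shadowLift : SquarefreeLevel.IsLiftFam (3 ^ (e + 1))
    (shadowVdChar t.squarefree_D t.not_three).rep (lowEnd t.D) (fun u => conj (lowChar t u))
    (shadowLift t he) where
  mdiff Φ := mdiff_posSeries (three_mul_D_pos t)
    ((hasHarmExp_tameLift t he fun v => conj (Φ v)).isSubExp (three_mul_D_pos t)).2.conj
  zero Φ := isZeroAt_of_slash (isZeroAtImInfty_tameShadow_slash t he _)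
  law γ hγ Φ := by
    rw [shadowLift_apply, shadowLift_apply, tameShadow_slash t he hγ]
    congr 2
    funext v
    set c := liftVdChar t.squarefree_D t.not_three
    have hmap := congrFun (c.map_rep (starRingEnd ℂ) (shadowVdChar t.squarefree_D t.not_three)
      (fun x => by
        rw [conj_vdChar]
        exact (congrArg ZMod.stdAddChar (neg_neg x)).symm.trans
          (AddChar.inv_apply ZMod.stdAddChar (-x)).symm)
      γ⁻¹ fun w => conj (Φ w)) v
    simp only [Function.comp_def, Complex.conj_conj] at hmap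
    rw [hmap, Complex.conj_conj]
  inv u Φ := by
    rw [shadowLift_apply, shadowLift_apply, ← tameShadow_comp_low t he]
    rfl

/-- The functions of residues whose lifts have vanishing shadow. -/
def shadowKer : Submodule ℂ (FormRes t.D → ℂ) where
  carrier := {Φ | tameShadow t e Φ = 0}
  zero_mem' := tameShadow_zero t he
  add_mem' {a b} (ha : tameShadow t e a = 0) (hb : tameShadow t e b = 0) := by
    show tameShadow t e (a + b) = 0
    rw [tameShadow_add t he, ha, hb, add_zero]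
  smul_mem' c a (ha : tameShadow t e a = 0) := by
    show tameShadow t e (c • a) = 0
    rw [tameShadow_smul t he, ha, smul_zero]

/-- A lift with vanishing shadow is holomorphic and vanishes at all cusps. -/
theorem tameLift_hol {Φ : FormRes t.D → ℂ} (h0 : tameShadow t e Φ = 0) :
    MDiff (tameLift t he Φ) ∧ ∀ γ : SL(2, ℤ), IsZeroAtImInfty (tameLift t he Φ ∣[(1 : ℤ)] γ) := by
  have hexp := hasHarmExp_tameLift t he Φ
  obtain ⟨ha, hb⟩ := hexp.isSubExp (three_mul_D_pos t)
  have hz : ∀ {h : ℝ} {g : ℍ → ℂ} {a b : ℕ → ℂ}, 0 < h → HasHarmExp h g a b →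
      shadow h b = 0 → g = fun τ : ℍ => posSeries h a τ := by
    intro h g a b hh hg hs
    have hbz := posSeries_eq_zero hh (hg.isSubExp hh).2.conj (fun τ => congrFun hs τ)
    have hb' : b = 0 := funext fun m => by simpa using congrFun hbz m
    funext τ
    rw [hg.eq_series, hb']
    simp [negSeries]
  refine ⟨?_, fun γ => ?_⟩
  · rw [hz (three_mul_D_pos t) hexp h0]
    exact mdiff_posSeries (three_mul_D_pos t) ha
  · obtain ⟨h, hh, a, b, hab⟩ := tameLift_slash_mem t he Φ γ
    have hs : shadow h b = 0 := by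
      rw [← shadow_slash (three_mul_D_pos t) hh hexp γ hab]
      exact (congrArg (· ∣[(1 : ℤ)] γ) h0).trans (SlashAction.zero_slash _ _)
    rw [hz hh hab hs]
    exact isZeroAtImInfty_posSeries hh (hab.isSubExp hh).1

/-- The lifts composed with the projection to those with vanishing shadow form a family. -/
theorem exists_holFam : ∃ L : (FormRes t.D → ℂ) →ₗ[ℂ] (ℍ → ℂ),
    SquarefreeLevel.IsLiftFam (3 ^ (e + 1)) (liftVdChar t.squarefree_D t.not_three).rep (lowEnd t.D)
      (lowChar t) L ∧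
    ∀ Φ, tameShadow t e Φ = 0 → L Φ = tameLift t he Φ := by
  set c := liftVdChar t.squarefree_D t.not_three
  obtain ⟨P, hPmem, hPid, hPU⟩ := exists_unitary_projection (shadowKer t he)
  refine ⟨(tameLift t he).comp P,
    { mdiff := fun φ => (tameLift_hol t he (hPmem φ)).1
      zero := fun φ => isZeroAt_of_slash (tameLift_hol t he (hPmem φ)).2
      law := fun γ hγ φ => ?_
      inv := fun u φ => ?_ },
    fun Φ hΦ => by rw [LinearMap.comp_apply, hPid Φ hΦ]⟩
  · rw [LinearMap.comp_apply, LinearMap.comp_apply, tameLift_slash_rep t he hγ,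
      hPU (c.rep γ⁻¹) (rep_unitary c γ⁻¹) ?_]
    intro f (hf : tameShadow t e f = 0)
    show tameShadow t e (c.rep γ⁻¹ f) = 0
    have hs := tameShadow_slash t he hγ f
    rw [hf, SlashAction.zero_slash] at hs
    have h3 : γ ∈ Gamma0 3 := by
      have hd : (3 : ℕ) ∣ 3 ^ (e + 1) := dvd_pow_self 3 (Nat.succ_ne_zero e)
      rw [Gamma0_mem, ZMod.intCast_zmod_eq_zero_iff_dvd] at hγ ⊢
      exact (Int.natCast_dvd_natCast.mpr hd).trans hγ
    exact (smul_eq_zero.mp hs.symm).resolve_left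
      (chiC_lowerRight_ne_zero h3)
  · rw [LinearMap.comp_apply, LinearMap.comp_apply, hPU (lowEnd t.D u)
      (vdPair_comp ((shadowVdChar t.squarefree_D t.not_three).lowAct_bijective u.2)) ?_]
    · exact tameLift_comp_lowAct t he u.2 (P φ)
    · intro f (hf : tameShadow t e f = 0)
      show tameShadow t e (lowEnd t.D u f) = 0
      rw [tameShadow_comp_low t he, hf, smul_zero]

theorem dMat_slash (D : ℕ) [NeZero D] (g : ℍ → ℂ) (τ : ℍ) :
    (g ∣[(1 : ℤ)] intGL (SquarefreeLevel.dMat D)) τ = g (ModularForm.heckeDiagMatrix D • τ) := by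
  rw [show intGL (SquarefreeLevel.dMat D) = ModularForm.heckeDiagMatrix D from
    intGL_hRep_none (NeZero.ne D), ModularForm.slash_heckeDiagMatrix_apply 1 (NeZero.ne D)]
  simp

/-- The member of the datum. -/
theorem exists_tame_member : ∃ ψ : FormRes t.D → ℂ,
    tameLift t he ψ ∣[(1 : ℤ)] intGL (SquarefreeLevel.dMat t.D) = thetaLift (3 * n₀) d.F ∧
      tameShadow t e ψ ∣[(1 : ℤ)] intGL (SquarefreeLevel.dMat t.D) =
        shadow 1 (fun m => liftCoefM d (m + 1)) ∧
      (shadow 1 (fun m => liftCoefM d (m + 1)) = 0 → tameShadow t e ψ = 0) := by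
  obtain ⟨ψ', hψ'⟩ := exists_tameLift_base t he
  set ψ := famConst 1 zeroIdx • ψ' with hψ
  have hD : (t.D : ℂ) ≠ 0 := Nat.cast_ne_zero.mpr (NeZero.ne t.D)
  set σ : ℍ → ℍ := fun τ => ModularForm.heckeDiagMatrix t.D • τ
  have hσ : ∀ τ : ℍ, (σ τ : ℂ) = (t.D : ℂ) * τ := fun τ =>
    ModularForm.coe_heckeDiagMatrix_smul (NeZero.ne t.D) τ
  have h1 : (fun τ => tameLift t he ψ (σ τ)) = thetaLift (3 * n₀) d.F := by
    funext τ
    rw [thetaLift_eq, hψ, map_smul, Pi.smul_apply, smul_eq_mul, hψ', hσ]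
    congr 2
    push_cast
    field_simp
  have hexp := hasHarmExp_tameLift t he ψ
  have haff := hexp.affine (three_mul_D_pos t).ne' (a := (t.D : ℝ)) (d := 1)
    (Nat.cast_ne_zero.mpr (NeZero.ne t.D)) one_ne_zero 0 σ fun τ => by rw [hσ]; simp
  rw [h1] at haff
  have h2 : ∀ τ, tameShadow t e ψ (σ τ) = shadow 1 (fun m => liftCoefM d (m + 1)) τ := by
    intro τ
    rw [← shadow_unique (div_pos (mul_pos one_pos (three_mul_D_pos t))
      (Nat.cast_pos.mpr (NeZero.pos t.D))) one_pos haff (hasHarmExp_thetaLift d)]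
    refine tsum_congr fun m => ?_
    have hq := qExp_affine (a := (t.D : ℝ)) (d := 1) (Nat.cast_ne_zero.mpr (NeZero.ne t.D))
      one_ne_zero (three_mul_D_pos t).ne' 0 (τ : ℂ) m
    simp only [zero_mul, zero_div, Eis.eChar_zero, one_mul, Complex.ofReal_natCast,
      Complex.ofReal_zero, add_zero, Complex.ofReal_one, div_one] at hq
    rw [hσ, hq]
    simp [Eis.eChar_zero]
  refine ⟨ψ, funext fun τ => ?_, funext fun τ => ?_, fun h0 => funext fun z => ?_⟩
  · rw [dMat_slash, ← congrFun h1 τ]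
  · rw [dMat_slash, ← h2 τ]
  · have hz : 0 < ((z : ℂ) / (t.D : ℂ)).im := by
      rw [Complex.div_natCast_im]
      exact div_pos z.im_pos (Nat.cast_pos.mpr (NeZero.pos t.D))
    have e1 : σ ⟨(z : ℂ) / (t.D : ℂ), hz⟩ = z := UpperHalfPlane.ext (by
      rw [hσ]
      field_simp)
    rw [← e1, h2, h0]
    rfl

omit [NeZero n₀] in
include he in
/-- The dilate of a member of a family is a weight-one form if it transforms by the character. -/
theorem isW1_of_fam {L : (FormRes t.D → ℂ) →ₗ[ℂ] (ℍ → ℂ)}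
    {W : Representation ℂ SL(2, ℤ) (FormRes t.D → ℂ)} {χ : LowIdx t.D → ℂ}
    (hL : SquarefreeLevel.IsLiftFam (3 ^ (e + 1)) W (lowEnd t.D) χ L) (ψ : FormRes t.D → ℂ)
    {f : ℍ → ℂ}
    (hf : L ψ ∣[(1 : ℤ)] intGL (SquarefreeLevel.dMat t.D) = f)
    (hs : ∀ γ : SL(2, ℤ), γ ∈ Gamma0 (3 * n₀) → f ∣[(1 : ℤ)] γ = chiC (γ 1 1) • f) :
    IsW1 (3 ^ (e + 1) * t.D ^ 2) f := by
  have hN : 3 ^ (e + 1) * t.D ^ 2 = 3 * n₀ := by
    rw [show 3 * n₀ = 3 * (3 ^ e * t.D ^ 2) from congrArg (3 * ·) he]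
    ring
  refine ⟨hf ▸ (hL.mdiff ψ).slash 1 _, fun γ hγ => ?_,
    hf ▸ fun c hc => isZeroAt_slash_intGL (hL.zero ψ) _ hc⟩
  exact hs γ (hN ▸ hγ)

include he in
/-- **The family of a tame twist.** -/
theorem exists_tameFamily (hρ : Continuous ρ) (hsurj : Function.Surjective ρ)
    (hdet : ∀ σ : Γℚ, Matrix.GeneralLinearGroup.det (ρ σ) =
      WeierstrassCurve.modThreeCyclotomicChar σ) :
    ∃ (c : VdChar t.D ℂ) (χ : LowIdx t.D → ℂ) (L : (Vd (ZMod t.D) → ℂ) →ₗ[ℂ] (ℍ → ℂ))
      (ψ : Vd (ZMod t.D) → ℂ),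
      ((c = liftVdChar t.squarefree_D t.not_three ∧ χ = lowChar t) ∨
        (c = shadowVdChar t.squarefree_D t.not_three ∧ χ = fun u => conj (lowChar t u))) ∧
      SquarefreeLevel.IsLiftFam (3 ^ (e + 1)) c.rep (lowEnd t.D) χ L ∧
      IsW1 (3 ^ (e + 1) * t.D ^ 2) (L ψ ∣[(1 : ℤ)] intGL (SquarefreeLevel.dMat t.D)) ∧
      L ψ ∣[(1 : ℤ)] intGL (SquarefreeLevel.dMat t.D) ≠ 0 ∧
      ∀ (p : ℕ) (π : Eis3), p.Prime → p % 3 = 1 → ¬ p ∣ 3 * n₀ → π.norm = p → ∀ n : ℕ,
        qCoeff (L ψ ∣[(1 : ℤ)] intGL (SquarefreeLevel.dMat t.D)) (p * n) +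
            (if p ∣ n then qCoeff (L ψ ∣[(1 : ℤ)] intGL (SquarefreeLevel.dMat t.D))
              (n / p) else 0) =
          (d.c π : ℂ) * qCoeff (L ψ ∣[(1 : ℤ)] intGL (SquarefreeLevel.dMat t.D)) n := by
  have hexp := hasHarmExp_thetaLift d
  obtain ⟨hsa, hsb⟩ := hexp.isSubExp one_pos
  obtain ⟨ψ, hlift, hsh, hzero⟩ := exists_tame_member t he
  by_cases hb0 : shadow 1 (fun m => liftCoefM d (m + 1)) = 0
  · obtain ⟨L, hL, hLeq⟩ := exists_holFam t he
    have hf : L ψ ∣[(1 : ℤ)] intGL (SquarefreeLevel.dMat t.D) = thetaLift (3 * n₀) d.F := by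
      rw [hLeq ψ (hzero hb0), hlift]
    have hb : (fun m => liftCoefM d (m + 1)) = 0 := funext fun m => by
      simpa using congrFun (posSeries_eq_zero one_pos hsb.conj (fun τ => congrFun hb0 τ)) m
    have hf0 : thetaLift (3 * n₀) d.F =
        fun τ : ℍ => posSeries 1 (fun m => liftCoefP d (m + 1)) τ := by
      funext τ
      rw [hexp.eq_series, hb]
      simp [negSeries]
    have hcoef0 : liftCoefP d 0 = 0 := by simp [liftCoefP, liftPlus]
    refine ⟨_, _, L, ψ, Or.inl ⟨rfl, rfl⟩, hL,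
      hf.symm ▸ isW1_of_fam t he hL ψ hf fun γ hγ => thetaLift_slash (dvd_mul_right 3 n₀) hγ,
      fun h0 => ?_, fun p π hp hp1 hpn hπ n => ?_⟩
    · rw [hf, hf0] at h0
      have h1 := congrFun (posSeries_eq_zero one_pos hsa fun τ => congrFun h0 τ) 0
      simp only [liftCoefP, liftPlus, Pi.zero_apply, mul_eq_zero, div_eq_zero_iff, zero_add,
        mul_one, Complex.ofReal_eq_zero] at h1
      rcases h1 with h1 | h1 | h1
      · exact famConst_ne_zero 1 zeroIdx h1
      · exact planePeriod_three_ne_zero d (period_ne_zero hρ hsurj hdet (NeZero.pos n₀) d)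
          (dvd_liftLevel n₀) h1
      · simp at h1
    · simp only [hf, hf0, qCoeff_posSeries hcoef0 hsa]
      rcases eq_or_ne n 0 with rfl | hn
      · simp [hcoef0]
      · exact (hecke_liftCoef d hp (fun h => hpn (h ▸ dvd_mul_right 3 n₀))
          (fun h => hpn (h.mul_left 3)) hπ hn).1.symm
  · set ψ' : FormRes t.D → ℂ := fun v => conj (ψ v)
    have hf : shadowLift t he ψ' ∣[(1 : ℤ)] intGL (SquarefreeLevel.dMat t.D) =
        shadow 1 (fun m => liftCoefM d (m + 1)) := by
      rw [shadowLift_apply, show (fun v => conj (ψ' v)) = ψ from funext fun v =>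
        Complex.conj_conj (ψ v), hsh]
    have hcoef0 : conj (liftCoefM d 0) = 0 := by simp [liftCoefM, liftMinus]
    refine ⟨_, _, shadowLift t he, ψ', Or.inr ⟨rfl, rfl⟩, isLiftFam_shadowLift t he,
      hf.symm ▸ isW1_of_fam t he (isLiftFam_shadowLift t he) ψ' hf fun γ hγ => ?_,
      fun h0 => hb0 (hf.symm.trans h0), fun p π hp hp1 hpn hπ n => ?_⟩
    · have hg := hexp.smul (chiC (γ 1 1))
      rw [← thetaLift_slash (dvd_mul_right 3 n₀) hγ] at hg
      rw [shadow_slash one_pos one_pos hexp γ hg, shadow_const_smul, conj_chiC]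
    · have hq : ∀ m, qCoeff (shadow 1 fun m => liftCoefM d (m + 1)) m = conj (liftCoefM d m) :=
        qCoeff_posSeries (coef := fun m => conj (liftCoefM d m)) hcoef0 hsb.conj
      simp only [hf, hq]
      rcases eq_or_ne n 0 with rfl | hn
      · simp [hcoef0]
      · have h := congrArg conj (hecke_liftCoef d hp (fun h => hpn (h ▸ dvd_mul_right 3 n₀))
          (fun h => hpn (h.mul_left 3)) hπ hn).2
        simpa [map_add, map_mul, apply_ite conj] using h.symm

end Fermat.Agent.ResidualThree
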