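import Fermat.Agent.ResidualThree.ThetaLift.Cusp

/-!
# Change of variables for integrals over a congruence quotient

Integrals over `measK` are compared after translation by a commensurating matrix and under a
change of level, by the uniqueness of integrals against orbit weights.
-/

noncomputable section

open MeasureTheory
open scoped ENNReal

namespace Fermat.Agent.ResidualThree

theorem principalK_anti {D D' : ℕ} (h : D ∣ D') : principalK D' ≤ principalK D := by
  intro g hg
  refine ⟨hg.1, fun i j => ?_⟩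
  have h1 := congrArg (Prod.map (ZMod.castHom h (ZMod D)) (ZMod.castHom h (ZMod D))) (hg.2 i j)
  simp only [Eis3.red, Prod.map_apply, map_intCast] at h1 ⊢
  rw [h1]
  split_ifs <;> simp only [Prod.map_apply, map_zero, map_one]

/-- The weight of level `L` for a larger subgroup of the integral group. -/
theorem exists_isOrbitWeight_of_le {L : ℕ} [NeZero L] {H : Subgroup (GL (Fin 2) ℂ)}
    (hL : principalK L ≤ H) (hH : H ≤ integralK) :
    ∃ m : ℕ, 0 < m ∧ IsOrbitWeight H (weightK L) ((m : ℝ≥0∞)) := by
  have := finite_quotient_principal L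
  have : Finite (H ⧸ (principalK L).subgroupOf H) :=
    Finite.of_injective _ (Subgroup.quotientSubgroupOfEmbeddingOfLE (principalK L) hH).injective
  have h1 : IsOrbitWeight ((principalK L).subgroupOf H) (weightK L) 1 := by
    refine ⟨measurable_weightK, fun x => ?_⟩
    rw [← (isOrbitWeight_weightK L).sum_eq x]
    exact (Subgroup.subgroupOfEquivOfLe hL).toEquiv.tsum_eq
      (fun γ : principalK L => weightK L (γ • x))
  have : Countable H := (Subgroup.inclusion_injective hH).countable
  exact ⟨Nat.card (H ⧸ (principalK L).subgroupOf H), Nat.card_pos, by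
    simpa only [mul_one] using h1.of_subgroup⟩

theorem isFiniteMeasure_weight {g : GL (Fin 2) ℂ} {M : ℕ} [NeZero M] :
    IsFiniteMeasure (H3.vol.withDensity fun q => weightK M (g • q)) :=
  ⟨by
    rw [withDensity_apply _ MeasurableSet.univ, Measure.restrict_univ,
      (H3.measurePreserving_smul g).lintegral_comp measurable_weightK]
    exact lintegral_weightK_lt_top⟩

theorem integral_withDensity_weight {M : ℕ} [NeZero M] (g : GL (Fin 2) ℂ) (Φ : H3 → ℂ) :
    ∫ q, Φ q ∂H3.vol.withDensity (fun q => weightK M (g • q)) =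
      ∫ q, ((weightK M (g • q)).toReal : ℂ) * Φ q ∂H3.vol := by
  rw [integral_withDensity_eq_integral_toReal_smul (f := fun q => weightK M (g • q))
    (measurable_weightK.comp (H3.continuous_smul_gl g).measurable)
    (Filter.Eventually.of_forall fun q =>
      (weightK_le_one _).trans_lt ENNReal.one_lt_top)]
  simp only [Complex.real_smul]

/-- Change of variables by an element commensurating the principal groups. -/
theorem integral_measK_smul {M L : ℕ} [NeZero M] [NeZero L] (hML : M ∣ L) (g : GL (Fin 2) ℂ)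
    (hsub : ∀ γ ∈ principalK L, g⁻¹ * γ * g ∈ principalK M)
    (hint : ∀ γ ∈ principalK M, g * γ * g⁻¹ ∈ integralK)
    {Φ : H3 → ℂ} (hΦ : Measurable Φ) {B : ℝ} (hB : ∀ p, ‖Φ p‖ ≤ B)
    (hinv : ∀ γ ∈ principalK M, ∀ p, Φ (γ • p) = Φ p)
    (hinv' : ∀ γ ∈ principalK M, ∀ p, Φ (g • γ • p) = Φ (g • p)) :
    ∫ p, Φ (g • p) ∂measK M = ∫ p, Φ p ∂measK M := by
  set H' : Subgroup (GL (Fin 2) ℂ) := (principalK M).map (MulAut.conj g).toMonoidHom with hH'
  have hH'le : H' ≤ integralK := by
    rintro _ ⟨γ, hγ, rfl⟩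
    exact hint γ hγ
  have hLH' : principalK L ≤ H' := fun γ hγ =>
    ⟨g⁻¹ * γ * g, hsub γ hγ, by simp [MulAut.conj_apply, mul_assoc]⟩
  have : Countable H' := (Subgroup.inclusion_injective hH'le).countable
  set w' : H3 → ℝ≥0∞ := fun q => weightK M (g⁻¹ • q) with hw'
  have hw'W : IsOrbitWeight H' w' 1 := by
    refine ⟨measurable_weightK.comp (H3.continuous_smul_gl g⁻¹).measurable, fun x => ?_⟩
    rw [← (isOrbitWeight_weightK M).sum_eq (g⁻¹ • x)]
    let e : principalK M ≃* H' :=
      (principalK M).equivMapOfInjective _ (MulAut.conj g).injective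
    rw [← e.toEquiv.tsum_eq]
    refine tsum_congr fun γ => ?_
    show weightK M (g⁻¹ • ((e γ : H') : GL (Fin 2) ℂ) • x) =
      weightK M ((γ : GL (Fin 2) ℂ) • g⁻¹ • x)
    rw [Subgroup.coe_equivMapOfInjective_apply]
    simp [MulAut.conj_apply, mul_smul]
  have hinvH' : ∀ (γ : H') (x : H3), Φ (γ • x) = Φ x := by
    rintro ⟨_, γ, hγ, rfl⟩ x
    show Φ ((g * γ * g⁻¹) • x) = Φ x
    rw [mul_smul, mul_smul, hinv' γ hγ, smul_inv_smul]
  obtain ⟨m, hm, hW⟩ := exists_isOrbitWeight_of_le (principalK_anti hML) (principalK_le M)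
  obtain ⟨m', hm', hW'⟩ := exists_isOrbitWeight_of_le hLH' hH'le
  have hf' : IsFiniteMeasure (H3.vol.withDensity w') := isFiniteMeasure_weight
  have hfM : IsFiniteMeasure (H3.vol.withDensity (weightK M)) := inferInstanceAs
    (IsFiniteMeasure (measK M))
  have hfL : IsFiniteMeasure (H3.vol.withDensity (weightK L)) := inferInstanceAs
    (IsFiniteMeasure (measK L))
  have hi : ∀ (μ : Measure H3) [IsFiniteMeasure μ], Integrable Φ μ := fun μ _ =>
    Integrable.of_bound hΦ.aestronglyMeasurable B (Filter.Eventually.of_forall hB)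
  have e1 := (isOrbitWeight_weightK M).integral_comm hW (μ := H3.vol) hΦ
    (fun γ x => hinv _ γ.2 x) (hi _) (hi _)
  have e2 := hw'W.integral_comm hW' (μ := H3.vol) hΦ hinvH' (hi _) (hi _)
  have c1 := (isOrbitWeight_weightK M).lintegral_comm hW (μ := H3.vol)
    (φ := fun _ => 1) measurable_const (fun _ _ => rfl)
  have c2 := hw'W.lintegral_comm hW' (μ := H3.vol) (φ := fun _ => 1)
    measurable_const (fun _ _ => rfl)
  simp only [mul_one, one_mul] at c1 c2
  have hval : ∫⁻ q, w' q ∂H3.vol = ∫⁻ q, weightK M q ∂H3.vol :=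
    (H3.measurePreserving_smul g⁻¹).lintegral_comp measurable_weightK
  have hcv : ∫ p, Φ (g • p) ∂measK M = ∫ q, Φ q ∂H3.vol.withDensity w' := by
    rw [integral_withDensity_weight, measK, show weightK M = fun q =>
      weightK M ((1 : GL (Fin 2) ℂ) • q)
      by simp, integral_withDensity_weight, ← H3.integral_smul_gl g
        (fun q => (((weightK M ((1 : GL (Fin 2) ℂ) • g⁻¹ • q)).toReal : ℂ)) * Φ q)]
    simp
  rw [hcv]
  show ∫ q, Φ q ∂H3.vol.withDensity w' = ∫ q, Φ q ∂H3.vol.withDensity (weightK M)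
  by_cases h0 : ∫⁻ q, weightK M q ∂H3.vol = 0
  · have z1 : H3.vol.withDensity (weightK M) = 0 := by
      rw [← Measure.measure_univ_eq_zero, withDensity_apply _ MeasurableSet.univ,
        Measure.restrict_univ, h0]
    have z2 : H3.vol.withDensity w' = 0 := by
      rw [← Measure.measure_univ_eq_zero, withDensity_apply _ MeasurableSet.univ,
        Measure.restrict_univ, hval, h0]
    rw [z1, z2]
  · have hmm : m = m' := by
      rw [hval, ← c1, ENNReal.mul_left_inj h0 lintegral_weightK_lt_top.ne] at c2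
      exact_mod_cast c2.symm
    simp only [ENNReal.toReal_natCast, ENNReal.toReal_one, Complex.ofReal_one, one_mul,
      Complex.ofReal_natCast] at e1 e2
    rw [← hmm, ← e1] at e2
    exact mul_left_cancel₀ (Nat.cast_ne_zero.mpr hm.ne') e2

end Fermat.Agent.ResidualThree
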