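import Fermat.Agent.ResidualThree.ThetaLift.HeckeF
import Fermat.Agent.ResidualThree.ThetaLift.Move

/-!
# Congruence subgroups and the commensurating matrices

The group `Γ₀(n)` of `ℤ[ω]`, matrices with entries in `ℤ[ω]`, and the fact that conjugation by
an integral matrix `g` with `p • g⁻¹` integral moves the principal group of level `D p` into that of
level `D`. Used for the Hecke correspondence of the lift.
-/

noncomputable section

open scoped ComplexConjugate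

namespace Fermat.Agent.ResidualThree

/-- A matrix with entries in `ℤ[ω]`. -/
def IsOMat (X : Matrix (Fin 2) (Fin 2) ℂ) : Prop :=
  ∃ e : Fin 2 → Fin 2 → Eis3, ∀ i j, X i j = (e i j).toC

theorem IsOMat.mul {X Y : Matrix (Fin 2) (Fin 2) ℂ} (hX : IsOMat X) (hY : IsOMat Y) :
    IsOMat (X * Y) := by
  obtain ⟨e, he⟩ := hX
  obtain ⟨f, hf⟩ := hY
  refine ⟨fun i j => Eis3.mul (e i 0) (f 0 j) + Eis3.mul (e i 1) (f 1 j), fun i j => ?_⟩
  rw [Matrix.mul_apply, Fin.sum_univ_two, he, he, hf, hf, Eis3.toC_add, Eis3.toC_mul, Eis3.toC_mul]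

theorem isOMat_of_mem {g : GL (Fin 2) ℂ} (hg : g ∈ integralK) :
    IsOMat (g : Matrix (Fin 2) (Fin 2) ℂ) :=
  ⟨entry g, fun i j => (toC_entry hg i j).symm⟩

/-- The principal group of level `D` consists of the `1 + D E` with `E` integral and unit
determinant. -/
theorem mem_principalK_iff {D : ℕ} {g : GL (Fin 2) ℂ} :
    g ∈ principalK D ↔ ‖(g : Matrix (Fin 2) (Fin 2) ℂ).det‖ = 1 ∧ ∃ E, IsOMat E ∧
      (g : Matrix (Fin 2) (Fin 2) ℂ) = 1 + (D : ℂ) • E := by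
  constructor
  · intro hg
    have hd : ∀ i j, ∃ x : Eis3, entry g i j =
        (if i = j then ((1, 0) : Eis3) else (0, 0)) + Eis3.mul ((D : ℤ), 0) x := by
      intro i j
      have h := hg.2 i j
      set y := entry g i j - (if i = j then ((1, 0) : Eis3) else (0, 0)) with hy
      have h1 : (y.1 : ZMod D) = 0 ∧ (y.2 : ZMod D) = 0 := by
        rw [hy]
        simp only [Eis3.red] at h
        split_ifs at h ⊢ <;> simp [Prod.ext_iff] at h ⊢ <;> simp [h.1, h.2]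
      obtain ⟨⟨a, ha⟩, ⟨b, hb⟩⟩ := And.intro ((ZMod.intCast_zmod_eq_zero_iff_dvd _ D).mp h1.1)
        ((ZMod.intCast_zmod_eq_zero_iff_dvd _ D).mp h1.2)
      refine ⟨(a, b), ?_⟩
      rw [show Eis3.mul ((D : ℤ), 0) (a, b) = y by
        simp only [Eis3.mul]; ext <;> simp [ha, hb], hy]
      abel
    choose x hx using hd
    refine ⟨hg.1.2, Matrix.of fun i j => (x i j).toC, ⟨x, fun i j => rfl⟩, Matrix.ext fun i j => ?_⟩
    rw [← toC_entry hg.1, hx, Eis3.toC_add, Eis3.toC_mul, Eis3.toC_intCast, Matrix.add_apply,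
      Matrix.smul_apply, Matrix.of_apply, Matrix.one_apply, smul_eq_mul, Int.cast_natCast]
    split_ifs <;> simp [Eis3.toC_zero, Eis3.toC_one]
  · rintro ⟨hdet, E, ⟨e, he⟩, hg⟩
    have hent : ∀ i j, (g : Matrix (Fin 2) (Fin 2) ℂ) i j =
        Eis3.toC ((if i = j then ((1, 0) : Eis3) else (0, 0)) + Eis3.mul ((D : ℤ), 0) (e i j)) := by
      intro i j
      rw [hg, Eis3.toC_add, Eis3.toC_mul, Eis3.toC_intCast, Matrix.add_apply, Matrix.smul_apply,
        Matrix.one_apply, smul_eq_mul, Int.cast_natCast, he]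
      split_ifs <;> simp [Eis3.toC_zero, Eis3.toC_one]
    refine ⟨⟨⟨_, hent⟩, hdet⟩, fun i j => ?_⟩
    rw [entry_eq (hent i j)]
    split_ifs <;> simp [Eis3.red, Eis3.mul]

/-- Conjugation by a matrix `g` with `p g⁻¹` integral raises the level by `p`. -/
theorem conj_mem_principalK {g : GL (Fin 2) ℂ} {p D : ℕ}
    (hg : IsOMat (g : Matrix (Fin 2) (Fin 2) ℂ))
    (hg' : IsOMat ((p : ℂ) • ((g⁻¹ : GL (Fin 2) ℂ) : Matrix (Fin 2) (Fin 2) ℂ)))
    {γ : GL (Fin 2) ℂ} (hγ : γ ∈ principalK (D * p)) :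
    g * γ * g⁻¹ ∈ principalK D ∧ g⁻¹ * γ * g ∈ principalK D := by
  obtain ⟨hdet, E, hE, hγE⟩ := mem_principalK_iff.mp hγ
  refine ⟨mem_principalK_iff.mpr ⟨?_, _, (hg.mul hE).mul hg', ?_⟩,
    mem_principalK_iff.mpr ⟨?_, _, (hg'.mul hE).mul hg, ?_⟩⟩
  · rw [Units.val_mul, Units.val_mul, Matrix.det_mul, Matrix.det_mul, mul_right_comm,
      ← Matrix.det_mul, ← Units.val_mul, mul_inv_cancel, Units.val_one, Matrix.det_one, one_mul,
      hdet]
  · rw [Units.val_mul, Units.val_mul, hγE, Matrix.mul_add, Matrix.add_mul, mul_one,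
      ← Units.val_mul, mul_inv_cancel, Units.val_one]
    simp only [Matrix.mul_smul, Matrix.smul_mul, smul_smul, Nat.cast_mul]
  · rw [Units.val_mul, Units.val_mul, Matrix.det_mul, Matrix.det_mul, mul_right_comm,
      ← Matrix.det_mul, ← Units.val_mul, inv_mul_cancel, Units.val_one, Matrix.det_one, one_mul,
      hdet]
  · rw [Units.val_mul, Units.val_mul, hγE, Matrix.mul_add, Matrix.add_mul, mul_one,
      ← Units.val_mul, inv_mul_cancel, Units.val_one]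
    simp only [Matrix.mul_smul, Matrix.smul_mul, smul_smul, Nat.cast_mul]

/-- The group `Γ₀(n)` of `ℤ[ω]`. -/
def gammaZeroK (n : ℕ) : Subgroup (GL (Fin 2) ℂ) where
  carrier := {g | g ∈ integralK ∧ Eis3.dvd ((n : ℤ), 0) (entry g 1 0)}
  one_mem' := ⟨one_mem _, (0, 0), by
    rw [entry_eq (x := (0, 0)) (by simp [Eis3.toC_zero])]
    simp [Eis3.mul]⟩
  mul_mem' := fun {a b} ha hb => by
    refine ⟨mul_mem ha.1 hb.1, ?_⟩
    obtain ⟨x, hx⟩ := ha.2
    obtain ⟨y, hy⟩ := hb.2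
    refine ⟨Eis3.mul x (entry b 0 0) + Eis3.mul (entry a 1 1) y, (entry_eq ?_).symm⟩
    rw [Units.val_mul, Matrix.mul_apply, Fin.sum_univ_two, ← toC_entry ha.1, ← toC_entry ha.1,
      ← toC_entry hb.1, ← toC_entry hb.1, ← hx, ← hy]
    simp only [Eis3.toC_add, Eis3.toC_mul]
    ring
  inv_mem' := fun {a} ha => by
    refine ⟨inv_mem ha.1, ?_⟩
    obtain ⟨u, -, hu⟩ := IsIntegralK.inv_entries ha.1 (fun i j => (toC_entry ha.1 i j).symm)
    obtain ⟨x, hx⟩ := ha.2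
    refine ⟨Eis3.mul u (-x), (entry_eq ?_).symm⟩
    rw [hu]
    simp only [Matrix.cons_val_zero, Matrix.cons_val_one, Matrix.cons_val_fin_one, ← hx,
      Eis3.toC_mul, Eis3.toC_neg]
    ring

theorem gammaZeroK_le (n : ℕ) : gammaZeroK n ≤ integralK := fun _ h => h.1

theorem isBianchiGamma0_of_gammaZeroK {n : ℕ} {g : GL (Fin 2) ℂ} (hg : g ∈ gammaZeroK n) :
    IsBianchiGamma0 n g :=
  isBianchiGamma0_of_mem hg.1 hg.2

theorem mem_gammaZeroK {n : ℕ} {g : GL (Fin 2) ℂ} (e : Fin 2 → Fin 2 → Eis3)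
    (he : ∀ i j, (g : Matrix (Fin 2) (Fin 2) ℂ) i j = (e i j).toC)
    (hdet : ‖(g : Matrix (Fin 2) (Fin 2) ℂ).det‖ = 1) (hc : Eis3.dvd ((n : ℤ), 0) (e 1 0)) :
    g ∈ gammaZeroK n :=
  ⟨⟨⟨e, he⟩, hdet⟩, by rwa [entry_eq (he 1 0)]⟩

/-- The phase of the lift is invariant under `Γ₀(n₀)`. -/
theorem liftPhase_smul {n₀ : ℕ} (g : integralK) (hg : (g : GL (Fin 2) ℂ) ∈ gammaZeroK n₀)
    (i : HermIdx) : liftPhase (3 * n₀) (g • i) = liftPhase (3 * n₀) i := by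
  have key : ∀ (g : integralK), (g : GL (Fin 2) ℂ) ∈ gammaZeroK n₀ → ∀ i : HermIdx,
      (3 : ℤ) ∣ i.1 ∧ (3 : ℤ) ∣ i.2.1.1 + i.2.1.2 ∧ ((3 * n₀ : ℕ) : ℤ) ∣ i.2.2 →
      (3 : ℤ) ∣ (g • i).1 ∧ (3 : ℤ) ∣ (g • i).2.1.1 + (g • i).2.1.2 ∧
        ((3 * n₀ : ℕ) : ℤ) ∣ (g • i).2.2 := by
    intro g hg i ⟨h1, h2, h3⟩
    have : Fact (Nat.Prime 3) := ⟨Nat.prime_three⟩
    have hz : ∀ x : ℤ, (3 : ℤ) ∣ x ↔ (x : ZMod 3) = 0 := fun x =>
      (ZMod.intCast_zmod_eq_zero_iff_dvd x 3).symm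
    have h30 : (3 : ZMod 3) = 0 := rfl
    have ctr : ∀ x, ((HermIdx.tr x : ℤ) : ZMod 3) = -Eis3.modSqrtThree x := fun x => by
      simp only [Eis3.modSqrtThree, HermIdx.tr]
      push_cast
      linear_combination (x.1 : ZMod 3) * h30
    have ea : (i.1 : ZMod 3) = 0 := (hz _).mp h1
    have er : Eis3.modSqrtThree i.2.1 = 0 := (hz _).mp h2
    have ed : (i.2.2 : ZMod 3) = 0 :=
      (hz _).mp (dvd_trans (by exact_mod_cast Dvd.intro n₀ rfl) h3)
    obtain ⟨c, hc⟩ := hg.2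
    set x := entry (g : GL (Fin 2) ℂ) 0 0
    set y := entry (g : GL (Fin 2) ℂ) 0 1
    set w := entry (g : GL (Fin 2) ℂ) 1 1
    refine ⟨?_, ?_, ?_⟩
    · show (3 : ℤ) ∣ (HermIdx.actFormula (entry (g : GL (Fin 2) ℂ)) i).1
      simp only [hz, HermIdx.actFormula, Int.cast_add, Int.cast_mul, ctr,
        Eis3.modSqrtThree_mul, ea, ed, er]
      ring
    · show (3 : ℤ) ∣ (HermIdx.actFormula (entry (g : GL (Fin 2) ℂ)) i).2.1.1 +
        (HermIdx.actFormula (entry (g : GL (Fin 2) ℂ)) i).2.1.2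
      rw [hz]
      show Eis3.modSqrtThree (HermIdx.actFormula (entry (g : GL (Fin 2) ℂ)) i).2.1 = 0
      simp only [HermIdx.actFormula, Eis3.modSqrtThree_add, Eis3.modSqrtThree_mul,
        Eis3.modSqrtThree_bar, Eis3.modSqrtThree_intCast, ea, ed, er]
      ring
    · show ((3 * n₀ : ℕ) : ℤ) ∣ (HermIdx.actFormula (entry (g : GL (Fin 2) ℂ)) i).2.2
      obtain ⟨a', ha⟩ := h1
      obtain ⟨d', hd⟩ := h3
      obtain ⟨t, ht⟩ := (hz (HermIdx.tr (Eis3.mul (Eis3.mul c (Eis3.bar w)) i.2.1))).mpr (by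
        rw [ctr, Eis3.modSqrtThree_mul, er]; ring)
      refine ⟨(n₀ : ℤ) * (c.1 ^ 2 - c.1 * c.2 + c.2 ^ 2) * a' + t +
        (w.1 ^ 2 - w.1 * w.2 + w.2 ^ 2) * d', ?_⟩
      simp only [HermIdx.actFormula, ← hc, ha, hd, Eis3.norm_cast_eq, Eis3.mul, Eis3.bar,
        HermIdx.tr] at ht ⊢
      push_cast
      linear_combination (n₀ : ℤ) * ht
  have hinv : ((g⁻¹ : integralK) : GL (Fin 2) ℂ) ∈ gammaZeroK n₀ := by
    rw [Subgroup.coe_inv]; exact inv_mem hg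
  simp only [liftPhase]
  refine if_congr ⟨fun h => ?_, fun h => key g hg i h⟩ rfl rfl
  simpa using key g⁻¹ hinv _ h

end Fermat.Agent.ResidualThree
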