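import Fermat.Agent.ResidualThree.ThetaLift.Geometry
import Fermat.Agent.ResidualThree.ThetaLift.Unfold

/-!
# The Gaussian shell integrals of nonzero index

The integral of a cusp eigenfunction against the Gaussian sum of a shell of index `n ≠ 0`
equals the sum of its periods over planes (`n > 0`) or of its values at points (`n < 0`).
-/

noncomputable section

open MeasureTheory Set Filter
open scoped ComplexConjugate ENNReal

namespace Fermat.Agent.ResidualThree

/-- A bounded function on lattice forms, invariant under the group of level `D`. -/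
structure IsPhase (D : ℕ) (φ : HermIdx → ℂ) : Prop where
  bound : ∃ B : ℝ, 0 ≤ B ∧ ∀ i, ‖φ i‖ ≤ B
  invariant : ∀ (g : integralK), (g : GL (Fin 2) ℂ) ∈ principalK D → ∀ i, φ (g • i) = φ i

theorem IsPhase.of_red {D : ℕ} [NeZero D] {φ : HermIdx → ℂ}
    (ψ : ZMod D × (ZMod D × ZMod D) × ZMod D → ℂ) (h : ∀ i, φ i = ψ (HermIdx.red D i)) :
    IsPhase D φ := by
  refine ⟨⟨∑ x, ‖ψ x‖, by positivity, fun i => ?_⟩, fun g hg i => ?_⟩
  · rw [h]
    exact Finset.single_le_sum (fun x _ => norm_nonneg _) (Finset.mem_univ _)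
  · rw [h, h, HermIdx.red_smul_principal g hg]

/-- The forms of index `n`. -/
abbrev Shell (n : ℤ) : Type := {i : HermIdx // HermIdx.q i = n}

instance (n : ℤ) : MulAction integralK (Shell n) where
  smul g i := ⟨g • i.1, (HermIdx.q_smul g i.1).trans i.2⟩
  one_smul i := Subtype.ext (one_smul integralK i.1)
  mul_smul g g' i := Subtype.ext (mul_smul g g' i.1)

instance (D : ℕ) (n : ℤ) : MulAction (principalK D) (Shell n) :=
  MulAction.compHom (Shell n) (Subgroup.inclusion (principalK_le D))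

theorem Shell.smul_val {D : ℕ} {n : ℤ} (γ : principalK D) (i : Shell n) :
    (γ • i).1 = (Subgroup.inclusion (principalK_le D) γ) • i.1 := rfl

theorem Shell.vec_smul {D : ℕ} {n : ℤ} (γ : principalK D) (i : Shell n) :
    HermIdx.vec (γ • i).1 = (γ : GL (Fin 2) ℂ) • HermIdx.vec i.1 := by
  rw [Shell.smul_val, HermIdx.vec_smul]
  rfl

theorem IsPhase.shell {D : ℕ} {n : ℤ} {φ : HermIdx → ℂ} (h : IsPhase D φ) (γ : principalK D)
    (i : Shell n) : φ (γ • i).1 = φ i.1 :=
  h.invariant _ γ.2 i.1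

/-- The Gaussian sum over a shell. -/
def shellSum (φ : HermIdx → ℂ) (n : ℤ) (v : ℝ) (p : H3) : ℂ :=
  ∑' i : Shell n, φ i.1 * ((Real.exp (-(Real.pi * v * HermIdx.T i.1 p ^ 2)) : ℝ) : ℂ)

theorem exp_T_sq_eq {n : ℤ} (i : Shell n) (c : ℝ) (p : H3) :
    Real.exp (-(c * HermIdx.T i.1 p ^ 2)) =
      Real.exp (2 * c * n) * Real.exp (-(2 * c * (HermIdx.vec i.1).majorant p)) := by
  rw [← Real.exp_add, HermVec.majorant, HermIdx.vec_Q, i.2, HermIdx.T]
  congr 1
  ring

theorem tsum_shell_exp_le {n : ℤ} (c : ℝ) (p : H3) :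
    ∑' i : Shell n, ENNReal.ofReal (Real.exp (-(c * HermIdx.T i.1 p ^ 2))) ≤
      ENNReal.ofReal (Real.exp (2 * c * n)) * majorantSum (2 * c) p := by
  simp only [exp_T_sq_eq, ENNReal.ofReal_mul (Real.exp_pos _).le, ENNReal.tsum_mul_left]
  gcongr
  exact ENNReal.tsum_comp_le_tsum_of_injective (f := fun i : Shell n => i.1) Subtype.val_injective
    fun j => ENNReal.ofReal (Real.exp (-(2 * c * (HermIdx.vec j).majorant p)))

/-- The sum of the periods over the planes of index `n`. -/
def planePeriod (D : ℕ) (F : H3 → ℂ) (φ : HermIdx → ℂ) (n : ℤ) : ℂ :=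
  ∑' i : Shell n, φ i.1 *
    ∫ q, ((weightK D q).toReal : ℂ) * F q ∂HermVec.planeMeasure (HermIdx.vec i.1)

/-- The sum over the points of index `n`. -/
def pointPeriod (D : ℕ) (F : H3 → ℂ) (φ : HermIdx → ℂ) (n : ℤ) : ℂ :=
  ∑' i : Shell n, φ i.1 * (((weightK D (HermVec.pointOf (HermIdx.vec i.1))).toReal : ℂ) *
    F (HermVec.pointOf (HermIdx.vec i.1)))

variable {D : ℕ} [NeZero D] {F : H3 → ℂ} {φ : HermIdx → ℂ}

theorem lintegral_exp_sq_Ioi_le {b : ℝ} (hb : 0 < b) :
    ∫⁻ u in Ioi (1 : ℝ), ENNReal.ofReal (Real.exp (-(b * u ^ 2))) ≤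
      ENNReal.ofReal (Real.exp (-b) / b) := by
  calc ∫⁻ u in Ioi (1 : ℝ), ENNReal.ofReal (Real.exp (-(b * u ^ 2)))
      ≤ ∫⁻ u in Ioi (1 : ℝ), ENNReal.ofReal (Real.exp (-b * u)) := by
        refine setLIntegral_mono' measurableSet_Ioi fun u (hu : 1 < u) => ?_
        refine ENNReal.ofReal_le_ofReal (Real.exp_le_exp.mpr ?_)
        nlinarith [mul_le_mul_of_nonneg_left hu.le (show 0 ≤ b * u by positivity)]
    _ = _ := by
        rw [← ofReal_integral_eq_lintegral_ofReal (integrableOn_exp_mul_Ioi (neg_neg_of_pos hb) 1)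
          (Eventually.of_forall fun u => (Real.exp_pos _).le),
          integral_exp_mul_Ioi (neg_neg_of_pos hb), mul_one]
        congr 1
        field_simp

/-- **A shell integral of positive index is a sum of periods over planes.** -/
theorem shell_integral_pos (hC : IsCuspFun D F) (hE : IsEigenFun F) (hφ : IsPhase D φ) {n : ℤ}
    (hn : 0 < n) {v : ℝ} (hv : 0 < v) :
    ((Real.sqrt v : ℝ) : ℂ) * ∫ p, shellSum φ n v p * F p ∂measK D =
      planePeriod D F φ n / ((2 * Real.sqrt n : ℝ) : ℂ) := by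
  obtain ⟨B, -, hB⟩ := hφ.bound
  have hn' : (0 : ℝ) < n := by exact_mod_cast hn
  set a : ℝ := 4 * Real.pi * v * n with ha
  have ha0 : 0 < a := by positivity
  have hQ : ∀ i : Shell n, 0 < (HermIdx.vec i.1).Q := fun i => by
    rw [HermIdx.vec_Q, i.2]; exact hn'
  have hk := isDecayKernel_kPlane ha0
  set K : ℝ := 2 * Real.pi * (5 * Real.exp a) / (a / 2) with hKdef
  have hle : ∀ (p : H3) (i : Shell n),
      ∫⁻ q, ‖kPlane a (H3.coshDist p q)‖ₑ ∂HermVec.planeMeasure (HermIdx.vec i.1) ≤
        ENNReal.ofReal (K * Real.exp (-(a / 2))) *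
          ENNReal.ofReal (Real.exp (-(Real.pi * v / 2 * HermIdx.T i.1 p ^ 2))) := by
    intro p i
    rw [HermVec.lintegral_planeMeasure (hQ i) p (k := fun c => ‖kPlane a c‖ₑ)
      (continuous_kPlane a).enorm.measurable]
    set C := Real.sqrt (1 + (HermIdx.vec i.1).T p ^ 2 / (4 * (HermIdx.vec i.1).Q))
    have hC2 : C ^ 2 = 1 + HermIdx.T i.1 p ^ 2 / (4 * n) := by
      rw [Real.sq_sqrt (by have := hQ i; positivity), HermIdx.vec_Q, i.2]
      rfl
    have hC0 : 0 < C ^ 2 := by rw [hC2]; positivity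
    calc ENNReal.ofReal (2 * Real.pi) * ∫⁻ u in Ioi (1 : ℝ), ‖kPlane a (C * u)‖ₑ
        ≤ ENNReal.ofReal (2 * Real.pi) * ∫⁻ u in Ioi (1 : ℝ), ENNReal.ofReal (5 * Real.exp a) *
            ENNReal.ofReal (Real.exp (-(a / 2 * C ^ 2 * u ^ 2))) := by
          refine mul_le_mul_right (lintegral_mono fun u => ?_) _
          rw [← ENNReal.ofReal_mul (by positivity), ← ofReal_norm]
          refine ENNReal.ofReal_le_ofReal ((norm_kPlane_le ha0 _).trans_eq ?_)
          rw [mul_pow, ← mul_assoc]
      _ ≤ ENNReal.ofReal (2 * Real.pi) * (ENNReal.ofReal (5 * Real.exp a) *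
            ENNReal.ofReal (Real.exp (-(a / 2 * C ^ 2)) / (a / 2 * C ^ 2))) := by
          rw [lintegral_const_mul _ (by fun_prop)]
          gcongr
          exact lintegral_exp_sq_Ioi_le (by positivity)
      _ ≤ _ := by
          rw [← ENNReal.ofReal_mul (by positivity), ← ENNReal.ofReal_mul (by positivity),
            ← ENNReal.ofReal_mul (by rw [hKdef]; positivity)]
          refine ENNReal.ofReal_le_ofReal ?_
          have e : Real.exp (-(a / 2 * C ^ 2)) = Real.exp (-(a / 2)) *
              Real.exp (-(Real.pi * v / 2 * HermIdx.T i.1 p ^ 2)) := by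
            rw [← Real.exp_add, hC2]
            congr 1
            rw [ha]; field_simp; ring
          calc 2 * Real.pi * (5 * Real.exp a * (Real.exp (-(a / 2 * C ^ 2)) / (a / 2 * C ^ 2)))
              ≤ 2 * Real.pi * (5 * Real.exp a * (Real.exp (-(a / 2 * C ^ 2)) / (a / 2))) := by
                gcongr
                refine le_mul_of_one_le_right (by positivity) ?_
                rw [hC2]
                exact le_add_of_nonneg_right (by positivity)
            _ = _ := by rw [e, hKdef]; ring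
  have hfin : ∫⁻ p, weightK D p * ∑' i : Shell n,
      ∫⁻ q, ‖kPlane a (H3.coshDist p q)‖ₑ ∂HermVec.planeMeasure (HermIdx.vec i.1) ∂H3.vol < ∞ := by
    set c₁ := ENNReal.ofReal (K * Real.exp (-(a / 2))) *
      ENNReal.ofReal (Real.exp (2 * (Real.pi * v / 2) * n))
    calc _ ≤ ∫⁻ p, c₁ * (weightK D p * majorantSum (2 * (Real.pi * v / 2)) p) ∂H3.vol := by
          refine lintegral_mono fun p => ?_
          calc _ ≤ weightK D p * (ENNReal.ofReal (K * Real.exp (-(a / 2))) *
                ∑' i : Shell n,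
                  ENNReal.ofReal (Real.exp (-(Real.pi * v / 2 * HermIdx.T i.1 p ^ 2)))) := by
                exact mul_le_mul_right
                  ((ENNReal.tsum_le_tsum fun i => hle p i).trans_eq ENNReal.tsum_mul_left) _
            _ ≤ weightK D p * (ENNReal.ofReal (K * Real.exp (-(a / 2))) *
                (ENNReal.ofReal (Real.exp (2 * (Real.pi * v / 2) * n)) *
                  majorantSum (2 * (Real.pi * v / 2)) p)) := by
                gcongr; exact tsum_shell_exp_le _ p
            _ = _ := by simp only [c₁]; ring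
      _ < ∞ := by
          rw [lintegral_const_mul' _ _ (by simp [c₁, ENNReal.mul_eq_top])]
          exact ENNReal.mul_lt_top (by simp [c₁, ENNReal.mul_lt_top_iff])
            (lintegral_weightK_majorantSum_lt_top (by positivity))
  have hμ : ∀ (γ : principalK D) (i : Shell n),
      (HermVec.planeMeasure (HermIdx.vec i.1)).map (fun q => γ • q) =
        HermVec.planeMeasure (HermIdx.vec (γ • i).1) := fun γ i => by
    rw [Shell.vec_smul]
    exact HermVec.planeMeasure_smul _ (hQ i)
  have key := (hasSum_unfold hC hE (fun i : Shell n => HermVec.planeMeasure (HermIdx.vec i.1)) hμ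
    (φ := fun i : Shell n => φ i.1) (fun i => hB _) (fun γ i => hφ.shell γ i) hk hfin).1
  have hint : ∀ p, (∑' i : Shell n, φ i.1 *
      ∫ q, kPlane a (H3.coshDist p q) ∂HermVec.planeMeasure (HermIdx.vec i.1)) =
      shellSum φ n v p := fun p => by
    refine tsum_congr fun i => ?_
    rw [HermVec.integral_planeMeasure (hQ i) p (continuous_kPlane a),
      planeTransform_kPlane ha0 (Real.sqrt_pos.mpr (by have := hQ i; positivity))]
    congr 3
    rw [Real.sq_sqrt (by have := hQ i; positivity), HermIdx.vec_Q, i.2, ha, HermIdx.T]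
    field_simp
    ring
  simp only [hint] at key
  rw [← key.tsum_eq, tsum_mul_left, sphZero_kPlane ha0, planePeriod, ← mul_assoc,
    ← Complex.ofReal_mul, eq_div_iff (by simp [hn.ne', Real.sqrt_eq_zero hn'.le])]
  rw [mul_comm (_ * _) ((_ : ℝ) : ℂ), ← mul_assoc, ← Complex.ofReal_mul]
  rw [show (2 * Real.sqrt n) * (Real.sqrt v * Real.sqrt (Real.pi / a)) = 1 from ?_,
    Complex.ofReal_one, one_mul]
  rw [ha, ← Real.sqrt_mul hv.le,
    show v * (Real.pi / (4 * Real.pi * v * n)) = (2 ^ 2 * n : ℝ)⁻¹ by field_simp; ring,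
    Real.sqrt_inv, Real.sqrt_mul (by norm_num), Real.sqrt_sq (by norm_num)]
  exact mul_inv_cancel₀ (by positivity)

/-- **A shell integral of negative index is a sum of values at points.** -/
theorem shell_integral_neg (hC : IsCuspFun D F) (hE : IsEigenFun F) (hφ : IsPhase D φ) {n : ℤ}
    (hn : n < 0) {v : ℝ} (hv : 0 < v) :
    ((Real.sqrt v : ℝ) : ℂ) * ∫ p, shellSum φ n v p * F p ∂measK D =
      ((Real.pi / Real.sqrt (-n) * expInt (4 * Real.pi * v * -n) : ℝ) : ℂ) *
        pointPeriod D F φ n := by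
  obtain ⟨B, -, hB⟩ := hφ.bound
  have hn' : (0 : ℝ) < -(n : ℝ) := by simpa using (Int.cast_lt (R := ℝ)).mpr hn
  set a : ℝ := 4 * Real.pi * v * -n with ha
  have ha0 : 0 < a := by positivity
  have hQ : ∀ i : Shell n, (HermIdx.vec i.1).Q < 0 := fun i => by
    rw [HermIdx.vec_Q, i.2]; linarith
  have hk := isDecayKernel_kPoint ha0
  have hval : ∀ (p : H3) (i : Shell n),
      kPoint a (H3.coshDist p (HermVec.pointOf (HermIdx.vec i.1))) =
        ((Real.exp (-(Real.pi * v * HermIdx.T i.1 p ^ 2)) : ℝ) : ℂ) := fun p i => by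
    rw [kPoint]
    congr 3
    rw [HermIdx.T, HermVec.T_sq_eq_coshDist (hQ i), HermIdx.vec_Q, i.2, H3.coshDist_comm, ha]
    ring
  have hfin : ∫⁻ p, weightK D p * ∑' i : Shell n,
      ∫⁻ q, ‖kPoint a (H3.coshDist p q)‖ₑ ∂Measure.dirac (HermVec.pointOf (HermIdx.vec i.1))
        ∂H3.vol < ∞ := by
    simp only [lintegral_dirac, hval, ← ofReal_norm, Complex.norm_real, Real.norm_eq_abs,
      Real.abs_exp]
    calc _ ≤ ∫⁻ p, ENNReal.ofReal (Real.exp (2 * (Real.pi * v) * n)) *
          (weightK D p * majorantSum (2 * (Real.pi * v)) p) ∂H3.vol := by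
          refine lintegral_mono fun p => ?_
          exact (mul_le_mul_right (tsum_shell_exp_le (n := n) (Real.pi * v) p) _).trans_eq
            (mul_left_comm _ _ _)
      _ < ∞ := by
          rw [lintegral_const_mul' _ _ ENNReal.ofReal_ne_top]
          exact ENNReal.mul_lt_top ENNReal.ofReal_lt_top
            (lintegral_weightK_majorantSum_lt_top (by positivity))
  have hμ : ∀ (γ : principalK D) (i : Shell n),
      (Measure.dirac (HermVec.pointOf (HermIdx.vec i.1))).map (fun q => γ • q) =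
        Measure.dirac (HermVec.pointOf (HermIdx.vec (γ • i).1)) := fun γ i => by
    rw [Measure.map_dirac' (measurable_const_smul γ), Shell.vec_smul,
      ← HermVec.pointOf_smul γ.2.1.2 (hQ i)]
    rfl
  have key := (hasSum_unfold hC hE
    (fun i : Shell n => Measure.dirac (HermVec.pointOf (HermIdx.vec i.1))) hμ
    (φ := fun i : Shell n => φ i.1) (fun i => hB _) (fun γ i => hφ.shell γ i) hk hfin).1
  simp only [integral_dirac, hval] at key
  rw [show (fun p => shellSum φ n v p * F p) = fun p =>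
    (∑' i : Shell n, φ i.1 * ((Real.exp (-(Real.pi * v * HermIdx.T i.1 p ^ 2)) : ℝ) : ℂ)) * F p
    from rfl, ← key.tsum_eq, tsum_mul_left, sphZero_kPoint ha0, pointPeriod, ← mul_assoc,
    ← Complex.ofReal_mul]
  congr 2
  rw [ha, ← mul_assoc, ← mul_assoc, mul_comm (Real.sqrt v), mul_assoc (2 * Real.pi),
    ← Real.sqrt_mul hv.le,
    show v * (Real.pi / (4 * Real.pi * v * -(n : ℝ))) = (2 ^ 2 * -(n : ℝ))⁻¹ by
      field_simp; ring,
    Real.sqrt_inv, Real.sqrt_mul (by norm_num), Real.sqrt_sq (by norm_num)]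
  field_simp

end Fermat.Agent.ResidualThree
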