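import Fermat.Agent.ResidualThree.ThetaLift.Mult
import Fermat.Agent.ResidualThree.ThetaLift.Shell

/-!
# The lattice correspondence at a split prime

For `π` of norm `p` the `p` maps `[[π, -b], [0, 1]]` (`b` running over a system of residues
modulo `p`) and `diag (1, π)` send the lattice forms of index `n` to those of index `p n`; together
they hit each form once, and `p` more times if it is divisible by `p`. This is the combinatorial
part of the Hecke relation of the lift.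
-/

noncomputable section

open Finset

namespace Fermat.Agent.ResidualThree

open Classical in
/-- The phase of the lift. -/
def liftPhase (D : ℕ) (i : HermIdx) : ℂ :=
  if (3 : ℤ) ∣ i.1 ∧ (3 : ℤ) ∣ i.2.1.1 + i.2.1.2 ∧ (D : ℤ) ∣ i.2.2 then 1 else 0

theorem liftPhase_congr {D : ℕ} {i j : HermIdx} (h1 : (3 : ℤ) ∣ i.1 ↔ (3 : ℤ) ∣ j.1)
    (h2 : (3 : ℤ) ∣ i.2.1.1 + i.2.1.2 ↔ (3 : ℤ) ∣ j.2.1.1 + j.2.1.2)
    (h3 : (D : ℤ) ∣ i.2.2 ↔ (D : ℤ) ∣ j.2.2) : liftPhase D i = liftPhase D j := by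
  simp only [liftPhase, h1, h2, h3]

theorem norm_liftPhase_le (D : ℕ) (i : HermIdx) : ‖liftPhase D i‖ ≤ 1 := by
  rw [liftPhase]; split_ifs <;> simp

/-- The action of `[[π, -b], [0, 1]]`. -/
def actUp (π : Eis3) (b : ℤ) (i : HermIdx) : HermIdx :=
  HermIdx.actFormula ![![π, (-b, 0)], ![(0, 0), (1, 0)]] i

/-- The action of `diag (1, π)`. -/
def actDiag (π : Eis3) (i : HermIdx) : HermIdx :=
  HermIdx.actFormula ![![(1, 0), (0, 0)], ![(0, 0), π]] i

theorem actUp_eq (π : Eis3) (b : ℤ) (i : HermIdx) : actUp π b i =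
    ((π.norm : ℤ) * i.1 - b * HermIdx.tr (Eis3.mul π i.2.1) + b ^ 2 * i.2.2,
      Eis3.mul π i.2.1 - (b * i.2.2, 0), i.2.2) := by
  simp only [actUp, HermIdx.actFormula, Matrix.cons_val_zero, Matrix.cons_val_one,
    Matrix.cons_val_fin_one, Eis3.norm_cast_eq]
  refine Prod.ext ?_ (Prod.ext (Prod.ext ?_ ?_) ?_) <;>
    simp [Eis3.mul, Eis3.bar, HermIdx.tr] <;> ring

theorem actDiag_eq (π : Eis3) (i : HermIdx) : actDiag π i =
    (i.1, Eis3.mul (Eis3.bar π) i.2.1, (π.norm : ℤ) * i.2.2) := by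
  simp only [actDiag, HermIdx.actFormula, Matrix.cons_val_zero, Matrix.cons_val_one,
    Matrix.cons_val_fin_one, Eis3.norm_cast_eq]
  refine Prod.ext ?_ (Prod.ext (Prod.ext ?_ ?_) ?_) <;>
    simp [Eis3.mul, Eis3.bar, HermIdx.tr]

theorem q_actUp (π : Eis3) (b : ℤ) (i : HermIdx) :
    HermIdx.q (actUp π b i) = (π.norm : ℤ) * HermIdx.q i := by
  rw [actUp_eq]
  simp only [HermIdx.q, Eis3.norm_cast_eq, Eis3.mul, HermIdx.tr, Prod.fst_sub, Prod.snd_sub]
  ring

theorem q_actDiag (π : Eis3) (i : HermIdx) :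
    HermIdx.q (actDiag π i) = (π.norm : ℤ) * HermIdx.q i := by
  rw [actDiag_eq]
  simp only [HermIdx.q, Eis3.norm_cast_eq, Eis3.mul, Eis3.bar]
  ring

section

variable {D p : ℕ} [Fact p.Prime] {π : Eis3} (hπ : π.norm = p)
include hπ

theorem natCast_ne_zero_of_split : (p : ℤ) ≠ 0 ∧ π ≠ (0, 0) ∧ Eis3.bar π ≠ (0, 0) := by
  have hp := (Fact.out : p.Prime).ne_zero
  exact ⟨by exact_mod_cast hp, fun h => hp (hπ.symm.trans (Eis3.norm_eq_zero.mpr h)),
    fun h => hp (((Eis3.norm_bar π).trans hπ).symm.trans (Eis3.norm_eq_zero.mpr h))⟩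

theorem actUp_injective (b : ℤ) : Function.Injective (actUp π b) := by
  obtain ⟨hp, hπ0, -⟩ := natCast_ne_zero_of_split hπ
  intro i j h
  simp only [actUp_eq, hπ, Prod.mk.injEq] at h
  obtain ⟨h1, h2, h3⟩ := h
  have hr : i.2.1 = j.2.1 := Eis3.mul_left_cancel hπ0 (by
    rw [h3] at h2; exact sub_left_injective h2)
  refine Prod.ext (mul_left_cancel₀ hp ?_) (Prod.ext hr h3)
  rw [hr, h3] at h1
  linarith

theorem actDiag_injective : Function.Injective (actDiag π) := by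
  obtain ⟨hp, -, hπb⟩ := natCast_ne_zero_of_split hπ
  intro i j h
  simp only [actDiag_eq, hπ, Prod.mk.injEq] at h
  obtain ⟨h1, h2, h3⟩ := h
  exact Prod.ext h1 (Prod.ext (Eis3.mul_left_cancel hπb h2) (mul_left_cancel₀ hp h3))

theorem liftPhase_act (h3 : 3 ∣ D) (hpD : ¬ p ∣ D) (k : ℤ) (i : HermIdx) :
    liftPhase D (actUp π ((D : ℤ) * k) i) = liftPhase D i ∧
      liftPhase D (actDiag π i) = liftPhase D i := by
  have hp := (Fact.out : p.Prime)
  have : Fact (Nat.Prime 3) := ⟨Nat.prime_three⟩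
  have hz : ∀ x : ℤ, (3 : ℤ) ∣ x ↔ (x : ZMod 3) = 0 := fun x =>
    (ZMod.intCast_zmod_eq_zero_iff_dvd x 3).symm
  have hp3 : ((p : ℤ) : ZMod 3) ≠ 0 := fun h => hpD (by
    have : (3 : ℤ) ∣ (p : ℤ) := (hz _).mpr h
    rwa [← (Nat.prime_dvd_prime_iff_eq Nat.prime_three hp).mp (by exact_mod_cast this)])
  have hD3 : ((D : ℤ) : ZMod 3) = 0 := (hz _).mp (by exact_mod_cast h3)
  have hch : ∀ x y : Eis3, (((Eis3.mul x y).1 + (Eis3.mul x y).2 : ℤ) : ZMod 3) =
      ((x.1 : ZMod 3) + x.2) * ((y.1 : ZMod 3) + y.2) := fun x y => by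
    have h30 : (3 : ZMod 3) = 0 := rfl
    simp only [Eis3.mul]
    push_cast
    linear_combination (-((x.2 : ZMod 3) * y.2)) * h30
  have hsq : ((π.1 : ZMod 3) + π.2) ^ 2 = ((p : ℤ) : ZMod 3) := by
    have h30 : (3 : ZMod 3) = 0 := rfl
    rw [← hπ, Eis3.norm_cast_eq]
    push_cast
    linear_combination ((π.1 : ZMod 3) * π.2) * h30
  have hπ3 : (π.1 : ZMod 3) + π.2 ≠ 0 := fun h => hp3 (by rw [← hsq, h]; ring)
  refine ⟨liftPhase_congr ?_ ?_ ?_, liftPhase_congr ?_ ?_ ?_⟩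
  · simp only [actUp_eq, hz, hπ]
    push_cast
    simp only [Int.cast_natCast] at hD3 hp3 ⊢
    simp [hD3, hp3]
  · simp only [actUp_eq, hz]
    rw [show (Eis3.mul π i.2.1 - ((D : ℤ) * k * i.2.2, (0 : ℤ))).1 +
        (Eis3.mul π i.2.1 - ((D : ℤ) * k * i.2.2, (0 : ℤ))).2 =
      ((Eis3.mul π i.2.1).1 + (Eis3.mul π i.2.1).2) - (D : ℤ) * k * i.2.2 by simp; ring,
      Int.cast_sub, hch, Int.cast_mul, Int.cast_mul, hD3]
    simp [hπ3]
  · simp only [actUp_eq]
  · simp only [actDiag_eq]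
  · simp only [actDiag_eq, hz]
    rw [hch]
    have hb : ((Eis3.bar π).1 : ZMod 3) + (Eis3.bar π).2 ≠ 0 := fun h => hπ3 (by
      simp only [Eis3.bar] at h
      push_cast at h
      have h30 : (3 : ZMod 3) = 0 := rfl
      linear_combination h + (π.2 : ZMod 3) * h30)
    simp [hb]
  · simp only [actDiag_eq, hπ]
    exact ⟨fun h => (Int.isCoprime_iff_nat_coprime.mpr (by
      simpa using (hp.coprime_iff_not_dvd.mpr hpD).symm)).dvd_of_dvd_mul_left h,
      fun h => h.mul_left _⟩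

theorem exists_root : ∃ r : ZMod p, r ^ 2 + r + 1 = 0 ∧
    (∀ y : Eis3, Eis3.dvd π y ↔ (y.1 : ZMod p) + y.2 * r = 0) := by
  have hp := (Fact.out : p.Prime)
  obtain ⟨r, hr, hrr, -⟩ := Eis3.exists_root_dvd_iff hp hπ π
  refine ⟨r, hrr, fun y => ?_⟩
  obtain ⟨r', hr', hrr', hy⟩ := Eis3.exists_root_dvd_iff hp hπ y
  by_cases h2 : (π.2 : ZMod p) = 0
  · exfalso
    have h1 : (π.1 : ZMod p) = 0 := by simpa [h2] using hr
    obtain ⟨⟨a, ha⟩, ⟨b, hb⟩⟩ := And.intro
      ((ZMod.intCast_zmod_eq_zero_iff_dvd _ p).mp h1)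
      ((ZMod.intCast_zmod_eq_zero_iff_dvd _ p).mp h2)
    have : (p : ℤ) = (p : ℤ) * ((p : ℤ) * (a ^ 2 - a * b + b ^ 2)) := by
      conv_lhs => rw [← hπ, Eis3.norm_cast_eq, ha, hb]
      ring
    have h' := mul_left_cancel₀ (a := (p : ℤ)) (by exact_mod_cast hp.ne_zero)
      ((_root_.mul_one (p : ℤ)).trans this)
    exact hp.ne_one (Nat.eq_one_of_dvd_one (Int.natCast_dvd_natCast.mp ⟨_, h'⟩))
  · rw [show r' = r from mul_left_cancel₀ h2 (by linear_combination hr' - hr)] at hy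
    exact hy

/-- The images of the two kinds of maps are cut out by congruences modulo `p`. -/
theorem range_iff {r : ZMod p} (hrr : r ^ 2 + r + 1 = 0)
    (hdvd : ∀ y : Eis3, Eis3.dvd π y ↔ (y.1 : ZMod p) + y.2 * r = 0) (b : ℤ) (j : HermIdx) :
    (j ∈ Set.range (actUp π b) ↔
      ((j.2.1.1 : ZMod p) + j.2.1.2 * r) + (b : ZMod p) * j.2.2 = 0 ∧
        (j.1 : ZMod p) + (b : ZMod p) * (((j.2.1.1 : ZMod p) + j.2.1.2 * r) +
          ((j.2.1.1 : ZMod p) + j.2.1.2 * r ^ 2)) + (b : ZMod p) ^ 2 * j.2.2 = 0) ∧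
    (j ∈ Set.range (actDiag π) ↔
      (j.2.1.1 : ZMod p) + j.2.1.2 * r ^ 2 = 0 ∧ (j.2.2 : ZMod p) = 0) := by
  obtain ⟨hp, hπ0, hπb⟩ := natCast_ne_zero_of_split hπ
  have hbar : ∀ y : Eis3, Eis3.dvd (Eis3.bar π) y ↔ (y.1 : ZMod p) + y.2 * r ^ 2 = 0 := by
    intro y
    have e : Eis3.dvd (Eis3.bar π) y ↔ Eis3.dvd π (Eis3.bar y) := by
      constructor <;> rintro ⟨z, hz⟩ <;> refine ⟨Eis3.bar z, Eis3.toC_injective ?_⟩
      · rw [← hz]; simp [Eis3.toC_mul, Eis3.toC_bar]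
      · have := congrArg (fun x => (starRingEnd ℂ) (Eis3.toC x)) hz
        simpa [Eis3.toC_mul, Eis3.toC_bar] using this
    rw [e, hdvd]
    simp only [Eis3.bar]
    push_cast
    exact ⟨fun h => by linear_combination h + (y.2 : ZMod p) * hrr,
      fun h => by linear_combination h - (y.2 : ZMod p) * hrr⟩
  constructor
  · constructor
    · rintro ⟨i, rfl⟩
      have hy := (hdvd (Eis3.mul π i.2.1)).mp ⟨i.2.1, rfl⟩
      have hn : ((π.norm : ℤ) : ZMod p) = 0 := by rw [hπ]; simp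
      simp only [actUp_eq, Prod.fst_sub, Prod.snd_sub, Int.cast_sub, Int.cast_add, Int.cast_mul,
        Int.cast_pow, hn, HermIdx.tr, Int.cast_ofNat, sub_zero]
      constructor
      · linear_combination hy
      · linear_combination ((b : ZMod p) * (Eis3.mul π i.2.1).2) * hrr
    · rintro ⟨h1, h2⟩
      obtain ⟨z, hz⟩ := (hdvd (j.2.1 + (b * j.2.2, 0))).mpr (by
        simp only [Prod.fst_add, Prod.snd_add, add_zero]
        push_cast
        linear_combination h1)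
      obtain ⟨a, ha⟩ := (ZMod.intCast_zmod_eq_zero_iff_dvd
        (j.1 + b * HermIdx.tr j.2.1 + b ^ 2 * j.2.2) p).mp (by
          simp only [HermIdx.tr]
          push_cast
          linear_combination h2 - ((b : ZMod p) * j.2.1.2) * hrr)
      refine ⟨(a, z, j.2.2), ?_⟩
      rw [actUp_eq, hz, hπ]
      refine Prod.ext ?_ (Prod.ext (by simp) rfl)
      simp only [HermIdx.tr, Prod.fst_add, Prod.snd_add] at ha ⊢
      linear_combination -ha
  · constructor
    · rintro ⟨i, rfl⟩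
      have hy := (hbar (Eis3.mul (Eis3.bar π) i.2.1)).mp ⟨i.2.1, rfl⟩
      simp only [actDiag_eq, hπ]
      exact ⟨hy, by simp⟩
    · rintro ⟨h1, h2⟩
      obtain ⟨z, hz⟩ := (hbar j.2.1).mpr h1
      obtain ⟨a, ha⟩ := (ZMod.intCast_zmod_eq_zero_iff_dvd j.2.2 p).mp h2
      exact ⟨(j.1, z, a), by rw [actDiag_eq, hπ, hz, ← ha]⟩

open Classical in
/-- Each form of index divisible by `p` has one preimage, or `p + 1` if it is divisible by `p`. -/
theorem multiplicity (h3 : p ≠ 3) (hpD : ¬ p ∣ D) {j : HermIdx} (hq : (p : ℤ) ∣ HermIdx.q j) :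
    (univ.filter fun k : Fin p => j ∈ Set.range (actUp π ((D : ℤ) * (k : ℕ)))).card +
        (if j ∈ Set.range (actDiag π) then 1 else 0) =
      1 + (if ∃ i : HermIdx, j = (p : ℤ) • i then p else 0) := by
  obtain ⟨r, hrr, hdvd⟩ := exists_root hπ
  set u : ZMod p := (j.2.1.1 : ZMod p) + j.2.1.2 * r
  set w : ZMod p := (j.2.1.1 : ZMod p) + j.2.1.2 * r ^ 2
  have huw : u * w = (j.1 : ZMod p) * j.2.2 := by
    have hh := (ZMod.intCast_zmod_eq_zero_iff_dvd _ p).mpr hq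
    rw [HermIdx.q, Eis3.norm_cast_eq] at hh
    push_cast at hh
    simp only [u, w]
    linear_combination hh + ((j.2.1.1 : ZMod p) * j.2.1.2 + (j.2.1.2 : ZMod p) ^ 2 * (r - 1)) * hrr
  have hD : ((D : ℤ) : ZMod p) ≠ 0 := fun h => hpD (by
    simpa [ZMod.natCast_eq_zero_iff] using h)
  let e : Fin p ≃ ZMod p :=
    Equiv.ofBijective (fun k => ((D : ℤ) : ZMod p) * ((k : ℕ) : ZMod p))
      ((Fintype.bijective_iff_injective_and_card _).mpr ⟨fun k l hkl => Fin.ext (by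
        have := congrArg ZMod.val (mul_left_cancel₀ hD hkl)
        rwa [ZMod.val_natCast_of_lt k.isLt, ZMod.val_natCast_of_lt l.isLt] at this),
        by rw [Fintype.card_fin, ZMod.card]⟩)
  have hcard : (univ.filter fun k : Fin p => j ∈ Set.range (actUp π ((D : ℤ) * (k : ℕ)))).card =
      (univ.filter fun x : ZMod p =>
        u + x * j.2.2 = 0 ∧ (j.1 : ZMod p) + x * (u + w) + x ^ 2 * j.2.2 = 0).card := by
    refine Finset.card_equiv e fun k => ?_
    simp only [mem_filter, mem_univ, true_and, (range_iff hπ hrr hdvd _ j).1, e,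
      Equiv.ofBijective_apply, Int.cast_mul, Int.cast_natCast, u, w]
  have hall : (∃ i : HermIdx, j = (p : ℤ) • i) ↔
      (j.1 : ZMod p) = 0 ∧ u = 0 ∧ w = 0 ∧ (j.2.2 : ZMod p) = 0 := by
    constructor
    · rintro ⟨i, rfl⟩
      simp [u, w]
    · rintro ⟨h1, hu, hw, h4⟩
      have hne : 2 * r + 1 ≠ 0 := fun h => h3
        ((Nat.prime_dvd_prime_iff_eq Fact.out Nat.prime_three).mp
        ((ZMod.natCast_eq_zero_iff 3 p).mp (by
          push_cast
          linear_combination 4 * hrr - (2 * r + 1) * h)))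
      have h2 : (j.2.1.2 : ZMod p) = 0 := by
        refine (mul_eq_zero.mp (?_ : (j.2.1.2 : ZMod p) * (2 * r + 1) = 0)).resolve_right hne
        simp only [u, w] at hu hw
        linear_combination hu - hw + (j.2.1.2 : ZMod p) * hrr
      have h2' : (j.2.1.1 : ZMod p) = 0 := by
        simp only [u, h2] at hu
        simpa using hu
      obtain ⟨a, ha⟩ := (ZMod.intCast_zmod_eq_zero_iff_dvd _ p).mp h1
      obtain ⟨x, hx⟩ := (ZMod.intCast_zmod_eq_zero_iff_dvd _ p).mp h2'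
      obtain ⟨y, hy⟩ := (ZMod.intCast_zmod_eq_zero_iff_dvd _ p).mp h2
      obtain ⟨d, hd⟩ := (ZMod.intCast_zmod_eq_zero_iff_dvd _ p).mp h4
      refine ⟨(a, (x, y), d), ?_⟩
      refine Prod.ext ?_ (Prod.ext (Prod.ext ?_ ?_) ?_) <;> simpa
  rw [hcard, if_congr (range_iff hπ hrr hdvd 0 j).2 rfl rfl, if_congr hall rfl rfl]
  simpa only [ZMod.card] using card_hecke_solutions huw

end

section

variable {D p : ℕ} [Fact p.Prime] {π : Eis3}

open Classical in
/-- The correspondence on shells. -/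
theorem tsum_correspond (hπ : π.norm = p) (h3 : 3 ∣ D) (hpD : ¬ p ∣ D) (n : ℤ) (f : HermIdx → ℂ)
    (hf : Summable fun j : Shell ((p : ℤ) * n) => liftPhase D j.1 * f j.1) :
    ∑ k : Fin p, ∑' i : Shell n, liftPhase D i.1 * f (actUp π ((D : ℤ) * (k : ℕ)) i.1) +
        ∑' i : Shell n, liftPhase D i.1 * f (actDiag π i.1) =
      ∑' j : Shell ((p : ℤ) * n), liftPhase D j.1 * f j.1 + (p : ℂ) *
        ∑' j : Shell ((p : ℤ) * n),
          if ∃ i : HermIdx, j.1 = (p : ℤ) • i then liftPhase D j.1 * f j.1 else 0 := by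
  have hp := (Fact.out : p.Prime)
  have hp3 : p ≠ 3 := fun h => hpD (by rw [h]; exact h3)
  have hp0 : (p : ℤ) ≠ 0 := by exact_mod_cast hp.ne_zero
  have hone : ∀ (g : HermIdx → HermIdx), Function.Injective g →
      (∀ i, HermIdx.q (g i) = (p : ℤ) * HermIdx.q i) → (∀ i, liftPhase D (g i) = liftPhase D i) →
      ∑' i : Shell n, liftPhase D i.1 * f (g i.1) =
        ∑' j : Shell ((p : ℤ) * n), if j.1 ∈ Set.range g then liftPhase D j.1 * f j.1 else 0 := by
    intro g hg hq hφ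
    let E : Shell n → Shell ((p : ℤ) * n) := fun i => ⟨g i.1, by rw [hq, i.2]⟩
    have hE : Function.Injective E := fun a b h =>
      Subtype.ext (hg (congrArg Subtype.val h :))
    rw [← hE.tsum_eq (f := fun j : Shell ((p : ℤ) * n) =>
      if j.1 ∈ Set.range g then liftPhase D j.1 * f j.1 else 0)]
    · refine tsum_congr fun i => ?_
      simp only [E]
      rw [if_pos ⟨i.1, rfl⟩, hφ]
    · intro j hj
      by_contra hr
      refine hj (if_neg ?_)
      rintro ⟨i, hi⟩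
      exact hr ⟨⟨i, mul_left_cancel₀ hp0 (by rw [← hq, hi, j.2])⟩, Subtype.ext hi⟩
  have hind : ∀ s : Set HermIdx, Summable fun j : Shell ((p : ℤ) * n) =>
      if j.1 ∈ s then liftPhase D j.1 * f j.1 else 0 := fun s =>
    (hf.indicator {j : Shell ((p : ℤ) * n) | j.1 ∈ s}).congr fun j => by
      simp only [Set.indicator_apply, Set.mem_ofPred_eq]
  rw [hone _ (actDiag_injective hπ) (fun i => by rw [q_actDiag, hπ])
      (fun i => (liftPhase_act hπ h3 hpD 0 i).2),
    Finset.sum_congr (rfl : (univ : Finset (Fin p)) = univ) fun k _ =>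
      hone _ (actUp_injective hπ ((D : ℤ) * (k : ℕ)))
      (fun i => by rw [q_actUp, hπ]) (fun i => (liftPhase_act hπ h3 hpD _ i).1),
    ← Summable.tsum_finsetSum fun k _ => hind _,
    ← Summable.tsum_add (summable_sum fun k _ => hind _) (hind _), ← tsum_mul_left,
    ← Summable.tsum_add hf (((hind {j | ∃ i : HermIdx, j = (p : ℤ) • i}).mul_left (p : ℂ)).congr
      fun j => by simp only [Set.mem_ofPred_eq])]
  refine tsum_congr fun j => ?_
  have hm := congrArg (fun x : ℕ => (x : ℂ)) (multiplicity hπ hp3 hpD (j := j.1)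
    ⟨n, j.2⟩)
  push_cast at hm
  rw [Finset.sum_ite, Finset.sum_const_zero, add_zero, Finset.sum_const, nsmul_eq_mul]
  split_ifs at hm ⊢ <;> linear_combination (liftPhase D j.1 * f j.1) * hm

open Classical in
/-- The forms of index `p n` divisible by `p` are the multiples of those of index `n / p`. -/
theorem tsum_dvd_shell (h3 : 3 ∣ D) (hpD : ¬ p ∣ D) (n : ℤ) (f : HermIdx → ℂ) :
    ∑' j : Shell ((p : ℤ) * n),
        (if ∃ i : HermIdx, j.1 = (p : ℤ) • i then liftPhase D j.1 * f j.1 else 0) =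
      if (p : ℤ) ∣ n then ∑' i : Shell (n / p), liftPhase D i.1 * f ((p : ℤ) • i.1) else 0 := by
  have hp := (Fact.out : p.Prime)
  have hp0 : (p : ℤ) ≠ 0 := by exact_mod_cast hp.ne_zero
  have hq : ∀ i : HermIdx, HermIdx.q ((p : ℤ) • i) = (p : ℤ) ^ 2 * HermIdx.q i := fun i => by
    simp only [HermIdx.q, Eis3.norm_cast_eq, Prod.smul_fst, Prod.smul_snd, smul_eq_mul]
    ring
  have h3p : ¬ 3 ∣ p := fun h => hpD (by
    rwa [← (Nat.prime_dvd_prime_iff_eq Nat.prime_three hp).mp h])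
  have hφ : ∀ i : HermIdx, liftPhase D ((p : ℤ) • i) = liftPhase D i := by
    intro i
    have hcop : ∀ m : ℕ, Nat.Coprime p m → ∀ x : ℤ, (m : ℤ) ∣ (p : ℤ) * x ↔ (m : ℤ) ∣ x :=
      fun m hm x => ⟨fun h =>
        (Int.isCoprime_iff_nat_coprime.mpr (by simpa using hm.symm)).dvd_of_dvd_mul_left h,
        fun h => h.mul_left _⟩
    have c3 : Nat.Coprime p 3 := (Nat.prime_three.coprime_iff_not_dvd.mpr h3p).symm
    refine liftPhase_congr ?_ ?_ ?_ <;>
      simp only [Prod.smul_fst, Prod.smul_snd, smul_eq_mul, ← mul_add]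
    exacts [hcop 3 c3 _, hcop 3 c3 _, hcop D (hp.coprime_iff_not_dvd.mpr hpD) _]
  by_cases hd : (p : ℤ) ∣ n
  · rw [if_pos hd]
    let E : Shell (n / p) → Shell ((p : ℤ) * n) := fun i => ⟨(p : ℤ) • i.1, by
      rw [hq, i.2, sq, mul_assoc, Int.mul_ediv_cancel' hd]⟩
    have hE : Function.Injective E := fun a b h =>
      Subtype.ext (smul_right_injective HermIdx hp0 (congrArg Subtype.val h :))
    rw [← hE.tsum_eq]
    · refine tsum_congr fun i => ?_
      simp only [E]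
      rw [if_pos ⟨i.1, rfl⟩, hφ]
    · intro j hj
      by_contra hr
      refine hj (if_neg ?_)
      rintro ⟨i, hi⟩
      refine hr ⟨⟨i, ?_⟩, Subtype.ext hi.symm⟩
      have hji := j.2
      rw [hi, hq, sq, mul_assoc] at hji
      have hn := mul_left_cancel₀ hp0 hji
      rw [← hn, Int.mul_ediv_cancel_left _ hp0]
  · rw [if_neg hd]
    refine (tsum_congr fun j => if_neg ?_).trans tsum_zero
    rintro ⟨i, hi⟩
    have hji := j.2
    rw [hi, hq, sq, mul_assoc] at hji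
    exact hd ⟨_, (mul_left_cancel₀ hp0 hji).symm⟩

end

end Fermat.Agent.ResidualThree
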