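import Fermat.Agent.ResidualThree.ThetaLift.Sums

/-!
# Decay at the cusps and integrals against the weight of level `D`

A function of level `D` with rapid decay at all cusps (`IsCuspFun`) is bounded and integrable
against `measK D`, the hyperbolic volume weighted to count each orbit of the principal congruence
group once. This justifies all the integrals of the lift.
-/

noncomputable section

open MeasureTheory
open scoped ComplexConjugate ENNReal

namespace Fermat.Agent.ResidualThree

/-- A continuous function invariant under a principal congruence group and rapidly decreasing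
at all cusps. -/
structure IsCuspFun (D : ℕ) (F : H3 → ℂ) : Prop where
  continuous : Continuous F
  invariant : ∀ g ∈ principalK D, ∀ p, F (g • p) = F p
  decay : ∀ (g : integralK) (A : ℕ), ∃ C : ℝ, ∀ p : H3, 1 ≤ p.y →
    ‖F ((g : GL (Fin 2) ℂ) • p)‖ ≤ C / p.y ^ A

/-- A Bianchi datum is a cusp function of every level divisible by its own. -/
theorem BianchiDatum.isCuspFun {ρ : (AlgebraicClosure ℚ ≃ₐ[ℚ] AlgebraicClosure ℚ) →*
    GL (Fin 2) (ZMod 3)} {n₀ : ℕ} (d : BianchiDatum ρ n₀) {D : ℕ} (hD : n₀ ∣ D) :
    IsCuspFun D d.F := by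
  refine ⟨d.continuous, fun g hg p => d.invariant g (isBianchiGamma0_of_principal hD hg) p,
    fun g A => d.decay _ (fun i j => ⟨entry (g : GL (Fin 2) ℂ) i j, 1, one_pos, ?_⟩) A⟩
  rw [toC_entry g.2, Nat.cast_one, div_one]

theorem isCompact_siegel_band : IsCompact {p : H3 | p ∈ siegelK ∧ p.y ≤ 1} := by
  rw [H3.isOpenEmbedding_toPair.isEmbedding.isCompact_iff]
  have hK : IsCompact (Metric.closedBall (0 : ℂ) 1 ×ˢ Set.Icc (1 / 2 : ℝ) 1) :=
    (isCompact_closedBall _ _).prod isCompact_Icc
  refine hK.of_isClosed_subset ?_ ?_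
  · have : H3.toPair '' {p : H3 | p ∈ siegelK ∧ p.y ≤ 1} =
        {q : ℂ × ℝ | Complex.normSq q.1 ≤ 3 / 4 ∧ 1 / 2 ≤ q.2 ∧ q.2 ≤ 1} := by
      ext q
      constructor
      · rintro ⟨p, ⟨⟨h1, h2⟩, h3⟩, rfl⟩; exact ⟨h1, h2, h3⟩
      · rintro ⟨h1, h2, h3⟩
        exact ⟨⟨q.1, q.2, lt_of_lt_of_le (by norm_num) h2⟩, ⟨⟨h1, h2⟩, h3⟩, rfl⟩
    rw [this]
    exact (isClosed_le (Complex.continuous_normSq.comp continuous_fst) continuous_const).inter
      ((isClosed_le continuous_const continuous_snd).inter
        (isClosed_le continuous_snd continuous_const))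
  · rintro _ ⟨p, ⟨⟨h1, h2⟩, h3⟩, rfl⟩
    refine ⟨?_, h2, h3⟩
    rw [Metric.mem_closedBall, dist_zero_right]
    rw [Complex.normSq_eq_norm_sq] at h1
    simp only [H3.toPair]
    nlinarith [norm_nonneg p.z]

variable {D : ℕ} {F : H3 → ℂ}

theorem IsCuspFun.bound_siegel [NeZero D] (hF : IsCuspFun D F) (A : ℕ) :
    ∃ C : ℝ, 0 ≤ C ∧ ∀ (g : integralK) (p : H3), p ∈ siegelK →
      ‖F ((g : GL (Fin 2) ℂ) • p)‖ * p.y ^ A ≤ C := by
  classical
  have := finite_quotient_principal D
  have h1 : ∀ g : integralK, ∃ C : ℝ, ∀ p : H3, p ∈ siegelK →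
      ‖F ((g : GL (Fin 2) ℂ) • p)‖ * p.y ^ A ≤ C := by
    intro g
    obtain ⟨C₁, hC₁⟩ := hF.decay g A
    obtain ⟨C₂, hC₂⟩ := isCompact_siegel_band.exists_bound_of_continuousOn
      ((hF.continuous.comp (H3.continuous_smul_gl (g : GL (Fin 2) ℂ))).continuousOn)
    refine ⟨max C₁ C₂, fun p hp => ?_⟩
    rcases le_total 1 p.y with h | h
    · have := hC₁ p h
      rw [le_div_iff₀ (by positivity)] at this
      exact this.trans (le_max_left _ _)
    · refine le_trans ?_ ((hC₂ p ⟨hp, h⟩).trans (le_max_right _ _))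
      simp only [Function.comp_apply]
      exact mul_le_of_le_one_right (norm_nonneg _) (pow_le_one₀ p.y_pos.le h)
  choose C hC using h1
  have := Fintype.ofFinite (integralK ⧸ (principalK D).subgroupOf integralK)
  refine ⟨∑ q : integralK ⧸ (principalK D).subgroupOf integralK,
    |C (Quotient.out q)⁻¹|, Finset.sum_nonneg fun _ _ => abs_nonneg _, fun g p hp => ?_⟩
  set q : integralK ⧸ (principalK D).subgroupOf integralK := QuotientGroup.mk g⁻¹
  set r : integralK := Quotient.out q
  have hmem : r⁻¹ * g⁻¹ ∈ (principalK D).subgroupOf integralK :=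
    QuotientGroup.eq.mp (QuotientGroup.out_eq' q)
  have e : F ((g : GL (Fin 2) ℂ) • p) = F (((r⁻¹ : integralK) : GL (Fin 2) ℂ) • p) := by
    rw [← hF.invariant _ (Subgroup.mem_subgroupOf.mp hmem) ((g : GL (Fin 2) ℂ) • p), ← mul_smul,
      ← Subgroup.coe_mul, inv_mul_cancel_right]
  rw [e]
  exact (hC r⁻¹ p hp).trans ((le_abs_self _).trans
    (Finset.single_le_sum (f := fun q => |C (Quotient.out q)⁻¹|) (fun _ _ => abs_nonneg _)
      (Finset.mem_univ q)))

/-- A cusp function is bounded. -/
theorem IsCuspFun.bounded [NeZero D] (hF : IsCuspFun D F) : ∃ B : ℝ, 0 ≤ B ∧ ∀ p, ‖F p‖ ≤ B := by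
  obtain ⟨C, hC0, hC⟩ := hF.bound_siegel 0
  refine ⟨C, hC0, fun p => ?_⟩
  obtain ⟨g, hg⟩ := exists_smul_mem_siegelK p
  have h := hC g⁻¹ _ hg
  rwa [Subgroup.coe_inv, inv_smul_smul, pow_zero, mul_one] at h

/-! ### Integrals against the weight -/

theorem lintegral_siegelK_lt_top :
    ∫⁻ p in siegelK, ENNReal.ofReal (p.y + 1) ∂H3.vol < ∞ := by
  set slab : Set (ℂ × ℝ) := Metric.closedBall (0 : ℂ) 1 ×ˢ Set.Ioi (1 / 4 : ℝ) with hslab
  have hm : MeasurableSet slab := measurableSet_closedBall.prod measurableSet_Ioi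
  calc ∫⁻ p in siegelK, ENNReal.ofReal (p.y + 1) ∂H3.vol
      ≤ ∫⁻ p : H3, slab.indicator (fun q : ℂ × ℝ => ENNReal.ofReal (q.2 + 1)) (H3.toPair p)
          ∂H3.vol := by
        rw [← lintegral_indicator measurableSet_siegelK]
        refine lintegral_mono fun p => ?_
        by_cases hp : p ∈ siegelK
        swap
        · simp [Set.indicator_of_notMem hp]
        rw [Set.indicator_of_mem hp, Set.indicator_of_mem]
        · rfl
        refine ⟨?_, ?_⟩
        · rw [Metric.mem_closedBall, dist_zero_right]
          have h := hp.1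
          rw [Complex.normSq_eq_norm_sq] at h
          simp only [H3.toPair]
          nlinarith [norm_nonneg p.z]
        · have h := hp.2
          simp only [H3.toPair, Set.mem_Ioi]
          linarith
    _ = ∫⁻ q in H3.upperSet, H3.volDensity q *
          slab.indicator (fun q : ℂ × ℝ => ENNReal.ofReal (q.2 + 1)) q := H3.lintegral_vol _
    _ ≤ ∫⁻ q in slab, ENNReal.ofReal (5 * q.2 ^ (-2 : ℝ)) := by
        rw [← lintegral_indicator H3.measurableSet_upperSet, ← lintegral_indicator hm]
        refine lintegral_mono fun q => ?_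
        by_cases hu : q ∈ H3.upperSet
        swap
        · simp [Set.indicator_of_notMem hu]
        rw [Set.indicator_of_mem hu]
        by_cases h : q ∈ slab
        · rw [Set.indicator_of_mem h, Set.indicator_of_mem h, H3.volDensity]
          have h2 : (1 / 4 : ℝ) < q.2 := h.2
          have h3 : (0 : ℝ) < q.2 := by linarith
          rw [← ENNReal.ofReal_mul (by positivity)]
          refine ENNReal.ofReal_le_ofReal ?_
          rw [Real.rpow_neg h3.le, Real.rpow_two, inv_mul_le_iff₀ (by positivity)]
          field_simp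
          nlinarith
        · simp [Set.indicator_of_notMem h]
    _ < ∞ := by
        rw [hslab, Measure.volume_eq_prod, ← Measure.prod_restrict,
          lintegral_prod _ (by fun_prop)]
        simp only [lintegral_const, Measure.restrict_apply_univ]
        refine ENNReal.mul_lt_top ?_ measure_closedBall_lt_top
        have hi : IntegrableOn (fun y : ℝ => 5 * y ^ (-2 : ℝ)) (Set.Ioi (1 / 4 : ℝ)) :=
          (integrableOn_Ioi_rpow_of_lt (by norm_num) (by norm_num)).const_mul 5
        exact (hasFiniteIntegral_iff_ofReal (ae_restrict_of_forall_mem measurableSet_Ioi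
          fun y hy => by
            have : (0 : ℝ) < y := lt_trans (by norm_num) hy
            positivity)).mp hi.2

/-- Integrals against the weight are controlled on the Siegel set. -/
theorem lintegral_weightK_le [NeZero D] {φ : H3 → ℝ≥0∞} {B : ℝ≥0∞}
    (hB : ∀ (g : integralK) (p : H3), p ∈ siegelK →
      φ ((g : GL (Fin 2) ℂ) • p) ≤ B * ENNReal.ofReal (p.y + 1)) :
    ∫⁻ p, weightK D p * φ p ∂H3.vol ≤
      (Nat.card (integralK ⧸ (principalK D).subgroupOf integralK) : ℝ≥0∞) *
        (B * ∫⁻ p in siegelK, ENNReal.ofReal (p.y + 1) ∂H3.vol) := by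
  classical
  have := finite_quotient_principal D
  have := Fintype.ofFinite (integralK ⧸ (principalK D).subgroupOf integralK)
  set ψ : H3 → ℝ≥0∞ := siegelK.indicator fun p => B * ENNReal.ofReal (p.y + 1) with hψ
  have hψm : Measurable ψ :=
    (measurable_const.mul (H3.continuous_y.measurable.add_const 1).ennreal_ofReal).indicator
      measurableSet_siegelK
  calc ∫⁻ p, weightK D p * φ p ∂H3.vol
      ≤ ∫⁻ p, ∑ q : integralK ⧸ (principalK D).subgroupOf integralK,
          ψ (((Quotient.out q : integralK) : GL (Fin 2) ℂ) • p) ∂H3.vol := by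
        refine lintegral_mono fun p => ?_
        by_cases h : p ∈ siegelLevel D
        · obtain ⟨q, hq⟩ := Set.mem_iUnion.mp h
          refine le_trans (mul_le_of_le_one_left' (weightK_le_one p)) (le_trans ?_
            (Finset.single_le_sum (fun _ _ => zero_le) (Finset.mem_univ q)))
          have h' := hB (Quotient.out q)⁻¹ _ hq
          rw [Subgroup.coe_inv, inv_smul_smul] at h'
          rw [hψ, Set.indicator_of_mem (show _ ∈ siegelK from hq)]
          exact h'
        · simp [weightK_eq_zero h]
    _ = ∑ q : integralK ⧸ (principalK D).subgroupOf integralK, ∫⁻ p, ψ p ∂H3.vol := by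
        rw [lintegral_finsetSum _ fun q _ =>
          hψm.fun_comp (H3.continuous_smul_gl _).measurable]
        exact Finset.sum_congr rfl fun q _ =>
          (H3.measurePreserving_smul _).lintegral_comp hψm
    _ = _ := by
        rw [Finset.sum_const, Finset.card_univ, nsmul_eq_mul, Nat.card_eq_fintype_card, hψ,
          lintegral_indicator measurableSet_siegelK,
          lintegral_const_mul _ (H3.continuous_y.measurable.add_const 1).ennreal_ofReal]

theorem lintegral_weightK_majorantSum_lt_top [NeZero D] {c : ℝ} (hc : 0 < c) :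
    ∫⁻ p, weightK D p * majorantSum c p ∂H3.vol < ∞ := by
  refine lt_of_le_of_lt (lintegral_weightK_le (B := majorantConst c) fun g p hp => ?_) ?_
  · rw [majorantSum_smul, mul_comm]
    exact majorantSum_le hc hp.2
  · exact ENNReal.mul_lt_top (ENNReal.natCast_lt_top _)
      (ENNReal.mul_lt_top (majorantConst_ne_top hc).lt_top lintegral_siegelK_lt_top)

/-- The orbit space of level `D` has finite volume. -/
theorem lintegral_weightK_lt_top [NeZero D] : ∫⁻ p, weightK D p ∂H3.vol < ∞ := by
  have h := lintegral_weightK_le (D := D) (φ := fun _ => 1) (B := 1) fun g p _ => by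
    rw [one_mul, ← ENNReal.ofReal_one]
    exact ENNReal.ofReal_le_ofReal (by have := p.y_pos; linarith)
  simp only [mul_one, one_mul] at h
  exact lt_of_le_of_lt h (ENNReal.mul_lt_top (ENNReal.natCast_lt_top _) lintegral_siegelK_lt_top)

/-- The measure of level `D`. -/
def measK (D : ℕ) : Measure H3 := H3.vol.withDensity (weightK D)

theorem measurable_weightK [NeZero D] : Measurable (weightK D) :=
  (isOrbitWeight_weightK D).measurable

instance [NeZero D] : IsFiniteMeasure (measK D) :=
  ⟨by rw [measK, withDensity_apply _ MeasurableSet.univ, Measure.restrict_univ]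
      exact lintegral_weightK_lt_top⟩

/-- A cusp function is integrable over the orbit space. -/
theorem IsCuspFun.integrable [NeZero D] (hF : IsCuspFun D F) : Integrable F (measK D) := by
  obtain ⟨B, -, hB⟩ := hF.bounded
  exact Integrable.of_bound hF.continuous.aestronglyMeasurable B (Filter.Eventually.of_forall hB)

end Fermat.Agent.ResidualThree
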