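import Fermat.Agent.ResidualThree.ThetaLift.Fourier
import Fermat.Agent.ResidualThree.ThetaLift.Lift

/-!
# The family of lifts, stable under the modular group

Theta kernels with rational characteristics, indexed by `ThetaIdx`, are theta sums over
lattice forms with periodic phases; integrated against a cusp function they give lifts.
-/

noncomputable section

open MeasureTheory Matrix ModularGroup CongruenceSubgroup
open scoped ComplexConjugate MatrixGroups ModularForm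

namespace Fermat.Agent.ResidualThree

open Eis (eChar)

theorem eChar_int_eq_one (n : ℤ) : eChar (n : ℝ) = 1 := by
  rw [eChar]
  push_cast
  rw [show 2 * (Real.pi : ℂ) * Complex.I * (n : ℂ) = n * (2 * Real.pi * Complex.I) by ring]
  exact Complex.exp_int_mul_two_pi_mul_I n

theorem eChar_neg_mul_self (x : ℝ) : eChar (-x) * eChar x = 1 := by
  rw [← Eis.eChar_add, neg_add_cancel, Eis.eChar_zero]

/-- A periodic function of the lattice forms is a phase. -/
theorem IsPhase.of_periodic {N : ℕ} [NeZero N] {φ : HermIdx → ℂ}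
    (h : ∀ i k : HermIdx, φ (i + (N : ℤ) • k) = φ i) : IsPhase N φ := by
  refine IsPhase.of_red (fun x => φ ((x.1.val : ℤ), ((x.2.1.1.val : ℤ), (x.2.1.2.val : ℤ)),
    (x.2.2.val : ℤ))) fun i => ?_
  have hd : ∀ m : ℤ, ∃ k : ℤ, m = ((m : ZMod N).val : ℤ) + N * k := fun m =>
    ⟨m / N, by rw [ZMod.val_intCast]; exact (Int.emod_add_mul_ediv m N).symm⟩
  obtain ⟨k1, hk1⟩ := hd i.1
  obtain ⟨k2, hk2⟩ := hd i.2.1.1
  obtain ⟨k3, hk3⟩ := hd i.2.1.2
  obtain ⟨k4, hk4⟩ := hd i.2.2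
  conv_lhs => rw [show i = (((i.1 : ZMod N).val : ℤ),
    (((i.2.1.1 : ZMod N).val : ℤ), ((i.2.1.2 : ZMod N).val : ℤ)), ((i.2.2 : ZMod N).val : ℤ)) +
      (N : ℤ) • ((k1, (k2, k3), k4) : HermIdx) by
    ext <;> simp only [Prod.fst_add, Prod.snd_add, Prod.smul_fst, Prod.smul_snd, smul_eq_mul]
    exacts [hk1, hk2, hk3, hk4]]
  rw [h]
  rfl

/-- The row sum with a weight on the second coordinate. -/
def rowSumW (w : ℤ → ℂ) (P : ThetaPar) (τ : ℂ) (p : H3) : ℂ :=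
  (p.y : ℂ) * ∑' mk : ℤ × ℤ, w mk.2 * rowTerm P τ p mk

theorem rowSumW_one (P : ThetaPar) (τ : ℂ) (p : H3) : rowSumW 1 P τ p = rowSum P τ p := by
  simp [rowSumW, rowSum]

/-- Rational characteristics. -/
structure ThetaIdx where
  /-- Numerator of the phase in the first row coordinate. -/
  a0 : ℤ
  /-- Numerator of the phase in the second row coordinate. -/
  al : ℤ
  /-- Numerator of the shift of the first row coordinate. -/
  et : ℤ
  /-- Numerator of the shift of the second row coordinate. -/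
  de : ℤ
  /-- Numerator of the complex characteristic `b0`. -/
  b0 : Eis3
  /-- Numerator of the complex characteristic `ηb`. -/
  eb : Eis3

/-- The zero characteristic. -/
abbrev zeroIdx : ThetaIdx := ⟨0, 0, 0, 0, (0, 0), (0, 0)⟩

namespace ThetaIdx

/-- The characteristics with denominator `D`. -/
def toPar (D : ℕ) (I : ThetaIdx) : ThetaPar :=
  ⟨(I.a0 : ℝ) / D, (I.al : ℝ) / D, (I.et : ℝ) / D, (I.de : ℝ) / D, I.b0.toC / (D : ℂ),
    I.eb.toC / (D : ℂ)⟩

/-- Translation. -/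
def tPar (I : ThetaIdx) : ThetaIdx := ⟨I.a0, I.al + I.a0, I.et + I.de, I.de, I.b0, I.eb + I.b0⟩

/-- Inverse translation. -/
def tInv (I : ThetaIdx) : ThetaIdx := ⟨I.a0, I.al - I.a0, I.et - I.de, I.de, I.b0, I.eb - I.b0⟩

theorem tPar_tInv (I : ThetaIdx) : I.tInv.tPar = I := by simp [tPar, tInv]

/-- Inversion, `k` standing for a third of the denominator. -/
def sPar (k : ℕ) (I : ThetaIdx) (j : Fin 3) : ThetaIdx :=
  ⟨I.al, -I.a0, -I.de, I.et, I.eb + Eis3.mul (-1, -2) (((j : ℕ) : ℤ) * k, 0), -I.b0⟩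

theorem toPar_tPar (D : ℕ) (I : ThetaIdx) : I.tPar.toPar D = (I.toPar D).tPar := by
  simp only [toPar, tPar, ThetaPar.tPar, Eis3.toC_add]
  ext <;> push_cast <;> ring

theorem toPar_sPar {D k : ℕ} (hk : 0 < k) (hD : D = 3 * k) (I : ThetaIdx) (j : Fin 3) :
    (I.sPar k j).toPar D = (I.toPar D).sPar j := by
  simp only [toPar, sPar, ThetaPar.sPar]
  have hs := sqrtNegThree_sq
  have hk' : (k : ℂ) ≠ 0 := Nat.cast_ne_zero.mpr hk.ne'
  have hneg : Eis3.toC (-1, -2) = -sqrtNegThree := by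
    rw [Eis3.sqrtNegThree_eq, ← Eis3.toC_neg]; rfl
  subst hD
  refine ThetaPar.ext rfl ?_ ?_ rfl ?_ ?_
  · push_cast; ring
  · push_cast; ring
  · show Eis3.toC _ / _ = _
    rw [Eis3.toC_add, add_div, Eis3.toC_mul, hneg, Eis3.toC_intCast]
    congr 1
    rw [div_eq_div_iff (by push_cast; exact mul_ne_zero three_ne_zero hk') sqrtNegThree_ne_zero]
    push_cast
    linear_combination -((j : ℕ) : ℂ) * (k : ℂ) * hs
  · show Eis3.toC _ / _ = _
    rw [Eis3.toC_neg, neg_div]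

/-- The lattice map of the characteristics. -/
def jMap (D : ℕ) (I : ThetaIdx) (n : HermIdx) : HermIdx :=
  (3 * ((D : ℤ) * n.1 + I.a0), Eis3.mul (-1, -2) (Eis3.mul ((D : ℤ), 0) n.2.1 + I.b0),
    (D : ℤ) * n.2.2 + I.de)

theorem jMap_injective (D : ℕ) [NeZero D] (I : ThetaIdx) : Function.Injective (jMap D I) := by
  have hD : (D : ℤ) ≠ 0 := Int.natCast_ne_zero.mpr (NeZero.ne D)
  intro n m h
  simp only [jMap, Prod.mk.injEq] at h
  obtain ⟨h1, h2, h3⟩ := h
  refine Prod.ext (mul_left_cancel₀ hD (by linarith))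
    (Prod.ext ?_ (mul_left_cancel₀ hD (by linarith)))
  have h4 := add_right_cancel (Eis3.mul_left_cancel (by simp) h2)
  exact Eis3.mul_left_cancel (by simp [NeZero.ne D]) h4

/-- The exponent of the phase. -/
def phaseInt (I : ThetaIdx) (i : HermIdx) : ℤ :=
  HermIdx.tr (Eis3.mul (Eis3.mul (1, 2) i.2.1) (Eis3.bar I.eb)) - i.1 * I.et - 3 * i.2.2 * I.al

open Classical in
/-- The phase. -/
def phase (D : ℕ) (I : ThetaIdx) (i : HermIdx) : ℂ :=
  if i ∈ Set.range (jMap D I) then eChar ((phaseInt I i : ℝ) / (3 * (D : ℝ) ^ 2)) else 0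

/-- The phase of a member of the family is a phase of level `3 D²`. -/
theorem isPhase_phase (D : ℕ) [NeZero D] (I : ThetaIdx) : IsPhase (3 * D ^ 2) (phase D I) := by
  refine IsPhase.of_periodic fun i k => ?_
  set N : ℤ := ((3 * D ^ 2 : ℕ) : ℤ) with hN
  have hN' : N = 3 * (D : ℤ) ^ 2 := by rw [hN]; push_cast; ring
  have key : ∀ i k : HermIdx, i ∈ Set.range (jMap D I) → i + N • k ∈ Set.range (jMap D I) := by
    rintro _ k ⟨n, rfl⟩
    refine ⟨(n.1 + D * k.1, n.2.1 + Eis3.mul ((D : ℤ), 0) (Eis3.mul (1, 2) k.2.1),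
      n.2.2 + 3 * D * k.2.2), ?_⟩
    simp only [jMap, Eis3.mul, hN']
    ext <;> simp only [Prod.fst_add, Prod.snd_add, Prod.smul_fst, Prod.smul_snd, smul_eq_mul] <;>
      ring
  have hiff : i + N • k ∈ Set.range (jMap D I) ↔ i ∈ Set.range (jMap D I) :=
    ⟨fun h => by simpa using key _ (-k) h, key i k⟩
  by_cases h : i ∈ Set.range (jMap D I)
  swap
  · rw [phase, phase, if_neg (mt hiff.mp h), if_neg h]
  rw [phase, phase, if_pos (hiff.mpr h), if_pos h]
  rw [show phaseInt I (i + N • k) = phaseInt I i + N * phaseInt I k by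
    simp only [phaseInt, HermIdx.tr, Eis3.mul, Eis3.bar, Prod.fst_add, Prod.snd_add, Prod.smul_fst,
      Prod.smul_snd, smul_eq_mul]
    ring]
  push_cast [hN']
  rw [add_div, Eis.eChar_add, mul_div_cancel_left₀ _ (by
    have : (D : ℝ) ≠ 0 := Nat.cast_ne_zero.mpr (NeZero.ne D)
    positivity), eChar_int_eq_one, mul_one]

theorem phase_jMap (D : ℕ) [NeZero D] (I : ThetaIdx) (n : HermIdx) :
    phase D I (jMap D I n) = eChar (2 * ((thetaShiftVec (I.toPar D) n).b * conj (I.toPar D).ηb).re -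
      (thetaShiftVec (I.toPar D) n).a * (I.toPar D).η -
        (thetaShiftVec (I.toPar D) n).d * (I.toPar D).α) := by
  rw [phase, if_pos ⟨n, rfl⟩]
  congr 1
  have hD : (D : ℝ) ≠ 0 := Nat.cast_ne_zero.mpr (NeZero.ne D)
  have htr : ∀ x : Eis3, ((HermIdx.tr x : ℤ) : ℝ) = 2 * x.toC.re := fun x => by
    rw [Eis3.trace_eq]; rfl
  have hneg : Eis3.toC (-1, -2) = -sqrtNegThree := by
    rw [Eis3.sqrtNegThree_eq, ← Eis3.toC_neg]; rfl
  simp only [phaseInt, jMap, thetaShiftVec, toPar, Int.cast_sub, Int.cast_mul, Int.cast_add, htr,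
    Eis3.toC_mul, Eis3.toC_bar, Eis3.toC_add, Eis3.toC_intCast, hneg, ← Eis3.sqrtNegThree_eq]
  simp [Complex.mul_re, Complex.mul_im, Complex.div_natCast_re, Complex.div_natCast_im,
    sqrtNegThree_re, sqrtNegThree_im]
  field_simp
  linear_combination (2 * (((D : ℝ) * n.2.1.toC.re + I.b0.toC.re) * I.eb.toC.re +
    ((D : ℝ) * n.2.1.toC.im + I.b0.toC.im) * I.eb.toC.im)) * sqrtThree_mul_self

end ThetaIdx

/-- The matrix `diag(√-3/3, 1)`. -/
def gK : GL (Fin 2) ℂ :=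
  Matrix.GeneralLinearGroup.mkOfDetNeZero !![sqrtNegThree / 3, 0; 0, 1]
    (by simp [sqrtNegThree_ne_zero])

theorem gK_smul (p : H3) :
    (gK • p).z = sqrtNegThree / 3 * p.z ∧ (gK • p).y = p.y / Real.sqrt 3 := by
  have hn : ‖sqrtNegThree‖ = Real.sqrt 3 := by
    rw [Complex.norm_def, normSq_sqrtNegThree]
  have hd : H3.denom gK p = 1 := by simp [H3.denom, gK, Matrix.GeneralLinearGroup.mkOfDetNeZero]
  refine ⟨?_, ?_⟩
  · rw [H3.smul_z, hd]
    simp [gK, Matrix.GeneralLinearGroup.mkOfDetNeZero]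
  · rw [H3.smul_y, hd]
    simp [gK, Matrix.GeneralLinearGroup.mkOfDetNeZero, hn]
    have h3 := sqrtThree_mul_self
    have hs : Real.sqrt 3 ≠ 0 := by positivity
    field_simp
    linear_combination p.y * h3

theorem ThetaIdx.T_jMap (D : ℕ) [NeZero D] (I : ThetaIdx) (n : HermIdx) (p : H3) :
    HermIdx.T (I.jMap D n) p = Real.sqrt 3 * D * (thetaShiftVec (I.toPar D) n).T (gK • p) := by
  have hneg : Eis3.toC (-1, -2) = -sqrtNegThree := by
    rw [Eis3.sqrtNegThree_eq, ← Eis3.toC_neg]; rfl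
  have hD : (D : ℝ) ≠ 0 := Nat.cast_ne_zero.mpr (NeZero.ne D)
  have hy := p.y_pos.ne'
  have hs : Real.sqrt 3 ≠ 0 := by positivity
  simp only [HermIdx.T, HermIdx.vec, jMap, HermVec.T, thetaShiftVec, toPar, (gK_smul p).1,
    (gK_smul p).2,
    Eis3.toC_mul, Eis3.toC_add, Eis3.toC_intCast, hneg, Int.cast_mul, Int.cast_add, map_mul,
    map_div₀, conj_sqrtNegThree, map_ofNat]
  simp [Complex.normSq_apply, Complex.mul_re, Complex.mul_im, sqrtNegThree_re, sqrtNegThree_im,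
    Complex.div_natCast_re, Complex.div_natCast_im]
  field_simp
  ring_nf
  rw [show Real.sqrt 3 ^ 3 = 3 * Real.sqrt 3 by rw [pow_three, sqrtThree_mul_self, mul_comm],
    Real.sq_sqrt (show (0 : ℝ) ≤ 3 by norm_num)]
  ring

theorem ThetaIdx.q_jMap (D : ℕ) [NeZero D] (I : ThetaIdx) (n : HermIdx) :
    (HermIdx.q (I.jMap D n) : ℝ) = 3 * (D : ℝ) ^ 2 * (thetaShiftVec (I.toPar D) n).Q := by
  have hneg : Eis3.toC (-1, -2) = -sqrtNegThree := by
    rw [Eis3.sqrtNegThree_eq, ← Eis3.toC_neg]; rfl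
  have hD : (D : ℝ) ≠ 0 := Nat.cast_ne_zero.mpr (NeZero.ne D)
  rw [← HermIdx.vec_Q]
  simp only [HermVec.Q, HermIdx.vec, jMap, thetaShiftVec, toPar, Eis3.toC_mul, Eis3.toC_add,
    Eis3.toC_intCast, hneg, Complex.normSq_mul, Complex.normSq_neg, normSq_sqrtNegThree,
    Int.cast_mul, Int.cast_add]
  simp [Complex.normSq_apply, Complex.div_natCast_re, Complex.div_natCast_im]
  field_simp

/-- The constant relating the family to lifts. -/
def famConst (D : ℕ) (I : ThetaIdx) : ℂ :=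
  eChar (-(((I.toPar D).b0 * conj (I.toPar D).ηb).re - (I.toPar D).a0 * (I.toPar D).η)) *
    ((Real.sqrt 3 * D : ℝ) : ℂ)

theorem famConst_ne_zero (D : ℕ) [NeZero D] (I : ThetaIdx) : famConst D I ≠ 0 :=
  mul_ne_zero (Complex.exp_ne_zero _) (Complex.ofReal_ne_zero.mpr (mul_ne_zero
    (by positivity) (Nat.cast_ne_zero.mpr (NeZero.ne D))))

/-- A sum over rows with rational characteristics is a theta sum of lattice forms. -/
theorem rowSumW_eq_thetaSum (D : ℕ) [NeZero D] (I : ThetaIdx) {w : ℤ → ℂ} (hw : ∀ d, ‖w d‖ ≤ 1)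
    {φ : HermIdx → ℂ} (hφ : ∀ n, φ (I.jMap D n) = w n.2.2 * I.phase D (I.jMap D n))
    (h0 : ∀ i ∉ Set.range (I.jMap D), φ i = 0) {τ : ℂ} (hτ : 0 < τ.im) (p : H3) :
    rowSumW w (I.toPar D) τ (gK • p) = famConst D I *
      (((Real.sqrt (τ / (3 * (D : ℂ) ^ 2)).im : ℝ) : ℂ) *
        thetaSum φ (τ / (3 * (D : ℂ) ^ 2)) p) := by
  have hD : (D : ℝ) ≠ 0 := Nat.cast_ne_zero.mpr (NeZero.ne D)
  have hdiv : τ / (3 * (D : ℂ) ^ 2) = τ / ((3 * (D : ℝ) ^ 2 : ℝ) : ℂ) := by push_cast; rfl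
  have hterm : ∀ n, liftTerm φ (τ / (3 * (D : ℂ) ^ 2)) p (I.jMap D n) =
      w n.2.2 * shiftTerm (I.toPar D) τ (gK • p) n := by
    intro n
    rw [liftTerm, hφ, ThetaIdx.phase_jMap, shiftTerm, ThetaIdx.T_jMap, hdiv, Complex.div_ofReal_im,
      ← Complex.ofReal_intCast, ThetaIdx.q_jMap]
    have hD' : (D : ℂ) ≠ 0 := Nat.cast_ne_zero.mpr (NeZero.ne D)
    rw [show Real.pi * (τ.im / (3 * (D : ℝ) ^ 2)) *
        (Real.sqrt 3 * D * (thetaShiftVec (I.toPar D) n).T (gK • p)) ^ 2 =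
      Real.pi * τ.im * (thetaShiftVec (I.toPar D) n).T (gK • p) ^ 2 by
        rw [mul_pow, mul_pow, Real.sq_sqrt (by norm_num)]; field_simp]
    rw [show 2 * (Real.pi : ℂ) * Complex.I * (τ / ((3 * (D : ℝ) ^ 2 : ℝ) : ℂ)) *
        ((3 * (D : ℝ) ^ 2 * (thetaShiftVec (I.toPar D) n).Q : ℝ) : ℂ) =
      2 * Real.pi * Complex.I * τ * ((thetaShiftVec (I.toPar D) n).Q : ℂ) by push_cast; field_simp]
    ring
  have hsum : ∑' n, w n.2.2 * shiftTerm (I.toPar D) τ (gK • p) n =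
      thetaSum φ (τ / (3 * (D : ℂ) ^ 2)) p := by
    rw [thetaSum, ← tsum_congr hterm]
    refine (ThetaIdx.jMap_injective D I).tsum_eq fun i hi => ?_
    by_contra h
    exact hi (by rw [liftTerm, h0 i h, zero_mul, zero_mul])
  have hF := tsum_shiftTerm (I.toPar D) hτ (gK • p) hw
  rw [hsum] at hF
  rw [rowSumW, famConst, hdiv, Complex.div_ofReal_im, Real.sqrt_div' _ (by positivity),
    Real.sqrt_mul (by norm_num), Real.sqrt_sq (by positivity), ← hdiv]
  set K := ((I.toPar D).b0 * conj (I.toPar D).ηb).re - (I.toPar D).a0 * (I.toPar D).η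
  set S := ∑' mk : ℤ × ℤ, w mk.2 * rowTerm (I.toPar D) τ (gK • p) mk
  set θ := thetaSum φ (τ / (3 * (D : ℂ) ^ 2)) p
  have hcancel : ((Real.sqrt 3 * D : ℝ) : ℂ) * ((Real.sqrt τ.im / (Real.sqrt 3 * D) : ℝ) : ℂ) =
      ((Real.sqrt τ.im : ℝ) : ℂ) := by
    rw [← Complex.ofReal_mul, mul_div_cancel₀ _ (mul_ne_zero (by positivity) hD)]
  linear_combination (-(eChar (-K)) * θ) * hcancel - eChar (-K) * hF -
    (((gK • p).y : ℂ) * S) * eChar_neg_mul_self K

variable {N : ℕ} [NeZero N] {F : H3 → ℂ}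

/-- Its integral against a cusp function is a lift. -/
theorem integral_rowSumW (hC : IsCuspFun N F) (D : ℕ) [NeZero D] (I : ThetaIdx) {w : ℤ → ℂ}
    (hw : ∀ d, ‖w d‖ ≤ 1) {φ : HermIdx → ℂ} (hφB : IsPhase N φ)
    (hφ : ∀ n, φ (I.jMap D n) = w n.2.2 * I.phase D (I.jMap D n))
    (h0 : ∀ i ∉ Set.range (I.jMap D), φ i = 0) {τ : ℂ} (hτ : 0 < τ.im) :
    Integrable (fun p => rowSumW w (I.toPar D) τ (gK • p) * F p) (measK N) ∧
      ∫ p, rowSumW w (I.toPar D) τ (gK • p) * F p ∂measK N =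
        famConst D I * lift N F φ (τ / (3 * (D : ℂ) ^ 2)) := by
  have hτ' : 0 < (τ / (3 * (D : ℂ) ^ 2)).im := by
    rw [show (3 * (D : ℂ) ^ 2) = ((3 * (D : ℝ) ^ 2 : ℝ) : ℂ) by push_cast; rfl,
      Complex.div_ofReal_im]
    have : (0 : ℝ) < D := Nat.cast_pos.mpr (Nat.pos_of_ne_zero (NeZero.ne D))
    positivity
  obtain ⟨B, -, hB⟩ := hφB.bound
  set c : ℂ := famConst D I * ((Real.sqrt (τ / (3 * (D : ℂ) ^ 2)).im : ℝ) : ℂ)
  have e : (fun p => rowSumW w (I.toPar D) τ (gK • p) * F p) =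
      fun p => c * (thetaSum φ (τ / (3 * (D : ℂ) ^ 2)) p * F p) := by
    funext p
    rw [rowSumW_eq_thetaSum D I hw hφ h0 hτ p]
    ring
  rw [e]
  refine ⟨(hasSum_integral_liftTerm hC hB hτ').2.const_mul c, ?_⟩
  rw [integral_const_mul, lift, mul_assoc]

end Fermat.Agent.ResidualThree
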