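import Fermat.Agent.ResidualThree.ThetaLift.Row

/-!
# Partial Fourier transform of the theta kernel of Hermitian forms

The sum over the first coordinate of a form is transformed by Poisson summation; the kernel
becomes a sum over rows of products of a Gaussian and a binary theta series. This is what makes
the transformation law of the lift visible.
-/

noncomputable section

open scoped ComplexConjugate

namespace Fermat.Agent.ResidualThree

open Eis (eChar gau)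

/-- The shifted lattice form. -/
def thetaShiftVec (P : ThetaPar) (n : HermIdx) : HermVec :=
  ⟨(n.1 : ℝ) + P.a0, n.2.1.toC + P.b0, (n.2.2 : ℝ) + P.δ0⟩

/-- The term of the shifted theta kernel. -/
def shiftTerm (P : ThetaPar) (τ : ℂ) (p : H3) (n : HermIdx) : ℂ :=
  eChar (2 * ((thetaShiftVec P n).b * conj P.ηb).re - (thetaShiftVec P n).a * P.η -
    (thetaShiftVec P n).d * P.α) *
    Complex.exp (2 * Real.pi * Complex.I * τ * ((thetaShiftVec P n).Q : ℂ)) *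
    ((Real.exp (-(Real.pi * τ.im * (thetaShiftVec P n).T p ^ 2)) : ℝ) : ℂ)

theorem summable_rowGauss {τ : ℂ} (hτ : 0 < τ.im) {Y : ℝ} (hY : 0 < Y) (s t : ℝ) :
    Summable fun mk : ℤ × ℤ => rowGauss τ Y ((mk.1 : ℝ) + s) ((mk.2 : ℝ) + t) := by
  set c := Real.pi * Y ^ 2 * τ.im / (1 + 2 * τ.re ^ 2 + 2 * τ.im ^ 2) with hcdef
  have hc : 0 < c := by positivity
  have hs : ∀ s : ℝ, Summable fun n : ℤ => Real.exp (-(c * ((n : ℝ) + s) ^ 2)) := fun s =>
    (ENNReal.summable_toReal (lt_of_le_of_lt (tsum_shift_le hc s)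
      (shiftMass_ne_top hc).lt_top).ne).congr fun _ => ENNReal.toReal_ofReal (Real.exp_pos _).le
  refine Summable.of_nonneg_of_le (fun _ => (Real.exp_pos _).le) (fun mk => ?_)
    ((hs s).mul_of_nonneg (hs t) (fun _ => (Real.exp_pos _).le) (fun _ => (Real.exp_pos _).le))
  refine (rowGauss_le hτ Y _ _).trans_eq ?_
  rw [← Real.exp_add]
  congr 1
  rw [hcdef]
  ring

theorem gau_I (c x : ℝ) : gau Complex.I c x = ((Real.exp (-(Real.pi * c * x ^ 2)) : ℝ) : ℂ) := by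
  rw [gau, Complex.ofReal_exp]
  congr 1
  push_cast
  linear_combination ((Real.pi : ℂ) * c * (x : ℂ) ^ 2) * Complex.I_sq

theorem rootFactor_I {c : ℝ} (hc : 0 < c) :
    Eis.rootFactor Complex.I c = ((Real.sqrt c : ℝ) : ℂ)⁻¹ := by
  rw [Eis.rootFactor_eq Complex.I_ne_zero hc]
  simp [Complex.I_mul_I]

/-- A shifted Gaussian series over `ℤ` converges. -/
theorem summable_exp_shift_sq {c : ℝ} (hc : 0 < c) (s : ℝ) :
    Summable fun d : ℤ => Real.exp (-(c * ((d : ℝ) + s) ^ 2)) :=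
  (ENNReal.summable_toReal (lt_of_le_of_lt (tsum_shift_le hc s)
    (shiftMass_ne_top hc).lt_top).ne).congr fun _ => ENNReal.toReal_ofReal (Real.exp_pos _).le

/-- A summable family of Gaussian weights times binary theta series is summable. -/
theorem summable_mul_norm_hTerm {ι : Type*} {τ : ℂ} (hτ : 0 < τ.im) {r : ι → ℝ}
    (hr0 : ∀ i, 0 ≤ r i) (hr : Summable r) (ξ η : ι → ℂ) :
    Summable fun x : ι × Eis3 => r x.1 * ‖hTerm τ (ξ x.1) (η x.1) x.2‖ := by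
  refine (summable_prod_of_nonneg fun x => mul_nonneg (hr0 _) (norm_nonneg _)).mpr
    ⟨fun i => (summable_norm_hTerm hτ (ξ i) (η i)).1.mul_left (r i), ?_⟩
  refine Summable.of_nonneg_of_le
    (fun i => tsum_nonneg fun l => mul_nonneg (hr0 _) (norm_nonneg _)) (fun i => ?_)
    (hr.mul_right (shiftMass (2 * Real.pi * τ.im / 2) * shiftMass (2 * Real.pi * τ.im / 2)).toReal)
  dsimp only
  rw [tsum_mul_left]
  exact mul_le_mul_of_nonneg_left (summable_norm_hTerm hτ _ _).2 (hr0 _)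

/-- The partial Fourier transform. -/
theorem tsum_shiftTerm (P : ThetaPar) {τ : ℂ} (hτ : 0 < τ.im) (p : H3) {w : ℤ → ℂ}
    (hw : ∀ d, ‖w d‖ ≤ 1) :
    ((Real.sqrt τ.im : ℝ) : ℂ) * ∑' n : HermIdx, w n.2.2 * shiftTerm P τ p n =
      eChar ((P.b0 * conj P.ηb).re - P.a0 * P.η) *
        ((p.y : ℂ) * ∑' mk : ℤ × ℤ, w mk.2 * rowTerm P τ p mk) := by
  set Y := p.y with hYdef
  have hY : 0 < Y := p.y_pos
  set c : ℝ := τ.im / Y ^ 2 with hcdef
  have hc : 0 < c := by positivity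
  set β : Eis3 × ℤ → ℝ := fun i => P.a0 +
    (-2 * ((i.1.toC + P.b0) * conj p.z).re + ((i.2 : ℝ) + P.δ0) * Complex.normSq p.z) with hβ
  set b : Eis3 × ℤ → ℝ := fun i => -P.η - τ.re * ((i.2 : ℝ) + P.δ0) with hb
  set F : Eis3 × ℤ → ℂ := fun i => w i.2 *
    (eChar (2 * ((i.1.toC + P.b0) * conj P.ηb).re - P.a0 * P.η - ((i.2 : ℝ) + P.δ0) * P.α -
        τ.re * ((i.2 : ℝ) + P.δ0) * β i) *
      Complex.exp (2 * Real.pi * Complex.I * τ *
        (Complex.normSq (i.1.toC + P.b0 - (((i.2 : ℝ) + P.δ0 : ℝ) : ℂ) * p.z) : ℝ)) *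
      ((Real.exp (-(Real.pi * τ.im * Y ^ 2 * ((i.2 : ℝ) + P.δ0) ^ 2)) : ℝ) : ℂ)) with hF
  have hFs : Summable fun i => ‖F i‖ := by
    have hcd : 0 < Real.pi * τ.im * Y ^ 2 := by positivity
    rw [← (Equiv.prodComm ℤ Eis3).summable_iff]
    have hd := summable_exp_shift_sq hcd P.δ0
    have hbd : ∀ x : ℤ × Eis3, ‖F (x.2, x.1)‖ ≤
        Real.exp (-(Real.pi * τ.im * Y ^ 2 * ((x.1 : ℝ) + P.δ0) ^ 2)) *
          ‖hTerm τ (P.b0 - (((x.1 : ℝ) + P.δ0 : ℝ) : ℂ) * p.z) 0 x.2‖ := by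
      intro x
      simp only [hF, norm_mul, Eis.norm_eChar, one_mul, Complex.norm_real, Real.norm_eq_abs,
        Real.abs_exp, norm_hTerm, Complex.norm_exp, ← add_sub_assoc]
      refine (mul_le_of_le_one_left (by positivity) (hw _)).trans_eq ?_
      rw [mul_comm]
      congr 2
      simp [Complex.mul_re, Complex.mul_im]
    have hF' : Summable fun x : ℤ × Eis3 => ‖F (x.2, x.1)‖ :=
      Summable.of_nonneg_of_le (fun x => norm_nonneg _) hbd
        (summable_mul_norm_hTerm hτ (fun d => (Real.exp_pos _).le) hd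
          (fun d => P.b0 - (((d : ℝ) + P.δ0 : ℝ) : ℂ) * p.z) (fun _ => 0))
    exact hF'
  have hlhs : ∀ n : HermIdx, w n.2.2 * shiftTerm P τ p n =
      gau Complex.I c ((n.1 : ℝ) + β n.2) * eChar ((n.1 : ℝ) * b n.2) * F n.2 := by
    intro n
    simp only [shiftTerm, thetaShiftVec, hF, gau_I, Eis.eChar, Complex.ofReal_exp, mul_assoc,
      mul_left_comm _ (w n.2.2), ← Complex.exp_add]
    congr 2
    simp only [hb, hcdef, HermVec.Q, HermVec.T]
    set δ : ℝ := (n.2.2 : ℝ) + P.δ0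
    set B : ℂ := n.2.1.toC + P.b0
    set A : ℝ := (n.1 : ℝ) + β n.2 with hA
    have hQ : Complex.normSq B - ((n.1 : ℝ) + P.a0) * δ =
        Complex.normSq (B - (δ : ℂ) * p.z) - A * δ := by
      simp only [hA, hβ, Complex.normSq_apply, Complex.sub_re, Complex.sub_im, Complex.mul_re,
        Complex.mul_im, Complex.conj_re, Complex.conj_im, Complex.ofReal_re, Complex.ofReal_im]
      ring
    have hT : (((n.1 : ℝ) + P.a0) - 2 * (B * conj p.z).re +
        δ * (Complex.normSq p.z + Y ^ 2)) / Y = (A + δ * Y ^ 2) / Y := by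
      congr 1
      simp only [hA, hβ]
      ring
    have hT2 : ((A + δ * Y ^ 2) / Y) ^ 2 = A ^ 2 / Y ^ 2 + 2 * A * δ + δ ^ 2 * Y ^ 2 := by
      field_simp
      ring
    rw [hQ, ← hYdef, hT, hT2]
    have hu : τ = (τ.re : ℂ) + (τ.im : ℂ) * Complex.I := (Complex.re_add_im τ).symm
    push_cast [hA]
    linear_combination (-2 * (Real.pi : ℂ) * Complex.I * ((n.1 : ℂ) + (β n.2 : ℂ)) * δ) * hu -
      (2 * (Real.pi : ℂ) * (τ.im : ℂ) * ((n.1 : ℂ) + (β n.2 : ℂ)) * δ) * Complex.I_sq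
  have hs := (Eis.summable_step (τ := Complex.I) (by simp) hc β b hFs).of_norm
  have hsw : Summable fun x : (Eis3 × ℤ) × ℤ =>
      gau Complex.I c ((x.2 : ℝ) + β x.1) * eChar ((x.2 : ℝ) * b x.1) * F x.1 :=
    ((Equiv.prodComm (Eis3 × ℤ) ℤ).summable_iff.mpr hs :)
  rw [tsum_congr hlhs, ← (Equiv.prodComm (Eis3 × ℤ) ℤ).tsum_eq]
  simp only [Equiv.prodComm_apply, Prod.fst_swap, Prod.snd_swap]
  rw [hsw.tsum_prod]
  have hinner : ∀ i : Eis3 × ℤ,
      ∑' a : ℤ, gau Complex.I c ((a : ℝ) + β i) * eChar ((a : ℝ) * b i) * F i =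
        Eis.rootFactor Complex.I c * ∑' m : ℤ,
          gau Complex.I c⁻¹ ((m : ℝ) - b i) * eChar (β i * ((m : ℝ) - b i)) * F i := by
    intro i
    rw [tsum_mul_right, Eis.tsum_gau (by simp) hc, mul_assoc, ← tsum_mul_right,
      show -1 / Complex.I = Complex.I by field_simp; simp]
  rw [tsum_congr hinner, tsum_mul_left]
  set K : ℂ := eChar ((P.b0 * conj P.ηb).re - P.a0 * P.η) with hK
  set J : (ℤ × ℤ) × Eis3 → ℂ := fun x => w x.1.2 *
    (eChar (P.a0 * ((x.1.1 : ℝ) + P.η) - P.α * ((x.1.2 : ℝ) + P.δ0)) *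
      eChar (conj p.z * ((((x.1.2 : ℝ) + P.δ0 : ℝ) : ℂ) * P.ηb -
        (((x.1.1 : ℝ) + P.η : ℝ) : ℂ) * P.b0)).re *
      ((rowGauss τ Y ((x.1.1 : ℝ) + P.η) ((x.1.2 : ℝ) + P.δ0) : ℝ) : ℂ) *
      hTerm τ (P.b0 - (((x.1.2 : ℝ) + P.δ0 : ℝ) : ℂ) * p.z)
        (P.ηb - (((x.1.1 : ℝ) + P.η : ℝ) : ℂ) * p.z) x.2) with hJ
  have hJs : Summable J := by
    refine Summable.of_norm ?_
    have hle : ∀ x, ‖J x‖ ≤ rowGauss τ Y ((x.1.1 : ℝ) + P.η) ((x.1.2 : ℝ) + P.δ0) *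
        ‖hTerm τ (P.b0 - (((x.1.2 : ℝ) + P.δ0 : ℝ) : ℂ) * p.z)
          (P.ηb - (((x.1.1 : ℝ) + P.η : ℝ) : ℂ) * p.z) x.2‖ := by
      intro x
      simp only [hJ, norm_mul, Eis.norm_eChar, one_mul, Complex.norm_real, Real.norm_eq_abs,
        rowGauss, Real.abs_exp]
      exact mul_le_of_le_one_left (by positivity) (hw _)
    refine Summable.of_nonneg_of_le (fun x => norm_nonneg _) hle ?_
    exact summable_mul_norm_hTerm hτ (fun mk => (Real.exp_pos _).le)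
      (summable_rowGauss hτ hY P.η P.δ0) (fun mk => P.b0 - (((mk.2 : ℝ) + P.δ0 : ℝ) : ℂ) * p.z)
      (fun mk => P.ηb - (((mk.1 : ℝ) + P.η : ℝ) : ℂ) * p.z)
  let e : (Eis3 × ℤ) × ℤ ≃ (ℤ × ℤ) × Eis3 :=
    { toFun := fun x => ((x.2, x.1.2), x.1.1)
      invFun := fun x => ((x.2, x.1.2), x.1.1)
      left_inv := fun x => rfl
      right_inv := fun x => rfl }
  have hterm : ∀ x : (Eis3 × ℤ) × ℤ,
      gau Complex.I c⁻¹ ((x.2 : ℝ) - b x.1) * eChar (β x.1 * ((x.2 : ℝ) - b x.1)) * F x.1 =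
        K * J (e x) := by
    intro x
    simp only [hF, hJ, hK, e, Equiv.coe_fn_mk, gau_I, hTerm, rowGauss, Eis.eChar,
      Complex.ofReal_exp, mul_assoc, mul_left_comm _ (w x.1.2), ← Complex.exp_add]
    congr 2
    simp only [hb, hcdef]
    set δ : ℝ := (x.1.2 : ℝ) + P.δ0
    set M : ℝ := (x.2 : ℝ) + P.η
    set L : ℂ := x.1.1.toC with hL
    rw [show (x.2 : ℝ) - (-P.η - τ.re * δ) = M + τ.re * δ by simp only [M]; ring,
      show (τ.im / Y ^ 2)⁻¹ = Y ^ 2 / τ.im by rw [inv_div],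
      show Complex.normSq ((M : ℂ) + τ * (δ : ℂ)) = (M + τ.re * δ) ^ 2 + τ.im ^ 2 * δ ^ 2 by
        simp [Complex.normSq_apply]; ring,
      show L + (P.b0 - (δ : ℂ) * p.z) = L + P.b0 - (δ : ℂ) * p.z by ring]
    have hphase : (β x.1) * (M + τ.re * δ) +
        (2 * ((L + P.b0) * conj P.ηb).re - P.a0 * P.η - δ * P.α - τ.re * δ * β x.1) =
        ((P.b0 * conj P.ηb).re - P.a0 * P.η) + (P.a0 * M - P.α * δ) +
          (conj p.z * ((δ : ℂ) * P.ηb - (M : ℂ) * P.b0)).re +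
          (2 * (L * conj (P.ηb - (M : ℂ) * p.z)).re +
            ((P.b0 - (δ : ℂ) * p.z) * conj (P.ηb - (M : ℂ) * p.z)).re) := by
      simp only [hβ, δ, M, hL, Complex.normSq_apply, Complex.add_re, Complex.add_im,
        Complex.sub_re, Complex.sub_im, Complex.mul_re, Complex.mul_im, Complex.conj_re,
        Complex.conj_im, Complex.ofReal_re, Complex.ofReal_im]
      ring
    rw [show Real.pi * (Y ^ 2 * ((M + τ.re * δ) ^ 2 + τ.im ^ 2 * δ ^ 2)) / τ.im =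
      Real.pi * (Y ^ 2 / τ.im) * (M + τ.re * δ) ^ 2 + Real.pi * τ.im * Y ^ 2 * δ ^ 2 by
        field_simp]
    have hp' := congrArg (fun r : ℝ => (r : ℂ)) hphase
    push_cast at hp' ⊢
    linear_combination (2 * (Real.pi : ℂ) * Complex.I) * hp'
  have hJe : Summable fun x => K * J (e x) := (e.summable_iff.mpr hJs).mul_left K
  rw [← (hJe.congr fun x => (hterm x).symm).tsum_prod, tsum_congr hterm, tsum_mul_left,
    e.tsum_eq, hJs.tsum_prod, rootFactor_I hc]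
  have hrow : ∀ mk : ℤ × ℤ, ∑' l, J (mk, l) = w mk.2 * rowTerm P τ p mk := by
    intro mk
    simp only [hJ, tsum_mul_left, rowTerm, hTheta, ← hYdef]
  rw [tsum_congr hrow, hcdef, Real.sqrt_div' _ (sq_nonneg Y), Real.sqrt_sq hY.le]
  have h1 : ((Real.sqrt τ.im : ℝ) : ℂ) ≠ 0 :=
    Complex.ofReal_ne_zero.mpr (Real.sqrt_pos.mpr hτ).ne'
  push_cast
  field_simp

end Fermat.Agent.ResidualThree
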