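import Fermat.Agent.ResidualThree.ThetaLift.Plane

/-!
# Points and planes attached to Hermitian forms

A form of positive index determines a geodesic plane with its measure, a form of negative index
a point; radial kernels integrated over the plane are computed by `planeTransform`. These give the
periods in the expansion of the lift.
-/

noncomputable section

open Matrix MeasureTheory Set Filter
open scoped ComplexConjugate ENNReal

namespace Fermat.Agent.ResidualThree

namespace HermVec

instance : SMul ℝ HermVec := ⟨fun c x => ⟨c * x.a, (c : ℂ) * x.b, c * x.d⟩⟩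

theorem toHerm_real_smul (c : ℝ) (x : HermVec) : (c • x).toHerm = (c : ℂ) • x.toHerm := by
  show (⟨c * x.a, (c : ℂ) * x.b, c * x.d⟩ : HermVec).toHerm = _
  ext i j; fin_cases i <;> fin_cases j <;> simp [toHerm]

theorem smul_real_smul (g : GL (Fin 2) ℂ) (c : ℝ) (x : HermVec) : g • (c • x) = c • (g • x) :=
  toHerm_injective (by
    simp only [toHerm_smul, toHerm_real_smul, Matrix.mul_smul, Matrix.smul_mul])

theorem real_smul_smul (a b : ℝ) (x : HermVec) : a • b • x = (a * b) • x :=
  toHerm_injective (by simp only [toHerm_real_smul, smul_smul, Complex.ofReal_mul])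

theorem one_real_smul (x : HermVec) : (1 : ℝ) • x = x :=
  toHerm_injective (by simp [toHerm_real_smul])

theorem T_real_smul (c : ℝ) (x : HermVec) (p : H3) : (c • x).T p = c * x.T p := by
  show (⟨c * x.a, (c : ℂ) * x.b, c * x.d⟩ : HermVec).T p = _
  simp only [T, Complex.mul_re, Complex.mul_im, Complex.ofReal_re, Complex.ofReal_im,
    Complex.conj_re, Complex.conj_im]
  ring

theorem Q_real_smul (c : ℝ) (x : HermVec) : (c • x).Q = c ^ 2 * x.Q := by
  show (⟨c * x.a, (c : ℂ) * x.b, c * x.d⟩ : HermVec).Q = _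
  simp only [Q, Complex.normSq_mul, Complex.normSq_ofReal]
  ring

/-- The form of the real plane. -/
def realPlaneVec : HermVec := ⟨0, Complex.I, 0⟩

theorem realPlaneVec_T (p : H3) : realPlaneVec.T p = -2 * p.z.im / p.y := by
  simp [realPlaneVec, T]

theorem realPlaneVec_Q : realPlaneVec.Q = 1 := by simp [realPlaneVec, Q]

/-- A matrix carrying the real plane to the plane of `x`. -/
def IsPlaneGL (g : GL (Fin 2) ℂ) (x : HermVec) : Prop :=
  ∃ c : ℝ, c ≠ 0 ∧ g • realPlaneVec = c • x

/-- A matrix fixing the real plane is real up to a scalar. -/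
theorem exists_real_of_fix {g : GL (Fin 2) ℂ} {c : ℝ} (hc : c ≠ 0)
    (h : g • realPlaneVec = c • realPlaneVec) :
    ∃ (e : ℂ) (r : GL (Fin 2) ℝ), (g : Matrix (Fin 2) (Fin 2) ℂ) =
      e • (realGL r : Matrix (Fin 2) (Fin 2) ℂ) := by
  set G : Matrix (Fin 2) (Fin 2) ℂ := (g : Matrix (Fin 2) (Fin 2) ℂ) with hG
  set μ : ℂ := (c : ℂ) / G.det with hμ
  have hdet : G.det ≠ 0 := (Matrix.isUnit_iff_isUnit_det G).mp g.isUnit |>.ne_zero
  have hM := congrArg toHerm h
  rw [toHerm_smul, toHerm_real_smul, ← hG] at hM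
  have e00 := congrArg (fun M : Matrix (Fin 2) (Fin 2) ℂ => M 0 0) hM
  have e01 := congrArg (fun M : Matrix (Fin 2) (Fin 2) ℂ => M 0 1) hM
  have e10 := congrArg (fun M : Matrix (Fin 2) (Fin 2) ℂ => M 1 0) hM
  have e11 := congrArg (fun M : Matrix (Fin 2) (Fin 2) ℂ => M 1 1) hM
  simp [toHerm, realPlaneVec, Matrix.mul_apply, Fin.sum_univ_two] at e00 e01 e10 e11
  have f01 : G 0 0 * conj (G 1 1) - G 0 1 * conj (G 1 0) = c := by
    refine mul_left_cancel₀ Complex.I_ne_zero ?_
    linear_combination e01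
  have f10 : G 1 1 * conj (G 0 0) - G 1 0 * conj (G 0 1) = c := by
    refine mul_left_cancel₀ Complex.I_ne_zero ?_
    linear_combination -e10
  have f00 : G 0 0 * conj (G 0 1) - G 0 1 * conj (G 0 0) = 0 := by
    refine mul_left_cancel₀ Complex.I_ne_zero ?_
    linear_combination e00
  have f11 : G 1 0 * conj (G 1 1) - G 1 1 * conj (G 1 0) = 0 := by
    refine mul_left_cancel₀ Complex.I_ne_zero ?_
    linear_combination e11
  have hd2 := Matrix.det_fin_two G
  have key : ∀ i j, conj (G i j) = μ * G i j := by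
    intro i j
    rw [hμ, div_mul_eq_mul_div, eq_div_iff hdet, hd2]
    fin_cases i <;> fin_cases j <;> simp only [Fin.zero_eta, Fin.mk_one, Fin.isValue]
    · linear_combination G 0 0 * f10 + G 1 0 * f00
    · linear_combination G 0 1 * f10 + G 1 1 * f00
    · linear_combination G 1 0 * f01 - G 0 0 * f11
    · linear_combination G 1 1 * f01 - G 0 1 * f11
  obtain ⟨i₀, j₀, he⟩ : ∃ i j, G i j ≠ 0 := by
    by_contra hcon
    push Not at hcon
    exact hdet (by rw [hd2, hcon, hcon]; simp [hcon])
  have hreal : ∀ i j, G i j = G i₀ j₀ * (((G i j / G i₀ j₀).re : ℝ) : ℂ) := by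
    intro i j
    have h1 : conj (G i j / G i₀ j₀) = G i j / G i₀ j₀ := by
      have hμ0 : μ ≠ 0 := div_ne_zero (Complex.ofReal_ne_zero.mpr hc) hdet
      rw [map_div₀, key, key]
      field_simp
    rw [Complex.conj_eq_iff_re.mp h1]
    field_simp
  set R : Matrix (Fin 2) (Fin 2) ℝ := fun i j => (G i j / G i₀ j₀).re
  have hRdet : R.det ≠ 0 := by
    intro h0
    apply hdet
    rw [hd2, hreal 0 0, hreal 1 1, hreal 0 1, hreal 1 0]
    rw [Matrix.det_fin_two] at h0
    have h0' : ((R 0 0 * R 1 1 - R 0 1 * R 1 0 : ℝ) : ℂ) = 0 := by rw [h0]; simp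
    simp only [R] at h0'
    push_cast at h0'
    linear_combination (G i₀ j₀) ^ 2 * h0'
  exact ⟨G i₀ j₀, Matrix.GeneralLinearGroup.mkOfDetNeZero R hRdet, Matrix.ext fun i j => hreal i j⟩

/-- Every form of positive index is a translate of a multiple of the real plane. -/
theorem exists_isPlaneGL (x : HermVec) (hx : 0 < x.Q) : ∃ g, IsPlaneGL g x := by
  by_cases hd : x.d = 0
  · have hb : x.b ≠ 0 := fun hb => by simp [Q, hd, hb] at hx
    set w : ℂ := (x.a : ℂ) * x.b / (2 * (Complex.normSq x.b : ℂ)) with hw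
    let g : GL (Fin 2) ℂ := Matrix.GeneralLinearGroup.mkOfDetNeZero
      !![-Complex.I * x.b, w; 0, 1] (by simp [hb])
    refine ⟨g, 1, one_ne_zero, ?_⟩
    rw [one_real_smul]
    apply toHerm_injective
    rw [toHerm_smul]
    have hwe : w * conj x.b + conj w * x.b = x.a := by
      have hn : (Complex.normSq x.b : ℂ) ≠ 0 := by
        exact_mod_cast (Complex.normSq_pos.mpr hb).ne'
      simp only [hw, map_div₀, map_mul, Complex.conj_ofReal, map_ofNat]
      field_simp
      rw [← Complex.mul_conj]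
      ring
    ext i j
    fin_cases i <;> fin_cases j <;>
      simp [g, Matrix.GeneralLinearGroup.mkOfDetNeZero, toHerm, realPlaneVec, Matrix.mul_apply,
        Fin.sum_univ_two, hd]
    · linear_combination hwe - (w * conj x.b + conj w * x.b) * Complex.I_sq
    all_goals first
      | linear_combination -x.b * Complex.I_sq
      | linear_combination -(conj x.b) * Complex.I_sq
  · set w : ℂ := x.b / (x.d : ℂ) with hw
    set s : ℝ := Real.sqrt x.Q with hs
    have hs0 : 0 < s := Real.sqrt_pos.mpr hx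
    have hs2 : s ^ 2 = x.Q := Real.sq_sqrt hx.le
    let t : GL (Fin 2) ℂ := Matrix.GeneralLinearGroup.mkOfDetNeZero !![1, w; 0, 1] (by simp)
    let D : GL (Fin 2) ℂ := Matrix.GeneralLinearGroup.mkOfDetNeZero
      !![(s : ℂ), 0; 0, (x.d : ℂ)] (by simp [hs0.ne', hd])
    let k : GL (Fin 2) ℂ := Matrix.GeneralLinearGroup.mkOfDetNeZero
      !![1, Complex.I; 1, -Complex.I] (by simp [Complex.ext_iff]; norm_num)
    refine ⟨t * (D * k), -2 * x.d, mul_ne_zero (by norm_num) hd, ?_⟩
    have hk : k • realPlaneVec = ⟨2, 0, -2⟩ := by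
      apply toHerm_injective
      rw [toHerm_smul]
      ext i j
      fin_cases i <;> fin_cases j <;>
        simp [k, Matrix.GeneralLinearGroup.mkOfDetNeZero, toHerm, realPlaneVec, Matrix.mul_apply,
          Fin.sum_univ_two] <;> (first
          | linear_combination (-2 : ℂ) * Complex.I_sq
          | linear_combination (2 : ℂ) * Complex.I_sq
          | ring)
    have hD : D • (⟨2, 0, -2⟩ : HermVec) = ⟨2 * x.Q, 0, -2 * x.d ^ 2⟩ := by
      apply toHerm_injective
      rw [toHerm_smul, ← hs2]
      ext i j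
      fin_cases i <;> fin_cases j <;>
        simp [D, Matrix.GeneralLinearGroup.mkOfDetNeZero, toHerm, Matrix.mul_apply,
          Fin.sum_univ_two] <;> ring
    rw [mul_smul, mul_smul, hk, hD]
    apply toHerm_injective
    rw [toHerm_smul, toHerm_real_smul]
    have hd' : (x.d : ℂ) ≠ 0 := by exact_mod_cast hd
    have hQ : (x.Q : ℂ) = x.b * conj x.b - x.a * x.d := by
      rw [Complex.mul_conj, Q]; push_cast; ring
    ext i j
    fin_cases i <;> fin_cases j <;>
      simp [t, Matrix.GeneralLinearGroup.mkOfDetNeZero, toHerm, Matrix.mul_apply,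
        Fin.sum_univ_two, hw, hQ, map_div₀] <;> field_simp
    ring

open Classical in
/-- The invariant measure on the plane of a form of positive index. -/
def planeMeasure (x : HermVec) : Measure H3 :=
  if h : ∃ g, IsPlaneGL g x then
    (volume : Measure UpperHalfPlane).map (fun t => h.choose • planeEmb t) else 0

theorem measurable_planeMap (g : GL (Fin 2) ℂ) :
    Measurable fun t : UpperHalfPlane => g • planeEmb t :=
  ((H3.continuous_smul_gl g).comp continuous_planeEmb).measurable

theorem planeMeasure_eq {x : HermVec} {g : GL (Fin 2) ℂ} (hg : IsPlaneGL g x) :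
    planeMeasure x = (volume : Measure UpperHalfPlane).map (fun t => g • planeEmb t) := by
  rw [planeMeasure, dif_pos ⟨g, hg⟩]
  set g' := Exists.choose (⟨g, hg⟩ : ∃ g, IsPlaneGL g x) with hg'def
  obtain ⟨c', hc', h'⟩ : IsPlaneGL g' x := Exists.choose_spec (⟨g, hg⟩ : ∃ g, IsPlaneGL g x)
  obtain ⟨c, hc, h⟩ := hg
  have hfix : (g⁻¹ * g') • realPlaneVec = (c' / c) • realPlaneVec := by
    rw [mul_smul, inv_smul_eq_iff, smul_real_smul, h, h', real_smul_smul]
    congr 1
    field_simp
  obtain ⟨e, r, hr⟩ := exists_real_of_fix (div_ne_zero hc' hc) hfix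
  have heq : ∀ t : UpperHalfPlane, g' • planeEmb t = g • planeEmb (r • t) := fun t => by
    have hs : ((g⁻¹ * g') * (realGL r)⁻¹) • planeEmb (r • t) = planeEmb (r • t) :=
      H3.smul_of_scalar (c := e) (by
        rw [Units.val_mul, hr, Matrix.smul_mul, Units.mul_inv]) _
    rw [planeEmb_smul, mul_smul, mul_smul, inv_smul_smul, inv_smul_eq_iff] at hs
    rw [planeEmb_smul, hs]
  simp only [heq]
  rw [show (fun t : UpperHalfPlane => g • planeEmb (r • t)) =
    (fun t => g • planeEmb t) ∘ (fun t => r • t) from rfl,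
    ← Measure.map_map (measurable_planeMap g) (measurable_const_smul r),
    (measurePreserving_smul r (volume : Measure UpperHalfPlane)).map_eq]

instance (x : HermVec) : SFinite (planeMeasure x) := by
  unfold planeMeasure; split_ifs <;> infer_instance

theorem planeMeasure_smul (γ : GL (Fin 2) ℂ) {x : HermVec} (hx : 0 < x.Q) :
    (planeMeasure x).map (fun q => γ • q) = planeMeasure (γ • x) := by
  obtain ⟨g, c, hc, hg⟩ := exists_isPlaneGL x hx
  have hg' : IsPlaneGL (γ * g) (γ • x) := ⟨c, hc, by rw [mul_smul, hg, smul_real_smul]⟩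
  rw [planeMeasure_eq ⟨c, hc, hg⟩, planeMeasure_eq hg',
    Measure.map_map (H3.continuous_smul_gl γ).measurable (measurable_planeMap g)]
  simp only [Function.comp_def, mul_smul]

theorem map_coshDist_planeMeasure {x : HermVec} (hx : 0 < x.Q) (p : H3) :
    (planeMeasure x).map (fun q => H3.coshDist p q) = ENNReal.ofReal (2 * Real.pi) • Measure.map
      (fun u => Real.sqrt (1 + x.T p ^ 2 / (4 * x.Q)) * u) (volume.restrict (Ioi (1 : ℝ))) := by
  obtain ⟨g, c, hc, hg⟩ := exists_isPlaneGL x hx
  set p' := g⁻¹ • p with hp'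
  have hT : (p'.z.im / p'.y) ^ 2 = x.T p ^ 2 / (4 * x.Q) := by
    have hT1 := T_smul g realPlaneVec p'
    rw [hp', smul_inv_smul, hg, T_real_smul, ← hp', realPlaneVec_T] at hT1
    have hQ1 := Q_smul g realPlaneVec
    rw [hg, Q_real_smul, realPlaneVec_Q, mul_one, Complex.normSq_eq_norm_sq] at hQ1
    set n := ‖(g : Matrix (Fin 2) (Fin 2) ℂ).det‖
    have hn : n ≠ 0 := fun h0 => by
      rw [h0, zero_pow two_ne_zero, mul_eq_zero] at hQ1
      rcases hQ1 with h1 | h1
      · exact hc (pow_eq_zero_iff two_ne_zero |>.mp h1)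
      · exact hx.ne' h1
    have e : x.T p = n * (-2 * p'.z.im / p'.y) / c := by rw [← hT1]; field_simp
    have eq : x.Q = n ^ 2 / c ^ 2 := by rw [← hQ1]; field_simp
    rw [e, eq]
    have := p'.y_pos.ne'
    field_simp
    ring
  rw [planeMeasure_eq ⟨c, hc, hg⟩, Measure.map_map
    (H3.continuous_coshDist_right p).measurable (measurable_planeMap g), ← hT,
    ← map_coshDist_planeEmb p']
  congr 1
  funext t
  rw [Function.comp_apply, hp', ← H3.coshDist_smul g⁻¹ p, inv_smul_smul]

/-- A radial kernel integrated over the plane of a form. -/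
theorem integral_planeMeasure {x : HermVec} (hx : 0 < x.Q) (p : H3) {k : ℝ → ℂ}
    (hk : Continuous k) :
    ∫ q, k (H3.coshDist p q) ∂planeMeasure x =
      planeTransform k (Real.sqrt (1 + x.T p ^ 2 / (4 * x.Q))) := by
  rw [← integral_map (H3.continuous_coshDist_right p).measurable.aemeasurable
    hk.aestronglyMeasurable, map_coshDist_planeMeasure hx, integral_smul_measure,
    integral_map (by fun_prop) hk.aestronglyMeasurable, planeTransform,
    ENNReal.toReal_ofReal (by positivity), Complex.real_smul]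
  push_cast
  rfl

theorem lintegral_planeMeasure {x : HermVec} (hx : 0 < x.Q) (p : H3) {k : ℝ → ℝ≥0∞}
    (hk : Measurable k) :
    ∫⁻ q, k (H3.coshDist p q) ∂planeMeasure x = ENNReal.ofReal (2 * Real.pi) *
      ∫⁻ u in Ioi (1 : ℝ), k (Real.sqrt (1 + x.T p ^ 2 / (4 * x.Q)) * u) := by
  rw [← lintegral_map hk (H3.continuous_coshDist_right p).measurable,
    map_coshDist_planeMeasure hx, lintegral_smul_measure, lintegral_map hk (by fun_prop),
    smul_eq_mul]

/-! ### Points -/

open Classical in
/-- The point of a form of negative index. -/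
def pointOf (x : HermVec) : H3 :=
  if h : x.Q < 0 then
    ⟨x.b / (x.d : ℂ), Real.sqrt (-x.Q) / |x.d|, by
      have hd : x.d ≠ 0 := fun hd => by
        rw [Q, hd, mul_zero, sub_zero] at h
        exact absurd (Complex.normSq_nonneg x.b) (not_le.mpr h)
      exact div_pos (Real.sqrt_pos.mpr (neg_pos.mpr h)) (abs_pos.mpr hd)⟩
  else H3.base

/-- For negative index the pairing measures the distance to the point of the form. -/
theorem T_sq_eq_coshDist {x : HermVec} (hx : x.Q < 0) (p : H3) :
    x.T p ^ 2 = -(4 * x.Q) * H3.coshDist (pointOf x) p ^ 2 := by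
  have hd : x.d ≠ 0 := fun hd => by
    rw [Q, hd, mul_zero, sub_zero] at hx
    exact absurd (Complex.normSq_nonneg x.b) (not_le.mpr hx)
  set s := Real.sqrt (-x.Q) with hs
  have hs0 : 0 < s := Real.sqrt_pos.mpr (neg_pos.mpr hx)
  have hs2 : s ^ 2 = -x.Q := Real.sq_sqrt (neg_pos.mpr hx).le
  have hy := p.y_pos.ne'
  have ha : x.a = (Complex.normSq x.b + s ^ 2) / x.d := by
    rw [hs2, Q]; field_simp; ring
  rw [show -(4 * x.Q) = 4 * s ^ 2 by rw [hs2]; ring, pointOf, dif_pos hx, T, ha]
  simp only [H3.coshDist, Complex.normSq_apply, Complex.sub_re, Complex.sub_im,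
    Complex.div_ofReal_re, Complex.div_ofReal_im, Complex.mul_re, Complex.conj_re,
    Complex.conj_im, ← hs]
  rcases abs_choice x.d with h | h <;> rw [h] <;> field_simp <;> ring

theorem eq_of_coshDist_eq_one {p q : H3} (h : H3.coshDist p q = 1) : p = q := by
  have hp := p.y_pos
  have hq := q.y_pos
  rw [H3.coshDist, div_eq_one_iff_eq (by positivity)] at h
  have h1 := Complex.normSq_nonneg (p.z - q.z)
  have h2 : (p.y - q.y) ^ 2 = 0 := by nlinarith [sq_nonneg (p.y - q.y)]
  have h3 : Complex.normSq (p.z - q.z) = 0 := by nlinarith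
  exact H3.ext (sub_eq_zero.mp (Complex.normSq_eq_zero.mp h3))
    (sub_eq_zero.mp (pow_eq_zero_iff two_ne_zero |>.mp h2))

/-- The point of a form is equivariant. -/
theorem pointOf_smul {γ : GL (Fin 2) ℂ} (hγ : ‖(γ : Matrix (Fin 2) (Fin 2) ℂ).det‖ = 1)
    {x : HermVec} (hx : x.Q < 0) : γ • pointOf x = pointOf (γ • x) := by
  have hQ : (γ • x).Q = x.Q := by
    rw [Q_smul, Complex.normSq_eq_norm_sq, hγ, one_pow, one_mul]
  have h1 := T_sq_eq_coshDist (hQ.trans_lt hx) (γ • pointOf x)
  rw [T_smul_of_norm_one hγ, T_sq_eq_coshDist hx, hQ, H3.coshDist_self, one_pow] at h1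
  have h2 := mul_left_cancel₀ (neg_ne_zero.mpr (mul_ne_zero (by norm_num) hx.ne)) h1
  exact (eq_of_coshDist_eq_one ((sq_eq_one_iff.mp h2.symm).resolve_right fun h => by
    linarith [H3.one_le_coshDist (pointOf (γ • x)) (γ • pointOf x)])).symm

end HermVec

end Fermat.Agent.ResidualThree
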