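import Mathlib

/-!
# Integrals over a quotient by a countable group, by means of weight functions

A weight of total `c` for the group `G` is a nonnegative function whose sum over each orbit
(counted with the elements of `G`) is `c`.
-/

noncomputable section

open MeasureTheory
open scoped ENNReal

namespace Fermat.Agent.ResidualThree

variable {G α : Type*} [Group G] [MeasurableSpace α] [MulAction G α]

/-- A weight of total `c`. -/
structure IsOrbitWeight (G : Type*) {α : Type*} [Group G] [MeasurableSpace α] [MulAction G α]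
    (w : α → ℝ≥0∞) (c : ℝ≥0∞) : Prop where
  measurable : Measurable w
  sum_eq : ∀ x, ∑' γ : G, w (γ • x) = c

/-- The weight attached to a nonnegative function with finite nonzero orbit sums. -/
def orbitNormalize (G : Type*) {α : Type*} [Group G] [MulAction G α] (u : α → ℝ≥0∞) (x : α) :
    ℝ≥0∞ :=
  u x / ∑' γ : G, u (γ • x)

/-- Normalising a function by its orbit sums gives a weight of total one. -/
theorem isOrbitWeight_normalize [Countable G] [MeasurableConstSMul G α] {u : α → ℝ≥0∞}
    (hu : Measurable u) (h0 : ∀ x, ∑' γ : G, u (γ • x) ≠ 0) (htop : ∀ x, ∑' γ : G, u (γ • x) ≠ ∞) :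
    IsOrbitWeight G (orbitNormalize G u) 1 := by
  refine ⟨hu.div (Measurable.tsum fun γ => hu.comp (measurable_const_smul γ)), fun x => ?_⟩
  have key : ∀ γ : G, ∑' δ : G, u (δ • γ • x) = ∑' δ : G, u (δ • x) := fun γ => by
    simp only [smul_smul]
    exact (Equiv.mulRight γ).tsum_eq (fun δ => u (δ • x))
  simp only [orbitNormalize, key, div_eq_mul_inv, ENNReal.tsum_mul_right]
  exact ENNReal.mul_inv_cancel (h0 x) (htop x)

variable [Countable G] [MeasurableConstSMul G α] {μ : Measure α} [SMulInvariantMeasure G α μ]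

omit [Countable G] in
theorem lintegral_comp_smul (γ : G) {φ : α → ℝ≥0∞} (hφ : Measurable φ) :
    ∫⁻ x, φ (γ • x) ∂μ = ∫⁻ x, φ x ∂μ :=
  (measurePreserving_smul γ μ).lintegral_comp hφ

/-- Unfolding: an invariant integral does not depend on the weight. -/
theorem IsOrbitWeight.lintegral_comm {w w' : α → ℝ≥0∞} {c c' : ℝ≥0∞}
    (hw : IsOrbitWeight G w c) (hw' : IsOrbitWeight G w' c') {φ : α → ℝ≥0∞} (hφ : Measurable φ)
    (hinv : ∀ (γ : G) (x : α), φ (γ • x) = φ x) :
    c' * ∫⁻ x, w x * φ x ∂μ = c * ∫⁻ x, w' x * φ x ∂μ := by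
  have key : ∀ {a b : α → ℝ≥0∞} {e : ℝ≥0∞}, Measurable a → IsOrbitWeight G b e →
      e * ∫⁻ x, a x * φ x ∂μ = ∑' γ : G, ∫⁻ x, a x * φ x * b (γ • x) ∂μ := by
    intro a b e ha hb
    rw [← lintegral_tsum (f := fun γ x => a x * φ x * b (γ • x)) fun γ => (((ha.mul hφ).mul
        (hb.measurable.comp (measurable_const_smul γ))).aemeasurable),
      ← lintegral_const_mul e (f := fun x => a x * φ x) (ha.mul hφ)]
    refine lintegral_congr fun x => ?_
    rw [ENNReal.tsum_mul_left, hb.sum_eq, mul_comm]
  rw [key hw.measurable hw', key hw'.measurable hw, ← (Equiv.inv G).tsum_eq]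
  refine tsum_congr fun γ => ?_
  simp only [Equiv.inv_apply]
  conv_rhs => rw [← lintegral_comp_smul γ⁻¹ (φ := fun x => w' x * φ x * w (γ • x))
    ((hw'.measurable.mul hφ).mul (hw.measurable.comp (measurable_const_smul γ)))]
  refine lintegral_congr fun x => ?_
  rw [smul_inv_smul, hinv]
  ring

theorem IsOrbitWeight.integrable_iff {w w' : α → ℝ≥0∞}
    (hw : IsOrbitWeight G w 1) (hw' : IsOrbitWeight G w' 1) {f : α → ℂ} (hf : Measurable f)
    (hinv : ∀ (γ : G) (x : α), f (γ • x) = f x) :
    Integrable f (μ.withDensity w) ↔ Integrable f (μ.withDensity w') := by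
  have h := hw.lintegral_comm hw' (μ := μ) (φ := fun x => ‖f x‖ₑ) hf.enorm
    fun γ x => by rw [hinv]
  simp only [one_mul] at h
  constructor <;> refine fun hi => ⟨hf.aestronglyMeasurable, ?_⟩ <;> have h2 := hi.2
  · rw [hasFiniteIntegral_iff_enorm, lintegral_withDensity_eq_lintegral_mul μ hw'.measurable
      hf.enorm]
    rw [hasFiniteIntegral_iff_enorm, lintegral_withDensity_eq_lintegral_mul μ hw.measurable
      hf.enorm] at h2
    simpa only [Pi.mul_apply, ← h] using h2
  · rw [hasFiniteIntegral_iff_enorm, lintegral_withDensity_eq_lintegral_mul μ hw.measurable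
      hf.enorm]
    rw [hasFiniteIntegral_iff_enorm, lintegral_withDensity_eq_lintegral_mul μ hw'.measurable
      hf.enorm] at h2
    simpa only [Pi.mul_apply, h] using h2

theorem IsOrbitWeight.integral_real_comm {w w' : α → ℝ≥0∞} {c c' : ℝ≥0∞}
    (hw : IsOrbitWeight G w c) (hw' : IsOrbitWeight G w' c')
    {f : α → ℝ} (hf : Measurable f) (hinv : ∀ (γ : G) (x : α), f (γ • x) = f x)
    (hi : Integrable f (μ.withDensity w)) (hi' : Integrable f (μ.withDensity w')) :
    c'.toReal * ∫ x, f x ∂μ.withDensity w = c.toReal * ∫ x, f x ∂μ.withDensity w' := by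
  rw [integral_eq_lintegral_pos_part_sub_lintegral_neg_part hi,
    integral_eq_lintegral_pos_part_sub_lintegral_neg_part hi', mul_sub, mul_sub,
    ← ENNReal.toReal_mul, ← ENNReal.toReal_mul, ← ENNReal.toReal_mul, ← ENNReal.toReal_mul]
  have hp : Measurable fun x => ENNReal.ofReal (f x) := hf.ennreal_ofReal
  have hn : Measurable fun x => ENNReal.ofReal (-f x) := hf.neg.ennreal_ofReal
  simp only [lintegral_withDensity_eq_lintegral_mul μ hw.measurable hp,
    lintegral_withDensity_eq_lintegral_mul μ hw'.measurable hp,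
    lintegral_withDensity_eq_lintegral_mul μ hw.measurable hn,
    lintegral_withDensity_eq_lintegral_mul μ hw'.measurable hn, Pi.mul_apply]
  rw [hw.lintegral_comm hw' hp (fun γ x => by rw [hinv]),
    hw.lintegral_comm hw' hn (fun γ x => by rw [hinv])]

/-- Unfolding for complex invariant functions. -/
theorem IsOrbitWeight.integral_comm {w w' : α → ℝ≥0∞} {c c' : ℝ≥0∞}
    (hw : IsOrbitWeight G w c) (hw' : IsOrbitWeight G w' c')
    {f : α → ℂ} (hf : Measurable f) (hinv : ∀ (γ : G) (x : α), f (γ • x) = f x)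
    (hi : Integrable f (μ.withDensity w)) (hi' : Integrable f (μ.withDensity w')) :
    (c'.toReal : ℂ) * ∫ x, f x ∂μ.withDensity w = (c.toReal : ℂ) * ∫ x, f x ∂μ.withDensity w' := by
  have hr := hw.integral_real_comm hw' (μ := μ) (f := fun x => (f x).re)
    (Complex.measurable_re.comp hf) (fun γ x => by rw [hinv]) hi.re hi'.re
  have him := hw.integral_real_comm hw' (μ := μ) (f := fun x => (f x).im)
    (Complex.measurable_im.comp hf) (fun γ x => by rw [hinv]) hi.im hi'.im
  apply Complex.ext
  · simp only [Complex.mul_re, Complex.ofReal_re, Complex.ofReal_im, zero_mul, sub_zero]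
    have e1 : ∫ x, (f x).re ∂μ.withDensity w = (∫ x, f x ∂μ.withDensity w).re := integral_re hi
    have e2 : ∫ x, (f x).re ∂μ.withDensity w' = (∫ x, f x ∂μ.withDensity w').re := integral_re hi'
    rw [← e1, ← e2]
    exact hr
  · simp only [Complex.mul_im, Complex.ofReal_re, Complex.ofReal_im, zero_mul, add_zero]
    have e1 : ∫ x, (f x).im ∂μ.withDensity w = (∫ x, f x ∂μ.withDensity w).im := integral_im hi
    have e2 : ∫ x, (f x).im ∂μ.withDensity w' = (∫ x, f x ∂μ.withDensity w').im := integral_im hi'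
    rw [← e1, ← e2]
    exact him

omit [Countable G] [MeasurableConstSMul G α] in
theorem IsOrbitWeight.le {w : α → ℝ≥0∞} {c : ℝ≥0∞} (hw : IsOrbitWeight G w c) (x : α) :
    w x ≤ c := by
  rw [← hw.sum_eq x]
  simpa using ENNReal.le_tsum (f := fun γ : G => w (γ • x)) 1

omit [Countable G] [MeasurableConstSMul G α] in
/-- Summing a weight of a subgroup over the group multiplies its total by the index. -/
theorem IsOrbitWeight.of_subgroup {H : Subgroup G} [Finite (G ⧸ H)] {w : α → ℝ≥0∞} {c : ℝ≥0∞}
    (hw : IsOrbitWeight H w c) : IsOrbitWeight G w ((Nat.card (G ⧸ H) : ℝ≥0∞) * c) := by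
  refine ⟨hw.measurable, fun x => ?_⟩
  let e : (G ⧸ H) × H ≃ G :=
    { toFun := fun qh => Quotient.out qh.1 * qh.2
      invFun := fun g => ((g : G ⧸ H), ⟨(Quotient.out (g : G ⧸ H))⁻¹ * g,
        QuotientGroup.eq.mp (QuotientGroup.out_eq' (g : G ⧸ H))⟩)
      left_inv := fun qh => by
        have : ((Quotient.out qh.1 * qh.2 : G) : G ⧸ H) = qh.1 := by
          rw [QuotientGroup.mk_mul_of_mem _ qh.2.2, QuotientGroup.out_eq']
        ext <;> simp [this]
      right_inv := fun g => by simp }
  rw [← (Equiv.inv G).tsum_eq]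
  simp only [Equiv.inv_apply]
  rw [← e.tsum_eq, ENNReal.tsum_prod']
  have key : ∀ q : G ⧸ H, ∑' h : H, w ((e (q, h))⁻¹ • x) = c := fun q => by
    simp only [e, Equiv.coe_fn_mk, mul_inv_rev, mul_smul]
    rw [← (Equiv.inv H).tsum_eq]
    simpa [Subgroup.smul_def] using hw.sum_eq ((Quotient.out q)⁻¹ • x)
  have := Fintype.ofFinite (G ⧸ H)
  rw [tsum_congr key, tsum_fintype, Finset.sum_const, Finset.card_univ, nsmul_eq_mul,
    Nat.card_eq_fintype_card]

end Fermat.Agent.ResidualThree
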