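import Fermat.Agent.ResidualThree.Spherical.Vol
import Fermat.Agent.ResidualThree.ThetaLift.Eis
import Fermat.Agent.ResidualThree.ThetaLift.Weights

/-!
# The Bianchi group of `ℤ[ω]`: reduction theory and weights

The integral group of `ℤ[ω]`, its principal congruence subgroups, a Siegel set meeting every
orbit with finite multiplicity, and the weight `weightK D` summing to one on each orbit of level
`D`, which replaces a fundamental domain.
-/

noncomputable section

open Matrix MeasureTheory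
open scoped ComplexConjugate ENNReal

namespace Fermat.Agent.ResidualThree

/-- Entries in `ℤ[ω]` and determinant of norm one. -/
def IsIntegralK (g : GL (Fin 2) ℂ) : Prop :=
  (∃ e : Fin 2 → Fin 2 → Eis3, ∀ i j, (g : Matrix (Fin 2) (Fin 2) ℂ) i j = (e i j).toC) ∧
    ‖(g : Matrix (Fin 2) (Fin 2) ℂ).det‖ = 1

theorem IsIntegralK.one : IsIntegralK 1 := by
  refine ⟨⟨fun i j => if i = j then (1, 0) else (0, 0), fun i j => ?_⟩, by simp⟩
  by_cases h : i = j <;> simp [h, Eis3.toC_one, Eis3.toC_zero]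

theorem IsIntegralK.mul {g g' : GL (Fin 2) ℂ} (hg : IsIntegralK g) (hg' : IsIntegralK g') :
    IsIntegralK (g * g') := by
  obtain ⟨⟨e, he⟩, hd⟩ := hg
  obtain ⟨⟨e', he'⟩, hd'⟩ := hg'
  refine ⟨⟨fun i j => Eis3.mul (e i 0) (e' 0 j) + Eis3.mul (e i 1) (e' 1 j), fun i j => ?_⟩, ?_⟩
  · rw [Units.val_mul, Matrix.mul_apply, Fin.sum_univ_two, he, he, he', he', Eis3.toC_add,
      Eis3.toC_mul, Eis3.toC_mul]
  · rw [Units.val_mul, Matrix.det_mul, norm_mul, hd, hd', one_mul]

theorem IsIntegralK.det_eq {g : GL (Fin 2) ℂ} (hg : IsIntegralK g) :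
    ∃ d : Eis3, d.norm = 1 ∧ (g : Matrix (Fin 2) (Fin 2) ℂ).det = d.toC := by
  obtain ⟨⟨e, he⟩, hd⟩ := hg
  refine ⟨Eis3.mul (e 0 0) (e 1 1) - Eis3.mul (e 0 1) (e 1 0), ?_, ?_⟩
  all_goals
    have h : (g : Matrix (Fin 2) (Fin 2) ℂ).det =
        (Eis3.mul (e 0 0) (e 1 1) - Eis3.mul (e 0 1) (e 1 0)).toC := by
      rw [Matrix.det_fin_two, Eis3.toC_sub, Eis3.toC_mul, Eis3.toC_mul, he, he, he, he]
  · have h' : ((Eis3.mul (e 0 0) (e 1 1) - Eis3.mul (e 0 1) (e 1 0)).norm : ℝ) = ((1 : ℕ) : ℝ) := by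
      rw [← Eis3.normSq_toC, ← h, Complex.normSq_eq_norm_sq, hd, one_pow, Nat.cast_one]
    exact_mod_cast h'
  · exact h

theorem coe_inv_eq (g : GL (Fin 2) ℂ) :
    ((g⁻¹ : GL (Fin 2) ℂ) : Matrix (Fin 2) (Fin 2) ℂ) =
      ((g : Matrix (Fin 2) (Fin 2) ℂ).det)⁻¹ • !![(g : Matrix (Fin 2) (Fin 2) ℂ) 1 1,
        -(g : Matrix (Fin 2) (Fin 2) ℂ) 0 1; -(g : Matrix (Fin 2) (Fin 2) ℂ) 1 0,
        (g : Matrix (Fin 2) (Fin 2) ℂ) 0 0] := by
  rw [Matrix.coe_units_inv, Matrix.inv_def, Matrix.adjugate_fin_two, Ring.inverse_eq_inv']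

/-- The entries of the inverse. -/
theorem IsIntegralK.inv_entries {g : GL (Fin 2) ℂ} (hg : IsIntegralK g)
    {e : Fin 2 → Fin 2 → Eis3} (he : ∀ i j, (g : Matrix (Fin 2) (Fin 2) ℂ) i j = (e i j).toC) :
    ∃ u : Eis3, u.norm = 1 ∧ ∀ i j, ((g⁻¹ : GL (Fin 2) ℂ) : Matrix (Fin 2) (Fin 2) ℂ) i j =
      (Eis3.mul u (![![e 1 1, -e 0 1], ![-e 1 0, e 0 0]] i j)).toC := by
  obtain ⟨d, hd, hdet⟩ := hg.det_eq
  refine ⟨Eis3.bar d, by rw [Eis3.norm_bar, hd], fun i j => ?_⟩
  have hinv : d.toC⁻¹ = (Eis3.bar d).toC := inv_eq_of_mul_eq_one_right (by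
    rw [← Eis3.toC_mul, Eis3.exists_inv_of_norm_one hd, Eis3.toC_one])
  rw [coe_inv_eq, hdet, hinv]
  fin_cases i <;> fin_cases j <;>
    simp [he, Eis3.toC_mul, Eis3.toC_neg]

theorem IsIntegralK.inv {g : GL (Fin 2) ℂ} (hg : IsIntegralK g) : IsIntegralK g⁻¹ := by
  obtain ⟨e, he⟩ := hg.1
  obtain ⟨u, -, hu⟩ := hg.inv_entries he
  refine ⟨⟨_, hu⟩, ?_⟩
  rw [Matrix.coe_units_inv, Matrix.det_nonsing_inv, Ring.inverse_eq_inv', norm_inv, hg.2, inv_one]

/-- `GL₂(ℤ[ω])`. -/
def integralK : Subgroup (GL (Fin 2) ℂ) where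
  carrier := {g | IsIntegralK g}
  one_mem' := IsIntegralK.one
  mul_mem' := IsIntegralK.mul
  inv_mem' := IsIntegralK.inv

/-- The chosen entries of an integral matrix. -/
def entry (g : GL (Fin 2) ℂ) (i j : Fin 2) : Eis3 :=
  Function.invFun Eis3.toC ((g : Matrix (Fin 2) (Fin 2) ℂ) i j)

theorem toC_entry {g : GL (Fin 2) ℂ} (hg : g ∈ integralK) (i j : Fin 2) :
    (entry g i j).toC = (g : Matrix (Fin 2) (Fin 2) ℂ) i j := by
  obtain ⟨e, he⟩ := hg.1
  exact Function.invFun_eq ⟨e i j, (he i j).symm⟩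

theorem entry_eq {g : GL (Fin 2) ℂ} {i j : Fin 2} {x : Eis3}
    (h : (g : Matrix (Fin 2) (Fin 2) ℂ) i j = x.toC) : entry g i j = x := by
  rw [entry, h]
  exact Function.leftInverse_invFun Eis3.toC_injective x

attribute [irreducible] entry

theorem entry_injOn : Set.InjOn entry (integralK : Set (GL (Fin 2) ℂ)) := fun g hg g' hg' h => by
  refine Units.ext (Matrix.ext fun i j => ?_)
  rw [← toC_entry hg, ← toC_entry hg', h]

instance : Countable integralK :=
  Function.Injective.countable (f := fun g : integralK => entry (g : GL (Fin 2) ℂ))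
    fun g g' h => Subtype.ext (entry_injOn g.2 g'.2 h)

/-- Reduction of an Eisenstein integer modulo `D`. -/
def Eis3.red (D : ℕ) (x : Eis3) : ZMod D × ZMod D := ((x.1 : ZMod D), (x.2 : ZMod D))

/-- The principal congruence subgroup of level `D`. -/
def principalK (D : ℕ) : Subgroup (GL (Fin 2) ℂ) where
  carrier := {g | g ∈ integralK ∧ ∀ i j, (entry g i j).red D = if i = j then (1, 0) else (0, 0)}
  one_mem' := ⟨integralK.one_mem, fun i j => by
    rw [entry_eq (x := if i = j then (1, 0) else (0, 0))]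
    · split_ifs <;> simp [Eis3.red]
    · split_ifs with h <;> simp [h, Eis3.toC_one, Eis3.toC_zero]⟩
  mul_mem' := fun {g g'} hg hg' => ⟨integralK.mul_mem hg.1 hg'.1, fun i j => by
    rw [entry_eq (x := Eis3.mul (entry g i 0) (entry g' 0 j) +
      Eis3.mul (entry g i 1) (entry g' 1 j))]
    · have h1 := hg.2 i 0; have h2 := hg.2 i 1
      have h3 := hg'.2 0 j; have h4 := hg'.2 1 j
      fin_cases i <;> fin_cases j <;> simp [Eis3.red, Eis3.mul] at * <;> simp [h1, h2, h3, h4]
    · rw [Units.val_mul, Matrix.mul_apply, Fin.sum_univ_two, Eis3.toC_add, Eis3.toC_mul,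
        Eis3.toC_mul, toC_entry hg.1, toC_entry hg.1, toC_entry hg'.1, toC_entry hg'.1]⟩
  inv_mem' := fun {g} hg => ⟨integralK.inv_mem hg.1, fun i j => by
    obtain ⟨u, -, hu⟩ := IsIntegralK.inv_entries hg.1 (fun i j => (toC_entry hg.1 i j).symm)
    have key : ∀ i j, (entry g⁻¹ i j).red D =
        (Eis3.mul u (![![entry g 1 1, -entry g 0 1], ![-entry g 1 0, entry g 0 0]] i j)).red D :=
      fun i j => by rw [entry_eq (hu i j)]
    have h00 := hg.2 0 0; have h01 := hg.2 0 1; have h10 := hg.2 1 0; have h11 := hg.2 1 1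
    have hu0 : u.red D = (1, 0) := by
      have h1 : (g⁻¹ * g : GL (Fin 2) ℂ) = 1 := inv_mul_cancel g
      have h2 := congrArg (fun x : GL (Fin 2) ℂ => (x : Matrix (Fin 2) (Fin 2) ℂ) 0 0) h1
      simp only [Units.val_mul, Matrix.mul_apply, Fin.sum_univ_two, Units.val_one,
        Matrix.one_apply_eq, hu, ← toC_entry hg.1, ← Eis3.toC_mul, ← Eis3.toC_add,
        ← Eis3.toC_one] at h2
      have h3 := congrArg (Eis3.red D) (Eis3.toC_injective h2)
      simp [Eis3.red, Eis3.mul] at h00 h01 h10 h11 h3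
      simp [h00, h10, h11, h01] at h3
      exact Prod.ext h3.1 h3.2
    rw [key]
    simp [Eis3.red] at hu0 h00 h01 h10 h11
    fin_cases i <;> fin_cases j <;> simp [Eis3.red, Eis3.mul, hu0, h00, h01, h10, h11]⟩

theorem principalK_le (D : ℕ) : principalK D ≤ integralK := fun _ h => h.1

instance (D : ℕ) : Countable (principalK D) :=
  (Subgroup.inclusion_injective (principalK_le D)).countable

theorem isBianchiGamma0_of_mem {n : ℕ} {g : GL (Fin 2) ℂ} (hg : g ∈ integralK)
    (h : Eis3.dvd ((n : ℤ), 0) (entry g 1 0)) : IsBianchiGamma0 n g :=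
  ⟨entry g, fun i j => (toC_entry hg i j).symm, hg.2, h⟩

theorem isBianchiGamma0_of_principal {n D : ℕ} (hnD : n ∣ D) {g : GL (Fin 2) ℂ}
    (hg : g ∈ principalK D) : IsBianchiGamma0 n g := by
  refine isBianchiGamma0_of_mem hg.1 ?_
  have h := hg.2 1 0
  simp [Eis3.red] at h
  obtain ⟨⟨a, ha⟩, ⟨b, hb⟩⟩ := And.intro ((ZMod.intCast_zmod_eq_zero_iff_dvd _ D).mp h.1)
    ((ZMod.intCast_zmod_eq_zero_iff_dvd _ D).mp h.2)
  obtain ⟨k, rfl⟩ := hnD
  refine ⟨((k : ℤ) * a, (k : ℤ) * b), ?_⟩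
  simp only [Eis3.mul]
  refine Prod.ext ?_ ?_ <;> simp [ha, hb] <;> ring

/-- The principal congruence subgroups have finite index. -/
theorem finite_quotient_principal (D : ℕ) [NeZero D] :
    Finite (integralK ⧸ (principalK D).subgroupOf integralK) := by
  refine Finite.of_injective
    (β := Fin 2 → Fin 2 → ZMod D × ZMod D)
    (fun q => fun i j => (entry (Quotient.out q : integralK) i j).red D) fun q q' h => ?_
  rw [← QuotientGroup.out_eq' q, ← QuotientGroup.out_eq' q']
  refine QuotientGroup.eq.mpr (Subgroup.mem_subgroupOf.mpr ?_)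
  set a : integralK := Quotient.out q
  set b : integralK := Quotient.out q'
  refine ⟨(a⁻¹ * b).2, fun i j => ?_⟩
  obtain ⟨u, -, hu⟩ := IsIntegralK.inv_entries a.2 (fun i j => (toC_entry a.2 i j).symm)
  have hinv : ((a⁻¹ * a : integralK) : GL (Fin 2) ℂ) = 1 := by simp
  have e1 : ∀ (c : integralK) (i j : Fin 2), entry (((a⁻¹ * c : integralK) : GL (Fin 2) ℂ)) i j =
      Eis3.mul (Eis3.mul u (![![entry a 1 1, -entry a 0 1], ![-entry a 1 0, entry a 0 0]] i 0))
        (entry c 0 j) +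
      Eis3.mul (Eis3.mul u (![![entry a 1 1, -entry a 0 1], ![-entry a 1 0, entry a 0 0]] i 1))
        (entry c 1 j) := fun c i j => entry_eq (by
    rw [Subgroup.coe_mul, Units.val_mul, Matrix.mul_apply, Fin.sum_univ_two, Subgroup.coe_inv,
      hu, hu, Eis3.toC_add, Eis3.toC_mul _ (entry c 0 j), Eis3.toC_mul _ (entry c 1 j),
      toC_entry c.2, toC_entry c.2])
  have e2 : (entry (((a⁻¹ * b : integralK) : GL (Fin 2) ℂ)) i j).red D =
      (entry (((a⁻¹ * a : integralK) : GL (Fin 2) ℂ)) i j).red D := by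
    rw [e1, e1]
    have h0 : (entry a 0 j).red D = (entry b 0 j).red D := congrFun (congrFun h 0) j
    have h1 : (entry a 1 j).red D = (entry b 1 j).red D := congrFun (congrFun h 1) j
    simp [Eis3.red] at h0 h1
    simp [Eis3.red, Eis3.mul, h0, h1]
  show (entry (((a⁻¹ * b : integralK) : GL (Fin 2) ℂ)) i j).red D = _
  rw [e2, hinv, entry_eq (x := if i = j then (1, 0) else (0, 0))]
  · split_ifs <;> simp [Eis3.red]
  · split_ifs with h <;> simp [h, Eis3.toC_one, Eis3.toC_zero]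

/-! ### Reduction theory -/

/-- The binary form attached to a point. -/
def rowNorm (p : H3) (c d : Eis3) : ℝ :=
  Complex.normSq (c.toC * p.z + d.toC) + Complex.normSq c.toC * p.y ^ 2

theorem finite_norm_le (K : ℝ) : {x : Eis3 | (Eis3.norm x : ℝ) ≤ K}.Finite := by
  obtain ⟨m, hm⟩ := exists_nat_ge K
  refine Set.Finite.subset (((Set.finite_Icc (-(4 * (m : ℤ) + 4)) (4 * m + 4))).prod
    (Set.finite_Icc (-(4 * (m : ℤ) + 4)) (4 * m + 4))) fun x hx => ?_
  have h : (Eis3.norm x : ℤ) ≤ m := by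
    have : (Eis3.norm x : ℝ) ≤ (m : ℝ) := le_trans hx hm
    exact_mod_cast this
  rw [Eis3.norm_cast_eq] at h
  simp only [Set.mem_prod, Set.mem_Icc]
  refine ⟨⟨?_, ?_⟩, ⟨?_, ?_⟩⟩ <;> nlinarith [sq_nonneg (2 * x.1 - x.2), sq_nonneg (2 * x.2 - x.1)]

theorem finite_rowNorm_le (p : H3) (B : ℝ) :
    {cd : Eis3 × Eis3 | rowNorm p cd.1 cd.2 ≤ B}.Finite := by
  have hy := p.y_pos
  refine Set.Finite.subset ((finite_norm_le (B / p.y ^ 2)).prod (finite_norm_le
    (2 * B + 2 * (B / p.y ^ 2) * Complex.normSq p.z))) fun cd hcd => ?_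
  simp only [Set.mem_ofPred_eq, rowNorm] at hcd
  simp only [Set.mem_prod, Set.mem_ofPred_eq, ← Eis3.normSq_toC]
  have h1 := Complex.normSq_nonneg (cd.1.toC * p.z + cd.2.toC)
  have h2 := Complex.normSq_nonneg cd.1.toC
  have h3 := Complex.normSq_nonneg p.z
  have hc : Complex.normSq cd.1.toC ≤ B / p.y ^ 2 := by
    rw [le_div_iff₀ (by positivity)]; nlinarith
  refine ⟨hc, ?_⟩
  have h4 : Complex.normSq cd.2.toC ≤
      2 * Complex.normSq (cd.1.toC * p.z + cd.2.toC) + 2 * Complex.normSq (cd.1.toC * p.z) := by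
    simp only [Complex.normSq_apply, Complex.add_re, Complex.add_im]
    nlinarith [sq_nonneg (2 * (cd.1.toC * p.z).re + cd.2.toC.re),
      sq_nonneg (2 * (cd.1.toC * p.z).im + cd.2.toC.im)]
  rw [Complex.normSq_mul] at h4
  nlinarith [mul_le_mul_of_nonneg_right hc h3]

/-- The Siegel set. -/
def siegelK : Set H3 := {p | Complex.normSq p.z ≤ 3 / 4 ∧ 1 / 2 ≤ p.y}

theorem measurableSet_siegelK : MeasurableSet siegelK :=
  ((measurableSet_le ((Complex.continuous_normSq.comp H3.continuous_z).measurable)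
      measurable_const).inter (measurableSet_le measurable_const H3.continuous_y.measurable) :)

theorem exists_min_of_finite_sublevel {α β : Type*} (r : β → ℝ) (e : α → β) (a₀ : α)
    (hfin : ∀ B : ℝ, {x : β | r x ≤ B}.Finite) : ∃ a : α, ∀ a' : α, r (e a) ≤ r (e a') := by
  classical
  have hS : (Set.range e ∩ {x : β | r x ≤ r (e a₀)}).Finite :=
    (hfin _).subset Set.inter_subset_right
  obtain ⟨x, ⟨⟨a, rfl⟩, hx⟩, hmin⟩ := Set.exists_min_image _ r hS
    ⟨e a₀, ⟨a₀, rfl⟩, le_refl (r (e a₀))⟩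
  refine ⟨a, fun a' => ?_⟩
  rcases le_or_gt (r (e a')) (r (e a₀)) with h | h
  · exact hmin _ ⟨⟨a', rfl⟩, h⟩
  · exact le_trans hx h.le

theorem denom_eq_rowNorm {g : GL (Fin 2) ℂ} (hg : g ∈ integralK) (p : H3) :
    H3.denom g p = rowNorm p (entry g 1 0) (entry g 1 1) := by
  rw [H3.denom, rowNorm, toC_entry hg, toC_entry hg]

theorem exists_min_denom (p : H3) : ∃ g : integralK, ∀ g' : integralK,
    H3.denom (g : GL (Fin 2) ℂ) p ≤ H3.denom (g' : GL (Fin 2) ℂ) p := by
  obtain ⟨g, hg⟩ := exists_min_of_finite_sublevel (α := integralK) (β := Eis3 × Eis3)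
    (fun cd => rowNorm p cd.1 cd.2)
    (fun g => (entry (g : GL (Fin 2) ℂ) 1 0, entry (g : GL (Fin 2) ℂ) 1 1)) 1
    (finite_rowNorm_le p)
  refine ⟨g, fun g' => ?_⟩
  rw [denom_eq_rowNorm g.2, denom_eq_rowNorm g'.2]
  exact hg g'

/-- Every point has a translate in the Siegel set. -/
theorem exists_smul_mem_siegelK (p : H3) : ∃ g : integralK, (g : GL (Fin 2) ℂ) • p ∈ siegelK := by
  classical
  obtain ⟨g, hg⟩ := exists_min_denom p
  set q := (g : GL (Fin 2) ℂ) • p with hq
  -- translate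
  set t2 : ℤ := round (2 * q.z.im / Real.sqrt 3) with ht2
  set t1 : ℤ := round (q.z.re + (t2 : ℝ) / 2) with ht1
  let T : GL (Fin 2) ℂ := Matrix.GeneralLinearGroup.mkOfDetNeZero
    !![1, -(Eis3.toC (t1, t2)); 0, 1] (by simp)
  have hT : T ∈ integralK := by
    refine ⟨⟨![![(1, 0), -(t1, t2)], ![(0, 0), (1, 0)]], fun i j => ?_⟩, ?_⟩
    · fin_cases i <;> fin_cases j <;>
        simp [T, Matrix.GeneralLinearGroup.mkOfDetNeZero, Eis3.toC_one, Eis3.toC_zero,
          ← Eis3.toC_neg]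
    · simp [T, Matrix.GeneralLinearGroup.mkOfDetNeZero]
  set r := T • q with hr
  have hrz : r.z = q.z - Eis3.toC (t1, t2) := by
    rw [hr, H3.smul_z_of_upper (by simp [T, Matrix.GeneralLinearGroup.mkOfDetNeZero])]
    simp [T, Matrix.GeneralLinearGroup.mkOfDetNeZero, sub_eq_add_neg]
  have hry : r.y = q.y := by
    rw [hr, H3.smul_y_of_upper (by simp [T, Matrix.GeneralLinearGroup.mkOfDetNeZero])]
    simp [T, Matrix.GeneralLinearGroup.mkOfDetNeZero]
  have hs : (0 : ℝ) < Real.sqrt 3 := by positivity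
  have hzbd : Complex.normSq r.z ≤ 3 / 4 := by
    have b1 : (q.z.re + (t2 : ℝ) / 2 - t1) ^ 2 ≤ 1 / 4 := by
      have := abs_le.mp (abs_sub_round (q.z.re + (t2 : ℝ) / 2))
      rw [← ht1] at this
      nlinarith
    have b2 : (2 * q.z.im / Real.sqrt 3 - t2) ^ 2 ≤ 1 / 4 := by
      have := abs_le.mp (abs_sub_round (2 * q.z.im / Real.sqrt 3))
      rw [← ht2] at this
      nlinarith
    rw [hrz, Complex.normSq_apply, Complex.sub_re, Complex.sub_im, Eis3.toC_re, Eis3.toC_im]
    set A := q.z.re + (t2 : ℝ) / 2 - t1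
    set B := 2 * q.z.im / Real.sqrt 3 - t2 with hB
    have e1 : q.z.im - (t2 : ℝ) * Real.sqrt 3 / 2 = Real.sqrt 3 / 2 * B := by
      rw [hB]; field_simp
    have e2 : q.z.re - ((t1 : ℝ) - (t2 : ℝ) / 2) = A := by ring
    rw [e1, e2]
    nlinarith [sqrtThree_mul_self]
  -- compare with the inverted point
  let W : GL (Fin 2) ℂ := Matrix.GeneralLinearGroup.mkOfDetNeZero !![0, -1; 1, 0] (by simp)
  have hW : W ∈ integralK := by
    refine ⟨⟨![![(0, 0), -(1, 0)], ![(1, 0), (0, 0)]], fun i j => ?_⟩, ?_⟩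
    · fin_cases i <;> fin_cases j <;>
        simp [W, Matrix.GeneralLinearGroup.mkOfDetNeZero, Eis3.toC_one, Eis3.toC_zero]
      simp [Eis3.toC]
    · simp [W, Matrix.GeneralLinearGroup.mkOfDetNeZero]
  have hy_eq : ∀ g' : integralK, ((g' : GL (Fin 2) ℂ) • p).y =
      p.y / H3.denom (g' : GL (Fin 2) ℂ) p := fun g' => by
    rw [H3.smul_y, g'.2.2, one_mul]
  have hmax : (W • r).y ≤ r.y := by
    have e : W • r = ((⟨W * T * g, integralK.mul_mem (integralK.mul_mem hW hT) g.2⟩ : integralK) :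
        GL (Fin 2) ℂ) • p := by simp [hr, hq, mul_smul]
    rw [e, hy_eq, hry, hq, hy_eq]
    exact div_le_div_of_nonneg_left p.y_pos.le (H3.denom_pos _ _) (hg _)
  have hWy : (W • r).y = r.y / (Complex.normSq r.z + r.y ^ 2) := by
    rw [H3.smul_y]
    simp [W, Matrix.GeneralLinearGroup.mkOfDetNeZero, H3.denom]
  refine ⟨⟨T * g, integralK.mul_mem hT g.2⟩, ?_⟩
  show (T * (g : GL (Fin 2) ℂ)) • p ∈ siegelK
  rw [mul_smul]
  refine ⟨hzbd, ?_⟩
  have hpos := r.y_pos
  rw [hWy, div_le_iff₀ (by nlinarith [Complex.normSq_nonneg r.z])] at hmax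
  nlinarith

/-- Only finitely many translates of a point lie in the Siegel set. -/
theorem finite_smul_mem_siegelK (p : H3) :
    {g : integralK | (g : GL (Fin 2) ℂ) • p ∈ siegelK}.Finite := by
  classical
  have hy := p.y_pos
  obtain ⟨m, hm0, hm⟩ : ∃ m : ℝ, 0 < m ∧ ∀ g : integralK, m ≤ H3.denom (g : GL (Fin 2) ℂ) p := by
    set S := {cd : Eis3 × Eis3 | rowNorm p cd.1 cd.2 ≤ 1 ∧ 0 < rowNorm p cd.1 cd.2}
    have hfin : S.Finite := (finite_rowNorm_le p 1).subset fun cd h => h.1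
    have hden : ∀ g : integralK,
        H3.denom (g : GL (Fin 2) ℂ) p = rowNorm p (entry g 1 0) (entry g 1 1) := fun g =>
      denom_eq_rowNorm g.2 p
    rcases S.eq_empty_or_nonempty with h | h
    · refine ⟨1, one_pos, fun g => le_of_not_gt fun hlt => ?_⟩
      have hmem : (entry g 1 0, entry g 1 1) ∈ S :=
        ⟨(hden g).symm.trans_le hlt.le, (hden g) ▸ H3.denom_pos _ p⟩
      exact absurd hmem (by rw [h]; simp)
    · obtain ⟨cd, hcd, hmin⟩ := Set.exists_min_image S (fun cd => rowNorm p cd.1 cd.2) hfin h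
      refine ⟨rowNorm p cd.1 cd.2, hcd.2, fun g => ?_⟩
      rw [hden]
      rcases le_or_gt (rowNorm p (entry g 1 0) (entry g 1 1)) 1 with h' | h'
      · exact hmin (entry g 1 0, entry g 1 1) ⟨h', (hden g) ▸ H3.denom_pos _ p⟩
      · exact hcd.1.trans h'.le
  set Y := p.y / m with hY
  refine Set.Finite.of_finite_image (f := fun g : integralK =>
    ((entry g 0 0, entry g 0 1), (entry g 1 0, entry g 1 1))) ?_ ?_
  · refine Set.Finite.subset ((finite_rowNorm_le p ((3 / 4 + Y ^ 2) * 2 * p.y)).prod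
      (finite_rowNorm_le p (2 * p.y))) ?_
    rintro _ ⟨g, ⟨hz, hyg⟩, rfl⟩
    set q := (g : GL (Fin 2) ℂ) • p with hq
    have hyv : q.y = p.y / H3.denom (g : GL (Fin 2) ℂ) p := by
      rw [hq, H3.smul_y, g.2.2, one_mul]
    have hd := H3.denom_pos (g : GL (Fin 2) ℂ) p
    have hup : q.y ≤ Y := by
      rw [hyv, hY]; exact div_le_div_of_nonneg_left hy.le hm0 (hm g)
    simp only [Set.mem_prod, Set.mem_ofPred_eq]
    constructor
    · have key : rowNorm p (entry g 0 0) (entry g 0 1) / p.y =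
          (Complex.normSq q.z + q.y ^ 2) / q.y := by
        have hM := H3.smul_toMat_ofMat _ (H3.posDef_conj (g : GL (Fin 2) ℂ) p.posDef_toMat)
        have hdet : Real.sqrt (((g : GL (Fin 2) ℂ) : Matrix (Fin 2) (Fin 2) ℂ) * p.toMat *
            ((g : GL (Fin 2) ℂ) : Matrix (Fin 2) (Fin 2) ℂ)ᴴ).det.re = 1 := by
          rw [Matrix.det_mul, Matrix.det_mul, H3.det_toMat, mul_one, Matrix.det_conjTranspose,
            RCLike.star_def, Complex.mul_conj, Complex.ofReal_re, Complex.normSq_eq_norm_sq,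
            g.2.2]
          simp
        rw [hdet, Complex.ofReal_one, one_smul, ← H3.smul_def, ← hq] at hM
        have h00 := congrArg (fun M : Matrix (Fin 2) (Fin 2) ℂ => (M 0 0).re) hM
        simp only [Matrix.mul_apply, Fin.sum_univ_two, Matrix.conjTranspose_apply,
          RCLike.star_def, H3.toMat, Matrix.of_apply, Matrix.cons_val', Matrix.cons_val_zero,
          Matrix.cons_val_one, Matrix.empty_val', Matrix.cons_val_fin_one,
          Complex.ofReal_re] at h00
        rw [h00]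
        simp only [rowNorm, toC_entry g.2]
        simp only [Complex.normSq_apply, Complex.add_re, Complex.add_im, Complex.mul_re,
          Complex.mul_im, Complex.conj_re, Complex.conj_im, Complex.ofReal_re,
          Complex.ofReal_im, Complex.div_ofReal_re, Complex.div_ofReal_im]
        field_simp
        ring
      rw [div_eq_iff hy.ne'] at key
      rw [key]
      gcongr
      rw [div_le_iff₀ q.y_pos]
      nlinarith [Complex.normSq_nonneg q.z, q.y_pos]
    · have h1 : rowNorm p (entry g 1 0) (entry g 1 1) = H3.denom (g : GL (Fin 2) ℂ) p := by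
        rw [H3.denom, rowNorm, toC_entry g.2, toC_entry g.2]
      rw [h1]
      rw [hyv, le_div_iff₀ hd] at hyg
      linarith
  · intro g _ g' _ h
    simp only [Prod.mk.injEq] at h
    refine Subtype.ext (entry_injOn g.2 g'.2 (funext fun i => funext fun j => ?_))
    fin_cases i <;> fin_cases j
    exacts [h.1.1, h.1.2, h.2.1, h.2.2]

/-! ### The weight of level `D` -/

/-- The union of translates of the Siegel set covering a fundamental domain of level `D`. -/
def siegelLevel (D : ℕ) : Set H3 :=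
  ⋃ q : integralK ⧸ (principalK D).subgroupOf integralK,
    (fun p : H3 => ((Quotient.out q : integralK) : GL (Fin 2) ℂ) • p) ⁻¹' siegelK

theorem measurableSet_siegelLevel (D : ℕ) : MeasurableSet (siegelLevel D) := by
  have : Countable (integralK ⧸ (principalK D).subgroupOf integralK) :=
    Function.Surjective.countable QuotientGroup.mk_surjective
  exact MeasurableSet.iUnion fun q =>
    measurableSet_siegelK.preimage (H3.continuous_smul_gl _).measurable

/-- The weight of level `D`. -/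
def weightK (D : ℕ) : H3 → ℝ≥0∞ :=
  orbitNormalize (principalK D) ((siegelLevel D).indicator 1)

/-- The weight of level `D` sums to one over each orbit. -/
theorem isOrbitWeight_weightK (D : ℕ) [NeZero D] :
    IsOrbitWeight (principalK D) (weightK D) 1 := by
  classical
  have := finite_quotient_principal D
  refine isOrbitWeight_normalize (measurable_one.indicator (measurableSet_siegelLevel D))
    (fun p => ?_) (fun p => ?_)
  · obtain ⟨g, hg⟩ := exists_smul_mem_siegelK p
    obtain ⟨r, hr, q, hq⟩ : ∃ r : integralK, r⁻¹ * g ∈ (principalK D).subgroupOf integralK ∧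
        ∃ q : integralK ⧸ (principalK D).subgroupOf integralK, Quotient.out q = r :=
      ⟨_, QuotientGroup.eq.mp (QuotientGroup.out_eq' (QuotientGroup.mk g)), _, rfl⟩
    intro h0
    set γ : principalK D := ⟨_, Subgroup.mem_subgroupOf.mp hr⟩
    have hγ : γ • p ∈ siegelLevel D := by
      refine Set.mem_iUnion.mpr ⟨q, ?_⟩
      rw [Set.mem_preimage, hq, Subgroup.smul_def, smul_smul, ← Subgroup.coe_mul,
        mul_inv_cancel_left]
      exact hg
    have h1 := ENNReal.tsum_eq_zero.mp h0 γ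
    rw [Set.indicator_of_mem hγ] at h1
    exact one_ne_zero h1
  · have hfin : {γ : principalK D | γ • p ∈ siegelLevel D}.Finite := by
      have h1 : ∀ q : integralK ⧸ (principalK D).subgroupOf integralK,
          {γ : principalK D | ((Quotient.out q : integralK) : GL (Fin 2) ℂ) •
            ((γ : GL (Fin 2) ℂ) • p) ∈ siegelK}.Finite := fun q => by
        refine Set.Finite.of_finite_image (f := fun γ : principalK D =>
          (Quotient.out q : integralK) * ⟨γ.1, γ.2.1⟩) ?_ ?_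
        · refine (finite_smul_mem_siegelK p).subset ?_
          rintro _ ⟨γ, hγ, rfl⟩
          show (((Quotient.out q : integralK) : GL (Fin 2) ℂ) * (γ : GL (Fin 2) ℂ)) • p ∈ siegelK
          rw [mul_smul]; exact hγ
        · intro γ _ γ' _ h
          exact Subtype.ext (congrArg Subtype.val (mul_left_cancel h) :)
      refine (Set.finite_iUnion h1).subset fun γ hγ => ?_
      obtain ⟨q, hq⟩ := Set.mem_iUnion.mp hγ
      exact Set.mem_iUnion.mpr ⟨q, hq⟩
    rw [tsum_eq_sum (s := hfin.toFinset) fun γ hγ => by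
      rw [Set.indicator_of_notMem]; simpa using hγ]
    exact ENNReal.sum_ne_top.mpr fun γ _ => by
      rw [Set.indicator_apply]; split_ifs <;> simp

theorem weightK_eq_zero {D : ℕ} {p : H3} (h : p ∉ siegelLevel D) : weightK D p = 0 := by
  simp [weightK, orbitNormalize, Set.indicator_of_notMem h]

theorem weightK_le_one {D : ℕ} [NeZero D] (p : H3) : weightK D p ≤ 1 :=
  (isOrbitWeight_weightK D).le p

end Fermat.Agent.ResidualThree
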