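import Fermat.Agent.ResidualThree.ThetaLift.Group

/-!
# Binary Hermitian forms and their majorants

A triple `(a, β, δ)` stands for the Hermitian matrix `[[a, β], [conj β, δ]]`, on which
`g` acts by `X ↦ g X gᴴ`; `Q = |β|² - a δ` and `T x p` is the pairing with the point `p`.
-/

noncomputable section

open Matrix MeasureTheory
open scoped ComplexConjugate ENNReal

namespace Fermat.Agent.ResidualThree

/-- A binary Hermitian form. -/
@[ext]
structure HermVec where
  /-- The upper left entry. -/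
  a : ℝ
  /-- The upper right entry, `β`; the lower left one is its conjugate. -/
  b : ℂ
  /-- The lower right entry, `δ`. -/
  d : ℝ

namespace HermVec

/-- The Hermitian matrix. -/
def toHerm (x : HermVec) : Matrix (Fin 2) (Fin 2) ℂ := !![(x.a : ℂ), x.b; conj x.b, (x.d : ℂ)]

theorem toHerm_injective : Function.Injective toHerm := fun x y h => by
  have h00 := congrArg (fun M : Matrix (Fin 2) (Fin 2) ℂ => M 0 0) h
  have h01 := congrArg (fun M : Matrix (Fin 2) (Fin 2) ℂ => M 0 1) h
  have h11 := congrArg (fun M : Matrix (Fin 2) (Fin 2) ℂ => M 1 1) h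
  simp [toHerm] at h00 h01 h11
  exact HermVec.ext h00 h01 h11

/-- The transformed form. -/
def act (g : GL (Fin 2) ℂ) (x : HermVec) : HermVec :=
  let M := (g : Matrix (Fin 2) (Fin 2) ℂ) * x.toHerm * (g : Matrix (Fin 2) (Fin 2) ℂ)ᴴ
  ⟨(M 0 0).re, M 0 1, (M 1 1).re⟩

theorem toHerm_act (g : GL (Fin 2) ℂ) (x : HermVec) :
    (act g x).toHerm =
      (g : Matrix (Fin 2) (Fin 2) ℂ) * x.toHerm * (g : Matrix (Fin 2) (Fin 2) ℂ)ᴴ := by
  have hH : x.toHerm.IsHermitian := by
    ext i j; fin_cases i <;> fin_cases j <;> simp [toHerm]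
  have h := Matrix.isHermitian_mul_mul_conjTranspose (g : Matrix (Fin 2) (Fin 2) ℂ) hH
  set M := (g : Matrix (Fin 2) (Fin 2) ℂ) * x.toHerm * (g : Matrix (Fin 2) (Fin 2) ℂ)ᴴ with hM
  have e00 : ((M 0 0).re : ℂ) = M 0 0 := h.coe_re_apply_self 0
  have e11 : ((M 1 1).re : ℂ) = M 1 1 := h.coe_re_apply_self 1
  have e10 : conj (M 0 1) = M 1 0 := h.apply 1 0
  change !![(((M 0 0).re : ℂ)), M 0 1; conj (M 0 1), (((M 1 1).re : ℂ))] = M
  rw [e00, e11, e10]
  exact (Matrix.eta_fin_two M).symm

instance : MulAction (GL (Fin 2) ℂ) HermVec where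
  smul := act
  one_smul x := toHerm_injective (by show (act 1 x).toHerm = _; rw [toHerm_act]; simp)
  mul_smul g g' x := toHerm_injective (by
    show (act (g * g') x).toHerm = (act g (act g' x)).toHerm
    simp only [toHerm_act, Units.val_mul, Matrix.conjTranspose_mul, Matrix.mul_assoc])

theorem toHerm_smul (g : GL (Fin 2) ℂ) (x : HermVec) :
    (g • x).toHerm =
      (g : Matrix (Fin 2) (Fin 2) ℂ) * x.toHerm * (g : Matrix (Fin 2) (Fin 2) ℂ)ᴴ :=
  toHerm_act g x

/-- The quadratic form. -/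
def Q (x : HermVec) : ℝ := Complex.normSq x.b - x.a * x.d

/-- Pairing with a point. -/
def T (x : HermVec) (p : H3) : ℝ :=
  (x.a - 2 * (x.b * conj p.z).re + x.d * (Complex.normSq p.z + p.y ^ 2)) / p.y

/-- The majorant. -/
def majorant (x : HermVec) (p : H3) : ℝ := x.Q + x.T p ^ 2 / 2

theorem det_toHerm (x : HermVec) : x.toHerm.det = -(x.Q : ℂ) := by
  rw [toHerm, Matrix.det_fin_two_of, Q, Complex.mul_conj]
  push_cast
  ring

/-- The index is invariant up to the norm of the determinant. -/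
theorem Q_smul (g : GL (Fin 2) ℂ) (x : HermVec) :
    (g • x).Q = Complex.normSq (g : Matrix (Fin 2) (Fin 2) ℂ).det * x.Q := by
  have h := congrArg Matrix.det (toHerm_smul g x)
  rw [Matrix.det_mul, Matrix.det_mul, Matrix.det_conjTranspose, det_toHerm, det_toHerm,
    RCLike.star_def] at h
  have h2 : ((g • x).Q : ℂ) =
      ((Complex.normSq (g : Matrix (Fin 2) (Fin 2) ℂ).det * x.Q : ℝ) : ℂ) := by
    push_cast
    rw [← Complex.mul_conj]
    linear_combination -h
  exact_mod_cast h2

theorem T_eq_trace (x : HermVec) (p : H3) :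
    (x.T p : ℂ) = (x.toHerm.adjugate * p.toMat).trace := by
  have hy : (p.y : ℂ) ≠ 0 := by exact_mod_cast p.y_pos.ne'
  simp only [Matrix.adjugate_fin_two, Matrix.trace_fin_two, Matrix.mul_apply, Fin.sum_univ_two,
    toHerm, H3.toMat, T, Matrix.of_apply, Matrix.cons_val', Matrix.cons_val_zero,
    Matrix.cons_val_one, Matrix.empty_val', Matrix.cons_val_fin_one]
  push_cast
  rw [Complex.re_eq_add_conj]
  simp only [map_mul, Complex.conj_conj]
  field_simp
  ring

/-- The pairing is equivariant. -/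
theorem T_smul (g : GL (Fin 2) ℂ) (x : HermVec) (p : H3) :
    (g • x).T (g • p) = ‖(g : Matrix (Fin 2) (Fin 2) ℂ).det‖ * x.T p := by
  set G : Matrix (Fin 2) (Fin 2) ℂ := (g : Matrix (Fin 2) (Fin 2) ℂ) with hGdef
  have hG : G.det ≠ 0 := (Matrix.isUnit_iff_isUnit_det G).mp g.isUnit |>.ne_zero
  have hn : ((‖G.det‖ : ℝ) : ℂ) ≠ 0 := by exact_mod_cast norm_ne_zero_iff.mpr hG
  have key : G * p.toMat * Gᴴ = ((‖G.det‖ : ℝ) : ℂ) • (g • p).toMat := by
    have h := H3.smul_toMat_ofMat (G * p.toMat * Gᴴ) (H3.posDef_conj g p.posDef_toMat)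
    have hd : Real.sqrt (G * p.toMat * Gᴴ).det.re = ‖G.det‖ := by
      rw [Matrix.det_mul, Matrix.det_mul, H3.det_toMat, mul_one, Matrix.det_conjTranspose,
        RCLike.star_def, Complex.mul_conj, Complex.ofReal_re, Complex.normSq_eq_norm_sq,
        Real.sqrt_sq (norm_nonneg _)]
    rw [hd] at h
    exact h.symm
  have h1 : ((‖G.det‖ : ℝ) : ℂ) * ((g • x).T (g • p) : ℂ) =
      ((‖G.det‖ : ℝ) : ℂ) * (((‖G.det‖ : ℝ) : ℂ) * (x.T p : ℂ)) := by
    rw [T_eq_trace, T_eq_trace, toHerm_smul, ← smul_eq_mul, ← Matrix.trace_smul,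
      ← Matrix.mul_smul, ← key, Matrix.adjugate_mul_distrib, Matrix.adjugate_mul_distrib]
    calc (Gᴴ.adjugate * (x.toHerm.adjugate * G.adjugate) * (G * p.toMat * Gᴴ)).trace
        = (Gᴴ.adjugate * (x.toHerm.adjugate * (G.adjugate * G) * p.toMat * Gᴴ)).trace := by
          simp only [Matrix.mul_assoc]
      _ = (x.toHerm.adjugate * (G.det • 1) * p.toMat * (Gᴴ * Gᴴ.adjugate)).trace := by
          rw [Matrix.trace_mul_comm Gᴴ.adjugate, Matrix.adjugate_mul]
          simp only [Matrix.mul_assoc]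
      _ = _ := by
          rw [Matrix.mul_adjugate, Matrix.det_conjTranspose, RCLike.star_def]
          simp only [Matrix.mul_smul, Matrix.smul_mul, Matrix.mul_one, Matrix.trace_smul,
            smul_eq_mul, ← mul_assoc]
          rw [mul_comm (conj G.det), Complex.mul_conj, Complex.normSq_eq_norm_sq]
          push_cast
          ring
  exact_mod_cast mul_left_cancel₀ hn h1

theorem T_smul_of_norm_one {g : GL (Fin 2) ℂ} (hg : ‖(g : Matrix (Fin 2) (Fin 2) ℂ).det‖ = 1)
    (x : HermVec) (p : H3) : (g • x).T (g • p) = x.T p := by rw [T_smul, hg, one_mul]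

theorem majorant_smul_of_norm_one {g : GL (Fin 2) ℂ}
    (hg : ‖(g : Matrix (Fin 2) (Fin 2) ℂ).det‖ = 1) (x : HermVec) (p : H3) :
    (g • x).majorant (g • p) = x.majorant p := by
  rw [majorant, majorant, T_smul_of_norm_one hg, Q_smul, Complex.normSq_eq_norm_sq, hg, one_pow,
    one_mul]

/-- The majorant as a sum of squares. -/
theorem majorant_eq (x : HermVec) (p : H3) :
    x.majorant p = Complex.normSq (x.b - x.d * p.z) +
      ((x.a - 2 * (x.b * conj p.z).re + x.d * Complex.normSq p.z) ^ 2 / p.y ^ 2 +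
        x.d ^ 2 * p.y ^ 2) / 2 := by
  have := p.y_pos.ne'
  simp only [majorant, Q, T, Complex.normSq_apply, Complex.sub_re, Complex.sub_im, Complex.mul_re,
    Complex.mul_im, Complex.conj_re, Complex.conj_im, Complex.ofReal_re, Complex.ofReal_im]
  field_simp
  ring

theorem continuous_T (x : HermVec) : Continuous (x.T) := by
  have hz := H3.continuous_z
  have hy := H3.continuous_y
  unfold T
  exact Continuous.div (by fun_prop) hy fun p => p.y_pos.ne'

end HermVec

/-- The lattice of integral forms. -/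
abbrev HermIdx : Type := ℤ × Eis3 × ℤ

namespace HermIdx

/-- The form of a lattice point. -/
def vec (i : HermIdx) : HermVec := ⟨(i.1 : ℝ), i.2.1.toC, (i.2.2 : ℝ)⟩

theorem vec_injective : Function.Injective vec := fun i j h => by
  have ha := congrArg HermVec.a h
  have hb := congrArg HermVec.b h
  have hd := congrArg HermVec.d h
  simp only [vec, Int.cast_inj] at ha hb hd
  exact Prod.ext ha (Prod.ext (Eis3.toC_injective hb) hd)

/-- The integral quadratic form. -/
def q (i : HermIdx) : ℤ := (i.2.1.norm : ℤ) - i.1 * i.2.2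

theorem vec_Q (i : HermIdx) : (vec i).Q = (q i : ℝ) := by
  rw [HermVec.Q, vec, q, Eis3.normSq_toC]
  push_cast
  ring

/-- The trace of an Eisenstein integer. -/
def tr (x : Eis3) : ℤ := 2 * x.1 - x.2

/-- The integral formula of the action. -/
def actFormula (e : Fin 2 → Fin 2 → Eis3) (i : HermIdx) : HermIdx :=
  ((e 0 0).norm * i.1 + tr (Eis3.mul (Eis3.mul (e 0 0) (Eis3.bar (e 0 1))) i.2.1) +
      (e 0 1).norm * i.2.2,
    Eis3.mul (Eis3.mul (e 0 0) (Eis3.bar (e 1 0))) (i.1, 0) +
      Eis3.mul (Eis3.mul (e 0 0) (Eis3.bar (e 1 1))) i.2.1 +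
      Eis3.mul (Eis3.mul (e 0 1) (Eis3.bar (e 1 0))) (Eis3.bar i.2.1) +
      Eis3.mul (Eis3.mul (e 0 1) (Eis3.bar (e 1 1))) (i.2.2, 0),
    (e 1 0).norm * i.1 + tr (Eis3.mul (Eis3.mul (e 1 0) (Eis3.bar (e 1 1))) i.2.1) +
      (e 1 1).norm * i.2.2)

/-- The integral formula agrees with the action. -/
theorem vec_actFormula {g : GL (Fin 2) ℂ} {e : Fin 2 → Fin 2 → Eis3}
    (he : ∀ i j, (g : Matrix (Fin 2) (Fin 2) ℂ) i j = (e i j).toC) (i : HermIdx) :
    vec (actFormula e i) = g • vec i := by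
  refine HermVec.toHerm_injective ?_
  rw [HermVec.toHerm_smul]
  have hn : ∀ x : Eis3, ((x.norm : ℤ) : ℂ) = x.toC * conj x.toC := fun x => by
    rw [Complex.mul_conj, Eis3.normSq_toC]; push_cast; rfl
  have ht : ∀ x : Eis3, ((tr x : ℤ) : ℂ) = x.toC + conj x.toC := fun x => by
    rw [Complex.add_conj, Eis3.trace_eq]; push_cast [tr]; rfl
  ext k l
  fin_cases k <;> fin_cases l <;>
    simp only [HermVec.toHerm, vec, actFormula, Matrix.mul_apply, Fin.sum_univ_two,
      Matrix.conjTranspose_apply, RCLike.star_def, Matrix.of_apply, Matrix.cons_val',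
      Matrix.cons_val_zero, Matrix.cons_val_one, Matrix.empty_val', Matrix.cons_val_fin_one,
      he, Eis3.toC_add, Eis3.toC_mul, Eis3.toC_bar, Eis3.toC_intCast, Complex.ofReal_intCast,
      Complex.ofReal_add,
      Complex.ofReal_mul, Int.cast_add, Int.cast_mul, hn, ht, map_add, map_mul, Complex.conj_conj,
      map_intCast,
      Fin.isValue, Fin.zero_eta, Fin.mk_one] <;> ring

instance : SMul integralK HermIdx := ⟨fun g i => actFormula (entry (g : GL (Fin 2) ℂ)) i⟩

theorem vec_smul (g : integralK) (i : HermIdx) : vec (g • i) = (g : GL (Fin 2) ℂ) • vec i :=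
  vec_actFormula (fun k l => (toC_entry g.2 k l).symm) i

instance : MulAction integralK HermIdx where
  one_smul i := vec_injective (by rw [vec_smul, Subgroup.coe_one, one_smul])
  mul_smul g g' i := vec_injective (by
    rw [vec_smul, vec_smul, vec_smul, Subgroup.coe_mul, mul_smul])

theorem q_smul (g : integralK) (i : HermIdx) : q (g • i) = q i := by
  have h := vec_Q (g • i)
  rw [vec_smul, HermVec.Q_smul, Complex.normSq_eq_norm_sq, g.2.2, one_pow, one_mul, vec_Q] at h
  exact_mod_cast h.symm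

/-- The pairing with a point. -/
def T (i : HermIdx) (p : H3) : ℝ := (vec i).T p

theorem T_smul (g : integralK) (i : HermIdx) (p : H3) :
    T (g • i) ((g : GL (Fin 2) ℂ) • p) = T i p := by
  rw [T, vec_smul, HermVec.T_smul_of_norm_one g.2.2]
  rfl

/-- Reduction modulo `D`. -/
def red (D : ℕ) (i : HermIdx) : ZMod D × (ZMod D × ZMod D) × ZMod D :=
  ((i.1 : ZMod D), i.2.1.red D, (i.2.2 : ZMod D))

theorem red_smul_principal {D : ℕ} (g : integralK) (hg : (g : GL (Fin 2) ℂ) ∈ principalK D)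
    (i : HermIdx) : red D (g • i) = red D i := by
  have h00 := hg.2 0 0; have h01 := hg.2 0 1; have h10 := hg.2 1 0; have h11 := hg.2 1 1
  simp [Eis3.red] at h00 h01 h10 h11
  show red D (actFormula (entry (g : GL (Fin 2) ℂ)) i) = _
  simp [red, actFormula, Eis3.red, Eis3.mul, Eis3.bar, Eis3.norm_cast_eq, tr, h00, h01, h10, h11]

end HermIdx

end Fermat.Agent.ResidualThree
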