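import Fermat.Agent.ResidualThree.ThetaInduction.Decay
import Fermat.Agent.ResidualThree.ThetaLift.Vec

/-!
# Bounds for theta series of majorants

Gaussian sums over `ℤ` and `ℤ[ω]` with shifts, and the bound of the majorant sum by a
multiple of `y + 1` above height `1/2`.
-/

noncomputable section

open MeasureTheory
open scoped ComplexConjugate ENNReal

namespace Fermat.Agent.ResidualThree

/-- A Gaussian sum over the integers. -/
def gaussMass (c : ℝ) : ℝ≥0∞ := ∑' n : ℤ, ENNReal.ofReal (Real.exp (-(c * (n : ℝ) ^ 2)))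

theorem gaussMass_ne_top {c : ℝ} (hc : 0 < c) : gaussMass c ≠ ∞ := by
  rw [gaussMass, ← ENNReal.ofReal_tsum_of_nonneg (fun n => (Real.exp_pos _).le)
    (ThetaInduction.summable_exp_neg_sq_int hc)]
  exact ENNReal.ofReal_ne_top

/-- The bound for a shifted sum. -/
def shiftMass (c : ℝ) : ℝ≥0∞ := ENNReal.ofReal (Real.exp c) * gaussMass (c / 2)

theorem shiftMass_ne_top {c : ℝ} (hc : 0 < c) : shiftMass c ≠ ∞ :=
  ENNReal.mul_ne_top ENNReal.ofReal_ne_top (gaussMass_ne_top (half_pos hc))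

theorem tsum_shift_le {c : ℝ} (hc : 0 < c) (s : ℝ) :
    ∑' n : ℤ, ENNReal.ofReal (Real.exp (-(c * ((n : ℝ) + s) ^ 2))) ≤ shiftMass c := by
  rw [← (Equiv.subRight ⌊s⌋).tsum_eq, shiftMass, gaussMass, ← ENNReal.tsum_mul_left]
  refine ENNReal.tsum_le_tsum fun n => ?_
  rw [← ENNReal.ofReal_mul (Real.exp_pos _).le, ← Real.exp_add]
  refine ENNReal.ofReal_le_ofReal (Real.exp_le_exp.mpr ?_)
  simp only [Equiv.subRight_apply, Int.cast_sub]
  have h0 := Int.floor_le s
  have h1 := Int.lt_floor_add_one s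
  have hu : (s - (⌊s⌋ : ℝ)) ^ 2 ≤ 1 := by nlinarith
  nlinarith [mul_le_mul_of_nonneg_left hu hc.le,
    mul_nonneg hc.le (sq_nonneg ((n : ℝ) + 2 * (s - (⌊s⌋ : ℝ))))]

theorem tsum_scaled_shift_le {c : ℝ} (hc : 0 < c) {Y : ℝ} (hY : 0 < Y) (s : ℝ) :
    ∑' n : ℤ, ENNReal.ofReal (Real.exp (-(c * (((n : ℝ) + s) / Y) ^ 2))) ≤
      ENNReal.ofReal (Y + 1) * shiftMass c := by
  set m := ⌈Y⌉₊ with hm
  have : NeZero m := ⟨(Nat.ceil_pos.mpr hY).ne'⟩
  have hm1 : Y ≤ m := Nat.le_ceil Y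
  have hm2 : (m : ℝ) ≤ Y + 1 := (Nat.ceil_lt_add_one hY.le).le
  have hm0 : (0 : ℝ) < m := lt_of_lt_of_le hY hm1
  rw [← (Int.divModEquiv m).symm.tsum_eq, ← (Equiv.prodComm (Fin m) ℤ).tsum_eq,
    ENNReal.tsum_prod']
  calc ∑' (i : Fin m) (j : ℤ), _ ≤ ∑' _ : Fin m, shiftMass c :=
        ENNReal.tsum_le_tsum fun i => ?_
    _ ≤ ENNReal.ofReal (Y + 1) * shiftMass c := by
        rw [tsum_fintype, Finset.sum_const, Finset.card_univ, Fintype.card_fin, nsmul_eq_mul,
          ← ENNReal.ofReal_natCast]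
        gcongr
  refine le_trans (ENNReal.tsum_le_tsum fun j => ?_) (tsum_shift_le hc (((i : ℕ) + s) / m))
  refine ENNReal.ofReal_le_ofReal (Real.exp_le_exp.mpr ?_)
  simp only [Equiv.prodComm_apply, Prod.swap_prod_mk, Int.divModEquiv_symm_apply]
  push_cast
  have e : ((j : ℝ) * m + (i : ℕ) + s) / Y = (m / Y) * ((j : ℝ) + (((i : ℕ) : ℝ) + s) / m) := by
    field_simp
    ring
  rw [neg_le_neg_iff, e, mul_pow]
  refine mul_le_mul_of_nonneg_left (le_mul_of_one_le_left (sq_nonneg _) ?_) hc.le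
  rw [one_le_sq_iff₀ (by positivity), one_le_div hY]
  exact hm1

theorem normSq_toC_add_ge (r : Eis3) (u v : ℝ) :
    (((r.1 : ℝ) + u) ^ 2 + ((r.2 : ℝ) + v) ^ 2) / 2 ≤
      Complex.normSq (r.toC + ((u : ℂ) + (v : ℂ) * omegaC)) := by
  simp only [Complex.normSq_apply, Complex.add_re, Complex.add_im, Complex.mul_re, Complex.mul_im,
    Complex.ofReal_re, Complex.ofReal_im, Eis3.toC_re, Eis3.toC_im, omegaC_re, omegaC_im]
  nlinarith [sqrtThree_mul_self, sq_nonneg (((r.1 : ℝ) + u) - ((r.2 : ℝ) + v))]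

theorem tsum_eis_shift_le {c : ℝ} (hc : 0 < c) (w : ℂ) :
    ∑' r : Eis3, ENNReal.ofReal (Real.exp (-(c * Complex.normSq (r.toC + w)))) ≤
      shiftMass (c / 2) * shiftMass (c / 2) := by
  set v : ℝ := 2 * w.im / Real.sqrt 3 with hv
  set u : ℝ := w.re + v / 2 with hu
  have hw : w = (u : ℂ) + (v : ℂ) * omegaC := by
    apply Complex.ext <;>
      simp only [Complex.add_re, Complex.add_im, Complex.mul_re, Complex.mul_im,
        Complex.ofReal_re, Complex.ofReal_im, omegaC_re, omegaC_im, hu]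
    · ring
    · rw [hv]; field_simp; ring
  calc ∑' r : Eis3, ENNReal.ofReal (Real.exp (-(c * Complex.normSq (r.toC + w))))
      ≤ ∑' r : ℤ × ℤ, ENNReal.ofReal (Real.exp (-(c / 2 * ((r.1 : ℝ) + u) ^ 2))) *
          ENNReal.ofReal (Real.exp (-(c / 2 * ((r.2 : ℝ) + v) ^ 2))) := by
        refine ENNReal.tsum_le_tsum fun r => ?_
        rw [← ENNReal.ofReal_mul (Real.exp_pos _).le, ← Real.exp_add, hw]
        refine ENNReal.ofReal_le_ofReal (Real.exp_le_exp.mpr ?_)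
        nlinarith [mul_le_mul_of_nonneg_left (normSq_toC_add_ge r u v) hc.le]
    _ = (∑' x : ℤ, ENNReal.ofReal (Real.exp (-(c / 2 * ((x : ℝ) + u) ^ 2)))) *
          ∑' y : ℤ, ENNReal.ofReal (Real.exp (-(c / 2 * ((y : ℝ) + v) ^ 2))) := by
        rw [ENNReal.tsum_prod', ← ENNReal.tsum_mul_right]
        exact tsum_congr fun x => by simp only [ENNReal.tsum_mul_left]
    _ ≤ _ := mul_le_mul' (tsum_shift_le (half_pos hc) u) (tsum_shift_le (half_pos hc) v)

/-- The theta series of the majorant. -/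
def majorantSum (c : ℝ) (p : H3) : ℝ≥0∞ :=
  ∑' i : HermIdx, ENNReal.ofReal (Real.exp (-(c * (HermIdx.vec i).majorant p)))

theorem majorantSum_smul (c : ℝ) (g : integralK) (p : H3) :
    majorantSum c ((g : GL (Fin 2) ℂ) • p) = majorantSum c p := by
  rw [majorantSum, majorantSum, ← (MulAction.toPerm g).tsum_eq]
  refine tsum_congr fun i => ?_
  rw [MulAction.toPerm_apply, HermIdx.vec_smul, HermVec.majorant_smul_of_norm_one g.2.2]

/-- The constant in the bound on the Siegel set. -/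
def majorantConst (c : ℝ) : ℝ≥0∞ :=
  shiftMass (c / 2) * (shiftMass (c / 2) * shiftMass (c / 2)) * gaussMass (c / 8)

theorem majorantConst_ne_top {c : ℝ} (hc : 0 < c) : majorantConst c ≠ ∞ := by
  have h := shiftMass_ne_top (half_pos hc)
  exact ENNReal.mul_ne_top (ENNReal.mul_ne_top h (ENNReal.mul_ne_top h h))
    (gaussMass_ne_top (by positivity))

/-- The majorant sum grows at most linearly in the height. -/
theorem majorantSum_le {c : ℝ} (hc : 0 < c) {p : H3} (hp : 1 / 2 ≤ p.y) :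
    majorantSum c p ≤ ENNReal.ofReal (p.y + 1) * majorantConst c := by
  let e : ℤ × Eis3 × ℤ ≃ HermIdx :=
    { toFun := fun t => (t.2.2, t.2.1, t.1)
      invFun := fun i => (i.2.2, i.2.1, i.1)
      left_inv := fun t => rfl
      right_inv := fun i => rfl }
  rw [majorantSum, ← e.tsum_eq, ENNReal.tsum_prod']
  have hy := p.y_pos
  calc ∑' (d : ℤ) (t : Eis3 × ℤ), _
      ≤ ∑' d : ℤ, (ENNReal.ofReal (p.y + 1) * shiftMass (c / 2)) *
          (shiftMass (c / 2) * shiftMass (c / 2)) *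
          ENNReal.ofReal (Real.exp (-(c / 8 * (d : ℝ) ^ 2))) :=
        ENNReal.tsum_le_tsum fun d => ?_
    _ = _ := by
        rw [ENNReal.tsum_mul_left, majorantConst, gaussMass]
        ring
  rw [ENNReal.tsum_prod']
  calc ∑' (r : Eis3) (a : ℤ), _
      ≤ ∑' r : Eis3, (ENNReal.ofReal (p.y + 1) * shiftMass (c / 2)) *
          (ENNReal.ofReal (Real.exp (-(c * Complex.normSq (r.toC + -((d : ℂ) * p.z))))) *
            ENNReal.ofReal (Real.exp (-(c / 8 * (d : ℝ) ^ 2)))) :=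
        ENNReal.tsum_le_tsum fun r => ?_
    _ ≤ _ := by
        rw [ENNReal.tsum_mul_left, ENNReal.tsum_mul_right, ← mul_assoc (_ * shiftMass (c / 2))]
        gcongr
        exact tsum_eis_shift_le hc _
  set s : ℝ := -2 * (r.toC * conj p.z).re + d * Complex.normSq p.z
  calc ∑' a : ℤ, _
      ≤ ∑' a : ℤ, ENNReal.ofReal (Real.exp (-(c / 2 * (((a : ℝ) + s) / p.y) ^ 2))) *
          (ENNReal.ofReal (Real.exp (-(c * Complex.normSq (r.toC + -((d : ℂ) * p.z))))) *
            ENNReal.ofReal (Real.exp (-(c / 8 * (d : ℝ) ^ 2)))) :=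
        ENNReal.tsum_le_tsum fun a => ?_
    _ ≤ _ := by
        rw [ENNReal.tsum_mul_right]
        gcongr
        exact tsum_scaled_shift_le (half_pos hc) hy s
  rw [← ENNReal.ofReal_mul (Real.exp_pos _).le, ← ENNReal.ofReal_mul (Real.exp_pos _).le,
    ← Real.exp_add, ← Real.exp_add]
  refine ENNReal.ofReal_le_ofReal (Real.exp_le_exp.mpr ?_)
  simp only [e, Equiv.coe_fn_mk, HermVec.majorant_eq, HermIdx.vec, Complex.ofReal_intCast,
    sub_eq_add_neg, div_pow]
  have hY2 : (1 / 4 : ℝ) ≤ p.y ^ 2 := by nlinarith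
  have h2 : (d : ℝ) ^ 2 * (1 / 4) ≤ (d : ℝ) ^ 2 * p.y ^ 2 :=
    mul_le_mul_of_nonneg_left hY2 (sq_nonneg _)
  have hs : (a : ℝ) + -(2 * (r.toC * conj p.z).re) + (d : ℝ) * Complex.normSq p.z = a + s := by
    simp only [s]; ring
  rw [hs]
  nlinarith [mul_le_mul_of_nonneg_left h2 hc.le]

end Fermat.Agent.ResidualThree
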