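import Fermat.Agent.Eis.Poisson
import Fermat.Agent.ResidualThree.ThetaLift.Sums

/-!
# The binary theta series of the Eisenstein integers with characteristics

The series `hTheta τ ξ η` over `ℤ[ω]`, its bounds and its functional equation under
`τ ↦ -1 / τ`, the input of the transformation law of the lift.
-/

noncomputable section

open scoped ComplexConjugate ENNReal MatrixGroups

namespace Fermat.Agent.ResidualThree

open Eis (gau eChar rootFactor)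

/-- The term of the binary theta series. -/
def hTerm (τ ξ η : ℂ) (l : Eis3) : ℂ :=
  Complex.exp (2 * Real.pi * Complex.I * (τ * (Complex.normSq (l.toC + ξ) : ℝ) +
    ((2 * (l.toC * conj η).re + (ξ * conj η).re : ℝ) : ℂ)))

/-- The binary theta series. -/
def hTheta (τ ξ η : ℂ) : ℂ := ∑' l : Eis3, hTerm τ ξ η l

theorem norm_hTerm (τ ξ η : ℂ) (l : Eis3) :
    ‖hTerm τ ξ η l‖ = Real.exp (-(2 * Real.pi * τ.im * Complex.normSq (l.toC + ξ))) := by
  rw [hTerm, Complex.norm_exp]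
  congr 1
  simp [Complex.mul_re, Complex.mul_im]
  ring

theorem summable_norm_hTerm {τ : ℂ} (hτ : 0 < τ.im) (ξ η : ℂ) :
    Summable (fun l => ‖hTerm τ ξ η l‖) ∧
      ∑' l, ‖hTerm τ ξ η l‖ ≤
        (shiftMass (2 * Real.pi * τ.im / 2) * shiftMass (2 * Real.pi * τ.im / 2)).toReal := by
  have hc : 0 < 2 * Real.pi * τ.im := by positivity
  simp only [norm_hTerm]
  have hle := tsum_eis_shift_le hc ξ
  have hne : shiftMass (2 * Real.pi * τ.im / 2) * shiftMass (2 * Real.pi * τ.im / 2) ≠ ∞ :=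
    ENNReal.mul_ne_top (shiftMass_ne_top (half_pos hc)) (shiftMass_ne_top (half_pos hc))
  have hs : Summable fun l : Eis3 =>
      Real.exp (-(2 * Real.pi * τ.im * Complex.normSq (l.toC + ξ))) :=
    (ENNReal.summable_toReal (lt_of_le_of_lt hle hne.lt_top).ne).congr
      fun i => ENNReal.toReal_ofReal (Real.exp_pos _).le
  refine ⟨hs, ?_⟩
  rw [← ENNReal.ofReal_tsum_of_nonneg (fun i => (Real.exp_pos _).le) hs] at hle
  have := ENNReal.toReal_mono hne hle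
  rwa [ENNReal.toReal_ofReal (tsum_nonneg fun i => (Real.exp_pos _).le)] at this

theorem norm_hTheta_le {τ : ℂ} (hτ : 0 < τ.im) (ξ η : ℂ) :
    ‖hTheta τ ξ η‖ ≤
      (shiftMass (2 * Real.pi * τ.im / 2) * shiftMass (2 * Real.pi * τ.im / 2)).toReal :=
  (norm_tsum_le_tsum_norm (summable_norm_hTerm hτ ξ η).1).trans (summable_norm_hTerm hτ ξ η).2

/-- Translation by one. -/
theorem hTheta_add_one (τ ξ η : ℂ) : hTheta (τ + 1) ξ η = hTheta τ ξ (η + ξ) := by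
  refine tsum_congr fun l => ?_
  rw [hTerm, hTerm]
  refine Complex.exp_eq_exp_iff_exists_int.mpr ⟨(l.norm : ℤ), ?_⟩
  have h : (((2 * (l.toC * conj η).re + (ξ * conj η).re : ℝ)) : ℂ) +
      (Complex.normSq (l.toC + ξ) : ℝ) =
      ((2 * (l.toC * conj (η + ξ)).re + (ξ * conj (η + ξ)).re : ℝ) : ℂ) + ((l.norm : ℕ) : ℂ) := by
    rw [← Complex.ofReal_natCast, ← Eis3.normSq_toC, ← Complex.ofReal_add, ← Complex.ofReal_add]
    congr 1
    simp [Complex.normSq_apply, Complex.mul_re]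
    ring
  rw [Int.cast_natCast]
  linear_combination 2 * (Real.pi : ℂ) * Complex.I * h

theorem hTheta_neg (τ ξ η : ℂ) : hTheta τ (-ξ) (-η) = hTheta τ ξ η := by
  rw [hTheta, hTheta, ← (Equiv.neg Eis3).tsum_eq]
  refine tsum_congr fun l => ?_
  simp only [Equiv.neg_apply, hTerm, Eis3.toC_neg]
  congr 2
  rw [show -l.toC + -ξ = -(l.toC + ξ) by ring, Complex.normSq_neg]
  simp

theorem rootFactor_two_three {τ : ℂ} (hτ : τ ≠ 0) :
    rootFactor τ 2 * rootFactor τ (3 / 2) = Complex.I / ((Real.sqrt 3 : ℝ) * τ) := by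
  rw [Eis.rootFactor_eq hτ (by norm_num : (0 : ℝ) < 2),
    Eis.rootFactor_eq hτ (by norm_num : (0 : ℝ) < 3 / 2)]
  set w := (-Complex.I * τ) ^ (1 / 2 : ℂ) with hw
  have hw2 : w ^ 2 = -Complex.I * τ := by
    rw [hw, ← Complex.cpow_nat_mul]
    norm_num
  have hs : ((Real.sqrt 2 : ℝ) : ℂ) * ((Real.sqrt (3 / 2) : ℝ) : ℂ) = ((Real.sqrt 3 : ℝ) : ℂ) := by
    rw [← Complex.ofReal_mul, ← Real.sqrt_mul (by norm_num)]
    norm_num
  have hs3 : ((Real.sqrt 3 : ℝ) : ℂ) ≠ 0 := by simp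
  calc ((Real.sqrt 2 : ℝ) : ℂ)⁻¹ * (1 / w) * (((Real.sqrt (3 / 2) : ℝ) : ℂ)⁻¹ * (1 / w))
      = (((Real.sqrt 2 : ℝ) : ℂ) * ((Real.sqrt (3 / 2) : ℝ) : ℂ))⁻¹ * (w ^ 2)⁻¹ := by
        rw [one_div, mul_inv, sq, mul_inv]; ring
    _ = _ := by
        rw [hs, hw2]
        field_simp
        simp

/-- The functional equation. -/
theorem hTheta_functional {τ : ℂ} (hτ : 0 < τ.im) (ξ η : ℂ) :
    hTheta τ ξ η = Complex.I / ((Real.sqrt 3 : ℝ) * τ) *
      hTheta (-1 / τ / 3) (sqrtNegThree * η) (-(sqrtNegThree * ξ) / 3) := by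
  have hτ0 : τ ≠ 0 := fun h => by simp [h] at hτ
  have hs : Real.sqrt 3 ≠ 0 := by positivity
  set ξ₂ : ℝ := 2 * ξ.im / Real.sqrt 3 with hξ₂
  set ξ₁ : ℝ := ξ.re + ξ₂ / 2 with hξ₁
  have hξim : ξ.im = ξ₂ * Real.sqrt 3 / 2 := by rw [hξ₂]; field_simp
  set b₁ : ℝ := 2 * η.re with hb₁
  set b₂ : ℝ := 2 * (omegaC * conj η).re with hb₂
  clear_value ξ₂ ξ₁ b₁ b₂
  set F : ℤ → ℂ := fun y => gau τ (3 / 2) ((y : ℝ) + ξ₂) * eChar ((y : ℝ) * b₂) with hF
  have hFs : Summable fun y => ‖F y‖ := by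
    simpa [hF, Eis.norm_eChar] using Eis.summable_gau hτ (by norm_num : (0 : ℝ) < 3 / 2) ξ₂
  have hlhs : ∀ l : Eis3, hTerm τ ξ η l = eChar (ξ * conj η).re *
      (gau τ 2 ((l.1 : ℝ) + (ξ₁ - ((l.2 : ℝ) + ξ₂) / 2)) * eChar ((l.1 : ℝ) * b₁) * F l.2) := by
    intro l
    simp only [hTerm, hF, gau, Eis.eChar, ← Complex.exp_add]
    congr 1
    have hn : Complex.normSq (l.toC + ξ) = ((l.1 : ℝ) + (ξ₁ - ((l.2 : ℝ) + ξ₂) / 2)) ^ 2 +
        3 / 4 * ((l.2 : ℝ) + ξ₂) ^ 2 := by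
      simp only [Complex.normSq_apply, Complex.add_re, Complex.add_im, Eis3.toC_re, Eis3.toC_im,
        hξim, hξ₁]
      linear_combination (((l.2 : ℝ) + ξ₂) ^ 2 / 4) * sqrtThree_mul_self
    have hl : 2 * (l.toC * conj η).re = (l.1 : ℝ) * b₁ + (l.2 : ℝ) * b₂ := by
      simp only [hb₁, hb₂, Complex.mul_re, Complex.conj_re, Complex.conj_im, Eis3.toC_re,
        Eis3.toC_im, omegaC_re, omegaC_im]
      ring
    rw [hn, hl]
    push_cast
    ring
  rw [hTheta, tsum_congr hlhs, tsum_mul_left,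
    Eis.tsum_step hτ (by norm_num : (0 : ℝ) < 2) (fun y : ℤ => ξ₁ - ((y : ℝ) + ξ₂) / 2) b₁ hFs]
  set σ : ℂ := -1 / τ with hσ
  have hσim : 0 < σ.im := Eis.im_neg_inv_pos hτ
  set G : ℤ × ℤ → ℂ := fun mk => gau σ (2 : ℝ)⁻¹ ((mk.1 : ℝ) - b₁) *
    eChar ((ξ₁ - ξ₂ / 2) * ((mk.1 : ℝ) - b₁)) *
    (gau σ (3 / 2 : ℝ)⁻¹ ((mk.2 : ℝ) - (b₂ - ((mk.1 : ℝ) - b₁) / 2)) *
      eChar (ξ₂ * ((mk.2 : ℝ) - (b₂ - ((mk.1 : ℝ) - b₁) / 2)))) with hG
  have hinner : ∀ m : ℤ, gau σ (2 : ℝ)⁻¹ ((m : ℝ) - b₁) *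
      ∑' y : ℤ, eChar ((ξ₁ - ((y : ℝ) + ξ₂) / 2) * ((m : ℝ) - b₁)) * F y =
      rootFactor τ (3 / 2) * ∑' k : ℤ, G (m, k) := by
    intro m
    have e : ∀ y : ℤ, eChar ((ξ₁ - ((y : ℝ) + ξ₂) / 2) * ((m : ℝ) - b₁)) * F y =
        eChar ((ξ₁ - ξ₂ / 2) * ((m : ℝ) - b₁)) * (gau τ (3 / 2) ((y : ℝ) + ξ₂) *
          eChar ((y : ℝ) * (b₂ - ((m : ℝ) - b₁) / 2))) := by
      intro y
      simp only [hF]
      rw [mul_left_comm, ← Eis.eChar_add, mul_left_comm (eChar _), ← Eis.eChar_add]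
      congr 2
      ring
    simp only [e, hG]
    rw [tsum_mul_left, Eis.tsum_gau hτ (by norm_num : (0 : ℝ) < 3 / 2), ← hσ]
    simp only [← tsum_mul_left]
    exact tsum_congr fun k => by ring
  rw [tsum_congr hinner, tsum_mul_left]
  let e : ℤ × ℤ ≃ Eis3 :=
    { toFun := fun mk => (mk.2, -mk.1)
      invFun := fun l => (-l.2, l.1)
      left_inv := fun mk => by simp
      right_inv := fun l => by simp }
  have hrhs : ∀ mk : ℤ × ℤ, eChar (ξ * conj η).re * G mk =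
      hTerm (σ / 3) (sqrtNegThree * η) (-(sqrtNegThree * ξ) / 3) (e mk) := by
    intro mk
    simp only [hG, e, Equiv.coe_fn_mk, hTerm, gau, Eis.eChar, ← Complex.exp_add]
    congr 1
    set A : ℝ := (mk.1 : ℝ) - b₁ with hA
    set B : ℝ := (mk.2 : ℝ) - (b₂ - A / 2) with hB
    have hn : Complex.normSq (Eis3.toC (mk.2, -mk.1) + sqrtNegThree * η) / 3 =
        A ^ 2 / 4 + B ^ 2 / 3 := by
      simp only [hA, hB, hb₁, hb₂, Complex.normSq_apply, Complex.add_re, Complex.add_im,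
        Complex.mul_re, Complex.mul_im, Complex.conj_re, Complex.conj_im, Eis3.toC_re,
        Eis3.toC_im, sqrtNegThree_re, sqrtNegThree_im, omegaC_re, omegaC_im]
      push_cast
      linear_combination ((-(mk.1 : ℝ) / 2 + η.re) ^ 2 / 3) * sqrtThree_mul_self
    have hp : (ξ * conj η).re + ((ξ₁ - ξ₂ / 2) * A + ξ₂ * B) =
        2 * (Eis3.toC (mk.2, -mk.1) * conj (-(sqrtNegThree * ξ) / 3)).re +
          (sqrtNegThree * η * conj (-(sqrtNegThree * ξ) / 3)).re := by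
      simp only [hA, hB, hb₁, hb₂, hξ₁, Complex.mul_re, Complex.mul_im, Complex.conj_re,
        Complex.conj_im, Eis3.toC_re, Eis3.toC_im, sqrtNegThree_re, sqrtNegThree_im, omegaC_re,
        omegaC_im, Complex.div_ofNat_re, Complex.div_ofNat_im, Complex.neg_re, Complex.neg_im, hξim]
      push_cast
      linear_combination (ξ.re * (η.re - (mk.1 : ℝ)) / 3 + ξ₂ * Real.sqrt 3 * η.im / 6 -
        ξ₂ * (mk.1 : ℝ) / 6 - ξ₂ * (mk.2 : ℝ) / 3) * sqrtThree_mul_self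
    have hn' := congrArg (fun x : ℝ => (x : ℂ)) hn
    have hp' := congrArg (fun x : ℝ => (x : ℂ)) hp
    push_cast at hn' hp' ⊢
    linear_combination (-2 * (Real.pi : ℂ) * Complex.I * σ) * hn' +
      (2 * (Real.pi : ℂ) * Complex.I) * hp'
  have hGs : Summable G := by
    have hs : Summable fun mk : ℤ × ℤ => eChar (ξ * conj η).re * G mk := by
      simp only [hrhs]
      exact e.summable_iff.mpr (summable_norm_hTerm (by simp; positivity) _ _).1.of_norm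
    exact (summable_mul_left_iff (Complex.exp_ne_zero _)).mp hs
  rw [← hGs.tsum_prod, ← mul_assoc (rootFactor τ 2), rootFactor_two_three hτ0, mul_left_comm,
    ← tsum_mul_left, tsum_congr hrhs, e.tsum_eq]
  rfl

/-- The behaviour of the hexagonal theta function under `τ ↦ -1 / τ`. -/
theorem hTheta_neg_inv {τ : ℂ} (hτ : 0 < τ.im) (ξ η : ℂ) :
    hTheta (-1 / τ) ξ η = -Complex.I * τ / (Real.sqrt 3 : ℝ) *
      hTheta (τ / 3) (sqrtNegThree * η) (-(sqrtNegThree * ξ) / 3) := by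
  have hτ0 : τ ≠ 0 := fun h => by simp [h] at hτ
  rw [hTheta_functional (Eis.im_neg_inv_pos hτ)]
  congr 1
  · field_simp
  · congr 1
    field_simp

end Fermat.Agent.ResidualThree
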