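import Fermat.Agent.Eis.Gamma0
import Fermat.Agent.ResidualThree.Interfaces
import Fermat.Agent.ResidualThree.ThetaLift.HTheta
import Fermat.Agent.ResidualThree.WeightTwo.Chi

/-!
# The binary theta series under `Γ₀(3)`

The binary theta series with characteristics transforms under `Γ₀(3)` with the character of
conductor `3`; this is proved on the generators `-1`, `T` and a lower unipotent matrix.
-/

noncomputable section

open Matrix Matrix.SpecialLinearGroup CongruenceSubgroup ModularGroup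
open scoped ComplexConjugate MatrixGroups

namespace Fermat.Agent.ResidualThree

/-- `chiC` depends only on the residue modulo `3`. -/
theorem chiC_congr_emod {d e : ℤ} (h : d % 3 = e % 3) : chiC d = chiC e := chiC_congr (by omega)

/-- The diagonal entries of an element of `Γ₀(3)` have inverse characters. -/
theorem chiC_mul_diag {γ : SL(2, ℤ)} (hγ : γ ∈ Gamma0 3) : chiC (γ 0 0) * chiC (γ 1 1) = 1 := by
  rw [← chiC_mul, ← chiC_one]
  apply chiC_congr_emod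
  obtain ⟨k, hk⟩ := Eis.mem_Gamma0_iff_dvd.mp hγ
  have hd := γ.det_coe
  rw [Matrix.det_fin_two, hk] at hd
  push_cast at hd
  rw [show γ 0 0 * γ 1 1 = 1 + 3 * (γ 0 1 * k) by linear_combination hd,
    Int.add_mul_emod_self_left]

/-- The character of the lower right entry is multiplicative on `Γ₀(3)`. -/
theorem chiC_lowerRight_mul {γ : SL(2, ℤ)} (hγ : γ ∈ Gamma0 3) (δ : SL(2, ℤ)) :
    chiC ((γ * δ) 1 1) = chiC (γ 1 1) * chiC (δ 1 1) := by
  rw [← chiC_mul]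
  apply chiC_congr_emod
  obtain ⟨k, hk⟩ := Eis.mem_Gamma0_iff_dvd.mp hγ
  simp only [Matrix.SpecialLinearGroup.coe_mul, Matrix.mul_apply, Fin.sum_univ_two]
  rw [hk]
  push_cast
  rw [mul_assoc, Int.mul_add_emod_self_left]

/-- The factor of automorphy. -/
def jFac (γ : SL(2, ℤ)) (τ : ℂ) : ℂ := (γ 1 0 : ℂ) * τ + (γ 1 1 : ℂ)

theorem jFac_ne_zero (γ : SL(2, ℤ)) (τ : UpperHalfPlane) : jFac γ τ ≠ 0 := by
  have := UpperHalfPlane.denom_ne_zero (γ : GL (Fin 2) ℝ) τ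
  rwa [ModularGroup.denom_apply] at this

theorem coe_smul_eq (γ : SL(2, ℤ)) (τ : UpperHalfPlane) :
    ((γ • τ : UpperHalfPlane) : ℂ) = ((γ 0 0 : ℂ) * τ + (γ 0 1 : ℂ)) / jFac γ τ := by
  rw [UpperHalfPlane.coe_specialLinearGroup_apply]
  simp [jFac]

theorem jFac_mul (γ δ : SL(2, ℤ)) (τ : UpperHalfPlane) :
    jFac (γ * δ) τ = jFac γ ((δ • τ : UpperHalfPlane) : ℂ) * jFac δ τ := by
  have h := jFac_ne_zero δ τ
  rw [coe_smul_eq]
  unfold jFac at h ⊢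
  rw [add_mul, mul_assoc, div_mul_cancel₀ _ h]
  simp only [Matrix.SpecialLinearGroup.coe_mul, Matrix.mul_apply, Fin.sum_univ_two]
  push_cast
  ring

/-- The transformation law. -/
def HasThetaLaw (γ : SL(2, ℤ)) : Prop :=
  ∀ (τ : UpperHalfPlane) (ξ η : ℂ), hTheta ((γ • τ : UpperHalfPlane) : ℂ) ξ η =
    chiC (γ 1 1) * jFac γ τ *
      hTheta τ ((γ 0 0 : ℂ) * ξ + (γ 1 0 : ℂ) * η) ((γ 0 1 : ℂ) * ξ + (γ 1 1 : ℂ) * η)

/-- The elements of `Γ₀(3)` satisfying the law. -/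
def thetaLawGroup : Subgroup SL(2, ℤ) where
  carrier := {γ | γ ∈ Gamma0 3 ∧ HasThetaLaw γ}
  one_mem' := ⟨one_mem _, fun τ ξ η => by simp [jFac, chiC_one]⟩
  mul_mem' := by
    rintro γ δ ⟨hγ, h1⟩ ⟨hδ, h2⟩
    refine ⟨mul_mem hγ hδ, fun τ ξ η => ?_⟩
    rw [mul_smul, h1, h2, jFac_mul]
    rw [chiC_lowerRight_mul hγ δ]
    simp only [Matrix.SpecialLinearGroup.coe_mul, Matrix.mul_apply, Fin.sum_univ_two]
    push_cast
    ring_nf
  inv_mem' := by
    rintro γ ⟨hγ, h1⟩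
    refine ⟨inv_mem hγ, fun τ ξ η => ?_⟩
    have h := h1 (γ⁻¹ • τ) ((γ⁻¹ 0 0 : ℤ) * ξ + (γ⁻¹ 1 0 : ℤ) * η)
      ((γ⁻¹ 0 1 : ℤ) * ξ + (γ⁻¹ 1 1 : ℤ) * η)
    rw [smul_inv_smul] at h
    have hj := jFac_mul γ γ⁻¹ τ
    rw [mul_inv_cancel, show jFac 1 τ = 1 by simp [jFac]] at hj
    have hdet : (γ 0 0 : ℂ) * (γ 1 1 : ℂ) - (γ 0 1 : ℂ) * (γ 1 0 : ℂ) = 1 := by
      exact_mod_cast (Matrix.det_fin_two (γ : Matrix (Fin 2) (Fin 2) ℤ)).symm.trans γ.det_coe
    have hi : (γ⁻¹ : SL(2, ℤ)).1 = !![γ 1 1, -γ 0 1; -γ 1 0, γ 0 0] := by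
      rw [Matrix.SpecialLinearGroup.coe_inv, Matrix.adjugate_fin_two]
    simp only [hi, Matrix.of_apply, Matrix.cons_val', Matrix.cons_val_zero, Matrix.cons_val_one,
      Matrix.empty_val', Matrix.cons_val_fin_one, Int.cast_neg] at h ⊢
    rw [show (γ 0 0 : ℂ) * ((γ 1 1 : ℂ) * ξ + -(γ 1 0 : ℂ) * η) +
        (γ 1 0 : ℂ) * (-(γ 0 1 : ℂ) * ξ + (γ 0 0 : ℂ) * η) = ξ by linear_combination ξ * hdet,
      show (γ 0 1 : ℂ) * ((γ 1 1 : ℂ) * ξ + -(γ 1 0 : ℂ) * η) +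
        (γ 1 1 : ℂ) * (-(γ 0 1 : ℂ) * ξ + (γ 0 0 : ℂ) * η) = η by linear_combination η * hdet] at h
    rw [h]
    linear_combination (-hTheta ((γ⁻¹ • τ : UpperHalfPlane) : ℂ) ξ η) *
      ((jFac γ ((γ⁻¹ • τ : UpperHalfPlane) : ℂ) * jFac γ⁻¹ τ) * chiC_mul_diag hγ - hj)

theorem neg_one_mem_thetaLawGroup : (-1 : SL(2, ℤ)) ∈ thetaLawGroup := by
  refine ⟨Eis.neg_one_mem_Gamma0, fun τ ξ η => ?_⟩
  rw [ModularGroup.SL_neg_smul, one_smul]
  simp [jFac, chiC_neg_one, hTheta_neg]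

theorem T_mem_thetaLawGroup : T ∈ thetaLawGroup := by
  refine ⟨by simp, fun τ ξ η => ?_⟩
  rw [UpperHalfPlane.modular_T_smul, UpperHalfPlane.coe_vadd, Complex.ofReal_one, add_comm,
    hTheta_add_one]
  simp [jFac, chiC_one, coe_T, add_comm]

/-- The element `[[1,0],[3,1]]`. -/
def lowerThreeQ : SL(2, ℤ) := ⟨!![1, 0; 3, 1], by simp [Matrix.det_fin_two_of]⟩

theorem hTheta_periodic_int (τ ξ η : ℂ) (n : ℕ) :
    hTheta (τ + n) ξ η = hTheta τ ξ (η + (n : ℂ) * ξ) := by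
  induction n generalizing η with
  | zero => simp
  | succ n ih =>
    rw [show τ + ((n + 1 : ℕ) : ℂ) = τ + n + 1 by push_cast; ring, hTheta_add_one, ih]
    congr 1
    push_cast
    ring

theorem lowerThreeQ_mem_thetaLawGroup : lowerThreeQ ∈ thetaLawGroup := by
  refine ⟨Eis.mem_Gamma0_iff_dvd.mpr ⟨1, by simp [lowerThreeQ]⟩, fun τ ξ η => ?_⟩
  have h00 : lowerThreeQ 0 0 = 1 := rfl
  have h01 : lowerThreeQ 0 1 = 0 := rfl
  have h10 : lowerThreeQ 1 0 = 3 := rfl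
  have h11 : lowerThreeQ 1 1 = 1 := rfl
  have hj := jFac_ne_zero lowerThreeQ τ
  rw [coe_smul_eq]
  simp only [jFac, h00, h01, h10, h11, Int.cast_one, Int.cast_zero, Int.cast_ofNat, chiC_one,
    one_mul, zero_mul, add_zero, zero_add] at hj ⊢
  have hτ0 : (τ : ℂ) ≠ 0 := τ.ne_zero
  set σ : ℂ := -1 / (τ : ℂ) - 3 with hσ
  have hσim : 0 < σ.im := by
    rw [hσ, Complex.sub_im]
    simpa using Eis.im_neg_inv_pos τ.im_pos
  have hσ0 : σ ≠ 0 := fun h => by simp [h] at hσim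
  have hW : (τ : ℂ) / (3 * τ + 1) = -1 / σ := by
    rw [eq_div_iff hσ0, hσ, div_mul_eq_mul_div, div_eq_iff hj]
    field_simp
    ring
  have hstep : hTheta (σ / 3) (sqrtNegThree * η) (-(sqrtNegThree * ξ) / 3) =
      hTheta (-1 / (3 * (τ : ℂ))) (sqrtNegThree * η)
        (-(sqrtNegThree * ξ) / 3 - sqrtNegThree * η) := by
    have h := hTheta_periodic_int (σ / 3) (sqrtNegThree * η)
      (-(sqrtNegThree * ξ) / 3 - sqrtNegThree * η) 1
    rw [show σ / 3 + ((1 : ℕ) : ℂ) = -1 / (3 * (τ : ℂ)) by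
      rw [hσ]; field_simp; push_cast; ring] at h
    rw [h]
    congr 1
    push_cast
    ring
  rw [hW, hTheta_neg_inv hσim, hstep, hTheta_neg_inv (τ := 3 * (τ : ℂ)) (by simpa using τ.im_pos)]
  rw [show (3 * (τ : ℂ)) / 3 = τ by field_simp]
  have harg1 : sqrtNegThree * (-(sqrtNegThree * ξ) / 3 - sqrtNegThree * η) = ξ + 3 * η := by
    have hs := sqrtNegThree_sq
    linear_combination (-ξ / 3 - η) * hs
  have harg2 : -(sqrtNegThree * (sqrtNegThree * η)) / 3 = η := by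
    have hs := sqrtNegThree_sq
    linear_combination (-η / 3) * hs
  rw [harg1, harg2]
  have hs3 : ((Real.sqrt 3 : ℝ) : ℂ) * ((Real.sqrt 3 : ℝ) : ℂ) = 3 := by
    rw [← Complex.ofReal_mul, sqrtThree_mul_self]; simp
  have hne : ((Real.sqrt 3 : ℝ) : ℂ) ≠ 0 := by simp
  rw [← mul_assoc]
  congr 1
  rw [hσ]
  field_simp
  linear_combination (-1 - 3 * (τ : ℂ)) * hs3 + (-3 - 9 * (τ : ℂ)) * Complex.I_sq

/-- A subgroup containing `-1`, `T` and `[[1,0],[3,1]]` contains `Γ₀(3)`. -/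
theorem gamma0Three_le (H : Subgroup SL(2, ℤ)) (hneg : (-1 : SL(2, ℤ)) ∈ H) (hT : T ∈ H)
    (hW : lowerThreeQ ∈ H) : Gamma0 3 ≤ H := by
  have : Fact (Nat.Prime 3) := ⟨Nat.prime_three⟩
  refine Eis.Gamma0_le_of_generators H hneg hT fun δ hδ => ?_
  have hdet := δ.det_coe
  rw [Matrix.det_fin_two, hδ] at hdet
  push_cast at hdet
  obtain ⟨k, hk⟩ : ∃ k, δ 1 1 = 1 + 3 * k ∨ δ 1 1 = -1 + 3 * k := by
    have h3 : δ 1 1 % 3 ≠ 0 := fun h => by
      obtain ⟨c, hc⟩ := Int.dvd_of_emod_eq_zero h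
      rw [hc] at hdet
      have : (1 : ℤ) = 3 * (δ 0 0 * c - δ 0 1) := by linear_combination -hdet
      omega
    rcases (show δ 1 1 % 3 = 1 ∨ δ 1 1 % 3 = 2 by omega) with h | h
    · exact ⟨δ 1 1 / 3, Or.inl (by omega)⟩
    · exact ⟨δ 1 1 / 3 + 1, Or.inr (by omega)⟩
  rcases hk with hk | hk
  · obtain ⟨m, hm⟩ : ∃ m, δ 0 0 = 1 + 3 * m :=
      ⟨δ 0 1 - δ 0 0 * k, by rw [hk] at hdet; linear_combination hdet⟩
    have e : δ = T ^ m * lowerThreeQ * T ^ k := by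
      ext i j
      simp only [Matrix.SpecialLinearGroup.coe_mul, coe_T_zpow, lowerThreeQ, Matrix.mul_apply,
        Fin.sum_univ_two]
      fin_cases i <;> fin_cases j <;> simp [hk, hδ]
      · linear_combination hm
      · rw [hk, hm] at hdet; linarith
      · ring
    rw [e]
    exact mul_mem (mul_mem (Subgroup.zpow_mem _ hT m) hW) (Subgroup.zpow_mem _ hT k)
  · obtain ⟨m, hm⟩ : ∃ m, δ 0 0 = -1 + 3 * m :=
      ⟨δ 0 0 * k - δ 0 1, by rw [hk] at hdet; linear_combination -hdet⟩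
    have e : δ = T ^ m * (-lowerThreeQ⁻¹) * T ^ k := by
      ext i j
      simp only [Matrix.SpecialLinearGroup.coe_mul, coe_T_zpow, lowerThreeQ, Matrix.mul_apply,
        Fin.sum_univ_two, Matrix.SpecialLinearGroup.coe_neg, Matrix.SpecialLinearGroup.coe_inv,
        Matrix.adjugate_fin_two]
      fin_cases i <;> fin_cases j <;> simp [hk, hδ]
      · linear_combination hm
      · rw [hk, hm] at hdet; linarith
      · ring
    rw [e, ← neg_one_mul lowerThreeQ⁻¹]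
    exact mul_mem (mul_mem (Subgroup.zpow_mem _ hT m)
      (mul_mem hneg (inv_mem hW))) (Subgroup.zpow_mem _ hT k)

/-- **The transformation law of the binary theta series under `Γ₀(3)`.** -/
theorem hTheta_law {γ : SL(2, ℤ)} (hγ : γ ∈ Gamma0 3) : HasThetaLaw γ :=
  (gamma0Three_le thetaLawGroup neg_one_mem_thetaLawGroup T_mem_thetaLawGroup
    lowerThreeQ_mem_thetaLawGroup hγ).2

end Fermat.Agent.ResidualThree
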