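import Fermat.Agent.Eis.Poisson
import Fermat.Agent.ResidualThree.ThetaLift.Correspond

/-!
# The Hecke operator of a split prime on a Bianchi datum

The sum of the translates of a Bianchi datum by the matrices `[[1, b], [0, π]]` and
`diag (π, 1)` is `√p c(π)` times the datum. This gives the Hecke relation of the lift.
-/

noncomputable section

open Finset
open scoped ComplexConjugate

namespace Fermat.Agent.ResidualThree

open Eis (eChar)

local notation "Γℚ" => (AlgebraicClosure ℚ ≃ₐ[ℚ] AlgebraicClosure ℚ)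

/-- `[[1, b], [0, π]]`. -/
def gUp (π : Eis3) (hπ : π ≠ (0, 0)) (b : ℤ) : GL (Fin 2) ℂ :=
  Matrix.GeneralLinearGroup.mkOfDetNeZero !![1, (b : ℂ); 0, π.toC]
    (by simpa using mt Eis3.toC_eq_zero.mp hπ)

/-- `diag (π, 1)`. -/
def gDiag (π : Eis3) (hπ : π ≠ (0, 0)) : GL (Fin 2) ℂ :=
  Matrix.GeneralLinearGroup.mkOfDetNeZero !![π.toC, 0; 0, 1]
    (by simpa using mt Eis3.toC_eq_zero.mp hπ)

theorem gUp_smul (π : Eis3) (hπ : π ≠ (0, 0)) (b : ℤ) (q : H3) :
    (gUp π hπ b • q).z = (q.z + b) * conj π.toC / (π.norm : ℂ) ∧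
      (gUp π hπ b • q).y = q.y / Real.sqrt π.norm := by
  have hn : (0 : ℝ) < π.norm := by
    exact_mod_cast Nat.pos_of_ne_zero (mt Eis3.norm_eq_zero.mp hπ)
  have hd : H3.denom (gUp π hπ b) q = π.norm := by
    rw [← Eis3.normSq_toC]
    simp [H3.denom, gUp, Matrix.GeneralLinearGroup.mkOfDetNeZero]
  refine ⟨?_, ?_⟩
  · rw [H3.smul_z, hd]
    simp [gUp, Matrix.GeneralLinearGroup.mkOfDetNeZero]
  · rw [H3.smul_y, hd]
    simp [gUp, Matrix.GeneralLinearGroup.mkOfDetNeZero, Complex.norm_def, Eis3.normSq_toC]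
    field_simp
    rw [Real.sq_sqrt hn.le]
    ring

theorem gDiag_smul (π : Eis3) (hπ : π ≠ (0, 0)) (q : H3) :
    (gDiag π hπ • q).z = π.toC * q.z ∧ (gDiag π hπ • q).y = q.y * Real.sqrt π.norm := by
  have hd : H3.denom (gDiag π hπ) q = 1 := by
    simp [H3.denom, gDiag, Matrix.GeneralLinearGroup.mkOfDetNeZero]
  refine ⟨?_, ?_⟩
  · rw [H3.smul_z, hd]
    simp [gDiag, Matrix.GeneralLinearGroup.mkOfDetNeZero]
  · rw [H3.smul_y, hd]
    simp [gDiag, Matrix.GeneralLinearGroup.mkOfDetNeZero, Complex.norm_def, Eis3.normSq_toC,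
      mul_comm]

/-- A basic wave. -/
def eisWave (x : Eis3) (q : H3) : ℂ :=
  ((q.y * besselK0 (4 * Real.pi * ‖x.toC‖ * q.y / Real.sqrt 3) : ℝ) : ℂ) *
    eChar (2 * (x.toC * q.z / sqrtNegThree).re)

theorem BianchiDatum.hasSum_wave {ρ : Γℚ →* GL (Fin 2) (ZMod 3)} {n₀ : ℕ}
    (d : BianchiDatum ρ n₀) (q : H3) : HasSum (fun x => (d.c x : ℂ) * eisWave x q) (d.F q) := by
  refine (d.expansion q).congr_fun fun x => ?_
  rw [eisWave, Eis.eChar]
  ring

/-- The character of the fibre of a non-multiple of `π` is a nontrivial `p`th root of unity. -/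
theorem eChar_split_root {p D : ℕ} [Fact p.Prime] {π : Eis3} (hπ : π.norm = p) (hp3 : p ≠ 3)
    (hD : ¬ p ∣ D) {x : Eis3} (hx' : ¬ Eis3.dvd π x) :
    eChar (((D : ℤ) * (Eis3.mul x (Eis3.bar π)).2 : ℤ) / (p : ℝ)) ^ p = 1 ∧
      eChar (((D : ℤ) * (Eis3.mul x (Eis3.bar π)).2 : ℤ) / (p : ℝ)) ≠ 1 := by
  have hp := (Fact.out : p.Prime)
  have hprime := Eis3.isPrimeElt_of_norm hp hπ
  obtain ⟨r, hrr, hdvd⟩ := exists_root hπ
  set X : Eis3 := Eis3.mul x (Eis3.bar π) with hX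
  set ζ : ℂ := eChar (((D : ℤ) * X.2 : ℤ) / (p : ℝ)) with hζ
  have hXp : (X.2 : ZMod p) ≠ 0 := by
    intro h0
    have hu : ∀ z : Eis3, (((Eis3.mul z (Eis3.bar π)).1 : ℤ) : ZMod p) +
        (Eis3.mul z (Eis3.bar π)).2 * r ^ 2 = 0 := fun z => by
      have hπr := (hdvd π).mp ⟨(1, 0), Eis3.mul_one π⟩
      simp only [Eis3.mul, Eis3.bar]
      push_cast
      linear_combination ((z.1 : ZMod p) - z.2 - z.2 * r) * hπr +
        ((z.2 : ZMod p) * (π.2 : ZMod p) - (z.1 : ZMod p) * π.2 + (z.2 : ZMod p) * π.1) * hrr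
    have h1 := hu x
    rw [← hX, h0, zero_mul, add_zero] at h1
    have hd : Eis3.dvd π X := (hdvd X).mpr (by rw [h0, h1]; ring)
    rcases hprime.2 x (Eis3.bar π) hd with h2 | h2
    · exact hx' h2
    · exact Eis3.not_dvd_bar hp hp3 hπ h2
  have hζp : ζ ^ p = 1 := by
    rw [hζ, Eis.eChar, ← Complex.exp_nat_mul]
    push_cast
    rw [show (p : ℂ) * (2 * (Real.pi : ℂ) * Complex.I * (((D : ℂ) * X.2) / (p : ℂ))) =
      ((D : ℤ) * X.2 : ℤ) * (2 * Real.pi * Complex.I) by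
        have hpC : (p : ℂ) ≠ 0 := Nat.cast_ne_zero.mpr hp.ne_zero
        push_cast; field_simp]
    exact Complex.exp_int_mul_two_pi_mul_I _
  have hζ1 : ζ ≠ 1 := by
    intro h1
    rw [hζ, Eis.eChar, Complex.exp_eq_one_iff] at h1
    obtain ⟨c, hc⟩ := h1
    have h2 : ((((D : ℤ) * X.2 : ℤ) : ℝ) / (p : ℝ) : ℂ) = (c : ℂ) := by
      refine mul_left_cancel₀ (show (2 * (Real.pi : ℂ) * Complex.I) ≠ 0 by
        simp [Real.pi_ne_zero]) ?_
      push_cast at hc ⊢
      linear_combination hc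
    have hpC : (p : ℂ) ≠ 0 := Nat.cast_ne_zero.mpr hp.ne_zero
    push_cast at h2
    rw [div_eq_iff hpC] at h2
    have h3 : ((D : ℤ) * X.2 : ℤ) = c * (p : ℤ) := by exact_mod_cast h2
    have h4 := congrArg (fun z : ℤ => (z : ZMod p)) h3
    simp only [Int.cast_mul, Int.cast_natCast, ZMod.natCast_self, mul_zero] at h4
    rcases mul_eq_zero.mp h4 with h5 | h5
    · exact hD ((ZMod.natCast_eq_zero_iff D p).mp h5)
    · exact hXp h5
  exact ⟨hζp, hζ1⟩

/-- **The datum is an eigenfunction of the Hecke operator of a split prime.** -/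
theorem BianchiDatum.hecke_split {ρ : Γℚ →* GL (Fin 2) (ZMod 3)} {n₀ : ℕ}
    (d : BianchiDatum ρ n₀) {p D : ℕ} [Fact p.Prime] {π : Eis3} (hπ : π.norm = p) (hp3 : p ≠ 3)
    (hn : ¬ p ∣ n₀) (hD : ¬ p ∣ D) (hπ0 : π ≠ (0, 0)) (q : H3) :
    ∑ k : Fin p, d.F (gUp π hπ0 ((D : ℤ) * (k : ℕ)) • q) + d.F (gDiag π hπ0 • q) =
      ((Real.sqrt p : ℝ) : ℂ) * (d.c π : ℂ) * d.F q := by
  have hp := (Fact.out : p.Prime)
  have hprime := Eis3.isPrimeElt_of_norm hp hπ
  obtain ⟨r, hrr, hdvd⟩ := exists_root hπ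
  have hπn : ¬ Eis3.dvd π ((n₀ : ℤ), 0) := fun h => hn (by
    have := (hdvd _).mp h
    simpa [ZMod.natCast_eq_zero_iff] using this)
  have hpr : (0 : ℝ) < p := by exact_mod_cast hp.pos
  set s : ℝ := Real.sqrt p with hs
  have hs0 : 0 < s := Real.sqrt_pos.mpr hpr
  have hs2 : s * s = p := Real.mul_self_sqrt hpr.le
  have hinj : Function.Injective (fun x : Eis3 => Eis3.mul π x) := fun x y h =>
    Eis3.mul_left_cancel hπ0 h
  have hnormπ : ∀ x : Eis3, ‖(Eis3.mul π x).toC‖ = s * ‖x.toC‖ := fun x => by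
    rw [Eis3.toC_mul, norm_mul, Complex.norm_def, Eis3.normSq_toC, hπ]
  set base : Eis3 → ℂ := fun y => ((s : ℝ) : ℂ) * (d.c (Eis3.mul π y) : ℂ) * eisWave y q with hbase
  have hS1 : HasSum base (∑ k : Fin p, d.F (gUp π hπ0 ((D : ℤ) * (k : ℕ)) • q)) := by
    have h1 := hasSum_sum (s := (univ : Finset (Fin p))) fun k _ =>
      d.hasSum_wave (gUp π hπ0 ((D : ℤ) * (k : ℕ)) • q)
    rw [← hinj.hasSum_iff] at h1
    · refine h1.congr_fun fun y => ?_
      simp only [hbase, Function.comp_apply, eisWave]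
      have hval : ∀ k : Fin p, 2 * ((Eis3.mul π y).toC *
          (gUp π hπ0 ((D : ℤ) * (k : ℕ)) • q).z / sqrtNegThree).re =
          2 * (y.toC * q.z / sqrtNegThree).re + (((D : ℤ) * (k : ℕ) * y.2 : ℤ) : ℝ) := by
        intro k
        have hpC : (p : ℂ) ≠ 0 := Nat.cast_ne_zero.mpr hp.ne_zero
        have hc : π.toC * conj π.toC = (p : ℂ) := by
          rw [Complex.mul_conj, Eis3.normSq_toC, hπ, Complex.ofReal_natCast]
        rw [(gUp_smul π hπ0 _ q).1, hπ, Eis3.toC_mul,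
          show π.toC * y.toC * ((q.z + (((D : ℤ) * (k : ℕ) : ℤ) : ℂ)) * conj π.toC / (p : ℂ)) /
            sqrtNegThree = y.toC * q.z / sqrtNegThree +
              (((D : ℤ) * (k : ℕ) : ℤ) : ℝ) * (y.toC / sqrtNegThree) by
            rw [show π.toC * y.toC * ((q.z + (((D : ℤ) * (k : ℕ) : ℤ) : ℂ)) *
              conj π.toC / (p : ℂ)) =
              (π.toC * conj π.toC) / (p : ℂ) * (y.toC * (q.z + (((D : ℤ) * (k : ℕ) : ℤ) : ℂ))) by
                ring, hc, div_self hpC]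
            push_cast
            ring,
          Complex.add_re, Complex.re_ofReal_mul, mul_add, mul_left_comm 2,
          Eis3.div_sqrtNegThree_re]
        push_cast
        ring
      simp only [hval, Eis.eChar_add, (gUp_smul π hπ0 _ q).2, hπ, ← hs, hnormπ]
      have hone : ∀ k : Fin p, eChar ((((D : ℤ) * (k : ℕ) * y.2 : ℤ) : ℝ)) = 1 := fun k => by
        rw [Eis.eChar]
        push_cast
        rw [show 2 * (Real.pi : ℂ) * Complex.I * ((D : ℂ) * (k : ℕ) * y.2) =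
          ((D : ℤ) * (k : ℕ) * y.2 : ℤ) * (2 * Real.pi * Complex.I) by push_cast; ring]
        exact Complex.exp_int_mul_two_pi_mul_I _
      simp only [hone, mul_one, Finset.sum_const, Finset.card_univ, Fintype.card_fin, nsmul_eq_mul]
      have harg : 4 * Real.pi * (s * ‖y.toC‖) * (q.y / s) / Real.sqrt 3 =
          4 * Real.pi * ‖y.toC‖ * q.y / Real.sqrt 3 := by field_simp
      rw [harg]
      have hsC : ((s : ℝ) : ℂ) * ((s : ℝ) : ℂ) = (p : ℂ) := by
        rw [← Complex.ofReal_mul, hs2, Complex.ofReal_natCast]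
      push_cast
      have hs' : ((s : ℝ) : ℂ) ≠ 0 := Complex.ofReal_ne_zero.mpr hs0.ne'
      field_simp
      linear_combination ((q.y : ℂ) *
        (besselK0 (4 * Real.pi * ‖y.toC‖ * q.y / Real.sqrt 3) : ℂ) *
        eChar (2 * (y.toC * q.z / sqrtNegThree).re) * (d.c (Eis3.mul π y) : ℂ)) * hsC
    · intro x hx
      have hx' : ¬ Eis3.dvd π x := fun ⟨z, hz⟩ => hx ⟨z, hz⟩
      set X : Eis3 := Eis3.mul x (Eis3.bar π) with hX
      set ζ : ℂ := eChar (((D : ℤ) * X.2 : ℤ) / (p : ℝ)) with hζ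
      set C : ℂ := (d.c x : ℂ) *
        ((((q.y / s) * besselK0 (4 * Real.pi * ‖x.toC‖ * (q.y / s) / Real.sqrt 3) : ℝ)) : ℂ) *
          eChar (2 * (x.toC * (q.z * conj π.toC / (p : ℂ)) / sqrtNegThree).re)
      have hval : ∀ k : Fin p,
          (d.c x : ℂ) * eisWave x (gUp π hπ0 ((D : ℤ) * (k : ℕ)) • q) = C * ζ ^ (k : ℕ) := by
        intro k
        simp only [eisWave, C, (gUp_smul π hπ0 _ q).1, (gUp_smul π hπ0 _ q).2, hπ, ← hs]
        rw [show x.toC * ((q.z + (((D : ℤ) * (k : ℕ) : ℤ) : ℂ)) * conj π.toC / (p : ℂ)) /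
            sqrtNegThree = x.toC * (q.z * conj π.toC / (p : ℂ)) / sqrtNegThree +
              ((((D : ℤ) * (k : ℕ) : ℤ) / (p : ℝ) : ℝ) : ℂ) * (X.toC / sqrtNegThree) by
            rw [hX, Eis3.toC_mul, Eis3.toC_bar]
            push_cast
            ring, Complex.add_re, Complex.re_ofReal_mul, mul_add, mul_left_comm 2,
          Eis3.div_sqrtNegThree_re, Eis.eChar_add]
        rw [show eChar ((((D : ℤ) * (k : ℕ) : ℤ) / (p : ℝ)) * (X.2 : ℝ)) = ζ ^ (k : ℕ) by
          rw [hζ, Eis.eChar, Eis.eChar, ← Complex.exp_nat_mul]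
          congr 1
          push_cast
          ring]
        ring
      rw [Finset.sum_congr rfl fun k _ => hval k, ← Finset.mul_sum,
        Fin.sum_univ_eq_sum_range (fun k => ζ ^ k) p]
      obtain ⟨hζp, hζ1⟩ := eChar_split_root hπ hp3 hD hx'
      rw [geom_sum_eq hζ1, hζp]
      simp
  set G : Eis3 → ℂ := fun y => ((s : ℝ) : ℂ) * (d.c π : ℂ) * ((d.c y : ℂ) * eisWave y q) - base y
    with hG
  have hGs : HasSum G (((s : ℝ) : ℂ) * (d.c π : ℂ) * d.F q -
      ∑ k : Fin p, d.F (gUp π hπ0 ((D : ℤ) * (k : ℕ)) • q)) :=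
    ((d.hasSum_wave q).mul_left _).sub hS1
  rw [← hinj.hasSum_iff] at hGs
  · have hS2 : HasSum (G ∘ fun x => Eis3.mul π x) (d.F (gDiag π hπ0 • q)) := by
      refine (d.hasSum_wave (gDiag π hπ0 • q)).congr_fun fun x => ?_
      have hrec : (d.c (Eis3.mul π (Eis3.mul π x)) : ℂ) =
          (d.c π : ℂ) * (d.c (Eis3.mul π x) : ℂ) - (d.c x : ℂ) := by
        exact_mod_cast congrArg (fun z : ℤ => (z : ℂ)) (d.c_rec π x hprime hπn)
      simp only [hG, hbase, Function.comp_apply, hrec, eisWave, (gDiag_smul π hπ0 q).1,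
        (gDiag_smul π hπ0 q).2, hπ, ← hs, hnormπ]
      simp only [Eis3.toC_mul]
      rw [show π.toC * x.toC * q.z = x.toC * (π.toC * q.z) by ring,
        show 4 * Real.pi * ‖x.toC‖ * (q.y * s) / Real.sqrt 3 =
          4 * Real.pi * (s * ‖x.toC‖) * q.y / Real.sqrt 3 by ring]
      push_cast
      ring
    rw [hS2.unique hGs]
    ring
  · intro y hy
    have hy' : ¬ Eis3.dvd π y := fun ⟨z, hz⟩ => hy ⟨z, hz⟩
    simp only [hG, hbase, d.c_prime_mul π y hprime hπn hy']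
    push_cast
    ring

end Fermat.Agent.ResidualThree
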