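import Fermat.Agent.ResidualThree.Spherical.Radial

/-!
# Functions invariant under all horospherical averages

A continuous function equal to all its horospherical averages is midpoint affine. This is used
to show that the constant term of the lift vanishes.
-/

noncomputable section

open MeasureTheory Filter Set
open scoped Topology Interval

namespace Fermat.Agent.ResidualThree

/-- A tent of width `1/(n+1)` around `C`. -/
def tentKernel (C : ℝ) (n : ℕ) (u : ℝ) : ℂ :=
  ((((n : ℝ) + 1) * max 0 (1 - |((n : ℝ) + 1) * (u - C)|) : ℝ) : ℂ)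

theorem isKernel_tentKernel (C : ℝ) (n : ℕ) : H3.IsKernel (tentKernel C n) := by
  refine ⟨by unfold tentKernel; fun_prop,
    HasCompactSupport.intro (isCompact_Icc (a := C - 1) (b := C + 1)) fun u hu => ?_⟩
  have h1 : 1 < |u - C| := by
    rw [Set.mem_Icc, not_and_or, not_le, not_le] at hu
    rcases hu with h | h
    · exact lt_of_lt_of_le (by linarith) (neg_le_abs (u - C))
    · exact lt_of_lt_of_le (by linarith) (le_abs_self (u - C))
  have h2 : 1 ≤ |((n : ℝ) + 1) * (u - C)| := by
    rw [abs_mul, abs_of_pos (by positivity : (0 : ℝ) < (n : ℝ) + 1)]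
    nlinarith [(Nat.cast_nonneg n : (0 : ℝ) ≤ n)]
  rw [tentKernel, max_eq_left (by linarith), mul_zero, Complex.ofReal_zero]

/-- The mass of the tent. -/
def tentMass : ℝ := ∫ x : ℝ, max 0 (1 - |x|)

theorem integrable_tent : Integrable fun x : ℝ => max 0 (1 - |x|) := by
  refine Continuous.integrable_of_hasCompactSupport (by fun_prop)
    (HasCompactSupport.intro (isCompact_Icc (a := (-1 : ℝ)) (b := 1)) fun x hx => ?_)
  rw [Set.mem_Icc, ← abs_le, not_le] at hx
  exact max_eq_left (by linarith)

theorem tentMass_pos : 0 < tentMass := by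
  refine integral_pos_of_integrable_nonneg_nonzero (x := 0) (by fun_prop) integrable_tent
    (fun x => le_max_left _ _) ?_
  simp

/-- The tail of a tent kernel. -/
theorem tail_tentKernel (C : ℝ) (n : ℕ) (c : ℝ) :
    ∫ u in Ioi c, tentKernel C n u =
      ((∫ x in Ioi (((n : ℝ) + 1) * (c - C)), max 0 (1 - |x|) : ℝ) : ℂ) := by
  simp only [tentKernel]
  rw [integral_complex_ofReal, integral_const_mul]
  congr 1
  have h := integral_comp_mul_left_Ioi (fun x => max 0 (1 - |x|)) (c - C)
    (show (0 : ℝ) < (n : ℝ) + 1 by positivity)
  simp only [smul_eq_mul] at h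
  have h2 : ∫ u in Ioi c, max 0 (1 - |((n : ℝ) + 1) * (u - C)|) =
      ∫ u in Ioi (c - C), max 0 (1 - |((n : ℝ) + 1) * u|) := by
    rw [← integral_indicator measurableSet_Ioi, ← integral_indicator measurableSet_Ioi]
    conv_rhs => rw [← integral_sub_right_eq_self _ C]
    congr 1
    ext u
    simp [Set.indicator_apply]
  rw [h2, h, ← mul_assoc, mul_inv_cancel₀ (by positivity), one_mul]

theorem tail_tent_bounds (c : ℝ) :
    0 ≤ ∫ x in Ioi c, max 0 (1 - |x|) ∧ ∫ x in Ioi c, max 0 (1 - |x|) ≤ tentMass :=
  ⟨setIntegral_nonneg measurableSet_Ioi fun _x _ => le_max_left _ _,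
    setIntegral_le_integral integrable_tent (Eventually.of_forall fun _x => le_max_left _ _)⟩

theorem tail_tent_of_ge {c : ℝ} (hc : 1 ≤ c) : ∫ x in Ioi c, max 0 (1 - |x|) = 0 :=
  setIntegral_eq_zero_of_forall_eq_zero fun x (hx : c < x) =>
    max_eq_left (by rw [abs_of_pos (by linarith)]; linarith)

theorem tail_tent_of_le {c : ℝ} (hc : c ≤ -1) : ∫ x in Ioi c, max 0 (1 - |x|) = tentMass :=
  setIntegral_eq_integral_of_forall_compl_eq_zero fun x hx =>
    max_eq_left (by
      rw [Set.mem_Ioi, not_lt] at hx
      rw [abs_of_neg (by linarith)]; linarith)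

/-- A continuous function fixed by all horospherical averages has the midpoint property. -/
theorem midpoint_of_abel {P : ℝ → ℂ} (hP : Continuous P)
    (h : ∀ k : ℝ → ℂ, H3.IsKernel k → ∀ r,
      ∫ u, abelTransform k u * (P (r - u) - P r) = 0)
    (r t : ℝ) : P (r + t) + P (r - t) = 2 * P r := by
  set q : ℝ → ℂ := fun u => P (r - u) - P r with hq
  have hqc : Continuous q := by fun_prop
  have key : ∀ s : ℝ, 0 < s → ∫ u in Ioo (-s) s, q u = 0 := by
    intro s hs
    set C := Real.cosh s
    have hC1 : 1 ≤ C := Real.one_le_cosh s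
    set R := Real.arcosh (C + 1)
    have hlim : Tendsto (fun n : ℕ => ∫ u, abelTransform (tentKernel C n) u * q u) atTop
        (𝓝 (∫ u, (Ioo (-s) s).indicator (fun u => 2 * (Real.pi : ℂ) * tentMass * q u) u)) := by
      refine tendsto_integral_of_dominated_convergence
        (fun u => (Icc (-R) R).indicator (fun u => 2 * Real.pi * tentMass * ‖q u‖) u)
        (fun n => ((isKernel_tentKernel C n).continuous_abel.mul hqc).aestronglyMeasurable)
        ?_ (fun n => Eventually.of_forall fun u => ?_) ?_
      · rw [integrable_indicator_iff measurableSet_Icc]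
        exact (by fun_prop : Continuous fun u => 2 * Real.pi * tentMass * ‖q u‖).integrableOn_Icc
      · rw [abelTransform, tail_tentKernel]
        by_cases hu : u ∈ Icc (-R) R
        · rw [indicator_of_mem hu, norm_mul, norm_mul, norm_mul, Complex.norm_real,
            Complex.norm_two,
            Complex.norm_real, Real.norm_eq_abs, Real.norm_eq_abs, abs_of_pos Real.pi_pos,
            abs_of_nonneg (tail_tent_bounds _).1]
          gcongr
          exact (tail_tent_bounds _).2
        · rw [indicator_of_notMem hu]
          have h2 : C + 1 < Real.cosh u := by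
            rw [← Real.cosh_arcosh (show 1 ≤ C + 1 by linarith)]
            refine Real.cosh_lt_cosh.mpr ?_
            rw [Set.mem_Icc, ← abs_le, not_le] at hu
            rwa [abs_of_nonneg (Real.arcosh_nonneg (show 1 ≤ C + 1 by linarith))]
          rw [tail_tent_of_ge (by nlinarith [(Nat.cast_nonneg n : (0 : ℝ) ≤ n)])]
          simp
      · filter_upwards [(Set.finite_singleton s).countable.ae_notMem (μ := volume),
          (Set.finite_singleton (-s)).countable.ae_notMem (μ := volume)] with u hu1 hu2
        simp only [Set.mem_singleton_iff] at hu1 hu2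
        simp only [abelTransform, tail_tentKernel]
        rcases lt_trichotomy |u| s with hlt | heq | hgt
        · rw [indicator_of_mem (show u ∈ Ioo (-s) s from abs_lt.mp hlt)]
          refine (tendsto_const_nhds.congr' ?_)
          have hd : 0 < C - Real.cosh u := sub_pos.mpr (Real.cosh_lt_cosh.mpr (by
            rwa [abs_of_pos hs]))
          obtain ⟨N, hN⟩ := exists_nat_ge (1 / (C - Real.cosh u))
          filter_upwards [eventually_ge_atTop N] with n hn
          rw [tail_tent_of_le]
          have h1 : 1 / (C - Real.cosh u) ≤ (n : ℝ) + 1 :=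
            hN.trans (by exact_mod_cast Nat.le_succ_of_le hn)
          rw [div_le_iff₀ hd] at h1
          nlinarith
        · rcases abs_eq hs.le |>.mp heq with h' | h'
          · exact absurd h' hu1
          · exact absurd h' hu2
        · rw [indicator_of_notMem (show u ∉ Ioo (-s) s from fun h' =>
            absurd (abs_lt.mpr h') (not_lt.mpr hgt.le))]
          refine (tendsto_const_nhds.congr' ?_)
          have hd : 0 < Real.cosh u - C := sub_pos.mpr (Real.cosh_lt_cosh.mpr (by
            rwa [abs_of_pos hs]))
          obtain ⟨N, hN⟩ := exists_nat_ge (1 / (Real.cosh u - C))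
          filter_upwards [eventually_ge_atTop N] with n hn
          rw [tail_tent_of_ge]
          · simp
          · have h1 : 1 / (Real.cosh u - C) ≤ (n : ℝ) + 1 :=
              hN.trans (by exact_mod_cast Nat.le_succ_of_le hn)
            rw [div_le_iff₀ hd] at h1
            linarith
    simp only [hq, h _ (isKernel_tentKernel C _) r] at hlim
    have h0 := tendsto_nhds_unique tendsto_const_nhds hlim
    rw [integral_indicator measurableSet_Ioo, integral_const_mul] at h0
    refine (mul_eq_zero.mp h0.symm).resolve_left ?_
    have := tentMass_pos.ne'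
    simp [Real.pi_ne_zero, this]
  suffices ∀ t, 0 < t → q t + q (-t) = 0 by
    rcases lt_trichotomy t 0 with ht | ht | ht
    · have h1 := this (-t) (by linarith)
      simp only [hq, neg_neg, sub_neg_eq_add] at h1
      linear_combination h1
    · subst ht; simp; ring
    · have h1 := this t ht
      simp only [hq, sub_neg_eq_add] at h1
      linear_combination h1
  intro t ht
  have hA : ∀ s : ℝ, HasDerivAt (fun s => ∫ u in (-s)..s, q u) (q s + q (-s)) s := by
    intro s
    have h1 := intervalIntegral.integral_hasDerivAt_right (hqc.intervalIntegrable 0 s)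
      (hqc.stronglyMeasurableAtFilter _ _) hqc.continuousAt
    have h2 := (intervalIntegral.integral_hasDerivAt_right (hqc.intervalIntegrable 0 (-s))
      (hqc.stronglyMeasurableAtFilter _ _) hqc.continuousAt).scomp s (hasDerivAt_neg s)
    have h3 : HasDerivAt (fun s => (∫ u in (0 : ℝ)..s, q u) - ∫ u in (0 : ℝ)..(-s), q u)
        (q s + q (-s)) s := by
      convert! h1.sub h2 using 1
      simp
    refine h3.congr_of_eventuallyEq (Eventually.of_forall fun x => ?_)
    exact (intervalIntegral.integral_interval_sub_left (hqc.intervalIntegrable _ _)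
      (hqc.intervalIntegrable _ _)).symm
  have hev : (fun s => ∫ u in (-s)..s, q u) =ᶠ[𝓝 t] fun _ => 0 := by
    filter_upwards [lt_mem_nhds ht] with s hs
    rw [intervalIntegral.integral_of_le (by linarith), integral_Ioc_eq_integral_Ioo]
    exact key s hs
  exact (hA t).unique ((hasDerivAt_const t (0 : ℂ)).congr_of_eventuallyEq hev)

end Fermat.Agent.ResidualThree
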