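import Fermat.Agent.ResidualThree.ThetaLift.Vec

/-!
# Multiplicities in the lattice correspondence at a split prime

The number of solutions of the congruences counting the preimages of a form under the
correspondence of a split prime.
-/

noncomputable section

open Finset

namespace Fermat.Agent.ResidualThree

/-- The counting lemma over a finite field. -/
theorem card_hecke_solutions {K : Type*} [Field K] [Fintype K] [DecidableEq K] {a d u w : K}
    (h : u * w = a * d) :
    (univ.filter fun x : K => u + x * d = 0 ∧ a + x * (u + w) + x ^ 2 * d = 0).card +
        (if w = 0 ∧ d = 0 then 1 else 0) =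
      1 + (if a = 0 ∧ u = 0 ∧ w = 0 ∧ d = 0 then Fintype.card K else 0) := by
  by_cases hd : d = 0
  swap
  · have hs : (univ.filter fun x : K => u + x * d = 0 ∧ a + x * (u + w) + x ^ 2 * d = 0) =
        {-u / d} := by
      ext x
      simp only [mem_filter, mem_univ, true_and, mem_singleton]
      constructor
      · rintro ⟨h1, -⟩
        rw [eq_div_iff hd]
        linear_combination h1
      · rintro rfl
        constructor
        · rw [div_mul_cancel₀ _ hd, add_neg_cancel]
        · field_simp
          linear_combination -h
    rw [hs, card_singleton]
    simp [hd]
  subst hd
  simp only [mul_zero, mul_eq_zero] at h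
  by_cases hu : u = 0
  swap
  · have hw : w = 0 := h.resolve_left hu
    simp [hu, hw]
  subst hu
  by_cases hw : w = 0
  · subst hw
    by_cases ha : a = 0
    · subst ha
      simp [add_comm]
    · simp [ha]
  · have hs : (univ.filter fun x : K => a + x * w = 0) = {-a / w} := by
      ext x
      simp only [mem_filter, mem_univ, true_and, mem_singleton, eq_div_iff hw]
      constructor <;> intro h1 <;> linear_combination h1
    simp [hw, hs]

end Fermat.Agent.ResidualThree
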