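import Fermat.Agent.ResidualThree.ThetaLift.Midpoint
import Fermat.Agent.ResidualThree.ThetaLift.Shell

/-!
# The shell of index zero

The functional `nullFun`, a shell integral of index zero in logarithmic scale, is fixed by the
horospherical average of every kernel, so it vanishes when it tends to zero.
-/

noncomputable section

open MeasureTheory Set Filter
open scoped ComplexConjugate ENNReal Topology

namespace Fermat.Agent.ResidualThree

namespace HermVec

/-- A form of index zero is a multiple of a translate of the cusp form `(1, 0, 0)`. -/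
theorem exists_null_rep {x : HermVec} (hx : x.Q = 0) :
    ∃ (g : GL (Fin 2) ℂ) (c : ℝ), ‖(g : Matrix (Fin 2) (Fin 2) ℂ).det‖ = 1 ∧
      ∀ q : H3, x.T (g • q) = c / q.y := by
  by_cases hd : x.d = 0
  · refine ⟨1, x.a, by simp, fun q => ?_⟩
    have hb : x.b = 0 := by
      rw [Q, hd, mul_zero, sub_zero] at hx
      exact Complex.normSq_eq_zero.mp hx
    simp [T, hd, hb]
  · set w : ℂ := x.b / (x.d : ℂ)
    let g : GL (Fin 2) ℂ := Matrix.GeneralLinearGroup.mkOfDetNeZero !![w, -1; 1, 0] (by simp)
    have hdet : ‖(g : Matrix (Fin 2) (Fin 2) ℂ).det‖ = 1 := by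
      simp [g, Matrix.GeneralLinearGroup.mkOfDetNeZero]
    refine ⟨g, x.d, hdet, fun q => ?_⟩
    have hd' : (x.d : ℂ) ≠ 0 := by exact_mod_cast hd
    have hg : g • (⟨x.d, 0, 0⟩ : HermVec) = x := by
      apply toHerm_injective
      rw [toHerm_smul]
      have hQ : (x.b : ℂ) * conj x.b = x.a * x.d := by
        rw [Complex.mul_conj, show Complex.normSq x.b = x.a * x.d from sub_eq_zero.mp hx]
        push_cast
        ring
      ext i j
      fin_cases i <;> fin_cases j <;>
        simp [g, w, Matrix.GeneralLinearGroup.mkOfDetNeZero, toHerm, Matrix.mul_apply,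
          Fin.sum_univ_two, map_div₀] <;> field_simp
      linear_combination hQ
    have h := T_smul_of_norm_one hdet (⟨x.d, 0, 0⟩ : HermVec) q
    rw [hg] at h
    rw [h]
    simp [T]

/-- A radial kernel applied to the Gaussian of a null form. -/
theorem integral_kernel_null {k : ℝ → ℂ} (hk : H3.IsKernel k) {x : HermVec} (hx : x.Q = 0)
    (μ : ℝ) (p : H3) :
    ∫ q, k (H3.coshDist p q) * ((Real.exp (-(μ * x.T q ^ 2)) : ℝ) : ℂ) ∂H3.vol =
      ∫ u : ℝ, abelTransform k u * (Real.exp (-u) : ℂ) *
        ((Real.exp (-(μ * Real.exp (-(2 * u)) * x.T p ^ 2)) : ℝ) : ℂ) := by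
  obtain ⟨g, c, hg, hT⟩ := exists_null_rep hx
  set p' := g⁻¹ • p with hp'
  rw [← H3.integral_smul_gl g]
  simp only [hT, show ∀ q, H3.coshDist p (g • q) = H3.coshDist p' q from fun q => by
    rw [← H3.coshDist_smul g p' q, hp', smul_inv_smul]]
  rw [show x.T p = c / p'.y by rw [← hT p', hp', smul_inv_smul]]
  set h : H3 → ℂ := fun q => ((Real.exp (-(μ * (c / q.y) ^ 2)) : ℝ) : ℂ)
  have hc : Continuous h :=
    Complex.continuous_ofReal.comp (Real.continuous_exp.comp
      ((continuous_const.mul ((continuous_const.div H3.continuous_y fun q =>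
        q.y_pos.ne').pow 2)).neg))
  rw [show (fun q => k (H3.coshDist p' q) * ((Real.exp (-(μ * (c / q.y) ^ 2)) : ℝ) : ℂ)) =
    fun q => k (H3.coshDist p' q) * h q from rfl, H3.integral_slices (hk.integrable_mul p' hc),
    ← integral_add_right_eq_self _ (Real.log p'.y)]
  refine integral_congr_ae (Eventually.of_forall fun u => ?_)
  simp only [h, H3.ofLog_y]
  rw [integral_mul_const, H3.integral_horosphere, add_sub_cancel_right, Real.exp_add,
    Real.exp_log p'.y_pos, Complex.real_smul]
  have hy := p'.y_pos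
  have e : (c / (Real.exp u * p'.y)) ^ 2 = Real.exp (-(2 * u)) * (c / p'.y) ^ 2 := by
    rw [show -(2 * u) = -u + -u by ring, Real.exp_add, Real.exp_neg]
    field_simp
  have e2 : Real.exp (-(2 * (u + Real.log p'.y))) * (p'.y * (Real.exp u * p'.y)) =
      Real.exp (-u) := by
    rw [show -(2 * (u + Real.log p'.y)) = -u + -u + (-Real.log p'.y + -Real.log p'.y) by ring,
      Real.exp_add, Real.exp_add, Real.exp_add, Real.exp_neg (Real.log p'.y),
      Real.exp_log hy, Real.exp_neg]
    field_simp
  rw [e, ← mul_assoc μ, ← e2]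
  push_cast
  ring

end HermVec

/-! ### Bounds for shell sums -/

theorem majorantSum_lt_top {c : ℝ} (hc : 0 < c) (p : H3) : majorantSum c p < ∞ := by
  obtain ⟨g, hg⟩ := exists_smul_mem_siegelK p
  rw [← majorantSum_smul c g p]
  exact lt_of_le_of_lt (majorantSum_le hc hg.2)
    (ENNReal.mul_lt_top ENNReal.ofReal_lt_top (majorantConst_ne_top hc).lt_top)

theorem measurable_majorantSum (c : ℝ) : Measurable (majorantSum c) := by
  refine Measurable.tsum fun i => ?_
  have : Continuous fun p => (HermIdx.vec i).majorant p :=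
    continuous_const.add (((HermVec.continuous_T _).pow 2).div_const 2)
  exact (this.measurable.const_mul c).neg.exp.ennreal_ofReal

theorem integrable_majorantSum {D : ℕ} [NeZero D] {c : ℝ} (hc : 0 < c) :
    Integrable (fun p => (majorantSum c p).toReal) (measK D) := by
  refine integrable_toReal_of_lintegral_ne_top (measurable_majorantSum c).aemeasurable ?_
  rw [measK, lintegral_withDensity_eq_lintegral_mul _ measurable_weightK (measurable_majorantSum c)]
  exact (lintegral_weightK_majorantSum_lt_top hc).ne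

theorem summable_shell_exp (n : ℤ) {μ : ℝ} (hμ : 0 < μ) (p : H3) :
    Summable (fun i : Shell n => Real.exp (-(μ * HermIdx.T i.1 p ^ 2))) ∧
      ∑' i : Shell n, Real.exp (-(μ * HermIdx.T i.1 p ^ 2)) ≤
        Real.exp (2 * μ * n) * (majorantSum (2 * μ) p).toReal := by
  have hle := tsum_shell_exp_le (n := n) μ p
  have hne : ∑' i : Shell n, ENNReal.ofReal (Real.exp (-(μ * HermIdx.T i.1 p ^ 2))) ≠ ∞ :=
    (lt_of_le_of_lt hle (ENNReal.mul_lt_top ENNReal.ofReal_lt_top
      (majorantSum_lt_top (by positivity) p))).ne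
  have hs : Summable fun i : Shell n => Real.exp (-(μ * HermIdx.T i.1 p ^ 2)) :=
    (ENNReal.summable_toReal hne).congr fun i => ENNReal.toReal_ofReal (Real.exp_pos _).le
  refine ⟨hs, ?_⟩
  rw [← ENNReal.ofReal_tsum_of_nonneg (fun i => (Real.exp_pos _).le) hs] at hle
  have := ENNReal.toReal_mono
    (ENNReal.mul_ne_top ENNReal.ofReal_ne_top (majorantSum_lt_top (by positivity) p).ne) hle
  rwa [ENNReal.toReal_mul, ENNReal.toReal_ofReal (Real.exp_pos _).le,
    ENNReal.toReal_ofReal (tsum_nonneg fun i => (Real.exp_pos _).le)] at this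

theorem norm_shellSum_le {φ : HermIdx → ℂ} {B : ℝ} (hB : ∀ i, ‖φ i‖ ≤ B) (n : ℤ) {v₀ v : ℝ}
    (h0 : 0 < v₀) (hv : v₀ ≤ v) (p : H3) :
    ‖shellSum φ n v p‖ ≤ B * (Real.exp (2 * (Real.pi * v₀) * n) *
      (majorantSum (2 * (Real.pi * v₀)) p).toReal) := by
  have hB0 : 0 ≤ B := le_trans (norm_nonneg _) (hB 0)
  obtain ⟨hs, hle⟩ := summable_shell_exp n (show 0 < Real.pi * v₀ by positivity) p
  refine le_trans (tsum_of_norm_bounded (hs.mul_left B).hasSum fun i => ?_) ?_
  · rw [norm_mul, Complex.norm_real, Real.norm_eq_abs, Real.abs_exp]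
    refine mul_le_mul (hB _) (Real.exp_le_exp.mpr ?_) (Real.exp_pos _).le hB0
    rw [neg_le_neg_iff]
    gcongr
  · rw [tsum_mul_left]
    gcongr

theorem continuous_shellTerm (φ : HermIdx → ℂ) {n : ℤ} (i : Shell n) (v : ℝ) :
    Continuous fun p => φ i.1 * ((Real.exp (-(Real.pi * v * HermIdx.T i.1 p ^ 2)) : ℝ) : ℂ) :=
  continuous_const.mul (Complex.continuous_ofReal.comp (Real.continuous_exp.comp
    (continuous_const.mul ((HermVec.continuous_T _).pow 2)).neg))

theorem aestronglyMeasurable_shellSum {D : ℕ} {φ : HermIdx → ℂ} {B : ℝ} (hB : ∀ i, ‖φ i‖ ≤ B)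
    (n : ℤ) {v : ℝ} (hv : 0 < v) : AEStronglyMeasurable (shellSum φ n v) (measK D) := by
  have hsum : ∀ p, Summable fun i : Shell n =>
      φ i.1 * ((Real.exp (-(Real.pi * v * HermIdx.T i.1 p ^ 2)) : ℝ) : ℂ) := fun p =>
    Summable.of_norm_bounded ((summable_shell_exp n (show 0 < Real.pi * v by positivity)
      p).1.mul_left B)
      fun i => by
        rw [norm_mul, Complex.norm_real, Real.norm_eq_abs, Real.abs_exp]
        exact mul_le_mul_of_nonneg_right (hB _) (Real.exp_pos _).le
  refine aestronglyMeasurable_of_tendsto_ae (atTop : Filter (Finset (Shell n)))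
    (f := fun s p => ∑ i ∈ s, φ i.1 * ((Real.exp (-(Real.pi * v * HermIdx.T i.1 p ^ 2)) : ℝ) : ℂ))
    (fun s => (continuous_finsetSum s fun i _ => continuous_shellTerm φ i v).aestronglyMeasurable)
    (Eventually.of_forall fun p => (hsum p).hasSum)

variable {D : ℕ} [NeZero D] {F : H3 → ℂ} {φ : HermIdx → ℂ}

theorem integrable_shellSum_mul (hC : IsCuspFun D F) {B : ℝ} (hB : ∀ i, ‖φ i‖ ≤ B) (n : ℤ) {v : ℝ}
    (hv : 0 < v) : Integrable (fun p => shellSum φ n v p * F p) (measK D) := by
  obtain ⟨BF, -, hBF⟩ := hC.bounded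
  refine Integrable.mono' ((((integrable_majorantSum (D := D)
    (show 0 < 2 * (Real.pi * v) by positivity)).const_mul
      (Real.exp (2 * (Real.pi * v) * n))).const_mul
      B).mul_const BF) ((aestronglyMeasurable_shellSum hB n hv).mul
      hC.continuous.aestronglyMeasurable)
    (Eventually.of_forall fun p => ?_)
  rw [norm_mul]
  exact mul_le_mul (norm_shellSum_le hB n hv le_rfl p) (hBF p) (norm_nonneg _)
    ((norm_nonneg _).trans (norm_shellSum_le hB n hv le_rfl p))

/-- The functional on the null shell, in logarithmic scale. -/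
def nullFun (D : ℕ) (F : H3 → ℂ) (φ : HermIdx → ℂ) (r : ℝ) : ℂ :=
  (Real.exp r : ℂ) * ∫ p, shellSum φ 0 (Real.exp (2 * r)) p * F p ∂measK D

/-- `nullFun` is continuous. -/
theorem continuous_nullFun (hC : IsCuspFun D F) (hφ : IsPhase D φ) :
    Continuous (nullFun D F φ) := by
  obtain ⟨B, hB0, hB⟩ := hφ.bound
  obtain ⟨BF, -, hBF⟩ := hC.bounded
  unfold nullFun
  refine (Complex.continuous_ofReal.comp Real.continuous_exp).mul
    (continuous_iff_continuousAt.mpr fun r₀ => ?_)
  set v₀ := Real.exp (2 * (r₀ - 1))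
  have h0 : 0 < v₀ := Real.exp_pos _
  have hev : ∀ᶠ r in 𝓝 r₀, v₀ ≤ Real.exp (2 * r) :=
    (lt_mem_nhds (sub_one_lt r₀)).mono fun r hr => Real.exp_le_exp.mpr (by linarith)
  refine continuousAt_of_dominated
    (bound := fun p => B * (Real.exp (2 * (Real.pi * v₀) * ((0 : ℤ) : ℝ)) *
      (majorantSum (2 * (Real.pi * v₀)) p).toReal) * BF)
    (Eventually.of_forall fun r =>
      (aestronglyMeasurable_shellSum hB 0 (Real.exp_pos _)).mul hC.continuous.aestronglyMeasurable)
    (hev.mono fun r hr => Eventually.of_forall fun p => ?_)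
    ((((integrable_majorantSum (by positivity)).const_mul _).const_mul _).mul_const _)
    (Eventually.of_forall fun p => ?_)
  · rw [norm_mul]
    exact mul_le_mul (norm_shellSum_le hB 0 h0 hr p) (hBF p) (norm_nonneg _)
      ((norm_nonneg _).trans (norm_shellSum_le hB 0 h0 hr p))
  · refine ContinuousAt.mul ?_ continuousAt_const
    have hs := ((summable_shell_exp 0 (show 0 < Real.pi * v₀ by positivity) p).1).mul_left B
    refine (continuousOn_tsum (u := fun i : Shell 0 => B * Real.exp (-(Real.pi * v₀ *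
      HermIdx.T i.1 p ^ 2))) (s := {r | v₀ ≤ Real.exp (2 * r)})
      (fun i => by fun_prop) hs fun i r hr => ?_).continuousAt hev
    rw [norm_mul, Complex.norm_real, Real.norm_eq_abs, Real.abs_exp]
    refine mul_le_mul (hB _) (Real.exp_le_exp.mpr ?_) (Real.exp_pos _).le hB0
    rw [neg_le_neg_iff]
    gcongr
    exact hr

omit [NeZero D] in
theorem map_withDensity_null (γ : principalK D) (i : Shell 0) (μ : ℝ) :
    (H3.vol.withDensity fun q => ENNReal.ofReal (Real.exp (-(μ * HermIdx.T i.1 q ^ 2)))).map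
        (fun q => γ • q) =
      H3.vol.withDensity fun q => ENNReal.ofReal (Real.exp (-(μ * HermIdx.T (γ • i).1 q ^ 2))) := by
  refine Measure.ext fun s hs => ?_
  rw [Measure.map_apply (measurable_const_smul γ) hs,
    withDensity_apply _ (measurable_const_smul γ hs), withDensity_apply _ hs]
  have e : ∀ q, HermIdx.T i.1 q = HermIdx.T (γ • i).1 (γ • q) := fun q => by
    rw [Shell.smul_val]
    exact (HermIdx.T_smul _ _ _).symm
  simp only [e]
  exact (measurePreserving_smul γ H3.vol).setLIntegral_comp_preimage hs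
    ((((HermVec.continuous_T _).pow 2).measurable.const_mul μ).neg.exp.ennreal_ofReal)

/-- A positive lower bound on the support. -/
theorem exists_lower_bound_on_support {g : ℝ → ℂ} (hg : HasCompactSupport g) {w : ℝ → ℝ}
    (hw : Continuous w) (hpos : ∀ u, 0 < w u) : ∃ c : ℝ, 0 < c ∧ ∀ u, g u = 0 ∨ c ≤ w u := by
  rcases (tsupport g).eq_empty_or_nonempty with h | h
  · exact ⟨1, one_pos, fun u => Or.inl (image_eq_zero_of_notMem_tsupport (h ▸ notMem_empty u))⟩
  · obtain ⟨u₀, -, hu₀⟩ := hg.isCompact.exists_isMinOn h hw.continuousOn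
    exact ⟨w u₀, hpos u₀, fun u => (em (u ∈ tsupport g)).elim (fun hu => Or.inr (hu₀ hu))
      fun hu => Or.inl (image_eq_zero_of_notMem_tsupport hu)⟩

theorem norm_shellTerm_le {B : ℝ} (hB : ∀ i, ‖φ i‖ ≤ B) {n : ℤ} (i : Shell n) {c t : ℝ}
    (hct : c ≤ Real.pi * t) (p : H3) :
    ‖φ i.1 * ((Real.exp (-(Real.pi * t * HermIdx.T i.1 p ^ 2)) : ℝ) : ℂ)‖ ≤
      B * Real.exp (-(c * HermIdx.T i.1 p ^ 2)) := by
  rw [norm_mul, Complex.norm_real, Real.norm_eq_abs, Real.abs_exp]
  refine mul_le_mul (hB _) (Real.exp_le_exp.mpr ?_) (Real.exp_pos _).le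
    ((norm_nonneg _).trans (hB 0))
  exact neg_le_neg (mul_le_mul_of_nonneg_right hct (sq_nonneg _))

/-- Averaging a shell sum in the scale. -/
theorem tsum_integral_scale {B : ℝ} (hB : ∀ i, ‖φ i‖ ≤ B) (n : ℤ) {g : ℝ → ℂ} (hg : Continuous g)
    (hgs : HasCompactSupport g) {w : ℝ → ℝ} (hw : Continuous w) (hpos : ∀ u, 0 < w u) (p : H3) :
    ∑' i : Shell n, φ i.1 *
        ∫ u, g u * ((Real.exp (-(Real.pi * w u * HermIdx.T i.1 p ^ 2)) : ℝ) : ℂ) =
      ∫ u, g u * shellSum φ n (w u) p := by
  obtain ⟨c, hc, hcw⟩ := exists_lower_bound_on_support hgs hw hpos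
  set f : Shell n → ℝ → ℂ := fun i u =>
    g u * (φ i.1 * ((Real.exp (-(Real.pi * w u * HermIdx.T i.1 p ^ 2)) : ℝ) : ℂ))
  have hf : ∀ i, Continuous (f i) := fun i => by fun_prop
  have hfs : ∀ i, HasCompactSupport (f i) := fun i => hgs.mul_right
  have hb : ∀ i u, ‖f i u‖ ≤ ‖g u‖ * (B * Real.exp (-(Real.pi * c * HermIdx.T i.1 p ^ 2))) := by
    intro i u
    rw [norm_mul]
    rcases hcw u with h | h
    · simp [h]
    · exact mul_le_mul_of_nonneg_left
        (norm_shellTerm_le hB i (mul_le_mul_of_nonneg_left h Real.pi_pos.le) p) (norm_nonneg _)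
  have hgi : Integrable g := hg.integrable_of_hasCompactSupport hgs
  have key := integral_tsum_of_summable_integral_norm (μ := volume) (F := f)
    (fun i => (hf i).integrable_of_hasCompactSupport (hfs i))
    (Summable.of_nonneg_of_le (fun i => integral_nonneg fun u => norm_nonneg _)
      (fun i => (integral_mono ((hf i).integrable_of_hasCompactSupport (hfs i)).norm
        (hgi.norm.mul_const _) (hb i)).trans_eq (integral_mul_const _ _))
      (((summable_shell_exp n (show 0 < Real.pi * c by positivity) p).1.mul_left B).mul_left _))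
  calc ∑' i : Shell n, φ i.1 *
        ∫ u, g u * ((Real.exp (-(Real.pi * w u * HermIdx.T i.1 p ^ 2)) : ℝ) : ℂ)
      = ∑' i : Shell n, ∫ u, f i u := tsum_congr fun i => by
        rw [← integral_const_mul]
        exact integral_congr_ae (Eventually.of_forall fun u => mul_left_comm _ _ _)
    _ = ∫ u, ∑' i : Shell n, f i u := key
    _ = _ := integral_congr_ae (Eventually.of_forall fun u => tsum_mul_left)

/-- Termwise integration of a shell sum. -/
theorem tsum_integral_shell (hC : IsCuspFun D F) {B : ℝ} (hB : ∀ i, ‖φ i‖ ≤ B) (n : ℤ) {v : ℝ}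
    (hv : 0 < v) :
    HasSum (fun i : Shell n => φ i.1 *
        ∫ p, ((Real.exp (-(Real.pi * v * HermIdx.T i.1 p ^ 2)) : ℝ) : ℂ) * F p ∂measK D)
      (∫ p, shellSum φ n v p * F p ∂measK D) := by
  obtain ⟨BF, hBF0, hBF⟩ := hC.bounded
  have hc : 0 < Real.pi * v := by positivity
  set f : Shell n → H3 → ℂ := fun i p =>
    φ i.1 * ((Real.exp (-(Real.pi * v * HermIdx.T i.1 p ^ 2)) : ℝ) : ℂ) * F p
  have hfm : ∀ i, AEStronglyMeasurable (f i) (measK D) := fun i =>
    ((continuous_shellTerm φ i v).mul hC.continuous).aestronglyMeasurable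
  have hb : ∀ i p, ‖f i p‖ ≤ B * BF * Real.exp (-(Real.pi * v * HermIdx.T i.1 p ^ 2)) := by
    intro i p
    rw [norm_mul, mul_right_comm B BF]
    exact mul_le_mul (norm_shellTerm_le hB i le_rfl p) (hBF p) (norm_nonneg _)
      (by have := (norm_nonneg _).trans (hB 0); positivity)
  have hdom : Integrable (fun p => ∑' i : Shell n, B * BF *
      Real.exp (-(Real.pi * v * HermIdx.T i.1 p ^ 2))) (measK D) := by
    have hB0 := (norm_nonneg _).trans (hB 0)
    refine Integrable.mono' (((integrable_majorantSum (D := D)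
      (show 0 < 2 * (Real.pi * v) by positivity)).const_mul
        (Real.exp (2 * (Real.pi * v) * n))).const_mul (B * BF)) ?_
      (Eventually.of_forall fun p => ?_)
    · have hcont : ∀ i : Shell n,
          Continuous fun p => B * BF * Real.exp (-(Real.pi * v * HermIdx.T i.1 p ^ 2)) := fun i =>
        continuous_const.mul (Real.continuous_exp.comp
          (continuous_const.mul ((HermVec.continuous_T _).pow 2)).neg)
      have hm : ∀ s : Finset (Shell n), AEStronglyMeasurable
          (fun p => ∑ i ∈ s, B * BF * Real.exp (-(Real.pi * v * HermIdx.T i.1 p ^ 2)))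
          (measK D) := fun s =>
        (continuous_finsetSum s fun i _ => hcont i).aestronglyMeasurable
      refine aestronglyMeasurable_of_tendsto_ae atTop hm
        (Eventually.of_forall fun p => ((summable_shell_exp n hc p).1.mul_left _).hasSum)
    · rw [Real.norm_eq_abs, abs_of_nonneg (tsum_nonneg fun i => by positivity), tsum_mul_left]
      exact mul_le_mul_of_nonneg_left (summable_shell_exp n hc p).2 (by positivity)
  have hsum : HasSum (fun i => ∫ p, f i p ∂measK D) (∫ p, shellSum φ n v p * F p ∂measK D) := by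
    refine hasSum_integral_of_dominated_convergence
      (fun i p => B * BF * Real.exp (-(Real.pi * v * HermIdx.T i.1 p ^ 2))) hfm
      (fun i => Eventually.of_forall (hb i))
      (Eventually.of_forall fun p => (summable_shell_exp n hc p).1.mul_left _) hdom
      (Eventually.of_forall fun p => ?_)
    exact ((Summable.of_norm_bounded ((summable_shell_exp n hc p).1.mul_left B) fun i =>
      norm_shellTerm_le hB i le_rfl p).hasSum).mul_right (F p)
  convert hsum using 1
  funext i
  rw [← integral_const_mul]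
  exact integral_congr_ae (Eventually.of_forall fun p => (mul_assoc _ _ _).symm)

/-- The Gaussian measure of a null form. -/
def nullMeas (v : ℝ) (i : Shell 0) : Measure H3 :=
  H3.vol.withDensity fun q => ENNReal.ofReal (Real.exp (-(Real.pi * v * HermIdx.T i.1 q ^ 2)))

instance (v : ℝ) (i : Shell 0) : SFinite (nullMeas v i) := by unfold nullMeas; infer_instance

theorem measurable_nullDensity (v : ℝ) (i : Shell 0) :
    Measurable fun q => ENNReal.ofReal (Real.exp (-(Real.pi * v * HermIdx.T i.1 q ^ 2))) :=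
  (((HermVec.continuous_T _).pow 2).measurable.const_mul _).neg.exp.ennreal_ofReal

theorem integral_nullMeas {E : Type*} [NormedAddCommGroup E] [NormedSpace ℝ E] (v : ℝ)
    (i : Shell 0) (f : H3 → E) :
    ∫ q, f q ∂nullMeas v i =
      ∫ q, Real.exp (-(Real.pi * v * HermIdx.T i.1 q ^ 2)) • f q ∂H3.vol := by
  rw [nullMeas, integral_withDensity_eq_integral_toReal_smul (measurable_nullDensity v i)
    (Eventually.of_forall fun q => ENNReal.ofReal_lt_top)]
  simp only [ENNReal.toReal_ofReal (Real.exp_pos _).le]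

theorem integrable_nullMeas {k : ℝ → ℂ} (hk : H3.IsKernel k) {v : ℝ} (hv : 0 ≤ v) (p : H3)
    (i : Shell 0) : Integrable (fun q => k (H3.coshDist p q)) (nullMeas v i) := by
  rw [nullMeas, integrable_withDensity_iff_integrable_smul' (measurable_nullDensity v i)
    (Eventually.of_forall fun q => ENNReal.ofReal_lt_top)]
  simp only [ENNReal.toReal_ofReal (Real.exp_pos _).le]
  refine (hk.integrable p).norm.mono' ?_ (Eventually.of_forall fun q => ?_)
  · exact ((Real.continuous_exp.comp (continuous_const.mul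
      ((HermVec.continuous_T _).pow 2)).neg).smul
        (H3.continuous_kernel hk.cont p)).aestronglyMeasurable
  · rw [norm_smul, Real.norm_eq_abs, Real.abs_exp]
    exact mul_le_of_le_one_left (norm_nonneg _)
      (Real.exp_le_one_iff.mpr (neg_nonpos.mpr (by positivity)))

theorem integral_kernel_nullMeas {k : ℝ → ℂ} (hk : H3.IsKernel k) (v : ℝ) (p : H3)
    (i : Shell 0) : ∫ q, k (H3.coshDist p q) ∂nullMeas v i =
      ∫ u : ℝ, abelTransform k u * (Real.exp (-u) : ℂ) *
        ((Real.exp (-(Real.pi * (v * Real.exp (-(2 * u))) * HermIdx.T i.1 p ^ 2)) : ℝ) : ℂ) := by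
  have hQ : (HermIdx.vec i.1).Q = 0 := by rw [HermIdx.vec_Q, i.2]; simp
  rw [integral_nullMeas]
  simp only [Complex.real_smul, mul_comm ((Real.exp _ : ℝ) : ℂ) (k _), HermIdx.T]
  rw [HermVec.integral_kernel_null hk hQ (Real.pi * v)]
  refine integral_congr_ae (Eventually.of_forall fun u => ?_)
  simp only [mul_assoc]

theorem lintegral_nullMeas_lt_top {k : ℝ → ℂ} (hk : H3.IsKernel k) {v : ℝ} (hv : 0 < v) :
    ∫⁻ p, weightK D p * ∑' i : Shell 0, ∫⁻ q, ‖k (H3.coshDist p q)‖ₑ ∂nullMeas v i ∂H3.vol
      < ∞ := by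
  set k₁ : ℝ → ℂ := fun c => ((‖k c‖ : ℝ) : ℂ)
  have hk₁ : H3.IsKernel k₁ :=
    ⟨Complex.continuous_ofReal.comp hk.cont.norm,
      (hk.compact.norm.comp_left Complex.ofReal_zero :)⟩
  set g : ℝ → ℂ := fun u => abelTransform k₁ u * (Real.exp (-u) : ℂ)
  have hgc : Continuous g := hk₁.continuous_abel.mul (by fun_prop)
  have hgs : HasCompactSupport g := hk₁.hasCompactSupport_abel.mul_right
  obtain ⟨c, hc, hcw⟩ := exists_lower_bound_on_support hgs
    (w := fun u => v * Real.exp (-(2 * u))) (by fun_prop) (fun u => by positivity)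
  set A₁ : ℝ := ∫ u, ‖g u‖
  have hA₁ : 0 ≤ A₁ := integral_nonneg fun u => norm_nonneg _
  have hnorm : ∀ (p : H3) (i : Shell 0), ∫ q, ‖k (H3.coshDist p q)‖ ∂nullMeas v i ≤
      A₁ * Real.exp (-(Real.pi * c * HermIdx.T i.1 p ^ 2)) := by
    intro p i
    refine le_trans (le_abs_self _) ?_
    rw [← Real.norm_eq_abs, ← Complex.norm_real, ← integral_complex_ofReal,
      show (fun q => ((‖k (H3.coshDist p q)‖ : ℝ) : ℂ)) = fun q => k₁ (H3.coshDist p q) from rfl,
      integral_kernel_nullMeas hk₁ v p i, ← integral_mul_const]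
    refine norm_integral_le_of_norm_le ((hgc.integrable_of_hasCompactSupport hgs).norm.mul_const _)
      (Eventually.of_forall fun u => ?_)
    rw [norm_mul, Complex.norm_real, Real.norm_eq_abs, Real.abs_exp]
    rcases hcw u with h | h
    · have h' : ‖abelTransform k₁ u‖ * ‖(Real.exp (-u) : ℂ)‖ = 0 := by
        rw [← norm_mul, show abelTransform k₁ u * (Real.exp (-u) : ℂ) = 0 from h, norm_zero]
      simp only [g, norm_mul, h', zero_mul, le_refl]
    · exact mul_le_mul_of_nonneg_left (Real.exp_le_exp.mpr (neg_le_neg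
        (mul_le_mul_of_nonneg_right (mul_le_mul_of_nonneg_left h Real.pi_pos.le) (sq_nonneg _))))
        (norm_nonneg _)
  calc _ ≤ ∫⁻ p, ENNReal.ofReal A₁ * (weightK D p * majorantSum (2 * (Real.pi * c)) p) ∂H3.vol := by
        refine lintegral_mono fun p => ?_
        rw [mul_left_comm]
        refine mul_le_mul_right ?_ _
        calc ∑' i : Shell 0, ∫⁻ q, ‖k (H3.coshDist p q)‖ₑ ∂nullMeas v i
            ≤ ∑' i : Shell 0, ENNReal.ofReal A₁ *
                ENNReal.ofReal (Real.exp (-(Real.pi * c * HermIdx.T i.1 p ^ 2))) := by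
              refine ENNReal.tsum_le_tsum fun i => ?_
              rw [← ENNReal.ofReal_mul hA₁,
                ← ofReal_integral_norm_eq_lintegral_enorm (integrable_nullMeas hk hv.le p i)]
              exact ENNReal.ofReal_le_ofReal (hnorm p i)
          _ ≤ ENNReal.ofReal A₁ * majorantSum (2 * (Real.pi * c)) p := by
              rw [ENNReal.tsum_mul_left]
              gcongr
              simpa using tsum_shell_exp_le (n := 0) (Real.pi * c) p
    _ < ∞ := by
        rw [lintegral_const_mul' _ _ ENNReal.ofReal_ne_top]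
        exact ENNReal.mul_lt_top ENNReal.ofReal_lt_top
          (lintegral_weightK_majorantSum_lt_top (by positivity))

theorem integral_scale_swap (hC : IsCuspFun D F) {B : ℝ} (hB : ∀ i, ‖φ i‖ ≤ B) {g : ℝ → ℂ}
    (hg : Continuous g) (hgs : HasCompactSupport g) {w : ℝ → ℝ} (hw : Continuous w)
    (hpos : ∀ u, 0 < w u) :
    ∫ p, (∫ u, g u * shellSum φ 0 (w u) p) * F p ∂measK D =
      ∫ u, g u * ∫ p, shellSum φ 0 (w u) p * F p ∂measK D := by
  obtain ⟨BF, hBF0, hBF⟩ := hC.bounded
  obtain ⟨c, hc, hcw⟩ := exists_lower_bound_on_support hgs hw hpos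
  have hB0 := (norm_nonneg _).trans (hB 0)
  have hcT : ∀ i : Shell 0, Continuous fun x : H3 × ℝ => HermIdx.T i.1 x.1 := fun i =>
    (HermVec.continuous_T _).comp continuous_fst
  have hs : AEStronglyMeasurable (fun x : H3 × ℝ => shellSum φ 0 (w x.2) x.1)
      ((measK D).prod volume) := by
    refine aestronglyMeasurable_of_tendsto_ae (atTop : Filter (Finset (Shell 0)))
      (f := fun s (x : H3 × ℝ) => ∑ i ∈ s,
        φ i.1 * ((Real.exp (-(Real.pi * w x.2 * HermIdx.T i.1 x.1 ^ 2)) : ℝ) : ℂ))
      (fun s => (continuous_finsetSum s fun i _ => by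
        have := hcT i
        fun_prop).aestronglyMeasurable)
      (Eventually.of_forall fun x => ?_)
    exact (Summable.of_norm_bounded ((summable_shell_exp 0
      (mul_pos Real.pi_pos (hpos x.2)) x.1).1.mul_left B) fun i =>
        norm_shellTerm_le hB i le_rfl x.1).hasSum
  have hmaj : Integrable (fun x : H3 × ℝ => (majorantSum (2 * (Real.pi * c)) x.1).toReal *
      ‖g x.2‖ * (B * BF)) ((measK D).prod volume) :=
    ((integrable_majorantSum (by positivity)).mul_prod
      (hg.integrable_of_hasCompactSupport hgs).norm).mul_const _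
  have hprod : Integrable (Function.uncurry fun (p : H3) (u : ℝ) =>
      g u * shellSum φ 0 (w u) p * F p) ((measK D).prod volume) := by
    refine hmaj.mono' (((hg.comp continuous_snd).aestronglyMeasurable.mul hs).mul
      (hC.continuous.comp continuous_fst).aestronglyMeasurable) (Eventually.of_forall fun x => ?_)
    simp only [Function.uncurry, norm_mul]
    rcases hcw x.2 with h | h
    · simp [h]
    · have h1 := norm_shellSum_le hB 0 hc h x.1
      simp only [Int.cast_zero, mul_zero, Real.exp_zero, one_mul] at h1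
      calc _ ≤ ‖g x.2‖ * (B * (majorantSum (2 * (Real.pi * c)) x.1).toReal) * BF :=
            mul_le_mul (mul_le_mul_of_nonneg_left h1 (norm_nonneg _)) (hBF _) (norm_nonneg _)
              (by positivity)
        _ = _ := by ring
  simp only [← integral_mul_const]
  rw [integral_integral_swap hprod]
  refine integral_congr_ae (Eventually.of_forall fun u => ?_)
  simp only [mul_assoc]
  exact integral_const_mul _ _

/-- The averaging identity on the null shell. -/
theorem nullFun_abel (hC : IsCuspFun D F) (hE : IsEigenFun F) (hφ : IsPhase D φ) {k : ℝ → ℂ}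
    (hk : H3.IsKernel k) (r : ℝ) :
    ∫ u, abelTransform k u * (nullFun D F φ (r - u) - nullFun D F φ r) = 0 := by
  obtain ⟨B, hB0, hB⟩ := hφ.bound
  set v := Real.exp (2 * r) with hvdef
  have hv : 0 < v := Real.exp_pos _
  set g : ℝ → ℂ := fun u => abelTransform k u * (Real.exp (-u) : ℂ) with hg
  have hgc : Continuous g := hk.continuous_abel.mul (by fun_prop)
  have hgs : HasCompactSupport g := hk.hasCompactSupport_abel.mul_right
  set w : ℝ → ℝ := fun u => v * Real.exp (-(2 * u)) with hw
  have hwc : Continuous w := by fun_prop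
  have hwp : ∀ u, 0 < w u := fun u => by positivity
  obtain ⟨Bk, hBk⟩ := hk.cont.bounded_above_of_compact_support hk.compact
  obtain ⟨R, hR1, hR⟩ := hk.exists_radius
  have hdec : H3.IsDecayKernel k :=
    H3.IsDecayKernel.of_exp_bound hk.cont (C := Bk * Real.exp R) one_pos fun c hc => by
      have hb0 := (norm_nonneg _).trans (hBk c)
      by_cases hcr : R < c
      · rw [hR c hcr, norm_zero]; positivity
      · rw [mul_assoc, ← Real.exp_add]
        refine (hBk c).trans (le_mul_of_one_le_right hb0 (Real.one_le_exp ?_))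
        linarith [not_lt.mp hcr]
  have key := (hasSum_unfold hC hE (nullMeas v) (fun γ i => map_withDensity_null γ i _)
    (φ := fun i : Shell 0 => φ i.1) (fun i => hB _) (fun γ i => hφ.shell γ i) hdec
    (lintegral_nullMeas_lt_top hk hv)).1
  set L : ℝ → ℂ := fun t => ∫ p, shellSum φ 0 t p * F p ∂measK D with hL
  have hterm : ∀ i : Shell 0, ∫ q, ((weightK D q).toReal : ℂ) * F q ∂nullMeas v i =
      ∫ p, ((Real.exp (-(Real.pi * v * HermIdx.T i.1 p ^ 2)) : ℝ) : ℂ) * F p ∂measK D := fun i => by
    rw [integral_nullMeas, measK, integral_withDensity_eq_integral_toReal_smul measurable_weightK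
      (Eventually.of_forall fun q => lt_of_le_of_lt (weightK_le_one q) ENNReal.one_lt_top)]
    refine integral_congr_ae (Eventually.of_forall fun q => ?_)
    simp only [Complex.real_smul]
    ring
  have hinner : ∀ p, (∑' i : Shell 0, φ i.1 * ∫ q, k (H3.coshDist p q) ∂nullMeas v i) =
      ∫ u, g u * shellSum φ 0 (w u) p := fun p => by
    simp only [integral_kernel_nullMeas hk v p]
    exact tsum_integral_scale hB 0 hgc hgs hwc hwp p
  have heq : sphZero k * L v = ∫ u, g u * L (w u) := by
    simp only [hterm, hinner] at key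
    have h2 := (tsum_integral_shell hC hB 0 hv).mul_left (sphZero k)
    rw [hL, ← integral_scale_swap hC hB hgc hgs hwc hwp]
    exact h2.unique key
  have hP : ∀ t, nullFun D F φ t = (Real.exp t : ℂ) * L (Real.exp (2 * t)) := fun t => rfl
  have hint : ∀ s, Integrable fun u => abelTransform k u * nullFun D F φ (s - u) := fun s =>
    Continuous.integrable_of_hasCompactSupport
      (hk.continuous_abel.mul ((continuous_nullFun hC hφ).comp (by fun_prop)))
      hk.hasCompactSupport_abel.mul_right
  simp only [mul_sub]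
  rw [integral_sub (hint r) ((Continuous.integrable_of_hasCompactSupport hk.continuous_abel
    hk.hasCompactSupport_abel).mul_const _), integral_mul_const, ← sphZero, hP r, ← hvdef,
    mul_left_comm, heq, sub_eq_zero, ← integral_const_mul]
  refine integral_congr_ae (Eventually.of_forall fun u => ?_)
  simp only [hg]
  rw [hP (r - u), show Real.exp (2 * (r - u)) = w u by
    simp only [hw, hvdef, ← Real.exp_add]; ring_nf,
    show ((Real.exp (r - u) : ℝ) : ℂ) = (Real.exp r : ℂ) * (Real.exp (-u) : ℂ) by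
      rw [← Complex.ofReal_mul, ← Real.exp_add, sub_eq_add_neg]]
  ring

/-- A null functional tending to zero is zero. -/
theorem nullFun_eq_zero_of_tendsto (hC : IsCuspFun D F) (hE : IsEigenFun F) (hφ : IsPhase D φ)
    (h : Tendsto (nullFun D F φ) atTop (𝓝 0)) (r : ℝ) : nullFun D F φ r = 0 := by
  have hmid := midpoint_of_abel (continuous_nullFun hC hφ)
    (fun k hk s => nullFun_abel hC hE hφ hk s)
  set P := nullFun D F φ
  have hlin : ∀ (n : ℕ), P (r + n) = P r + n * (P (r + 1) - P r) := by
    intro n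
    induction n using Nat.twoStepInduction with
    | zero => simp
    | one => simp
    | more n h0 h1 =>
      have := hmid (r + (n + 1 : ℕ)) 1
      rw [show r + ((n + 1 : ℕ) : ℝ) + 1 = r + ((n + 2 : ℕ) : ℝ) by push_cast; ring,
        show r + ((n + 1 : ℕ) : ℝ) - 1 = r + (n : ℝ) by push_cast; ring, h0, h1] at this
      push_cast at this ⊢
      linear_combination this
  have h1 : Tendsto (fun n : ℕ => P r + (n : ℂ) * (P (r + 1) - P r)) atTop (𝓝 0) :=
    (h.comp (tendsto_atTop_add_const_left _ r tendsto_natCast_atTop_atTop)).congr fun n => hlin n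
  have h2 : Tendsto (fun n : ℕ => (P r + ((n + 1 : ℕ) : ℂ) * (P (r + 1) - P r)) -
      (P r + (n : ℂ) * (P (r + 1) - P r))) atTop (𝓝 0) := by
    have := (h1.comp (tendsto_add_atTop_nat 1)).sub h1
    simpa using this
  have hd : P (r + 1) - P r = 0 := by
    refine tendsto_nhds_unique (tendsto_const_nhds.congr fun n => ?_) h2
    push_cast
    ring
  simp only [hd, mul_zero, add_zero] at h1
  exact tendsto_nhds_unique tendsto_const_nhds h1

end Fermat.Agent.ResidualThree
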