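import Fermat.Agent.ResidualThree.Asai.Period
import Fermat.Agent.ResidualThree.ThetaLift.Congr

/-!
# The forms of normalised index one: a single orbit and its stabiliser

The forms of index `3` (normalised index one) in the support of the phase of level `3 n₀` form one
orbit of `Γ₀(n₀)`, and the stabiliser of the base form is `Γ₀(n₀) ⊆ SL₂(ℤ)` times the cube roots of
unity.
This identifies the first coefficient of the lift.
-/

noncomputable section

open Matrix CongruenceSubgroup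
open scoped ComplexConjugate MatrixGroups

namespace Fermat.Agent.ResidualThree

/-- The base form. -/
def baseIdx : HermIdx := (0, (1, 2), 0)

/-- The cube roots of unity. -/
def omegaPow : Fin 3 → Eis3 := ![(1, 0), (0, 1), (-1, -1)]

theorem norm_omegaPow (k : Fin 3) : (omegaPow k).norm = 1 := by fin_cases k <;> rfl

theorem omegaPow_real {k l : Fin 3} {x : ℤ}
    (h : (Eis3.mul (Eis3.bar (omegaPow k)) (omegaPow l)) = (x, 0)) : k = l := by
  fin_cases k <;> fin_cases l <;> first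
    | rfl
    | (simp [omegaPow, Eis3.mul, Eis3.bar] at h)

theorem exists_omegaPow_of_norm_one {δ : Eis3} (h : δ.norm = 1) :
    ∃ k : Fin 3, δ = Eis3.mul (omegaPow k) (omegaPow k) ∨
      δ = -Eis3.mul (omegaPow k) (omegaPow k) := by
  obtain ⟨x, y⟩ := δ
  have hq : x ^ 2 - x * y + y ^ 2 = 1 := by
    have := Eis3.norm_cast_eq (x, y)
    rw [h] at this
    simpa using this.symm
  have hx : -1 ≤ x ∧ x ≤ 1 := ⟨by nlinarith [sq_nonneg (2 * y - x), sq_nonneg (x + 2)],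
    by nlinarith [sq_nonneg (2 * y - x), sq_nonneg (x - 2)]⟩
  have hy : -1 ≤ y ∧ y ≤ 1 := ⟨by nlinarith [sq_nonneg (2 * x - y), sq_nonneg (y + 2)],
    by nlinarith [sq_nonneg (2 * x - y), sq_nonneg (y - 2)]⟩
  obtain ⟨hx1, hx2⟩ := hx
  obtain ⟨hy1, hy2⟩ := hy
  interval_cases x <;> interval_cases y <;>
    first
      | (norm_num at hq; done)
      | exact ⟨0, by decide⟩
      | exact ⟨1, by decide⟩
      | exact ⟨2, by decide⟩

/-- The scalar matrix of a cube root of unity. -/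
def scalarK (k : Fin 3) : GL (Fin 2) ℂ :=
  Matrix.GeneralLinearGroup.mkOfDetNeZero ((omegaPow k).toC • 1) (by
    have h : (omegaPow k).toC ≠ 0 := mt Eis3.toC_eq_zero.mp (by
      fin_cases k <;> simp [omegaPow])
    rw [Matrix.det_smul, Matrix.det_one, mul_one]
    exact pow_ne_zero _ h)

theorem coe_scalarK (k : Fin 3) :
    (scalarK k : Matrix (Fin 2) (Fin 2) ℂ) = (omegaPow k).toC • 1 := rfl

theorem slToGLC_mem {n : ℕ} {γ : SL(2, ℤ)} (hγ : γ ∈ Gamma0 n) : slToGLC γ ∈ gammaZeroK n := by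
  refine mem_gammaZeroK (fun i j => (γ i j, 0)) (fun i j => ?_) ?_ ?_
  · fin_cases i <;> fin_cases j <;> simp [slToGLC_coe, Eis3.toC]
  · rw [slToGLC_coe, det_fin_two_of]
    have h := γ.det_coe
    rw [det_fin_two] at h
    have h' : (γ 0 0 : ℂ) * (γ 1 1 : ℂ) - (γ 0 1 : ℂ) * (γ 1 0 : ℂ) = 1 := by exact_mod_cast h
    rw [h', norm_one]
  · obtain ⟨z, hz⟩ := (ZMod.intCast_zmod_eq_zero_iff_dvd _ _).mp (Gamma0_mem.mp hγ)
    exact ⟨(z, 0), by simp [Eis3.mul, hz]⟩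

theorem scalarK_mem (n : ℕ) (k : Fin 3) : scalarK k ∈ gammaZeroK n := by
  refine mem_gammaZeroK (fun i j => if i = j then omegaPow k else (0, 0)) (fun i j => ?_) ?_
    ⟨(0, 0), by simp [Eis3.mul]⟩
  · rw [coe_scalarK]
    fin_cases i <;> fin_cases j <;> simp [Eis3.toC_zero]
  · rw [coe_scalarK, Matrix.det_smul, Matrix.det_one, mul_one, norm_pow, Complex.norm_def,
      Eis3.normSq_toC, norm_omegaPow]
    simp

/-- The stabiliser of the base form. -/
theorem exists_of_fix {n : ℕ} {g : GL (Fin 2) ℂ} (hg : g ∈ gammaZeroK n)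
    (hfix : g • HermIdx.vec baseIdx = HermIdx.vec baseIdx) :
    ∃ (k : Fin 3) (γ : SL(2, ℤ)), γ ∈ Gamma0 n ∧ g = slToGLC γ * scalarK k := by
  set x := entry g with hx
  have he := fun i j => toC_entry hg.1 i j
  have hM := congrArg HermVec.toHerm hfix
  rw [HermVec.toHerm_smul] at hM
  have hs : (HermIdx.vec baseIdx).toHerm = !![0, sqrtNegThree; -sqrtNegThree, 0] := by
    simp [HermVec.toHerm, HermIdx.vec, baseIdx, ← Eis3.sqrtNegThree_eq, conj_sqrtNegThree]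
  rw [hs] at hM
  have e00 := congrArg (fun M : Matrix (Fin 2) (Fin 2) ℂ => M 0 0) hM
  have e01 := congrArg (fun M : Matrix (Fin 2) (Fin 2) ℂ => M 0 1) hM
  have e10 := congrArg (fun M : Matrix (Fin 2) (Fin 2) ℂ => M 1 0) hM
  have e11 := congrArg (fun M : Matrix (Fin 2) (Fin 2) ℂ => M 1 1) hM
  simp [Matrix.mul_apply, Fin.sum_univ_two] at e00 e01 e10 e11
  set G : Matrix (Fin 2) (Fin 2) ℂ := (g : Matrix (Fin 2) (Fin 2) ℂ) with hG
  have f00 : G 0 0 * conj (G 0 1) - G 0 1 * conj (G 0 0) = 0 := by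
    refine mul_left_cancel₀ sqrtNegThree_ne_zero ?_
    linear_combination e00
  have f01 : G 0 0 * conj (G 1 1) - G 0 1 * conj (G 1 0) = 1 := by
    refine mul_left_cancel₀ sqrtNegThree_ne_zero ?_
    linear_combination e01
  have f10 : G 1 1 * conj (G 0 0) - G 1 0 * conj (G 0 1) = 1 := by
    refine mul_left_cancel₀ sqrtNegThree_ne_zero ?_
    linear_combination -e10
  have f11 : G 1 0 * conj (G 1 1) - G 1 1 * conj (G 1 0) = 0 := by
    refine mul_left_cancel₀ sqrtNegThree_ne_zero ?_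
    linear_combination e11
  set δ := Eis3.mul (x 0 0) (x 1 1) - Eis3.mul (x 0 1) (x 1 0) with hδ
  have hδC : δ.toC = G.det := by
    rw [hδ, Eis3.toC_sub, Eis3.toC_mul, Eis3.toC_mul, Matrix.det_fin_two, he, he, he, he]
  have hδn : δ.norm = 1 := by
    have h := hg.1.2
    rw [← hG, ← hδC, Complex.norm_def, Eis3.normSq_toC, Real.sqrt_eq_one] at h
    exact_mod_cast h
  have key : ∀ i j, Eis3.mul δ (Eis3.bar (x i j)) = x i j := by
    intro i j
    refine Eis3.toC_injective ?_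
    rw [Eis3.toC_mul, Eis3.toC_bar, hδC, hx, he, Matrix.det_fin_two]
    fin_cases i <;> fin_cases j <;> simp only [Fin.zero_eta, Fin.mk_one, Fin.isValue]
    · linear_combination G 0 0 * f10 + G 1 0 * f00
    · linear_combination G 0 1 * f10 + G 1 1 * f00
    · linear_combination G 1 0 * f01 - G 0 0 * f11
    · linear_combination G 1 1 * f01 - G 0 1 * f11
  obtain ⟨k, hk⟩ := exists_omegaPow_of_norm_one hδn
  set ω := omegaPow k with hω
  have hω1 : Eis3.mul ω (Eis3.bar ω) = (1, 0) := Eis3.exists_inv_of_norm_one (norm_omegaPow k)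
  have hω1' : ω.toC * conj ω.toC = 1 := by
    rw [← Eis3.toC_bar, ← Eis3.toC_mul, hω1, Eis3.toC_one]
  set y : Fin 2 → Fin 2 → Eis3 := fun i j => Eis3.mul (Eis3.bar ω) (x i j) with hy
  have hyC : ∀ i j, (x i j).toC = ω.toC * (y i j).toC := fun i j => by
    rw [hy, Eis3.toC_mul, Eis3.toC_bar]
    linear_combination (-(x i j).toC) * hω1'
  have hdet : δ = Eis3.mul (Eis3.mul ω ω) (Eis3.mul (y 0 0) (y 1 1) -
      Eis3.mul (y 0 1) (y 1 0)) := by
    refine Eis3.toC_injective ?_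
    simp only [hδ, Eis3.toC_mul, Eis3.toC_sub, hyC]
    ring
  rcases hk with hk | hk
  · have hreal : ∀ i j, (y i j).2 = 0 := by
      intro i j
      have h1 : Eis3.bar (y i j) = y i j := by
        refine Eis3.toC_injective ?_
        rw [hy]
        dsimp only
        conv_rhs => rw [← key i j]
        simp only [hk, Eis3.toC_bar, Eis3.toC_mul, map_mul, Complex.conj_conj]
        linear_combination (-(ω.toC * conj (x i j).toC)) * hω1'
      have h2 := congrArg Prod.snd h1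
      simp only [Eis3.bar] at h2
      omega
    have hyi : ∀ i j, y i j = ((y i j).1, 0) := fun i j => Prod.ext rfl (hreal i j)
    have hd1 : (y 0 0).1 * (y 1 1).1 - (y 0 1).1 * (y 1 0).1 = 1 := by
      have h1 : δ = Eis3.mul δ ((y 0 0).1 * (y 1 1).1 - (y 0 1).1 * (y 1 0).1, 0) := by
        conv_lhs => rw [hdet, ← hk, hyi 0 0, hyi 0 1, hyi 1 0, hyi 1 1]
        simp [Eis3.mul]
      have h2 := Eis3.mul_left_cancel (x := δ)
        (fun h0 => by rw [h0] at hδn; simp [Eis3.norm] at hδn)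
        ((Eis3.mul_one δ).trans h1)
      exact (congrArg Prod.fst h2).symm
    let γ : SL(2, ℤ) := ⟨!![(y 0 0).1, (y 0 1).1; (y 1 0).1, (y 1 1).1], by
      rw [Matrix.det_fin_two_of]; exact hd1⟩
    refine ⟨k, γ, Gamma0_mem.mpr ?_, ?_⟩
    · obtain ⟨z, hz⟩ := hg.2
      rw [ZMod.intCast_zmod_eq_zero_iff_dvd]
      refine ⟨(Eis3.mul (Eis3.bar ω) z).1, ?_⟩
      show (y 1 0).1 = _
      rw [hy]
      show (Eis3.mul (Eis3.bar ω) (x 1 0)).1 = _
      rw [hx, ← hz]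
      simp only [Eis3.mul]
      ring
    · refine Units.ext ?_
      rw [← hG, Units.val_mul, coe_scalarK, slToGLC_coe, Matrix.mul_smul, mul_one]
      refine Matrix.ext fun i j => ?_
      rw [← he, ← hx, hyC, hyi i j, Eis3.toC_intCast]
      fin_cases i <;> fin_cases j <;> simp [γ, hω]
  · exfalso
    have hre : ∀ i j, (y i j).2 = 2 * (y i j).1 := by
      intro i j
      have h1 : Eis3.bar (y i j) = -y i j := by
        refine Eis3.toC_injective ?_
        rw [hy]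
        dsimp only
        conv_rhs => rw [← key i j]
        simp only [hk, Eis3.toC_bar, Eis3.toC_mul, Eis3.toC_neg, map_mul, Complex.conj_conj]
        linear_combination (-(ω.toC * conj (x i j).toC)) * hω1'
      have h2 := congrArg Prod.fst h1
      simp only [Eis3.bar, Prod.fst_neg] at h2
      omega
    have h9 : ∃ t : ℤ, Eis3.mul (y 0 0) (y 1 1) - Eis3.mul (y 0 1) (y 1 0) = (3 * t, 0) := by
      refine ⟨(y 0 1).1 * (y 1 0).1 - (y 0 0).1 * (y 1 1).1, ?_⟩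
      simp only [Eis3.mul, hre]
      ext <;> simp <;> ring
    obtain ⟨t, ht⟩ := h9
    rw [ht] at hdet
    have h := congrArg Eis3.norm hdet
    rw [hδn, Eis3.norm_mul, Eis3.norm_mul, norm_omegaPow, Eis3.norm_intCast, Int.natAbs_mul] at h
    simp only [one_mul, Int.reduceAbs] at h
    rcases Nat.eq_zero_or_pos t.natAbs with h0 | h0
    · simp [h0] at h
    · nlinarith

/-- The conjugation attached to a form. -/
def orbitConj (a d : ℤ) (ρ : Eis3) (ε : ℤ) (v : Eis3 × Eis3) : Eis3 × Eis3 :=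
  (Eis3.mul (ε, 0) (Eis3.mul ρ (Eis3.bar v.1) +
    Eis3.mul ((1, 2) : Eis3) (Eis3.mul (a, 0) (Eis3.bar v.2))),
    Eis3.mul (ε, 0) (Eis3.mul (Eis3.bar ρ) (Eis3.bar v.2) -
      Eis3.mul ((1, 2) : Eis3) (Eis3.mul (d, 0) (Eis3.bar v.1))))

theorem orbitConj_toC (a d : ℤ) (ρ : Eis3) (ε : ℤ) (v : Eis3 × Eis3) :
    (orbitConj a d ρ ε v).1.toC =
        (ε : ℂ) * (ρ.toC * conj v.1.toC + sqrtNegThree * a * conj v.2.toC) ∧
      (orbitConj a d ρ ε v).2.toC =
        (ε : ℂ) * (conj ρ.toC * conj v.2.toC - sqrtNegThree * d * conj v.1.toC) := by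
  constructor <;>
    simp only [orbitConj, Eis3.toC_mul, Eis3.toC_add, Eis3.toC_sub, Eis3.toC_bar,
      Eis3.toC_intCast, ← Eis3.sqrtNegThree_eq] <;> ring

/-- The conjugation is linear over `ℤ`. -/
def orbitConjLin (a d : ℤ) (ρ : Eis3) (ε : ℤ) : (Eis3 × Eis3) →ₗ[ℤ] (Eis3 × Eis3) :=
  (AddMonoidHom.mk' (orbitConj a d ρ ε) (fun v w => by
    have hC := orbitConj_toC a d ρ ε
    refine Prod.ext (Eis3.toC_injective ?_) (Eis3.toC_injective ?_)
    · rw [Prod.fst_add, Eis3.toC_add, (hC _).1, (hC v).1, (hC w).1, Prod.fst_add, Prod.snd_add,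
        Eis3.toC_add, Eis3.toC_add, map_add, map_add]
      ring
    · rw [Prod.snd_add, Eis3.toC_add, (hC _).2, (hC v).2, (hC w).2, Prod.fst_add, Prod.snd_add,
        Eis3.toC_add, Eis3.toC_add, map_add, map_add]
      ring)).toIntLinearMap

/-- The lattice of vectors fixed by the conjugation. -/
def orbitFixed (a d : ℤ) (ρ : Eis3) (ε : ℤ) : Submodule ℤ (Eis3 × Eis3) :=
  LinearMap.ker (orbitConjLin a d ρ ε - LinearMap.id)

theorem mem_orbitFixed {a d : ℤ} {ρ : Eis3} {ε : ℤ} {v : Eis3 × Eis3} :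
    v ∈ orbitFixed a d ρ ε ↔ orbitConj a d ρ ε v = v := by
  rw [orbitFixed, LinearMap.mem_ker, LinearMap.sub_apply, LinearMap.id_apply, sub_eq_zero]
  rfl

section Conj

variable {a d : ℤ} {ρ : Eis3} {ε : ℤ}

/-- The equations of a form of index one, read in `ℂ`. -/
theorem orbit_data_cast (hε : ε * ε = 1) (hN : (ρ.norm : ℤ) - 3 * a * d = 1) :
    (ε : ℂ) * ε = 1 ∧ ρ.toC * conj ρ.toC - 3 * (a : ℂ) * d = 1 := by
  refine ⟨by exact_mod_cast congrArg (fun z : ℤ => (z : ℂ)) hε, ?_⟩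
  rw [Complex.mul_conj, Eis3.normSq_toC]
  have := congrArg (fun z : ℤ => (z : ℂ)) hN
  push_cast at this ⊢
  exact this

theorem orbitConj_orbitConj (hε : ε * ε = 1) (hN : (ρ.norm : ℤ) - 3 * a * d = 1)
    (v : Eis3 × Eis3) : orbitConj a d ρ ε (orbitConj a d ρ ε v) = v := by
  obtain ⟨hεC, hN'⟩ := orbit_data_cast hε hN
  have hs2 := sqrtNegThree_sq
  have hσC := orbitConj_toC a d ρ ε
  refine Prod.ext (Eis3.toC_injective ?_) (Eis3.toC_injective ?_)
  · rw [(hσC _).1, (hσC v).1, (hσC v).2]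
    simp only [map_mul, map_add, map_sub, Complex.conj_conj, map_intCast, conj_sqrtNegThree]
    linear_combination ((ε : ℂ) * ε * v.1.toC) * hN' + v.1.toC * hεC +
      ((ε : ℂ) * ε * (a : ℂ) * d * v.1.toC) * hs2
  · rw [(hσC _).2, (hσC v).1, (hσC v).2]
    simp only [map_mul, map_add, map_sub, Complex.conj_conj, map_intCast, conj_sqrtNegThree]
    linear_combination ((ε : ℂ) * ε * v.2.toC) * hN' + v.2.toC * hεC +
      ((ε : ℂ) * ε * (a : ℂ) * d * v.2.toC) * hs2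

/-- Every vector is a combination of two fixed vectors over `ℤ + ℤ ω`. -/
theorem exists_orbitFixed_decomp (hε : ε * ε = 1) (hN : (ρ.norm : ℤ) - 3 * a * d = 1)
    (hεχ : (ε : ZMod 3) * ((ρ.1 : ZMod 3) + ρ.2) = 1) (v : Eis3 × Eis3) :
    ∃ x y : Eis3 × Eis3, orbitConj a d ρ ε x = x ∧ orbitConj a d ρ ε y = y ∧
      v = (x.1 + Eis3.mul (0, 1) y.1, x.2 + Eis3.mul (0, 1) y.2) := by
  have : Fact (Nat.Prime 3) := ⟨Nat.prime_three⟩
  have h30 : (3 : ZMod 3) = 0 := rfl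
  have hinv := orbitConj_orbitConj hε hN
  set σ := orbitConj a d ρ ε with hσdef
  have hσC := orbitConj_toC a d ρ ε
  rw [← hσdef] at hσC
  have hs : Eis3.toC (1, 2) = sqrtNegThree := Eis3.sqrtNegThree_eq.symm
  have hω : Eis3.toC (0, 1) = omegaC := by simp [Eis3.toC]
  have hconjω := conj_omegaC_eq
  have hs30 : ∀ x : Eis3, ((x.1 + x.2 : ℤ) : ZMod 3) = 0 → ∃ z, Eis3.mul (1, 2) z = x := by
    intro x hx
    obtain ⟨t, ht⟩ := (ZMod.intCast_zmod_eq_zero_iff_dvd _ 3).mp hx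
    refine ⟨(x.2 - t, x.2 - 2 * t), ?_⟩
    simp only [Eis3.mul]
    refine Prod.ext ?_ ?_ <;> simp <;> omega
  set χ : Eis3 → ZMod 3 := Eis3.modSqrtThree with hχ
  have cmul : ∀ x y, χ (Eis3.mul x y) = χ x * χ y := Eis3.modSqrtThree_mul
  have cadd : ∀ x y, χ (x + y) = χ x + χ y := Eis3.modSqrtThree_add
  have csub : ∀ x y, χ (x - y) = χ x - χ y := Eis3.modSqrtThree_sub
  have cbar : ∀ x, χ (Eis3.bar x) = χ x := Eis3.modSqrtThree_bar
  have cint : ∀ m : ℤ, χ (m, 0) = (m : ZMod 3) := Eis3.modSqrtThree_intCast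
  have cs : χ (1, 2) = 0 := rfl
  have cρ : χ ρ = (ρ.1 : ZMod 3) + ρ.2 := Int.cast_add ρ.1 ρ.2
  obtain ⟨z1, hz1⟩ := hs30 (v.1 - (σ v).1) (by
    change χ _ = 0
    simp only [hσdef, orbitConj, csub, cadd, cmul, cbar, cint, cs, cρ]
    linear_combination (-(χ v.1)) * hεχ)
  obtain ⟨z2, hz2⟩ := hs30 (v.2 - (σ v).2) (by
    change χ _ = 0
    simp only [hσdef, orbitConj, csub, cmul, cbar, cint, cs, cρ]
    linear_combination (-(χ v.2)) * hεχ)
  have h1 : sqrtNegThree * z1.toC = v.1.toC - (σ v).1.toC := by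
    rw [← hs, ← Eis3.toC_mul, hz1, Eis3.toC_sub]
  have h2 : sqrtNegThree * z2.toC = v.2.toC - (σ v).2.toC := by
    rw [← hs, ← Eis3.toC_mul, hz2, Eis3.toC_sub]
  have hvv := hinv v
  have hz : σ (z1, z2) = (z1, z2) := by
    have g1 := congrArg (fun x : Eis3 × Eis3 => x.1.toC) hvv
    have g2 := congrArg (fun x : Eis3 × Eis3 => x.2.toC) hvv
    simp only [(hσC (σ v)).1, (hσC (σ v)).2] at g1 g2
    have c1 : -sqrtNegThree * conj z1.toC = conj v.1.toC - conj (σ v).1.toC := by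
      rw [← conj_sqrtNegThree, ← map_mul, h1, map_sub]
    have c2 : -sqrtNegThree * conj z2.toC = conj v.2.toC - conj (σ v).2.toC := by
      rw [← conj_sqrtNegThree, ← map_mul, h2, map_sub]
    refine Prod.ext (Eis3.toC_injective (mul_left_cancel₀ sqrtNegThree_ne_zero ?_))
      (Eis3.toC_injective (mul_left_cancel₀ sqrtNegThree_ne_zero ?_))
    · rw [(hσC _).1, h1]
      linear_combination (-(ε : ℂ) * ρ.toC) * c1 + (-(ε : ℂ) * sqrtNegThree * a) * c2 + g1 +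
        (hσC v).1
    · rw [(hσC _).2, h2]
      linear_combination (-(ε : ℂ) * conj ρ.toC) * c2 + ((ε : ℂ) * sqrtNegThree * d) * c1 + g2 +
        (hσC v).2
  have hu1 : σ (v.1 - Eis3.mul (0, 1) z1, v.2 - Eis3.mul (0, 1) z2) =
      (v.1 - Eis3.mul (0, 1) z1, v.2 - Eis3.mul (0, 1) z2) := by
    have d1 := congrArg (fun x : Eis3 × Eis3 => x.1.toC) hz
    have d2 := congrArg (fun x : Eis3 × Eis3 => x.2.toC) hz
    simp only [(hσC _).1, (hσC _).2] at d1 d2
    refine Prod.ext (Eis3.toC_injective ?_) (Eis3.toC_injective ?_)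
    · rw [(hσC _).1]
      simp only [Eis3.toC_sub, Eis3.toC_mul, hω, map_sub, map_mul, hconjω]
      linear_combination h1 - (hσC v).1 + (sqrtNegThree - omegaC) * d1
    · rw [(hσC _).2]
      simp only [Eis3.toC_sub, Eis3.toC_mul, hω, map_sub, map_mul, hconjω]
      linear_combination h2 - (hσC v).2 + (sqrtNegThree - omegaC) * d2
  exact ⟨_, _, hu1, hz, Prod.ext (sub_add_cancel _ _).symm (sub_add_cancel _ _).symm⟩

/-- A basis of the fixed lattice has determinant `±1`. -/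
theorem exists_orbitFixed_basis (hε : ε * ε = 1) (hN : (ρ.norm : ℤ) - 3 * a * d = 1)
    (hεχ : (ε : ZMod 3) * ((ρ.1 : ZMod 3) + ρ.2) = 1) :
    ∃ u w : Eis3 × Eis3, ∃ t : ℤ, u ∈ orbitFixed a d ρ ε ∧ w ∈ orbitFixed a d ρ ε ∧
      Eis3.mul u.1 w.2 - Eis3.mul w.1 u.2 = (t, 0) ∧ t * t = 1 := by
  obtain ⟨hεC, hN'⟩ := orbit_data_cast hε hN
  have hs2 := sqrtNegThree_sq
  set σ := orbitConj a d ρ ε with hσdef
  have hσC := orbitConj_toC a d ρ ε
  rw [← hσdef] at hσC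
  set V := orbitFixed a d ρ ε
  have hmemV : ∀ v, v ∈ V ↔ σ v = v := fun v => mem_orbitFixed
  let mω : Eis3 →ₗ[ℤ] Eis3 := (AddMonoidHom.mk' (Eis3.mul (0, 1)) (fun v w =>
    Eis3.toC_injective (by simp only [Eis3.toC_mul, Eis3.toC_add]; ring))).toIntLinearMap
  let comb : (V × V) →ₗ[ℤ] (Eis3 × Eis3) :=
    V.subtype.coprod ((mω.prodMap mω).comp V.subtype)
  have hcomb : ∀ u : V × V, comb u = ((u.1.1).1 + Eis3.mul (0, 1) (u.2.1).1,
      (u.1.1).2 + Eis3.mul (0, 1) (u.2.1).2) := fun u => rfl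
  have hω : Eis3.toC (0, 1) = omegaC := by simp [Eis3.toC]
  have hcombσ : ∀ u : V × V, σ (comb u) = ((u.1.1).1 + Eis3.mul (-1, -1) (u.2.1).1,
      (u.1.1).2 + Eis3.mul (-1, -1) (u.2.1).2) := by
    intro u
    have e1 := (hmemV _).mp u.1.2
    have e2 := (hmemV _).mp u.2.2
    have hωb : Eis3.toC (-1, -1) = conj omegaC := by
      rw [← hω, ← Eis3.toC_bar]; rfl
    refine Prod.ext (Eis3.toC_injective ?_) (Eis3.toC_injective ?_)
    · conv_rhs => rw [← e1, ← e2]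
      simp only [hcomb, (hσC _).1, Eis3.toC_add, Eis3.toC_mul, map_add, map_mul, hω, hωb]
      ring
    · conv_rhs => rw [← e1, ← e2]
      simp only [hcomb, (hσC _).2, Eis3.toC_add, Eis3.toC_mul, map_add, map_mul, hω, hωb]
      ring
  have hinj : Function.Injective comb := by
    rw [← LinearMap.ker_eq_bot, Submodule.eq_bot_iff]
    intro u hu
    rw [LinearMap.mem_ker] at hu
    have h1 := hcombσ u
    rw [hu, show σ 0 = 0 from (orbitConjLin a d ρ ε).map_zero] at h1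
    rw [hcomb] at hu
    simp only [Prod.ext_iff, Eis3.mul, Prod.fst_add, Prod.snd_add, Prod.fst_zero, Prod.snd_zero]
      at hu h1
    refine Prod.ext (Subtype.ext (Prod.ext (Prod.ext ?_ ?_) (Prod.ext ?_ ?_)))
      (Subtype.ext (Prod.ext (Prod.ext ?_ ?_) (Prod.ext ?_ ?_))) <;>
      simp only [Prod.fst_zero, Prod.snd_zero, ZeroMemClass.coe_zero] <;> omega
  have hsurj : Function.Surjective comb := fun v => by
    obtain ⟨x, y, hx, hy, hv⟩ := exists_orbitFixed_decomp hε hN hεχ v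
    exact ⟨(⟨x, (hmemV _).mpr hx⟩, ⟨y, (hmemV _).mpr hy⟩), (hcomb _).trans hv.symm⟩
  have hrank : Module.finrank ℤ V = 2 := by
    have h1 := (LinearEquiv.ofBijective comb ⟨hinj, hsurj⟩).finrank_eq
    rw [Module.finrank_prod, Module.finrank_prod, Module.finrank_prod, Module.finrank_self] at h1
    omega
  let bas := Module.finBasisOfFinrankEq ℤ V hrank
  set u : Eis3 × Eis3 := ((bas 0 : V) : Eis3 × Eis3) with hu
  set w : Eis3 × Eis3 := ((bas 1 : V) : Eis3 × Eis3) with hw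
  have hrepr : ∀ v : V, (v : Eis3 × Eis3) = (bas.repr v 0) • u + (bas.repr v 1) • w := fun v => by
    conv_lhs => rw [← bas.sum_repr v, Fin.sum_univ_two]
    rfl
  set Δ : Eis3 := Eis3.mul u.1 w.2 - Eis3.mul w.1 u.2 with hΔ
  have hΔunit : Δ.norm = 1 := by
    obtain ⟨⟨p1, p2⟩, hp⟩ := hsurj ((1, 0), (0, 0))
    obtain ⟨⟨q1, q2⟩, hq'⟩ := hsurj ((0, 0), (1, 0))
    rw [hcomb, hrepr p1, hrepr p2] at hp
    rw [hcomb, hrepr q1, hrepr q2] at hq'
    set α : Eis3 := (bas.repr p1 0, bas.repr p2 0)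
    set β : Eis3 := (bas.repr p1 1, bas.repr p2 1)
    set γ : Eis3 := (bas.repr q1 0, bas.repr q2 0)
    set δ : Eis3 := (bas.repr q1 1, bas.repr q2 1)
    have h : Eis3.mul (Eis3.mul α δ - Eis3.mul β γ) Δ = (1, 0) := by
      have hp1 := congrArg (fun x : Eis3 × Eis3 => x.1.toC) hp
      have hp2 := congrArg (fun x : Eis3 × Eis3 => x.2.toC) hp
      have hq1 := congrArg (fun x : Eis3 × Eis3 => x.1.toC) hq'
      have hq2 := congrArg (fun x : Eis3 × Eis3 => x.2.toC) hq'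
      have hz : ∀ (m : ℤ) (x : Eis3), (m • x).toC = (m : ℂ) * x.toC := fun m x => by
        simp [Eis3.toC]; ring
      simp only [Prod.fst_add, Prod.snd_add, Prod.smul_fst, Prod.smul_snd, Eis3.toC_add,
        Eis3.toC_mul, hω, hz, Eis3.toC_zero, Eis3.toC_one] at hp1 hp2 hq1 hq2
      have hαC : α.toC = (bas.repr p1 0 : ℂ) + (bas.repr p2 0 : ℂ) * omegaC := rfl
      have hβC : β.toC = (bas.repr p1 1 : ℂ) + (bas.repr p2 1 : ℂ) * omegaC := rfl
      have hγC : γ.toC = (bas.repr q1 0 : ℂ) + (bas.repr q2 0 : ℂ) * omegaC := rfl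
      have hδC : δ.toC = (bas.repr q1 1 : ℂ) + (bas.repr q2 1 : ℂ) * omegaC := rfl
      refine Eis3.toC_injective ?_
      simp only [Eis3.toC_mul, Eis3.toC_sub, Eis3.toC_one, hΔ, hαC, hβC, hγC, hδC]
      linear_combination
        (((bas.repr q1 0 : ℂ) + (bas.repr q2 0 : ℂ) * omegaC) * u.2.toC +
          ((bas.repr q1 1 : ℂ) + (bas.repr q2 1 : ℂ) * omegaC) * w.2.toC) * hp1 -
        (((bas.repr q1 0 : ℂ) + (bas.repr q2 0 : ℂ) * omegaC) * u.1.toC +
          ((bas.repr q1 1 : ℂ) + (bas.repr q2 1 : ℂ) * omegaC) * w.1.toC) * hp2 + hq2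
    have h' := congrArg Eis3.norm h
    rw [Eis3.norm_mul] at h'
    exact Nat.eq_one_of_mul_eq_one_left h'
  have hreal : conj Δ.toC = Δ.toC := by
    rw [hΔ, Eis3.toC_sub, Eis3.toC_mul, Eis3.toC_mul]
    conv_rhs => rw [← (hmemV u).mp (bas 0).2, ← (hmemV w).mp (bas 1).2]
    rw [(hσC u).1, (hσC u).2, (hσC w).1, (hσC w).2, map_sub, map_mul, map_mul]
    linear_combination (-((ε : ℂ) * ε *
      (conj u.1.toC * conj w.2.toC - conj w.1.toC * conj u.2.toC))) * hN' -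
      (conj u.1.toC * conj w.2.toC - conj w.1.toC * conj u.2.toC) * hεC -
      ((ε : ℂ) * ε * (a : ℂ) * d *
        (conj u.1.toC * conj w.2.toC - conj w.1.toC * conj u.2.toC)) * hs2
  have h1 : Eis3.bar Δ = Δ := Eis3.toC_injective (by rw [Eis3.toC_bar, hreal])
  have h2 := congrArg Prod.snd h1
  simp only [Eis3.bar] at h2
  refine ⟨u, w, Δ.1, (bas 0).2, (bas 1).2, Prod.ext rfl (show Δ.2 = 0 by omega), ?_⟩
  have h3 := Eis3.norm_cast_eq Δ
  rw [hΔunit, show Δ.2 = 0 by omega] at h3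
  push_cast at h3
  linarith

theorem conj_of_orbitFixed {x : Eis3 × Eis3} (hx : orbitConj a d ρ ε x = x) :
    conj x.1.toC = (ε : ℂ) * (conj ρ.toC * x.1.toC - sqrtNegThree * a * x.2.toC) ∧
      conj x.2.toC = (ε : ℂ) * (ρ.toC * x.2.toC + sqrtNegThree * d * x.1.toC) := by
  constructor
  · conv_lhs => rw [← hx, (orbitConj_toC a d ρ ε x).1]
    simp only [map_mul, map_add, map_intCast, Complex.conj_conj, conj_sqrtNegThree]
    ring
  · conv_lhs => rw [← hx, (orbitConj_toC a d ρ ε x).2]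
    simp only [map_mul, map_sub, map_intCast, Complex.conj_conj, conj_sqrtNegThree]
    ring

/-- The second coordinates of a fixed pair of determinant `t`. -/
theorem cross_eq_of_orbitFixed {u w : Eis3 × Eis3} {t : ℤ} (hu : orbitConj a d ρ ε u = u)
    (hw : orbitConj a d ρ ε w = w) (hd : u.1.toC * w.2.toC - w.1.toC * u.2.toC = (t : ℂ)) :
    u.2.2 * w.2.1 - u.2.1 * w.2.2 = -(ε * d * t) := by
  have e : u.2.toC * conj w.2.toC - w.2.toC * conj u.2.toC =
      sqrtNegThree * ((u.2.2 * w.2.1 - u.2.1 * w.2.2 : ℤ) : ℂ) := by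
    simp only [Eis3.toC, map_add, map_mul, map_intCast, conj_omegaC_eq]
    push_cast
    ring
  have h' : sqrtNegThree * ((u.2.2 * w.2.1 - u.2.1 * w.2.2 : ℤ) : ℂ) =
      sqrtNegThree * ((-(ε * d * t) : ℤ) : ℂ) := by
    rw [← e, (conj_of_orbitFixed hu).2, (conj_of_orbitFixed hw).2]
    push_cast
    linear_combination (-((ε : ℂ) * sqrtNegThree * d)) * hd
  exact_mod_cast mul_left_cancel₀ sqrtNegThree_ne_zero h'

end Conj

/-- A coprime combination of two vectors whose second coordinate vanishes modulo the level. -/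
theorem exists_primitive_comb {n₀ : ℕ} [NeZero n₀] {u w : Eis3 × Eis3} {t : ℤ}
    (hΔ : Eis3.mul u.1 w.2 - Eis3.mul w.1 u.2 = (t, 0)) (htt : t * t = 1)
    (hdn : (n₀ : ℤ) ∣ u.2.2 * w.2.1 - u.2.1 * w.2.2) :
    ∃ α β : ℤ, IsCoprime α β ∧
      (n₀ : ℤ) ∣ α * u.2.1 + β * w.2.1 ∧ (n₀ : ℤ) ∣ α * u.2.2 + β * w.2.2 := by
  classical
  have hn0 := NeZero.ne n₀
  set T : ℕ := ∏ p ∈ n₀.primeFactors.filter
    (fun p : ℕ => ¬ ((p : ℤ) ∣ w.2.2 ∧ (p : ℤ) ∣ u.2.2)), p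
  obtain ⟨A, hA⟩ : ∃ A : ℤ, A = w.2.2 + T * w.2.1 := ⟨_, rfl⟩
  obtain ⟨B, hB⟩ : ∃ B : ℤ, B = -u.2.2 - T * u.2.1 := ⟨_, rfl⟩
  have hA1 : (n₀ : ℤ) ∣ A * u.2.1 + B * w.2.1 := by
    rw [show A * u.2.1 + B * w.2.1 = -(u.2.2 * w.2.1 - u.2.1 * w.2.2) by rw [hA, hB]; ring]
    exact hdn.neg_right
  have hA2 : (n₀ : ℤ) ∣ A * u.2.2 + B * w.2.2 := by
    rw [show A * u.2.2 + B * w.2.2 = (T : ℤ) * (u.2.2 * w.2.1 - u.2.1 * w.2.2)
      by rw [hA, hB]; ring]
    exact hdn.mul_left _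
  have hprim : ∀ p : ℕ, p.Prime → p ∣ n₀ → (p : ℤ) ∣ A → (p : ℤ) ∣ B → False := by
    intro p hp hpn hpA hpB
    have hp' : Prime (p : ℤ) := Nat.prime_iff_prime_int.mp hp
    by_cases hU : (p : ℤ) ∣ w.2.2 ∧ (p : ℤ) ∣ u.2.2
    · have hT : ¬ (p : ℤ) ∣ (T : ℤ) := by
        rw [Int.natCast_dvd_natCast]
        intro h
        obtain ⟨q, hq, hpq⟩ := (hp.prime.dvd_finsetProd_iff _).mp h
        rw [Finset.mem_filter, Nat.mem_primeFactors] at hq
        rw [← (Nat.prime_dvd_prime_iff_eq hp hq.1.1).mp hpq] at hq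
        exact hq.2 hU
      have h1 : (p : ℤ) ∣ w.2.1 := (hp'.dvd_or_dvd
        (show (p : ℤ) ∣ (T : ℤ) * w.2.1 by simpa [hA] using hpA.sub hU.1)).resolve_left hT
      have h2 : (p : ℤ) ∣ u.2.1 := (hp'.dvd_or_dvd
        (show (p : ℤ) ∣ (T : ℤ) * u.2.1 by
          rw [show (T : ℤ) * u.2.1 = -(B + u.2.2) by rw [hB]; ring]
          exact (hpB.add hU.2).neg_right)).resolve_left hT
      have h3 : (p : ℤ) ∣ t := by
        obtain ⟨k1, hk1⟩ := h1; obtain ⟨k2, hk2⟩ := h2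
        obtain ⟨⟨k3, hk3⟩, ⟨k4, hk4⟩⟩ := hU
        have h := congrArg Prod.fst hΔ
        simp only [Eis3.mul, Prod.fst_sub, hk1, hk2, hk3, hk4] at h
        exact ⟨_, h.symm.trans (show _ = (p : ℤ) *
          (u.1.1 * k1 - u.1.2 * k3 - (w.1.1 * k2 - w.1.2 * k4)) by ring)⟩
      exact hp'.not_isUnit (isUnit_of_dvd_one (htt ▸ h3.mul_right t))
    · have hT : (p : ℤ) ∣ (T : ℤ) := Int.natCast_dvd_natCast.mpr
        (Finset.dvd_prod_of_mem (fun q => q) (Finset.mem_filter.mpr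
          ⟨Nat.mem_primeFactors.mpr ⟨hp, hpn, hn0⟩, hU⟩))
      refine hU ⟨?_, ?_⟩
      · simpa [hA] using hpA.sub (hT.mul_right w.2.1)
      · have := (hpB.add (hT.mul_right u.2.1)).neg_right
        simpa [hB] using this
  by_cases h0 : Int.gcd A B = 0
  · rw [Int.gcd_eq_zero_iff] at h0
    have hn1 : n₀ = 1 := by
      by_contra hne
      obtain ⟨p, hp, hpn⟩ := Nat.exists_prime_and_dvd hne
      exact hprim p hp hpn (by simp [h0.1]) (by simp [h0.2])
    exact ⟨1, 0, isCoprime_one_left, by simp [hn1], by simp [hn1]⟩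
  · obtain ⟨α, hα⟩ := Int.gcd_dvd_left A B
    obtain ⟨β, hβ⟩ := Int.gcd_dvd_right A B
    set g : ℤ := (Int.gcd A B : ℤ)
    have hg0 : g ≠ 0 := Int.natCast_ne_zero.mpr h0
    have hgn : IsCoprime (n₀ : ℤ) g := by
      rw [Int.isCoprime_iff_nat_coprime]
      refine Nat.coprime_of_dvd fun p hp hp1 hp2 => hprim p hp ?_ ?_ ?_
      · simpa using hp1
      · exact (Int.natCast_dvd.mpr hp2).trans (Int.gcd_dvd_left A B)
      · exact (Int.natCast_dvd.mpr hp2).trans (Int.gcd_dvd_right A B)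
    refine ⟨α, β, ?_, hgn.dvd_of_dvd_mul_left (?_ : (n₀ : ℤ) ∣ g * _),
      hgn.dvd_of_dvd_mul_left (?_ : (n₀ : ℤ) ∣ g * _)⟩
    · obtain ⟨x, y, hxy⟩ : ∃ x y : ℤ, g = A * x + B * y :=
        ⟨_, _, Int.gcd_eq_gcd_ab A B⟩
      rw [hα, hβ] at hxy
      exact ⟨x, y, mul_left_cancel₀ hg0 (by linear_combination -hxy)⟩
    · convert hA1 using 1
      rw [hα, hβ]; ring
    · convert hA2 using 1
      rw [hα, hβ]; ring

/-- The forms of index one supporting the phase form one orbit. -/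
theorem exists_smul_base {n₀ : ℕ} [NeZero n₀] {i : HermIdx} (hq : HermIdx.q i = 3)
    (hφ : liftPhase (3 * n₀) i ≠ 0) :
    ∃ g ∈ gammaZeroK n₀, g • HermIdx.vec baseIdx = HermIdx.vec i := by
  obtain ⟨i1, ⟨r1, r2⟩, i3⟩ := i
  obtain ⟨⟨a, ha⟩, ⟨r', hr⟩, ⟨d', hd⟩⟩ :
      (3 : ℤ) ∣ i1 ∧ (3 : ℤ) ∣ r1 + r2 ∧ ((3 * n₀ : ℕ) : ℤ) ∣ i3 := by
    by_contra h
    exact hφ (by rw [liftPhase, if_neg h])
  set ρ : Eis3 := (r2 - r', r2 - 2 * r') with hρdef
  have hρ : ((r1, r2) : Eis3) = Eis3.mul (1, 2) ρ := by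
    simp only [hρdef, Eis3.mul]
    refine Prod.ext ?_ ?_ <;> simp <;> omega
  set d : ℤ := (n₀ : ℤ) * d' with hddef
  have hd3 : i3 = 3 * d := by rw [hd, hddef]; push_cast; ring
  have hN : (ρ.norm : ℤ) - 3 * a * d = 1 := by
    rw [HermIdx.q, hρ, Eis3.norm_mul, ha, hd3, show Eis3.norm (1, 2) = 3 from rfl] at hq
    push_cast at hq
    linarith
  -- the sign
  have : Fact (Nat.Prime 3) := ⟨Nat.prime_three⟩
  have h30 : (3 : ZMod 3) = 0 := rfl
  have hχsq : ((ρ.1 : ZMod 3) + ρ.2) ^ 2 = 1 := by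
    have := congrArg (fun z : ℤ => (z : ZMod 3)) hN
    rw [Eis3.norm_cast_eq] at this
    push_cast at this
    linear_combination this + ((ρ.1 : ZMod 3) * ρ.2 + (a : ZMod 3) * d) * h30
  obtain ⟨ε, hε, hεχ⟩ : ∃ ε : ℤ, ε * ε = 1 ∧ (ε : ZMod 3) * ((ρ.1 : ZMod 3) + ρ.2) = 1 := by
    rcases sq_eq_one_iff.mp hχsq with h | h
    · exact ⟨1, rfl, by rw [h]; simp⟩
    · exact ⟨-1, rfl, by rw [h]; simp⟩
  have hεC := (orbit_data_cast hε hN).1
  have hs : Eis3.toC (1, 2) = sqrtNegThree := Eis3.sqrtNegThree_eq.symm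
  have hs2 := sqrtNegThree_sq
  set V := orbitFixed a d ρ ε
  obtain ⟨u, w, t, huV, hwV, ht, htt⟩ := exists_orbitFixed_basis hε hN hεχ
  have hd : u.1.toC * w.2.toC - w.1.toC * u.2.toC = (t : ℂ) := by
    rw [← Eis3.toC_mul, ← Eis3.toC_mul, ← Eis3.toC_sub, ht, Eis3.toC_intCast]
  have hdn : (n₀ : ℤ) ∣ u.2.2 * w.2.1 - u.2.1 * w.2.2 := by
    rw [cross_eq_of_orbitFixed (mem_orbitFixed.mp huV) (mem_orbitFixed.mp hwV) hd]
    exact ⟨-(ε * d' * t), by rw [hddef]; ring⟩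
  obtain ⟨α, β, hab, hc1, hc2⟩ := exists_primitive_comb ht htt hdn
  obtain ⟨u0, v0, huv⟩ := hab
  set v : Eis3 × Eis3 := α • u + β • w with hvdef
  set v' : Eis3 × Eis3 := (-v0) • u + u0 • w with hv'def
  have hvV : v ∈ V := V.add_mem (V.smul_mem _ huV) (V.smul_mem _ hwV)
  have hvV' : v' ∈ V := V.add_mem (V.smul_mem _ huV) (V.smul_mem _ hwV)
  have hzC : ∀ (m : ℤ) (x : Eis3), (m • x).toC = (m : ℂ) * x.toC := fun m x => by
    simp [Eis3.toC]; ring
  have hdetv : v.1.toC * v'.2.toC - v'.1.toC * v.2.toC = (t : ℂ) := by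
    have huvC : (u0 : ℂ) * α + (v0 : ℂ) * β = 1 := by
      exact_mod_cast congrArg (fun z : ℤ => (z : ℂ)) huv
    simp only [hvdef, hv'def, Prod.fst_add, Prod.snd_add, Prod.smul_fst, Prod.smul_snd,
      Eis3.toC_add, hzC]
    push_cast
    linear_combination ((u0 : ℂ) * α + (v0 : ℂ) * β) * hd + (t : ℂ) * huvC
  set κ : ℤ := ε * t with hκ
  have hκκ : (κ : ℂ) * κ = 1 := by
    have h1 : κ * κ = 1 := by rw [hκ]; linear_combination t * t * hε + htt
    exact_mod_cast congrArg (fun z : ℤ => (z : ℂ)) h1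
  have htC : (t : ℂ) * t = 1 := by exact_mod_cast congrArg (fun z : ℤ => (z : ℂ)) htt
  let g : GL (Fin 2) ℂ := Matrix.GeneralLinearGroup.mkOfDetNeZero
    !![v.1.toC, (κ : ℂ) * v'.1.toC; v.2.toC, (κ : ℂ) * v'.2.toC] (by
      rw [Matrix.det_fin_two_of, show v.1.toC * ((κ : ℂ) * v'.2.toC) -
        (κ : ℂ) * v'.1.toC * v.2.toC =
        (κ : ℂ) * t by rw [← hdetv]; ring]
      intro h
      exact one_ne_zero (show (1 : ℂ) = 0 by
        linear_combination (-(t : ℂ) * t) * hκκ - htC + ((κ : ℂ) * t) * h))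
  refine ⟨g, mem_gammaZeroK ![![v.1, Eis3.mul (κ, 0) v'.1], ![v.2, Eis3.mul (κ, 0) v'.2]]
    (fun k l => ?_) ?_ ?_, ?_⟩
  · fin_cases k <;> fin_cases l <;>
      simp [g, Matrix.GeneralLinearGroup.mkOfDetNeZero, Eis3.toC_mul, Eis3.toC_intCast]
  · show ‖(!![v.1.toC, (κ : ℂ) * v'.1.toC; v.2.toC, (κ : ℂ) * v'.2.toC]).det‖ = 1
    rw [Matrix.det_fin_two_of, show v.1.toC * ((κ : ℂ) * v'.2.toC) - (κ : ℂ) * v'.1.toC * v.2.toC =
        (κ : ℂ) * t by rw [← hdetv]; ring]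
    have h2 : (‖(κ : ℂ) * t‖) * ‖(κ : ℂ) * t‖ = 1 := by
      rw [← norm_mul, show (κ : ℂ) * t * ((κ : ℂ) * t) = 1 by
        linear_combination ((t : ℂ) * t) * hκκ + htC, norm_one]
    nlinarith [norm_nonneg ((κ : ℂ) * t)]
  · obtain ⟨k1, hk1⟩ := hc1
    obtain ⟨k2, hk2⟩ := hc2
    refine ⟨(k1, k2), ?_⟩
    simp only [Matrix.cons_val_zero, Matrix.cons_val_one, Matrix.cons_val_fin_one, hvdef, Eis3.mul,
      Prod.snd_add, Prod.smul_snd]
    refine Prod.ext ?_ ?_ <;> simp [hk1, hk2]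
  · have k1 : ∀ x ∈ V, _ := fun x hx => conj_of_orbitFixed (mem_orbitFixed.mp hx)
    refine HermVec.toHerm_injective ?_
    rw [HermVec.toHerm_smul]
    have hr' : Eis3.toC (r1, r2) = sqrtNegThree * ρ.toC := by rw [hρ, Eis3.toC_mul, hs]
    have hεt : (ε : ℂ) * κ * t = 1 := by
      rw [hκ]; push_cast
      linear_combination ((t : ℂ) * t) * hεC + htC
    ext k l
    fin_cases k <;> fin_cases l <;>
      simp [g, Matrix.GeneralLinearGroup.mkOfDetNeZero, HermVec.toHerm, HermIdx.vec, baseIdx,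
        Matrix.mul_apply, Fin.sum_univ_two, hs, conj_sqrtNegThree, hr', ha, hd3,
        (k1 v hvV).1, (k1 v hvV).2, (k1 v' hvV').1, (k1 v' hvV').2]
    · linear_combination (-((ε : ℂ) * κ * (a : ℂ) * (v.1.toC * v'.2.toC -
        v'.1.toC * v.2.toC))) * hs2 +
        (3 * (ε : ℂ) * κ * a) * hdetv + (3 * (a : ℂ)) * hεt
    · linear_combination (sqrtNegThree * ρ.toC * (ε : ℂ) * κ) * hdetv +
        (sqrtNegThree * ρ.toC) * hεt
    · linear_combination (-(sqrtNegThree * conj ρ.toC * (ε : ℂ) * κ)) * hdetv -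
        (sqrtNegThree * conj ρ.toC) * hεt
    · linear_combination (-((ε : ℂ) * κ * (d : ℂ) * (v.1.toC * v'.2.toC -
        v'.1.toC * v.2.toC))) * hs2 +
        (3 * (ε : ℂ) * κ * d) * hdetv + (3 * (d : ℂ)) * hεt

end Fermat.Agent.ResidualThree
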