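import Fermat.Agent.ResidualThree.ThetaLift.Kernel
import Fermat.Agent.ResidualThree.ThetaLift.Vec

/-!
# The real plane in hyperbolic three-space

The embedding of the upper half-plane as the plane `Im z = 0`, and the distribution of the
distance from a point to this plane against the hyperbolic area.
-/

noncomputable section

open MeasureTheory Set Filter
open scoped ComplexConjugate ENNReal MatrixGroups

namespace Fermat.Agent.ResidualThree

/-- The real plane. -/
def planeEmb (t : UpperHalfPlane) : H3 := ⟨(t.re : ℂ), t.im, t.im_pos⟩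

theorem continuous_planeEmb : Continuous planeEmb :=
  H3.continuous_iff.mpr ⟨Complex.continuous_ofReal.comp UpperHalfPlane.continuous_re,
    UpperHalfPlane.continuous_im⟩

/-- `GL₂(ℝ) → GL₂(ℂ)`. -/
def realGL : GL (Fin 2) ℝ →* GL (Fin 2) ℂ := Matrix.GeneralLinearGroup.map Complex.ofRealHom

theorem realGL_apply (r : GL (Fin 2) ℝ) (i j : Fin 2) :
    (realGL r : Matrix (Fin 2) (Fin 2) ℂ) i j = ((r i j : ℝ) : ℂ) := rfl

theorem planeEmb_smul (r : GL (Fin 2) ℝ) (t : UpperHalfPlane) :
    planeEmb (r • t) = realGL r • planeEmb t := by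
  have hden : H3.denom (realGL r) (planeEmb t) = Complex.normSq (UpperHalfPlane.denom r t) := by
    simp only [H3.denom, planeEmb, realGL_apply, UpperHalfPlane.denom, Complex.normSq_apply,
      Complex.add_re, Complex.add_im, Complex.mul_re, Complex.mul_im, Complex.ofReal_re,
      Complex.ofReal_im, UpperHalfPlane.coe_re, UpperHalfPlane.coe_im]
    ring
  have hdet : (realGL r : Matrix (Fin 2) (Fin 2) ℂ).det = ((r.det.val : ℝ) : ℂ) := by
    simp only [Matrix.det_fin_two, realGL_apply, Matrix.GeneralLinearGroup.val_det_apply]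
    push_cast
    ring
  have hd0 := UpperHalfPlane.normSq_denom_pos r t.im_ne_zero
  refine H3.ext ?_ ?_
  · rw [H3.smul_z, hden]
    show ((r • t).re : ℂ) = _
    rw [eq_div_iff (by exact_mod_cast hd0.ne')]
    apply Complex.ext
    · rw [← UpperHalfPlane.coe_re, UpperHalfPlane.coe_smul]
      have hσ : ∀ z : ℂ, (UpperHalfPlane.σ r z).re = z.re := fun z => by
        rw [UpperHalfPlane.σ]; split_ifs <;> simp
      rw [Complex.mul_re, Complex.ofReal_re, Complex.ofReal_im, zero_mul, sub_zero,
        Complex.ofReal_re, hσ, Complex.div_re, ← add_div, div_mul_cancel₀ _ hd0.ne']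
      simp only [UpperHalfPlane.num, UpperHalfPlane.denom, planeEmb, realGL_apply, Complex.add_re,
        Complex.add_im, Complex.mul_re, Complex.mul_im, Complex.ofReal_re, Complex.ofReal_im,
        Complex.conj_re, Complex.conj_im, UpperHalfPlane.coe_re, UpperHalfPlane.coe_im,
        ← Complex.ofReal_pow]
      ring
    · simp only [planeEmb, realGL_apply, Complex.add_re, Complex.add_im, Complex.mul_re,
        Complex.mul_im, Complex.ofReal_re, Complex.ofReal_im, Complex.conj_re, Complex.conj_im,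
        ← Complex.ofReal_pow]
      ring
  · rw [H3.smul_y, hden, hdet, Complex.norm_real, Real.norm_eq_abs]
    show (r • t).im = _
    rw [UpperHalfPlane.im_smul_eq_div_normSq]
    rfl

/-- Integration over the upper half-plane in coordinates. -/
theorem lintegral_upperHalfPlane (f : ℝ → ℝ → ℝ≥0∞)
    (hf : Measurable (Function.uncurry f)) :
    ∫⁻ t : UpperHalfPlane, f t.re t.im =
      ∫⁻ u : ℝ, ∫⁻ v in Ioi (0 : ℝ), ENNReal.ofReal (1 / v ^ 2) * f u v := by
  have hpres : MeasurePreserving UpperHalfPlane.coe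
      ((volume : Measure ℂ).comap UpperHalfPlane.coe)
      ((volume : Measure ℂ).restrict (Set.range UpperHalfPlane.coe)) :=
    ⟨UpperHalfPlane.measurable_coe, by rw [UpperHalfPlane.measurableEmbedding_coe.map_comap]⟩
  have hrange : Set.range UpperHalfPlane.coe = {z : ℂ | 0 < z.im} := by
    ext z
    exact ⟨by rintro ⟨t, rfl⟩; exact t.im_pos, fun h => ⟨⟨z, h⟩, rfl⟩⟩
  have hg : Measurable fun z : ℂ => ENNReal.ofReal (1 / z.im ^ 2) * f z.re z.im :=
    (ENNReal.measurable_ofReal.comp (by fun_prop)).mul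
      (hf.comp (Complex.measurable_re.prodMk Complex.measurable_im))
  calc ∫⁻ t : UpperHalfPlane, f t.re t.im
      = ∫⁻ t : UpperHalfPlane, ENNReal.ofReal (1 / (t : ℂ).im ^ 2) * f (t : ℂ).re (t : ℂ).im
          ∂(volume : Measure ℂ).comap UpperHalfPlane.coe := by
        rw [UpperHalfPlane.volume_def, lintegral_withDensity_eq_lintegral_mul _ (by fun_prop)]
        · refine lintegral_congr fun t => ?_
          simp only [Pi.mul_apply, UpperHalfPlane.coe_re, UpperHalfPlane.coe_im]
          congr 1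
          rw [← ENNReal.ofReal_coe_nnreal]
          congr 1
          push_cast
          rw [div_pow, one_pow]
        · exact hf.comp (UpperHalfPlane.continuous_re.measurable.prodMk
            UpperHalfPlane.continuous_im.measurable)
    _ = ∫⁻ z in {z : ℂ | 0 < z.im}, ENNReal.ofReal (1 / z.im ^ 2) * f z.re z.im := by
        rw [← hrange, ← hpres.lintegral_comp_emb UpperHalfPlane.measurableEmbedding_coe]
    _ = ∫⁻ q in (univ : Set ℝ) ×ˢ Ioi (0 : ℝ), ENNReal.ofReal (1 / q.2 ^ 2) * f q.1 q.2 := by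
        have hm : Measurable fun q : ℝ × ℝ => ENNReal.ofReal (1 / q.2 ^ 2) * f q.1 q.2 :=
          (show Measurable fun q : ℝ × ℝ => ENNReal.ofReal (1 / q.2 ^ 2) by fun_prop).mul hf
        rw [← Complex.volume_preserving_equiv_real_prod.setLIntegral_comp_preimage
          (MeasurableSet.univ.prod measurableSet_Ioi) hm]
        rw [show {z : ℂ | 0 < z.im} =
            Complex.measurableEquivRealProd ⁻¹' (univ ×ˢ Ioi (0 : ℝ)) from Set.ext fun z => by
          simp [Complex.measurableEquivRealProd]]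
        rfl
    _ = _ := by
        have hm : Measurable fun q : ℝ × ℝ => ENNReal.ofReal (1 / q.2 ^ 2) * f q.1 q.2 :=
          (show Measurable fun q : ℝ × ℝ => ENNReal.ofReal (1 / q.2 ^ 2) by fun_prop).mul hf
        rw [Measure.volume_eq_prod, ← Measure.prod_restrict, Measure.restrict_univ,
          lintegral_prod _ hm.aemeasurable]

theorem lintegral_mul_add_left {c : ℝ} (hc : 0 < c) (a : ℝ) (φ : ℝ → ℝ≥0∞) :
    ∫⁻ w : ℝ, ENNReal.ofReal c * φ (a + c * w) = ∫⁻ u : ℝ, φ u := by
  have h := lintegral_image_eq_lintegral_abs_deriv_mul (f := fun w => a + c * w) (f' := fun _ => c)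
    MeasurableSet.univ (fun w _ => HasDerivAt.hasDerivWithinAt (by
      simpa using ((hasDerivAt_id w).const_mul c).const_add a))
    (fun x _ y _ h => by simpa [hc.ne'] using h) φ
  rw [show (fun w => a + c * w) '' univ = univ from ?_, setLIntegral_univ, setLIntegral_univ] at h
  · rw [h, abs_of_pos hc]
  · rw [image_univ]
    exact Function.Surjective.range_eq fun y => ⟨(y - a) / c, by field_simp; ring⟩

theorem lintegral_exp_subst {R : ℝ} (hR : 0 < R) (φ : ℝ → ℝ≥0∞) :
    ∫⁻ v in Ioi (0 : ℝ), φ v = ∫⁻ s : ℝ, ENNReal.ofReal (R * Real.exp s) * φ (R * Real.exp s) := by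
  have h := lintegral_image_eq_lintegral_abs_deriv_mul (f := fun s => R * Real.exp s)
    (f' := fun s => R * Real.exp s) MeasurableSet.univ
    (fun s _ => ((Real.hasDerivAt_exp s).const_mul R).hasDerivWithinAt)
    (fun x _ y _ h => by simpa [hR.ne'] using h) φ
  rw [show (fun s => R * Real.exp s) '' univ = Ioi 0 from ?_, setLIntegral_univ] at h
  · simpa only [abs_of_pos (mul_pos hR (Real.exp_pos _))] using h
  · ext y
    simp only [image_univ, mem_range, mem_Ioi]
    exact ⟨by rintro ⟨s, rfl⟩; positivity, fun hy => ⟨Real.log (y / R), by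
      rw [Real.exp_log (by positivity)]; field_simp⟩⟩

/-- The radial integral over the plane. -/
theorem lintegral_plane_radial {R : ℝ} (hR : 0 < R) (a : ℝ) {g : ℝ → ℝ≥0∞} (hg : Measurable g) :
    ∫⁻ t : UpperHalfPlane, g (((t.re - a) ^ 2 + R ^ 2 + t.im ^ 2) / (2 * R * t.im)) =
      ENNReal.ofReal (2 * Real.pi) * ∫⁻ x in Ioi (1 : ℝ), g x := by
  set ψ : ℝ → ℝ → ℝ≥0∞ := fun w s => g (w ^ 2 / 2 + Real.cosh s) with hψ
  have hψm : Measurable (Function.uncurry ψ) := hg.comp (by fun_prop)
  rw [lintegral_upperHalfPlane (fun u v => g (((u - a) ^ 2 + R ^ 2 + v ^ 2) / (2 * R * v)))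
    (hg.comp (by fun_prop))]
  have step1 : ∀ u : ℝ, ∫⁻ v in Ioi (0 : ℝ),
      ENNReal.ofReal (1 / v ^ 2) * g (((u - a) ^ 2 + R ^ 2 + v ^ 2) / (2 * R * v)) =
      ∫⁻ s : ℝ, ENNReal.ofReal (1 / (R * Real.exp s)) *
        g ((u - a) ^ 2 / (2 * R ^ 2 * Real.exp s) + Real.cosh s) := fun u => by
    rw [lintegral_exp_subst hR]
    refine lintegral_congr fun s => ?_
    rw [← mul_assoc, ← ENNReal.ofReal_mul (by positivity)]
    congr 2
    · field_simp
    · rw [Real.cosh_eq, Real.exp_neg]; field_simp; ring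
  simp only [step1]
  rw [lintegral_lintegral_swap (((ENNReal.measurable_ofReal.comp (by fun_prop)).mul
    (hg.comp (by fun_prop))).aemeasurable)]
  have step2 : ∀ s : ℝ, ∫⁻ u : ℝ, ENNReal.ofReal (1 / (R * Real.exp s)) *
      g ((u - a) ^ 2 / (2 * R ^ 2 * Real.exp s) + Real.cosh s) =
      ENNReal.ofReal (Real.exp (-(s / 2))) * ∫⁻ w : ℝ, ψ w s := fun s => by
    have hc : 0 < R * Real.exp (s / 2) := by positivity
    rw [← lintegral_mul_add_left hc a (fun u => ENNReal.ofReal (1 / (R * Real.exp s)) *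
      g ((u - a) ^ 2 / (2 * R ^ 2 * Real.exp s) + Real.cosh s)),
      ← lintegral_const_mul _ (show Measurable fun w => ψ w s
        from hψm.fun_comp (measurable_id.prodMk measurable_const))]
    refine lintegral_congr fun w => ?_
    rw [← mul_assoc, ← ENNReal.ofReal_mul hc.le]
    have e : Real.exp s = Real.exp (s / 2) * Real.exp (s / 2) := by
      rw [← Real.exp_add]; ring_nf
    congr 2
    · rw [Real.exp_neg, e]; field_simp
    · rw [add_sub_cancel_left, e]; field_simp
  simp only [step2]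
  set Φ : ℝ → ℝ≥0∞ := fun s => ∫⁻ w : ℝ, ψ w s with hΦ
  have hΦm : Measurable Φ := hψm.lintegral_prod_left'
  have hep : Measurable fun s : ℝ => ENNReal.ofReal (Real.exp (s / 2)) * Φ s :=
    (show Measurable fun s : ℝ => ENNReal.ofReal (Real.exp (s / 2)) by fun_prop).mul hΦm
  have hen : Measurable fun s : ℝ => ENNReal.ofReal (Real.exp (-(s / 2))) * Φ s :=
    (show Measurable fun s : ℝ => ENNReal.ofReal (Real.exp (-(s / 2))) by fun_prop).mul hΦm
  have step3 : ∫⁻ s, ENNReal.ofReal (Real.exp (-(s / 2))) * Φ s =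
      ∫⁻ s, ENNReal.ofReal (Real.cosh (s / 2)) * Φ s := by
    have hneg : ∫⁻ s, ENNReal.ofReal (Real.exp (-(s / 2))) * Φ s =
        ∫⁻ s, ENNReal.ofReal (Real.exp (s / 2)) * Φ s := by
      conv_lhs => rw [← (Measure.measurePreserving_neg (volume : Measure ℝ)).lintegral_comp hen]
      refine lintegral_congr fun s => ?_
      simp [hΦ, hψ, neg_div]
    have h2 : ∫⁻ s, ENNReal.ofReal (Real.cosh (s / 2)) * Φ s =
        ∫⁻ s, ENNReal.ofReal (1 / 2) * (ENNReal.ofReal (Real.exp (s / 2)) * Φ s +
          ENNReal.ofReal (Real.exp (-(s / 2))) * Φ s) := by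
      refine lintegral_congr fun s => ?_
      rw [← add_mul, ← ENNReal.ofReal_add (Real.exp_pos _).le (Real.exp_pos _).le, ← mul_assoc,
        ← ENNReal.ofReal_mul (by norm_num), Real.cosh_eq]
      congr 2
      ring
    rw [h2, lintegral_const_mul _ (hep.fun_add hen), lintegral_add_left hep, ← hneg,
      ← two_mul, ← mul_assoc]
    rw [show ENNReal.ofReal (1 / 2) * 2 = 1 by
      rw [show (2 : ℝ≥0∞) = ENNReal.ofReal 2 by simp, ← ENNReal.ofReal_mul (by norm_num)]
      norm_num, one_mul]
  rw [step3]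
  have hcosh : ∀ s : ℝ, Real.cosh s = 1 + (2 * Real.sinh (s / 2)) ^ 2 / 2 := fun s => by
    conv_lhs => rw [show s = 2 * (s / 2) by ring, Real.cosh_two_mul, Real.cosh_sq]
    ring
  have step4 : ∫⁻ s, ENNReal.ofReal (Real.cosh (s / 2)) * Φ s =
      ∫⁻ r : ℝ, ∫⁻ w : ℝ, g (1 + (r ^ 2 + w ^ 2) / 2) := by
    have h := lintegral_image_eq_lintegral_abs_deriv_mul (f := fun s => 2 * Real.sinh (s / 2))
      (f' := fun s => Real.cosh (s / 2)) MeasurableSet.univ (fun s _ => by
        convert! (((Real.hasDerivAt_sinh (s / 2)).comp s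
          ((hasDerivAt_id s).div_const 2)).const_mul 2).hasDerivWithinAt using 1
        ring)
      (fun x _ y _ h => by simpa using h) (fun r => ∫⁻ w : ℝ, g (1 + (r ^ 2 + w ^ 2) / 2))
    rw [show (fun s => 2 * Real.sinh (s / 2)) '' univ = univ from ?_, setLIntegral_univ,
      setLIntegral_univ] at h
    · rw [h]
      refine lintegral_congr fun s => ?_
      rw [abs_of_pos (Real.cosh_pos _)]
      simp only [hΦ, hψ]
      congr 1
      refine lintegral_congr fun w => ?_
      rw [hcosh s]
      ring_nf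
    · rw [image_univ]
      exact Function.Surjective.range_eq fun y => ⟨2 * Real.arsinh (y / 2), by
        simp [Real.sinh_arsinh, mul_div_cancel_left₀]
        ring⟩
  rw [step4, ← lintegral_prod (fun q : ℝ × ℝ => g (1 + (q.1 ^ 2 + q.2 ^ 2) / 2))
    (hg.comp (by fun_prop)).aemeasurable, ← Measure.volume_eq_prod,
    ← lintegral_comp_polarCoord_symm, polarCoord_target, Measure.volume_eq_prod,
    ← Measure.prod_restrict, lintegral_prod _ (show Measurable fun p : ℝ × ℝ =>
      ENNReal.ofReal p.1 • g (1 + ((polarCoord.symm p).1 ^ 2 + (polarCoord.symm p).2 ^ 2) / 2) by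
        simp only [polarCoord_symm_apply, smul_eq_mul]; fun_prop).aemeasurable]
  have step5 : ∀ r : ℝ, ∫⁻ θ in Ioo (-Real.pi) Real.pi,
      ENNReal.ofReal (r, θ).1 • g (1 + ((polarCoord.symm (r, θ)).1 ^ 2 +
        (polarCoord.symm (r, θ)).2 ^ 2) / 2) =
      ENNReal.ofReal (2 * Real.pi) * (ENNReal.ofReal r * g (1 + r ^ 2 / 2)) := fun r => by
    have e : ∀ θ : ℝ, (polarCoord.symm (r, θ)).1 ^ 2 + (polarCoord.symm (r, θ)).2 ^ 2 = r ^ 2 :=
      fun θ => by
        simp only [polarCoord_symm_apply]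
        linear_combination r ^ 2 * Real.sin_sq_add_cos_sq θ
    simp only [e, smul_eq_mul, lintegral_const, Measure.restrict_apply_univ, Real.volume_Ioo]
    rw [mul_comm, show Real.pi - -Real.pi = 2 * Real.pi by ring]
  simp only [step5]
  rw [lintegral_const_mul _
    (show Measurable fun r : ℝ => ENNReal.ofReal r * g (1 + r ^ 2 / 2) by fun_prop)]
  congr 1
  have h := lintegral_image_eq_lintegral_abs_deriv_mul (f := fun r => 1 + r ^ 2 / 2)
    (f' := fun r => r) measurableSet_Ioi (s := Ioi (0 : ℝ)) (fun r _ => by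
      convert! (((hasDerivAt_id r).pow 2).div_const 2).const_add 1 |>.hasDerivWithinAt using 1
      simp)
    (fun x (hx : 0 < x) y (hy : 0 < y) h => by
      simpa [sq_eq_sq₀ hx.le hy.le] using h) g
  rw [show (fun r : ℝ => 1 + r ^ 2 / 2) '' Ioi 0 = Ioi 1 from ?_] at h
  · rw [h]
    refine setLIntegral_congr_fun measurableSet_Ioi fun r (hr : 0 < r) => ?_
    rw [abs_of_pos hr]
  · ext y
    simp only [mem_image, mem_Ioi]
    exact ⟨by rintro ⟨r, hr, rfl⟩; nlinarith, fun hy => ⟨Real.sqrt (2 * (y - 1)),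
      Real.sqrt_pos.mpr (by linarith), by rw [Real.sq_sqrt (by linarith)]; ring⟩⟩

/-- Distances to the standard plane. -/
theorem map_coshDist_planeEmb (p : H3) :
    Measure.map (fun t => H3.coshDist p (planeEmb t)) (volume : Measure UpperHalfPlane) =
      ENNReal.ofReal (2 * Real.pi) • Measure.map
        (fun u => Real.sqrt (1 + (p.z.im / p.y) ^ 2) * u) (volume.restrict (Ioi (1 : ℝ))) := by
  have hy := p.y_pos
  set R := Real.sqrt (p.z.im ^ 2 + p.y ^ 2) with hR
  have hR0 : 0 < R := Real.sqrt_pos.mpr (by positivity)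
  have hC : Real.sqrt (1 + (p.z.im / p.y) ^ 2) = R / p.y := by
    rw [show 1 + (p.z.im / p.y) ^ 2 = (p.z.im ^ 2 + p.y ^ 2) / p.y ^ 2 by field_simp; ring,
      Real.sqrt_div' _ (sq_nonneg _), Real.sqrt_sq hy.le]
  rw [hC]
  have hm : Measurable fun t => H3.coshDist p (planeEmb t) :=
    ((H3.continuous_coshDist_right p).comp continuous_planeEmb).measurable
  refine Measure.ext fun s hs => ?_
  rw [Measure.map_apply hm hs, Measure.smul_apply, smul_eq_mul,
    Measure.map_apply (by fun_prop) hs, ← lintegral_indicator_one (hm hs),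
    ← lintegral_indicator_one ((show Measurable fun u : ℝ => R / p.y * u by fun_prop) hs),
    show ∫⁻ a in Ioi (1 : ℝ), ((fun u => R / p.y * u) ⁻¹' s).indicator (1 : ℝ → ℝ≥0∞) a =
      ∫⁻ a in Ioi (1 : ℝ), (fun x => s.indicator (1 : ℝ → ℝ≥0∞) (R / p.y * x)) a from rfl,
    ← lintegral_plane_radial hR0 p.z.re (g := fun x => s.indicator (1 : ℝ → ℝ≥0∞) (R / p.y * x))
      ((measurable_one.indicator hs).fun_comp (measurable_const_mul (R / p.y)))]
  refine lintegral_congr fun t => ?_
  have e : H3.coshDist p (planeEmb t) =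
      R / p.y * (((t.re - p.z.re) ^ 2 + R ^ 2 + t.im ^ 2) / (2 * R * t.im)) := by
    rw [hR, Real.sq_sqrt (by positivity), ← hR]
    simp only [H3.coshDist, planeEmb, Complex.normSq_apply, Complex.sub_re, Complex.sub_im,
      Complex.ofReal_re, Complex.ofReal_im]
    have := t.im_pos
    field_simp
    ring
  show ((fun t => H3.coshDist p (planeEmb t)) ⁻¹' s).indicator (1 : UpperHalfPlane → ℝ≥0∞) t =
    s.indicator (1 : ℝ → ℝ≥0∞) _
  rw [← e]
  rfl

end Fermat.Agent.ResidualThree
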