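import Fermat.Agent.ResidualThree.ThetaLift.Eis
import Fermat.Agent.ResidualThree.ThetaLift.HLevel

/-!
# Theta series of Hermitian forms as sums over rows

The transformation of sums over rows under translation, under inversion, and under `Γ₀(N)` for
the sum restricted to rows with second coordinate divisible by `N`.
-/

noncomputable section

open Matrix CongruenceSubgroup
open scoped ComplexConjugate MatrixGroups

namespace Fermat.Agent.ResidualThree

open Eis (eChar)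

/-- Characteristics. -/
@[ext]
structure ThetaPar where
  /-- The phase in the first row coordinate. -/
  a0 : ℝ
  /-- The phase in the second row coordinate. -/
  α : ℝ
  /-- The shift of the first row coordinate. -/
  η : ℝ
  /-- The shift of the second row coordinate. -/
  δ0 : ℝ
  /-- The complex characteristic paired with the first row coordinate. -/
  b0 : ℂ
  /-- The complex characteristic paired with the second row coordinate. -/
  ηb : ℂ

/-- The Gaussian in a row. -/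
def rowGauss (τ : ℂ) (Y : ℝ) (M δ : ℝ) : ℝ :=
  Real.exp (-(Real.pi * Y ^ 2 * Complex.normSq ((M : ℂ) + τ * (δ : ℂ)) / τ.im))

/-- A term of the row sum. -/
def rowTerm (P : ThetaPar) (τ : ℂ) (p : H3) (mk : ℤ × ℤ) : ℂ :=
  eChar (P.a0 * ((mk.1 : ℝ) + P.η) - P.α * ((mk.2 : ℝ) + P.δ0)) *
    eChar (conj p.z * ((((mk.2 : ℝ) + P.δ0 : ℝ) : ℂ) * P.ηb -
      (((mk.1 : ℝ) + P.η : ℝ) : ℂ) * P.b0)).re *
    ((rowGauss τ p.y ((mk.1 : ℝ) + P.η) ((mk.2 : ℝ) + P.δ0) : ℝ) : ℂ) *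
    hTheta τ (P.b0 - (((mk.2 : ℝ) + P.δ0 : ℝ) : ℂ) * p.z)
      (P.ηb - (((mk.1 : ℝ) + P.η : ℝ) : ℂ) * p.z)

/-- The row sum. -/
def rowSum (P : ThetaPar) (τ : ℂ) (p : H3) : ℂ := (p.y : ℂ) * ∑' mk, rowTerm P τ p mk

/-- The characteristics after translation. -/
def ThetaPar.tPar (P : ThetaPar) : ThetaPar :=
  ⟨P.a0, P.α + P.a0, P.η + P.δ0, P.δ0, P.b0, P.ηb + P.b0⟩

theorem rowSum_add_one (P : ThetaPar) (τ : ℂ) (p : H3) :
    rowSum P (τ + 1) p = rowSum P.tPar τ p := by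
  rw [rowSum, rowSum]
  congr 1
  let e : ℤ × ℤ ≃ ℤ × ℤ :=
    { toFun := fun mk => (mk.1 + mk.2, mk.2)
      invFun := fun mk => (mk.1 - mk.2, mk.2)
      left_inv := fun mk => by simp
      right_inv := fun mk => by simp }
  rw [← e.tsum_eq (rowTerm P.tPar τ p)]
  refine tsum_congr fun mk => ?_
  simp only [rowTerm, ThetaPar.tPar, e, Equiv.coe_fn_mk, hTheta_add_one]
  push_cast
  refine congrArg₂ (· * ·) (congrArg₂ (· * ·) (congrArg₂ (· * ·) ?_ ?_) ?_) ?_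
  · congr 1; ring
  · congr 2; ring
  · simp only [rowGauss, Complex.add_im, Complex.one_im, add_zero]
    rw [show (((mk.1 : ℝ) + (mk.2 : ℝ) + (P.η + P.δ0) : ℝ) : ℂ) +
        τ * (((mk.2 : ℝ) + P.δ0 : ℝ) : ℂ) =
      (((mk.1 : ℝ) + P.η : ℝ) : ℂ) + (τ + 1) * (((mk.2 : ℝ) + P.δ0 : ℝ) : ℂ) by push_cast; ring]
  · congr 1; ring

theorem rowGauss_le {τ : ℂ} (hτ : 0 < τ.im) (Y M δ : ℝ) :
    rowGauss τ Y M δ ≤ Real.exp (-(Real.pi * Y ^ 2 * τ.im /
      (1 + 2 * τ.re ^ 2 + 2 * τ.im ^ 2) * (M ^ 2 + δ ^ 2))) := by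
  rw [rowGauss]
  refine Real.exp_le_exp.mpr (neg_le_neg ?_)
  have e : Complex.normSq ((M : ℂ) + τ * (δ : ℂ)) = (M + τ.re * δ) ^ 2 + τ.im ^ 2 * δ ^ 2 := by
    simp [Complex.normSq_apply]; ring
  rw [e, le_div_iff₀ hτ]
  have hA : 0 < 1 + 2 * τ.re ^ 2 + 2 * τ.im ^ 2 := by positivity
  have key : τ.im ^ 2 * (M ^ 2 + δ ^ 2) ≤
      (1 + 2 * τ.re ^ 2 + 2 * τ.im ^ 2) * ((M + τ.re * δ) ^ 2 + τ.im ^ 2 * δ ^ 2) := by
    nlinarith [sq_nonneg (M + 2 * τ.re * δ), sq_nonneg (M + τ.re * δ), sq_nonneg (τ.im * δ),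
      mul_nonneg (sq_nonneg τ.re) (sq_nonneg (M + τ.re * δ)),
      mul_nonneg (sq_nonneg τ.im) (sq_nonneg (M + 2 * τ.re * δ)),
      mul_nonneg (sq_nonneg (τ.im * τ.im)) (sq_nonneg δ)]
  rw [div_mul_eq_mul_div, div_mul_eq_mul_div, div_le_iff₀ hA]
  nlinarith [mul_le_mul_of_nonneg_left key (mul_nonneg Real.pi_pos.le (sq_nonneg Y))]

theorem summable_rowTerm (P : ThetaPar) {τ : ℂ} (hτ : 0 < τ.im) (p : H3) :
    Summable fun mk => ‖rowTerm P τ p mk‖ := by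
  set c := Real.pi * p.y ^ 2 * τ.im / (1 + 2 * τ.re ^ 2 + 2 * τ.im ^ 2) with hcdef
  have hc : 0 < c := by have := p.y_pos; positivity
  have hs : ∀ s : ℝ, Summable fun n : ℤ => Real.exp (-(c * ((n : ℝ) + s) ^ 2)) := fun s =>
    (ENNReal.summable_toReal (lt_of_le_of_lt (tsum_shift_le hc s)
      (shiftMass_ne_top hc).lt_top).ne).congr fun n => ENNReal.toReal_ofReal (Real.exp_pos _).le
  set K := (shiftMass (2 * Real.pi * τ.im / 2) * shiftMass (2 * Real.pi * τ.im / 2)).toReal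
  refine Summable.of_nonneg_of_le (fun _ => norm_nonneg _) (fun mk => ?_)
    (((hs P.η).mul_of_nonneg (hs P.δ0) (fun _ => (Real.exp_pos _).le)
      (fun _ => (Real.exp_pos _).le)).mul_right K)
  rw [rowTerm, norm_mul, norm_mul, norm_mul, Eis.norm_eChar, Eis.norm_eChar, one_mul, one_mul,
    Complex.norm_real, Real.norm_eq_abs, rowGauss, Real.abs_exp]
  refine mul_le_mul ((rowGauss_le hτ p.y _ _).trans_eq ?_) (norm_hTheta_le hτ _ _) (norm_nonneg _)
    (by positivity)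
  rw [← Real.exp_add]
  congr 1
  rw [hcdef]
  ring

/-- Residues modulo `√-3`. -/
def sqrtNegThreeEquiv : Fin 3 × Eis3 ≃ Eis3 where
  toFun jl := ((jl.1 : ℕ) + (jl.2.1 - 2 * jl.2.2), 2 * jl.2.1 - jl.2.2)
  invFun x := (⟨((x.1 + x.2) % 3).toNat, by omega⟩,
    ((x.1 - (x.1 + x.2) % 3) + 2 * ((x.2 - 2 * (x.1 - (x.1 + x.2) % 3)) / 3),
      (x.2 - 2 * (x.1 - (x.1 + x.2) % 3)) / 3))
  left_inv := fun ⟨⟨j, hj⟩, l1, l2⟩ => by
    simp only [Prod.mk.injEq, Fin.mk.injEq]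
    refine ⟨by omega, by omega, by omega⟩
  right_inv := fun ⟨x1, x2⟩ => by
    simp only [Prod.mk.injEq]
    refine ⟨by omega, by omega⟩

theorem toC_sqrtNegThreeEquiv (j : Fin 3) (l : Eis3) :
    (sqrtNegThreeEquiv (j, l)).toC = sqrtNegThree * (l.toC + ((j : ℕ) : ℂ) / sqrtNegThree) := by
  have e : sqrtNegThreeEquiv (j, l) = Eis3.mul (1, 2) l + (((j : ℕ) : ℤ), 0) := by
    simp only [sqrtNegThreeEquiv, Equiv.coe_fn_mk, Eis3.mul]
    ext <;> simp <;> ring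
  rw [e, Eis3.toC_add, Eis3.toC_intCast, Eis3.toC_mul, ← Eis3.sqrtNegThree_eq, mul_add,
    mul_div_cancel₀ _ sqrtNegThree_ne_zero]
  simp

theorem hTheta_div_three {τ : ℂ} (hτ : 0 < τ.im) (X Y : ℂ) :
    hTheta (τ / 3) (sqrtNegThree * X) (sqrtNegThree * Y / 3) =
      ∑ j : Fin 3, eChar ((((j : ℕ) : ℂ) / sqrtNegThree) * conj Y).re *
        hTheta τ (X + ((j : ℕ) : ℂ) / sqrtNegThree) Y := by
  have hsum := (summable_norm_hTerm (τ := τ / 3) (by simpa using hτ) (sqrtNegThree * X)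
    (sqrtNegThree * Y / 3)).1.of_norm
  have hs' : Summable fun c => hTerm (τ / 3) (sqrtNegThree * X) (sqrtNegThree * Y / 3)
      (sqrtNegThreeEquiv c) := sqrtNegThreeEquiv.summable_iff.mpr hsum
  rw [hTheta, ← sqrtNegThreeEquiv.tsum_eq, hs'.tsum_prod, tsum_fintype]
  refine Finset.sum_congr rfl fun j _ => ?_
  rw [hTheta, ← tsum_mul_left]
  refine tsum_congr fun l => ?_
  simp only [hTerm, Eis.eChar, ← Complex.exp_add, toC_sqrtNegThreeEquiv]
  congr 1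
  set q : ℂ := ((j : ℕ) : ℂ) / sqrtNegThree
  have hn : Complex.normSq (sqrtNegThree * (l.toC + q) + sqrtNegThree * X) =
      3 * Complex.normSq (l.toC + (X + q)) := by
    rw [← mul_add, Complex.normSq_mul, normSq_sqrtNegThree, add_assoc, add_comm q X]
  have hp : 2 * (sqrtNegThree * (l.toC + q) * conj (sqrtNegThree * Y / 3)).re +
      (sqrtNegThree * X * conj (sqrtNegThree * Y / 3)).re =
      (q * conj Y).re + (2 * (l.toC * conj Y).re + ((X + q) * conj Y).re) := by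
    have e : ∀ Z : ℂ, sqrtNegThree * Z * conj (sqrtNegThree * Y / 3) = Z * conj Y := fun Z => by
      have hs := sqrtNegThree_sq
      rw [map_div₀, map_mul, conj_sqrtNegThree, map_ofNat]
      linear_combination (-(Z * conj Y) / 3) * hs
    simp only [e, add_mul, Complex.add_re]
    ring
  rw [hn, hp]
  push_cast
  ring

/-- The characteristics after inversion. -/
def ThetaPar.sPar (P : ThetaPar) (j : Fin 3) : ThetaPar :=
  ⟨P.α, -P.a0, -P.δ0, P.η, P.ηb + ((j : ℕ) : ℂ) / sqrtNegThree, -P.b0⟩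

/-- Inversion of a sum over rows. -/
theorem rowSum_neg_inv (P : ThetaPar) {τ : ℂ} (hτ : 0 < τ.im) (p : H3) :
    rowSum P (-1 / τ) p = -Complex.I * τ / (Real.sqrt 3 : ℝ) *
      ∑ j : Fin 3, eChar (-(((j : ℕ) : ℂ) / sqrtNegThree * conj P.b0).re) *
        rowSum (P.sPar j) τ p := by
  have hτ0 : τ ≠ 0 := fun h => by simp [h] at hτ
  let e : ℤ × ℤ ≃ ℤ × ℤ :=
    { toFun := fun mk => (-mk.2, mk.1)
      invFun := fun mk => (mk.2, -mk.1)
      left_inv := fun mk => by simp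
      right_inv := fun mk => by simp }
  have hterm : ∀ mk, rowTerm P (-1 / τ) p mk = -Complex.I * τ / (Real.sqrt 3 : ℝ) *
      ∑ j : Fin 3, eChar (-(((j : ℕ) : ℂ) / sqrtNegThree * conj P.b0).re) *
        rowTerm (P.sPar j) τ p (e mk) := by
    intro mk
    set M : ℝ := (mk.1 : ℝ) + P.η with hM
    set δ : ℝ := (mk.2 : ℝ) + P.δ0 with hδ
    rw [rowTerm, ← hM, ← hδ, hTheta_neg_inv hτ]
    have hgauss : rowGauss (-1 / τ) p.y M δ = rowGauss τ p.y (-δ) M := by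
      have hn : 0 < Complex.normSq τ := Complex.normSq_pos.mpr hτ0
      simp only [rowGauss]
      congr 2
      rw [show (M : ℂ) + -1 / τ * (δ : ℂ) = (((-δ : ℝ) : ℂ) + τ * (M : ℂ)) / τ by
        field_simp; push_cast; ring, Complex.normSq_div,
        show (-1 / τ).im = τ.im / Complex.normSq τ by
          rw [neg_div, one_div, Complex.neg_im, Complex.inv_im, neg_div, neg_neg]]
      field_simp
    rw [hgauss, show -(sqrtNegThree * (P.b0 - (δ : ℂ) * p.z)) / 3 =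
      sqrtNegThree * (-P.b0 + (δ : ℂ) * p.z) / 3 by ring, hTheta_div_three hτ,
      Finset.mul_sum, Finset.mul_sum, Finset.mul_sum]
    refine Finset.sum_congr rfl fun j _ => ?_
    simp only [rowTerm, ThetaPar.sPar, e, Equiv.coe_fn_mk, Int.cast_neg,
      show -(mk.2 : ℝ) + -P.δ0 = -δ by rw [hδ]; ring, ← hM]
    rw [show P.ηb - (M : ℂ) * p.z + ((j : ℕ) : ℂ) / sqrtNegThree =
        P.ηb + ((j : ℕ) : ℂ) / sqrtNegThree - (M : ℂ) * p.z by ring,
      show -P.b0 + (δ : ℂ) * p.z = -P.b0 - ((-δ : ℝ) : ℂ) * p.z by push_cast; ring]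
    set q : ℂ := ((j : ℕ) : ℂ) / sqrtNegThree
    have hph : eChar (P.a0 * M - P.α * δ) *
        eChar (conj p.z * ((δ : ℂ) * P.ηb - (M : ℂ) * P.b0)).re *
        eChar (q * conj (-P.b0 - ((-δ : ℝ) : ℂ) * p.z)).re =
        eChar (-(q * conj P.b0).re) * (eChar (P.α * -δ - -P.a0 * M) *
          eChar (conj p.z * ((M : ℂ) * -P.b0 - ((-δ : ℝ) : ℂ) * (P.ηb + q))).re) := by
      rw [← Eis.eChar_add, ← Eis.eChar_add, ← Eis.eChar_add, ← Eis.eChar_add]
      congr 1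
      simp only [Complex.mul_re, Complex.mul_im, Complex.sub_re, Complex.sub_im, Complex.add_re,
        Complex.add_im, Complex.neg_re, Complex.neg_im, Complex.conj_re, Complex.conj_im,
        Complex.ofReal_re, Complex.ofReal_im]
      ring
    linear_combination (-Complex.I * τ / (Real.sqrt 3 : ℝ) *
      ((rowGauss τ p.y (-δ) M : ℝ) : ℂ) *
      hTheta τ (P.ηb + q - (M : ℂ) * p.z) (-P.b0 - ((-δ : ℝ) : ℂ) * p.z)) * hph
  simp only [rowSum, tsum_congr hterm, tsum_mul_left]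
  have hs' : ∀ j : Fin 3, Summable fun x => eChar (-(((j : ℕ) : ℂ) / sqrtNegThree * conj P.b0).re) *
      rowTerm (P.sPar j) τ p (e x) := fun j =>
    ((e.summable_iff.mpr (summable_rowTerm (P.sPar j) hτ p).of_norm).mul_left _ :)
  rw [Summable.tsum_finsetSum fun j _ => hs' j]
  rw [Finset.mul_sum, Finset.mul_sum, Finset.mul_sum]
  refine Finset.sum_congr rfl fun j _ => ?_
  rw [tsum_mul_left, e.tsum_eq (rowTerm (P.sPar j) τ p)]
  ring

/-- The row sum over a congruence condition. -/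
def rowSumDvd (N : ℕ) (τ : ℂ) (p : H3) : ℂ :=
  (p.y : ℂ) * ∑' mk : ℤ × ℤ, if (N : ℤ) ∣ mk.2 then
    ((rowGauss τ p.y (mk.1 : ℝ) (mk.2 : ℝ) : ℝ) : ℂ) *
      hTheta τ (-(mk.2 : ℂ) * p.z) (-(mk.1 : ℂ) * p.z) else 0

/-- **The transformation law of the restricted sum over rows.** -/
theorem rowSumDvd_smul {N : ℕ} (h3 : 3 ∣ N) {γ : SL(2, ℤ)} (hγ : γ ∈ Gamma0 N)
    (τ : UpperHalfPlane) (p : H3) :
    rowSumDvd N ((γ • τ : UpperHalfPlane) : ℂ) p = chiC (γ 1 1) * jFac γ τ * rowSumDvd N τ p := by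
  have hγ3 : γ ∈ Gamma0 3 := by
    rw [Eis.mem_Gamma0_iff_dvd] at hγ ⊢
    exact (Int.natCast_dvd_natCast.mpr h3).trans hγ
  have hN := Eis.mem_Gamma0_iff_dvd.mp hγ
  have hdet : γ 0 0 * γ 1 1 - γ 0 1 * γ 1 0 = 1 := by
    rw [← Matrix.det_fin_two]; exact γ.det_coe
  let e : ℤ × ℤ ≃ ℤ × ℤ :=
    { toFun := fun mk => (γ 1 1 * mk.1 + γ 0 1 * mk.2, γ 1 0 * mk.1 + γ 0 0 * mk.2)
      invFun := fun mk => (γ 0 0 * mk.1 - γ 0 1 * mk.2, -γ 1 0 * mk.1 + γ 1 1 * mk.2)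
      left_inv := fun mk => Prod.ext (by linear_combination mk.1 * hdet)
        (by linear_combination mk.2 * hdet)
      right_inv := fun mk => Prod.ext (by linear_combination mk.1 * hdet)
        (by linear_combination mk.2 * hdet) }
  have hcond : ∀ mk, ((N : ℤ) ∣ (e mk).2 ↔ (N : ℤ) ∣ mk.2) := fun mk => by
    refine ⟨fun h => ?_, fun h => dvd_add (hN.mul_right _) (h.mul_left _)⟩
    have e2 : mk.2 = γ 1 1 * (e mk).2 + (-γ 1 0) * (e mk).1 := by
      simp only [e, Equiv.coe_fn_mk]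
      linear_combination -mk.2 * hdet
    rw [e2]
    exact dvd_add (h.mul_left _) ((dvd_neg.mpr hN).mul_right _)
  simp only [rowSumDvd]
  rw [← e.tsum_eq (fun mk : ℤ × ℤ => if (N : ℤ) ∣ mk.2 then
    ((rowGauss τ p.y (mk.1 : ℝ) (mk.2 : ℝ) : ℝ) : ℂ) *
      hTheta τ (-(mk.2 : ℂ) * p.z) (-(mk.1 : ℂ) * p.z) else 0)]
  conv_rhs => rw [mul_left_comm, ← tsum_mul_left]
  congr 1
  refine tsum_congr fun mk => ?_
  simp only [hcond]
  split_ifs with h
  · have hg : rowGauss ((γ • τ : UpperHalfPlane) : ℂ) p.y (mk.1 : ℝ) (mk.2 : ℝ) =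
        rowGauss τ p.y ((γ 1 1 * mk.1 + γ 0 1 * mk.2 : ℤ) : ℝ)
          ((γ 1 0 * mk.1 + γ 0 0 * mk.2 : ℤ) : ℝ) := by
      have hj := jFac_ne_zero γ τ
      have hn : 0 < Complex.normSq (jFac γ τ) := Complex.normSq_pos.mpr hj
      simp only [rowGauss]
      congr 2
      have him : ((γ • τ : UpperHalfPlane) : ℂ).im = (τ : ℂ).im / Complex.normSq (jFac γ τ) := by
        rw [UpperHalfPlane.coe_im, ModularGroup.im_smul_eq_div_normSq, ModularGroup.denom_apply]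
        rfl
      rw [him, coe_smul_eq,
        show ((mk.1 : ℝ) : ℂ) + ((γ 0 0 : ℂ) * (τ : ℂ) +
            (γ 0 1 : ℂ)) / jFac γ τ * ((mk.2 : ℝ) : ℂ) =
          ((((γ 1 1 * mk.1 + γ 0 1 * mk.2 : ℤ) : ℝ) : ℂ) +
            (τ : ℂ) * (((γ 1 0 * mk.1 + γ 0 0 * mk.2 : ℤ) : ℝ) : ℂ)) / jFac γ τ by
          rw [eq_div_iff hj, add_mul, div_mul_eq_mul_div, div_mul_cancel₀ _ hj]
          simp only [jFac]
          push_cast
          ring, Complex.normSq_div]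
      field_simp
    rw [hTheta_law hγ3, hg]
    simp only [e, Equiv.coe_fn_mk]
    push_cast
    ring_nf
  · simp

end Fermat.Agent.ResidualThree
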