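import Fermat.Agent.ResidualThree.ThetaLift.Null

/-!
# Vanishing of the constant term

The shell of index zero contributes nothing to the lift of a cusp eigenfunction; in particular
the integral of such a function vanishes.
-/

noncomputable section

open MeasureTheory Set Filter
open scoped ComplexConjugate ENNReal Topology

namespace Fermat.Agent.ResidualThree

theorem HermIdx.smul_zero_idx (g : integralK) : g • (0 : HermIdx) = 0 := by
  refine HermIdx.vec_injective ?_
  rw [HermIdx.vec_smul]
  apply HermVec.toHerm_injective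
  rw [HermVec.toHerm_smul]
  have h : (HermIdx.vec 0).toHerm = 0 := by
    ext i j
    fin_cases i <;> fin_cases j <;> simp [HermVec.toHerm, HermIdx.vec, Eis3.toC]
  rw [h]
  simp

theorem HermIdx.T_sq_lower {i : HermIdx} (hq : HermIdx.q i = 0) (hi : i ≠ 0) {p : H3}
    (hp : 1 / 2 ≤ p.y) : 1 / (16 * p.y ^ 2) ≤ HermIdx.T i p ^ 2 := by
  have hy := p.y_pos
  rcases eq_or_ne i.2.2 0 with hd | hd
  · have hb : i.2.1 = (0, 0) := by
      rw [← Eis3.norm_eq_zero]
      simp only [HermIdx.q, hd, mul_zero, sub_zero] at hq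
      exact_mod_cast hq
    have ha : i.1 ≠ 0 := fun ha => hi (Prod.ext ha (Prod.ext hb hd))
    have hT : HermIdx.T i p = (i.1 : ℝ) / p.y := by
      simp [HermIdx.T, HermVec.T, HermIdx.vec, hb, hd, Eis3.toC_zero]
    rw [hT, div_pow]
    have h1 : (1 : ℝ) ≤ (i.1 : ℝ) ^ 2 := by
      rw [one_le_sq_iff_one_le_abs]
      exact_mod_cast Int.one_le_abs ha
    gcongr
    linarith [sq_nonneg p.y]
  · set A := (i.1 : ℝ) - 2 * (i.2.1.toC * conj p.z).re + (i.2.2 : ℝ) * Complex.normSq p.z with hA
    have hdA : 0 ≤ (i.2.2 : ℝ) * A := by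
      have h0 := HermIdx.vec_Q i
      rw [hq, Int.cast_zero, HermVec.Q, HermIdx.vec] at h0
      have hn := Complex.normSq_nonneg (i.2.1.toC - (i.2.2 : ℝ) * p.z)
      have e : Complex.normSq (i.2.1.toC - (i.2.2 : ℝ) * p.z) = (i.2.2 : ℝ) * A := by
        simp only [Complex.normSq_apply, hA, Complex.sub_re, Complex.sub_im, Complex.mul_re,
          Complex.mul_im, Complex.conj_re, Complex.conj_im, Complex.ofReal_re,
          Complex.ofReal_im] at h0 ⊢
        linear_combination h0
      linarith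
    have hT : HermIdx.T i p = (A + (i.2.2 : ℝ) * p.y ^ 2) / p.y := by
      simp only [HermIdx.T, HermVec.T, HermIdx.vec, hA]
      ring
    have h1 : (1 : ℝ) ≤ (i.2.2 : ℝ) ^ 2 := by
      rw [one_le_sq_iff_one_le_abs]
      exact_mod_cast Int.one_le_abs hd
    rw [hT, div_pow, div_le_div_iff₀ (by positivity) (by positivity)]
    have h2 : (1 : ℝ) / 4 ≤ p.y ^ 2 := by nlinarith
    nlinarith [mul_nonneg hdA (sq_nonneg p.y), sq_nonneg A,
      mul_le_mul h1 (mul_le_mul h2 h2 (by norm_num) (sq_nonneg _)) (by norm_num) (sq_nonneg _)]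

theorem exp_neg_le_two_div_sq {x : ℝ} (hx : 0 < x) : Real.exp (-x) ≤ 2 / x ^ 2 := by
  rw [Real.exp_neg, inv_le_iff_one_le_mul₀ (Real.exp_pos _), div_mul_eq_mul_div,
    le_div_iff₀ (by positivity)]
  have := Real.quadratic_le_exp_of_nonneg hx.le
  nlinarith

variable {D : ℕ} [NeZero D] {F : H3 → ℂ} {φ : HermIdx → ℂ}

theorem tsum_null_decay (hB : ∀ i, ‖φ i‖ ≤ 1) (h0 : φ 0 = 0) {p : H3} (hp : 1 / 2 ≤ p.y) {v : ℝ}
    (hv : 1 ≤ v) :
    ‖shellSum φ 0 v p‖ₑ ≤ ENNReal.ofReal (2 * (32 / (Real.pi * v)) ^ 2 * p.y ^ 4) *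
      (ENNReal.ofReal (p.y + 1) * majorantConst Real.pi) := by
  have hy := p.y_pos
  calc ‖shellSum φ 0 v p‖ₑ
      ≤ ∑' i : Shell 0, ENNReal.ofReal (2 * (32 / (Real.pi * v)) ^ 2 * p.y ^ 4) *
          ENNReal.ofReal (Real.exp (-(Real.pi / 2 * HermIdx.T i.1 p ^ 2))) := by
        refine (enorm_tsum_le_tsum_enorm.trans (ENNReal.tsum_le_tsum fun i => ?_))
        rw [← ENNReal.ofReal_mul (by positivity), ← ofReal_norm]
        refine ENNReal.ofReal_le_ofReal ?_
        rw [norm_mul, Complex.norm_real, Real.norm_eq_abs, Real.abs_exp]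
        by_cases hi : i.1 = 0
        · rw [hi, h0, norm_zero, zero_mul]; positivity
        refine le_trans (mul_le_of_le_one_left (Real.exp_pos _).le (hB _)) ?_
        have hT := HermIdx.T_sq_lower i.2 hi hp
        calc Real.exp (-(Real.pi * v * HermIdx.T i.1 p ^ 2))
            ≤ Real.exp (-(Real.pi * v / (32 * p.y ^ 2))) *
                Real.exp (-(Real.pi / 2 * HermIdx.T i.1 p ^ 2)) := by
              rw [← Real.exp_add, Real.exp_le_exp]
              have h1 : Real.pi * v / (32 * p.y ^ 2) ≤ Real.pi * v / 2 * HermIdx.T i.1 p ^ 2 := by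
                rw [show Real.pi * v / (32 * p.y ^ 2) = Real.pi * v / 2 * (1 / (16 * p.y ^ 2)) by
                  field_simp; ring]
                gcongr
              have h2 : Real.pi / 2 * HermIdx.T i.1 p ^ 2 ≤
                  Real.pi * v / 2 * HermIdx.T i.1 p ^ 2 := by
                gcongr
                exact le_mul_of_one_le_right Real.pi_pos.le hv
              linarith
          _ ≤ _ := by
              gcongr
              refine (exp_neg_le_two_div_sq (by positivity)).trans (le_of_eq ?_)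
              field_simp
    _ ≤ _ := by
        rw [ENNReal.tsum_mul_left]
        gcongr
        refine ((tsum_shell_exp_le (n := 0) (Real.pi / 2) p).trans ?_)
        rw [show 2 * (Real.pi / 2) = Real.pi by ring, Int.cast_zero, mul_zero, Real.exp_zero,
          ENNReal.ofReal_one, one_mul]
        exact majorantSum_le Real.pi_pos hp

theorem shellSum_translate (φ : HermIdx → ℂ) (n : ℤ) (v : ℝ) (g : integralK) (p : H3) :
    shellSum φ n v ((g : GL (Fin 2) ℂ) • p) = shellSum (fun i => φ (g • i)) n v p := by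
  rw [shellSum, shellSum, ← (MulAction.toPerm g : Equiv.Perm (Shell n)).tsum_eq]
  refine tsum_congr fun i => ?_
  show φ (g • i.1) * ((Real.exp (-(Real.pi * v *
    HermIdx.T (g • i.1) ((g : GL (Fin 2) ℂ) • p) ^ 2)) : ℝ) : ℂ) = _
  rw [HermIdx.T_smul]

/-- A phase vanishing at the zero form gives a vanishing null functional. -/
theorem nullFun_eq_zero_of_vanish (hC : IsCuspFun D F) (hE : IsEigenFun F) (hφ : IsPhase D φ)
    (hB : ∀ i, ‖φ i‖ ≤ 1) (h0 : φ 0 = 0) (r : ℝ) : nullFun D F φ r = 0 := by
  refine nullFun_eq_zero_of_tendsto hC hE hφ ?_ r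
  obtain ⟨C, hC0, hCd⟩ := hC.bound_siegel 4
  set K : ℝ≥0∞ := (Nat.card (integralK ⧸ (principalK D).subgroupOf integralK) : ℝ≥0∞) *
    (ENNReal.ofReal (2 * (32 / Real.pi) ^ 2 * C) * majorantConst Real.pi *
      ∫⁻ p in siegelK, ENNReal.ofReal (p.y + 1) ∂H3.vol)
  have hK : K ≠ ∞ := ENNReal.mul_ne_top (ENNReal.natCast_ne_top _) (ENNReal.mul_ne_top
    (ENNReal.mul_ne_top ENNReal.ofReal_ne_top (majorantConst_ne_top Real.pi_pos))
    lintegral_siegelK_lt_top.ne)
  have hbound : ∀ r : ℝ, 0 ≤ r →
      ‖nullFun D F φ r‖ ≤ Real.exp r * (Real.exp (-(4 * r)) * K.toReal) := by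
    intro r hr
    set v := Real.exp (2 * r) with hvdef
    have hv : 1 ≤ v := Real.one_le_exp (by positivity)
    have hv0 : 0 < v := Real.exp_pos _
    rw [nullFun, norm_mul, Complex.norm_real, Real.norm_eq_abs, Real.abs_exp]
    refine mul_le_mul_of_nonneg_left ((norm_integral_le_lintegral_norm _).trans ?_)
      (Real.exp_pos _).le
    rw [← ENNReal.toReal_ofReal (Real.exp_pos (-(4 * r))).le, ← ENNReal.toReal_mul]
    refine ENNReal.toReal_mono (ENNReal.mul_ne_top ENNReal.ofReal_ne_top hK) ?_
    simp only [ofReal_norm]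
    rw [measK, lintegral_withDensity_eq_lintegral_mul_non_measurable _ measurable_weightK
      (Eventually.of_forall fun q => lt_of_le_of_lt (weightK_le_one q) ENNReal.one_lt_top)]
    refine (lintegral_weightK_le (B := ENNReal.ofReal (Real.exp (-(4 * r))) *
      (ENNReal.ofReal (2 * (32 / Real.pi) ^ 2 * C) * majorantConst Real.pi))
      fun g q hq => ?_).trans_eq ?_
    · rw [enorm_mul, shellSum_translate, ← ofReal_norm (F _)]
      calc ‖shellSum (fun i => φ (g • i)) 0 v q‖ₑ * ENNReal.ofReal ‖F ((g : GL (Fin 2) ℂ) • q)‖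
          ≤ ENNReal.ofReal (2 * (32 / (Real.pi * v)) ^ 2 * q.y ^ 4) *
              (ENNReal.ofReal (q.y + 1) * majorantConst Real.pi) *
              ENNReal.ofReal ‖F ((g : GL (Fin 2) ℂ) • q)‖ := by
            gcongr
            exact tsum_null_decay (fun i => hB _)
              (by simp [HermIdx.smul_zero_idx, h0]) hq.2 hv
        _ = ENNReal.ofReal (2 * (32 / (Real.pi * v)) ^ 2 *
              (‖F ((g : GL (Fin 2) ℂ) • q)‖ * q.y ^ 4)) * majorantConst Real.pi *
              ENNReal.ofReal (q.y + 1) := by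
            rw [mul_comm (ENNReal.ofReal (q.y + 1)), ← mul_assoc,
              mul_right_comm _ _ (ENNReal.ofReal ‖_‖), mul_right_comm _ _ (ENNReal.ofReal ‖_‖),
              ← ENNReal.ofReal_mul (by positivity)]
            congr 3
            ring
        _ ≤ _ := by
            rw [← mul_assoc (ENNReal.ofReal (Real.exp _)), ← ENNReal.ofReal_mul (Real.exp_pos _).le]
            gcongr ?_ * _ * _
            refine ENNReal.ofReal_le_ofReal ?_
            calc 2 * (32 / (Real.pi * v)) ^ 2 * (‖F ((g : GL (Fin 2) ℂ) • q)‖ * q.y ^ 4)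
                ≤ 2 * (32 / (Real.pi * v)) ^ 2 * C := by gcongr; exact hCd g q hq
              _ = Real.exp (-(4 * r)) * (2 * (32 / Real.pi) ^ 2 * C) := by
                  rw [show -(4 * r) = -(2 * r) + -(2 * r) by ring, Real.exp_add, Real.exp_neg,
                    ← hvdef]
                  field_simp
    · simp only [K]
      ring
  have hlim : Tendsto (fun r : ℝ => Real.exp r * (Real.exp (-(4 * r)) * K.toReal)) atTop (𝓝 0) := by
    have h := ((Real.tendsto_exp_neg_atTop_nhds_zero.comp
      (tendsto_id.const_mul_atTop (show (0 : ℝ) < 3 by norm_num))).mul_const K.toReal)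
    rw [zero_mul] at h
    refine h.congr fun r => ?_
    simp only [Function.comp_apply, id_eq]
    rw [← mul_assoc, ← Real.exp_add]
    ring_nf
  exact squeeze_zero_norm' ((eventually_ge_atTop 0).mono hbound) hlim

theorem shellSum_delta (v : ℝ) (p : H3) :
    shellSum (fun i => if i = 0 then 1 else 0) 0 v p = 1 := by
  rw [shellSum, tsum_eq_single (⟨0, by simp [HermIdx.q, Eis3.norm]⟩ : Shell 0)]
  · simp [HermIdx.T, HermVec.T, HermIdx.vec, Eis3.toC]
  · intro i hi
    rw [if_neg fun h => hi (Subtype.ext h), zero_mul]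

omit [NeZero D] in
theorem isPhase_delta : IsPhase D (fun i : HermIdx => if i = 0 then (1 : ℂ) else 0) := by
  refine ⟨⟨1, zero_le_one, fun i => by split_ifs <;> simp⟩, fun g _ i => ?_⟩
  have : g • i = 0 ↔ i = 0 :=
    ⟨fun h => (smul_left_cancel g (h.trans (HermIdx.smul_zero_idx g).symm)), fun h => by
      rw [h, HermIdx.smul_zero_idx]⟩
  simp [this]

/-- The integral of the form against the weight vanishes. -/
theorem integral_measK_eq_zero (hC : IsCuspFun D F) (hE : IsEigenFun F) :
    ∫ p, F p ∂measK D = 0 := by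
  have hφ : IsPhase D (fun i : HermIdx => if i = 0 then (1 : ℂ) else 0) := isPhase_delta
  have hP : ∀ r, nullFun D F (fun i => if i = 0 then (1 : ℂ) else 0) r =
      (Real.exp r : ℂ) * ∫ p, F p ∂measK D := fun r => by
    simp [nullFun, shellSum_delta]
  have h := midpoint_of_abel (continuous_nullFun hC hφ)
    (fun k hk s => nullFun_abel hC hE hφ hk s) 0 1
  simp only [hP, zero_add, zero_sub, Real.exp_zero, Complex.ofReal_one, one_mul] at h
  have hne : (Real.exp 1 : ℂ) + (Real.exp (-1) : ℂ) - 2 ≠ 0 := by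
    have h1 : 2 < Real.exp 1 := lt_trans (by norm_num) Real.exp_one_gt_d9
    have h2 := Real.exp_pos (-1)
    intro h0
    have h3 : Real.exp 1 + Real.exp (-1) - 2 = 0 := by exact_mod_cast h0
    linarith
  refine (mul_eq_zero.mp (?_ : ((Real.exp 1 : ℂ) + (Real.exp (-1) : ℂ) - 2) *
    ∫ p, F p ∂measK D = 0)).resolve_left hne
  linear_combination h

/-- **The shell of index zero integrates to zero against a cusp eigenfunction.** -/
theorem shell_integral_zero (hC : IsCuspFun D F) (hE : IsEigenFun F) (hφ : IsPhase D φ) {v : ℝ}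
    (hv : 0 < v) : ∫ p, shellSum φ 0 v p * F p ∂measK D = 0 := by
  obtain ⟨B, hB0, hB⟩ := hφ.bound
  set φ₁ : HermIdx → ℂ := fun i => if i = 0 then 0 else φ i / ((B : ℂ) + 1) with hφ₁
  have hB1 : ((B : ℂ) + 1) ≠ 0 := by exact_mod_cast (by positivity : (B + 1 : ℝ) ≠ 0)
  have hphase : IsPhase D φ₁ := by
    refine ⟨⟨1, zero_le_one, fun i => ?_⟩, fun g hg i => ?_⟩
    · simp only [hφ₁]
      split_ifs
      · simp
      · rw [norm_div, div_le_one (norm_pos_iff.mpr hB1)]
        refine (hB i).trans ?_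
        rw [← Complex.ofReal_one, ← Complex.ofReal_add, Complex.norm_real, Real.norm_eq_abs]
        exact le_trans (by linarith) (le_abs_self _)
    · have : g • i = 0 ↔ i = 0 :=
        ⟨fun h => (smul_left_cancel g (h.trans (HermIdx.smul_zero_idx g).symm)), fun h => by
          rw [h, HermIdx.smul_zero_idx]⟩
      simp [hφ₁, this, hφ.invariant g hg]
  have hb₁ : ∀ i, ‖φ₁ i‖ ≤ 1 := fun i => by
    simp only [hφ₁]
    split_ifs
    · simp
    · rw [norm_div, div_le_one (norm_pos_iff.mpr hB1)]
      refine (hB i).trans ?_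
      rw [← Complex.ofReal_one, ← Complex.ofReal_add, Complex.norm_real, Real.norm_eq_abs]
      exact le_trans (by linarith) (le_abs_self _)
  have h1 := nullFun_eq_zero_of_vanish hC hE hphase hb₁ (by simp [hφ₁]) (Real.log v / 2)
  rw [nullFun, mul_eq_zero, show 2 * (Real.log v / 2) = Real.log v by ring, Real.exp_log hv] at h1
  have h1' := h1.resolve_left (by simp)
  have hsum : ∀ p, shellSum φ 0 v p = ((B : ℂ) + 1) * shellSum φ₁ 0 v p + φ 0 := by
    intro p
    have hs1 : Summable fun i : Shell 0 => φ₁ i.1 *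
        ((Real.exp (-(Real.pi * v * HermIdx.T i.1 p ^ 2)) : ℝ) : ℂ) :=
      Summable.of_norm_bounded ((summable_shell_exp 0 (show 0 < Real.pi * v by positivity)
        p).1.mul_left 1) fun i => norm_shellTerm_le hb₁ i le_rfl p
    have hs0 : Summable fun i : Shell 0 => (if i.1 = 0 then (1 : ℂ) else 0) *
        ((Real.exp (-(Real.pi * v * HermIdx.T i.1 p ^ 2)) : ℝ) : ℂ) :=
      Summable.of_norm_bounded ((summable_shell_exp 0 (show 0 < Real.pi * v by positivity)
        p).1.mul_left 1) fun i => norm_shellTerm_le (φ := fun i => if i = 0 then (1 : ℂ) else 0)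
          (fun i => by split_ifs <;> simp) i le_rfl p
    calc shellSum φ 0 v p = ((B : ℂ) + 1) * shellSum φ₁ 0 v p +
          φ 0 * shellSum (fun i => if i = 0 then 1 else 0) 0 v p := ?_
      _ = _ := by rw [shellSum_delta, mul_one]
    simp only [shellSum, ← tsum_mul_left]
    rw [← (hs1.mul_left _).tsum_add (hs0.mul_left _)]
    refine tsum_congr fun i => ?_
    simp only [hφ₁]
    split_ifs with h
    · rw [h]; ring
    · field_simp; ring
  simp only [hsum]
  rw [show (fun p => (((B : ℂ) + 1) * shellSum φ₁ 0 v p + φ 0) * F p) =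
    fun p => ((B : ℂ) + 1) * (shellSum φ₁ 0 v p * F p) + φ 0 * F p from funext fun p => by ring]
  rw [integral_add ((integrable_shellSum_mul hC hb₁ 0 hv).const_mul _) (hC.integrable.const_mul _),
    integral_const_mul, integral_const_mul, h1', integral_measK_eq_zero hC hE]
  simp

end Fermat.Agent.ResidualThree
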