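import Fermat.Agent.ResidualThree.BianchiForm.TwistStatement
import Fermat.Agent.ResidualThree.ThetaLift.LiftForm

/-!
# The form of tame level in the coordinates of the lift

For a twist `G` of level `3^e D` the function `G' = G ∘ diag (1, D)` transforms under the matrices
whose lower left entry is divisible by `3^e` and upper right entry by `D`; the lift of the datum
against `φ` is a lift of `F ∘ diag (1, D)` against a phase on the dilated lattice.
-/

noncomputable section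

open MeasureTheory Matrix Filter
open scoped ComplexConjugate ENNReal

namespace Fermat.Agent.ResidualThree

local notation "Γℚ" => (AlgebraicClosure ℚ ≃ₐ[ℚ] AlgebraicClosure ℚ)

/-! ### Theta sums and translations -/

variable {N : ℕ} {F : H3 → ℂ} {φ φ' : HermIdx → ℂ}

theorem thetaSum_gl_smul (φ : HermIdx → ℂ) (τ : ℂ) (g : integralK) (p : H3) :
    thetaSum φ τ ((g : GL (Fin 2) ℂ) • p) = thetaSum (fun i => φ (g • i)) τ p := by
  rw [thetaSum, thetaSum, ← (MulAction.toPerm g).tsum_eq]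
  refine tsum_congr fun i => ?_
  simp only [MulAction.toPerm_apply, liftTerm, HermIdx.q_smul, HermIdx.T_smul]

theorem principalK_conj {g γ : GL (Fin 2) ℂ} (hg : g ∈ integralK) (hγ : γ ∈ principalK N) :
    g * γ * g⁻¹ ∈ principalK N ∧ g⁻¹ * γ * g ∈ principalK N :=
  conj_mem_principalK (p := 1) (isOMat_of_mem hg)
    (by simpa only [Nat.cast_one, one_smul] using isOMat_of_mem (inv_mem hg))
    (by rwa [mul_one])

theorem IsPhase.comp_integralK (h : IsPhase N φ) (g : integralK) :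
    IsPhase N fun i => φ (g • i) := by
  refine ⟨⟨h.bound.choose, h.bound.choose_spec.1, fun i => h.bound.choose_spec.2 _⟩,
    fun γ hγ i => ?_⟩
  have h1 := h.invariant (g * γ * g⁻¹)
    (by simpa only [Subgroup.coe_mul, Subgroup.coe_inv] using (principalK_conj g.2 hγ).1) (g • i)
  rwa [mul_smul, mul_smul, inv_smul_smul] at h1

theorem IsPhase.add (h : IsPhase N φ) (h' : IsPhase N φ') : IsPhase N (φ + φ') := by
  obtain ⟨B, hB0, hB⟩ := h.bound
  obtain ⟨B', hB0', hB'⟩ := h'.bound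
  exact ⟨⟨B + B', add_nonneg hB0 hB0', fun i =>
    (norm_add_le _ _).trans (add_le_add (hB i) (hB' i))⟩,
    fun g hg i => by simp only [Pi.add_apply, h.invariant g hg, h'.invariant g hg]⟩

theorem IsPhase.smul (h : IsPhase N φ) (c : ℂ) : IsPhase N (c • φ) := by
  obtain ⟨B, hB0, hB⟩ := h.bound
  exact ⟨⟨‖c‖ * B, by positivity, fun i => by
    rw [Pi.smul_apply, norm_smul]; exact mul_le_mul_of_nonneg_left (hB i) (norm_nonneg _)⟩,
    fun g hg i => by simp only [Pi.smul_apply, h.invariant g hg]⟩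

theorem isPhase_zero : IsPhase N (0 : HermIdx → ℂ) :=
  ⟨⟨0, le_rfl, fun i => by simp⟩, fun g _ i => rfl⟩

theorem IsPhase.sum {ι : Type*} (s : Finset ι) {f : ι → HermIdx → ℂ}
    (h : ∀ j ∈ s, IsPhase N (f j)) : IsPhase N (∑ j ∈ s, f j) :=
  Finset.sum_induction f (IsPhase N) (fun _ _ ha hb => ha.add hb) isPhase_zero h

theorem thetaSum_const_mul (c : ℂ) (φ : HermIdx → ℂ) (τ : ℂ) (p : H3) :
    thetaSum (c • φ) τ p = c * thetaSum φ τ p := by
  rw [thetaSum, thetaSum, ← tsum_mul_left]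
  exact tsum_congr fun i => by simp only [liftTerm, Pi.smul_apply, smul_eq_mul, mul_assoc]

theorem lift_smul (c : ℂ) (φ : HermIdx → ℂ) (τ : ℂ) : lift N F (c • φ) τ = c * lift N F φ τ := by
  simp only [lift, thetaSum_const_mul, mul_assoc, integral_const_mul]
  ring

variable [NeZero N]

theorem lift_add (hC : IsCuspFun N F) (h : IsPhase N φ) (h' : IsPhase N φ') {τ : ℂ}
    (hτ : 0 < τ.im) : lift N F (φ + φ') τ = lift N F φ τ + lift N F φ' τ := by
  obtain ⟨B, -, hB⟩ := h.bound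
  obtain ⟨B', -, hB'⟩ := h'.bound
  have e : ∀ p, thetaSum (φ + φ') τ p * F p = thetaSum φ τ p * F p + thetaSum φ' τ p * F p :=
    fun p => by
      rw [← add_mul, thetaSum, thetaSum, thetaSum, ← (summable_liftTerm hB hτ p).tsum_add
        (summable_liftTerm hB' hτ p)]
      congr 1
      exact tsum_congr fun i => by simp only [liftTerm, Pi.add_apply]; ring
  simp only [lift, e]
  rw [integral_add (hasSum_integral_liftTerm hC hB hτ).2 (hasSum_integral_liftTerm hC hB' hτ).2,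
    mul_add]

theorem lift_sum (hC : IsCuspFun N F) {ι : Type*} (s : Finset ι) {f : ι → HermIdx → ℂ}
    (h : ∀ j ∈ s, IsPhase N (f j)) {τ : ℂ} (hτ : 0 < τ.im) :
    lift N F (∑ j ∈ s, f j) τ = ∑ j ∈ s, lift N F (f j) τ := by
  classical
  induction s using Finset.induction_on with
  | empty => simp [lift, thetaSum, liftTerm]
  | @insert a s ha ih =>
    rw [Finset.sum_insert ha, Finset.sum_insert ha,
      lift_add hC (h a (Finset.mem_insert_self a s))
        (IsPhase.sum s fun j hj => h j (Finset.mem_insert_of_mem hj)) hτ,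
      ih fun j hj => h j (Finset.mem_insert_of_mem hj)]

theorem measurable_thetaSum {B : ℝ} (hB : ∀ i, ‖φ i‖ ≤ B) {τ : ℂ} (hτ : 0 < τ.im) :
    Measurable (thetaSum φ τ) :=
  measurable_of_tendsto_metrizable' (atTop : Filter (Finset HermIdx))
    (f := fun s p => ∑ i ∈ s, liftTerm φ τ p i)
    (fun s => (continuous_finsetSum s fun i _ => continuous_liftTerm φ τ i).measurable)
    (tendsto_pi_nhds.mpr fun p => (summable_liftTerm hB hτ p).hasSum)

/-- The product of a theta sum and a cusp function is bounded. -/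
theorem exists_bound_thetaSum_mul (hC : IsCuspFun N F) {B : ℝ} (hB : ∀ i, ‖φ i‖ ≤ B) {τ : ℂ}
    (hτ : 0 < τ.im) : ∃ K : ℝ, ∀ p, ‖thetaSum φ τ p * F p‖ ≤ K := by
  obtain ⟨C, hC0, hC1⟩ := hC.bound_siegel 1
  obtain ⟨C', hC'0, hC'⟩ := hC.bound_siegel 0
  have hc : 0 < 2 * Real.pi * τ.im := by positivity
  have hB0 : 0 ≤ B := (norm_nonneg _).trans (hB 0)
  set M := B * (majorantConst (2 * Real.pi * τ.im)).toReal
  have hM : 0 ≤ M := mul_nonneg hB0 ENNReal.toReal_nonneg
  refine ⟨M * (C + C'), fun q => ?_⟩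
  obtain ⟨g, hg⟩ := exists_smul_mem_siegelK q
  set p := (g : GL (Fin 2) ℂ) • q with hp
  have hθ : ‖thetaSum φ τ q‖ ≤ M * (p.y + 1) := by
    obtain ⟨hs, hs'⟩ := summable_majorant_exp hc q
    have h1 : ‖thetaSum φ τ q‖ ≤ B * (majorantSum (2 * Real.pi * τ.im) q).toReal := by
      rw [← hs', ← tsum_mul_left]
      refine tsum_of_norm_bounded (hs.mul_left B).hasSum fun i => ?_
      rw [norm_liftTerm_eq]
      exact mul_le_mul_of_nonneg_right (hB i) (Real.exp_pos _).le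
    refine h1.trans ?_
    rw [← majorantSum_smul _ g q]
    refine (mul_le_mul_of_nonneg_left (ENNReal.toReal_mono
      (ENNReal.mul_ne_top ENNReal.ofReal_ne_top (majorantConst_ne_top hc))
      (majorantSum_le hc hg.2)) hB0).trans_eq ?_
    rw [ENNReal.toReal_mul, ENNReal.toReal_ofReal (by positivity [p.y_pos])]
    simp only [M]
    ring
  have h1 := hC1 g⁻¹ p hg
  have h0 := hC' g⁻¹ p hg
  rw [Subgroup.coe_inv, hp, inv_smul_smul, ← hp] at h1 h0
  rw [pow_one] at h1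
  rw [pow_zero, mul_one] at h0
  rw [norm_mul]
  calc ‖thetaSum φ τ q‖ * ‖F q‖ ≤ M * (p.y + 1) * ‖F q‖ :=
        mul_le_mul_of_nonneg_right hθ (norm_nonneg _)
    _ = M * (‖F q‖ * p.y + ‖F q‖) := by ring
    _ ≤ _ := mul_le_mul_of_nonneg_left (add_le_add h1 h0) hM

omit [NeZero N] in
theorem IsCuspFun.comp_integralK (hC : IsCuspFun N F) (g : integralK) :
    IsCuspFun N fun p => F ((g : GL (Fin 2) ℂ) • p) := by
  refine ⟨hC.continuous.comp (H3.continuous_smul_gl _), fun γ hγ p => ?_, fun h A => ?_⟩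
  · have h1 := hC.invariant _ (principalK_conj g.2 hγ).1 ((g : GL (Fin 2) ℂ) • p)
    rwa [mul_smul, mul_smul, inv_smul_smul] at h1
  · obtain ⟨C, hC'⟩ := hC.decay (g * h) A
    exact ⟨C, fun p hp => by simpa only [Subgroup.coe_mul, mul_smul] using hC' p hp⟩

/-- Translating the function is translating the phase. -/
theorem lift_translate (hC : IsCuspFun N F) (hφ : IsPhase N φ) (g : integralK) {τ : ℂ}
    (hτ : 0 < τ.im) : lift N (fun p => F ((g : GL (Fin 2) ℂ) • p)) φ τ =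
      lift N F (fun i => φ (g⁻¹ • i)) τ := by
  have hψ : IsPhase N fun i => φ (g⁻¹ • i) := hφ.comp_integralK g⁻¹
  obtain ⟨B, -, hB⟩ := hψ.bound
  obtain ⟨K, hK⟩ := exists_bound_thetaSum_mul hC hB hτ
  have hinv : ∀ γ ∈ principalK N, ∀ p, thetaSum (fun i => φ (g⁻¹ • i)) τ (γ • p) * F (γ • p) =
      thetaSum (fun i => φ (g⁻¹ • i)) τ p * F p := fun γ hγ p => by
    rw [show γ • p = ((⟨γ, hγ.1⟩ : integralK) : GL (Fin 2) ℂ) • p from rfl, thetaSum_gl_smul]
    congr 1
    · exact congrArg (thetaSum · τ p) (funext fun i => hψ.invariant ⟨γ, hγ.1⟩ hγ i)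
    · exact hC.invariant γ hγ p
  have key := integral_measK_smul (M := N) (L := N) dvd_rfl (g : GL (Fin 2) ℂ)
    (Φ := fun p => thetaSum (fun i => φ (g⁻¹ • i)) τ p * F p)
    (fun γ hγ => (principalK_conj g.2 hγ).2)
    (fun γ hγ => principalK_le N (principalK_conj g.2 hγ).1)
    ((measurable_thetaSum hB hτ).mul hC.continuous.measurable) hK hinv
    (fun γ hγ p => by
      have h := hinv _ (principalK_conj g.2 hγ).1 ((g : GL (Fin 2) ℂ) • p)
      rw [mul_smul, mul_smul, inv_smul_smul] at h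
      exact h)
  simp only [thetaSum_gl_smul, inv_smul_smul] at key
  rw [lift, lift, ← key]

/-! ### The dilation by `D` -/

section Scale

variable {D : ℕ} [NeZero D]

/-- `diag (1, D)`. -/
def scaleK (D : ℕ) [NeZero D] : GL (Fin 2) ℂ :=
  Matrix.GeneralLinearGroup.mkOfDetNeZero !![1, 0; 0, (D : ℂ)] (by simp [NeZero.ne D])

theorem coe_scaleK : (scaleK D : Matrix (Fin 2) (Fin 2) ℂ) = !![1, 0; 0, (D : ℂ)] := rfl

theorem scaleK_smul (p : H3) :
    (scaleK D • p).z = p.z / D ∧ (scaleK D • p).y = p.y / D := by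
  refine ⟨?_, ?_⟩
  · rw [H3.smul_z_of_upper (by simp [coe_scaleK])]
    simp [coe_scaleK]
  · rw [H3.smul_y_of_upper (by simp [coe_scaleK])]
    simp [coe_scaleK]
    ring

theorem scaleK_isCorrespK : IsCorrespK D (scaleK D) := by
  refine ⟨⟨![![(1, 0), (0, 0)], ![(0, 0), ((D : ℤ), 0)]], fun i j => ?_⟩,
    ⟨![![((D : ℤ), 0), (0, 0)], ![(0, 0), (1, 0)]], fun i j => ?_⟩⟩
  · fin_cases i <;> fin_cases j <;>
      simp [coe_scaleK, Eis3.toC_intCast]
  · rw [Matrix.smul_apply, Matrix.coe_units_inv, Matrix.inv_def, coe_scaleK,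
      Matrix.adjugate_fin_two_of, Matrix.det_fin_two_of]
    have hD : (D : ℂ) ≠ 0 := Nat.cast_ne_zero.mpr (NeZero.ne D)
    fin_cases i <;> fin_cases j <;>
      simp [Eis3.toC_intCast, hD]

theorem exists_scale_conj (g : integralK)
    (h01 : Eis3.dvd ((D : ℤ), 0) (entry (g : GL (Fin 2) ℂ) 0 1)) :
    ∃ g' : integralK, scaleK D * (g : GL (Fin 2) ℂ) = (g' : GL (Fin 2) ℂ) * scaleK D ∧
      entry (g' : GL (Fin 2) ℂ) 0 0 = entry (g : GL (Fin 2) ℂ) 0 0 ∧
      entry (g' : GL (Fin 2) ℂ) 1 1 = entry (g : GL (Fin 2) ℂ) 1 1 ∧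
      entry (g' : GL (Fin 2) ℂ) 1 0 = Eis3.mul ((D : ℤ), 0) (entry (g : GL (Fin 2) ℂ) 1 0) := by
  obtain ⟨b, hb⟩ := h01
  have hD : (D : ℂ) ≠ 0 := Nat.cast_ne_zero.mpr (NeZero.ne D)
  set h : GL (Fin 2) ℂ := scaleK D * (g : GL (Fin 2) ℂ) * (scaleK D)⁻¹ with hh
  set e : Fin 2 → Fin 2 → Eis3 := ![![entry (g : GL (Fin 2) ℂ) 0 0, b],
    ![Eis3.mul ((D : ℤ), 0) (entry (g : GL (Fin 2) ℂ) 1 0), entry (g : GL (Fin 2) ℂ) 1 1]] with he
  have hmul : h * scaleK D = scaleK D * (g : GL (Fin 2) ℂ) := by rw [hh, inv_mul_cancel_right]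
  have hent : ∀ i j, (h : Matrix (Fin 2) (Fin 2) ℂ) i j = (e i j).toC := by
    intro i j
    have h1 := congrFun (congrFun (congrArg (fun x : GL (Fin 2) ℂ =>
      (x : Matrix (Fin 2) (Fin 2) ℂ)) hmul) i) j
    have hb' : (entry (g : GL (Fin 2) ℂ) 0 1).toC = (D : ℂ) * b.toC := by
      rw [← hb, Eis3.toC_mul, Eis3.toC_intCast, Int.cast_natCast]
    simp only [Units.val_mul, coe_scaleK, Matrix.mul_apply, Fin.sum_univ_two] at h1
    fin_cases i <;> fin_cases j <;>
      simp [he, ← toC_entry g.2, hb', Eis3.toC_mul, Eis3.toC_intCast] at h1 ⊢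
    · exact h1
    · exact mul_right_cancel₀ hD (by linear_combination h1)
    · exact h1
    · exact mul_right_cancel₀ hD (by linear_combination h1)
  have hdet : ‖(h : Matrix (Fin 2) (Fin 2) ℂ).det‖ = 1 := by
    rw [hh, Units.val_mul, Units.val_mul, Matrix.det_mul, Matrix.det_mul, mul_right_comm,
      ← Matrix.det_mul, ← Units.val_mul, mul_inv_cancel, Units.val_one, Matrix.det_one, one_mul,
      g.2.2]
  exact ⟨⟨h, ⟨e, hent⟩, hdet⟩, hmul.symm, entry_eq (hent 0 0), entry_eq (hent 1 1),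
    entry_eq (hent 1 0)⟩

theorem dvd_entry_of_principalK {M m : ℕ} (hm : m ∣ M) {g : GL (Fin 2) ℂ} (hg : g ∈ principalK M)
    (i j : Fin 2) :
    Eis3.dvd ((m : ℤ), 0) (entry g i j - if i = j then (1, 0) else (0, 0)) := by
  have h := (principalK_anti hm hg).2 i j
  obtain ⟨a, ha⟩ : (m : ℤ) ∣ (entry g i j).1 - (if i = j then (1 : ℤ) else 0) := by
    refine (ZMod.intCast_zmod_eq_zero_iff_dvd _ m).mp ?_
    have := congrArg Prod.fst h
    simp only [Eis3.red] at this
    split_ifs at this ⊢ <;> simp [this]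
  obtain ⟨b, hb⟩ : (m : ℤ) ∣ (entry g i j).2 := by
    refine (ZMod.intCast_zmod_eq_zero_iff_dvd _ m).mp ?_
    have := congrArg Prod.snd h
    simp only [Eis3.red] at this
    split_ifs at this <;> simp [this]
  exact ⟨(a, b), by split_ifs at ha ⊢ <;> simp [Eis3.mul, Prod.ext_iff, ← ha, ← hb]⟩

/-- The phase on the dilated lattice. -/
def scalePhase (D : ℕ) (φ : HermIdx → ℂ) (i : HermIdx) : ℂ :=
  if (D : ℤ) ∣ i.1 then φ (i.1 / (D : ℤ), i.2.1, (D : ℤ) * i.2.2) else 0

theorem thetaSum_scale (h0 : ∀ i : HermIdx, φ i ≠ 0 → (D : ℤ) ∣ i.2.2) (τ : ℂ) (p : H3) :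
    thetaSum φ τ (scaleK D • p) = thetaSum (scalePhase D φ) τ p := by
  have hD : (D : ℤ) ≠ 0 := Int.natCast_ne_zero.mpr (NeZero.ne D)
  set j : HermIdx → HermIdx := fun n => (n.1, n.2.1, (D : ℤ) * n.2.2) with hj
  set k : HermIdx → HermIdx := fun n => ((D : ℤ) * n.1, n.2.1, n.2.2) with hk
  have hji : Function.Injective j := fun n m h => by
    simp only [hj, Prod.mk.injEq] at h
    exact Prod.ext h.1 (Prod.ext h.2.1 (mul_left_cancel₀ hD h.2.2))
  have hki : Function.Injective k := fun n m h => by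
    simp only [hk, Prod.mk.injEq] at h
    exact Prod.ext (mul_left_cancel₀ hD h.1) (Prod.ext h.2.1 h.2.2)
  rw [thetaSum, thetaSum, ← hji.tsum_eq (f := liftTerm φ τ (scaleK D • p)) fun i hi => ?_,
    ← hki.tsum_eq (f := liftTerm (scalePhase D φ) τ p) fun i hi => ?_]
  · refine tsum_congr fun n => ?_
    simp only [liftTerm, hj, hk, scalePhase, dvd_mul_right, if_true, Int.mul_ediv_cancel_left _ hD]
    congr 1
    · congr 4
      simp only [HermIdx.q]
      ring
    · congr 5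
      obtain ⟨hz, hy⟩ := scaleK_smul (D := D) p
      have hy0 := p.y_pos.ne'
      have hD' : (D : ℝ) ≠ 0 := Nat.cast_ne_zero.mpr (NeZero.ne D)
      simp only [HermIdx.T, HermIdx.vec, HermVec.T, hz, hy, map_div₀, Complex.conj_natCast,
        Complex.normSq_natCast, mul_div_assoc', Complex.div_natCast_re, Int.cast_mul,
        Int.cast_natCast]
      field_simp
  · have hne : scalePhase D φ i ≠ 0 := fun h => hi (by rw [liftTerm, h, zero_mul, zero_mul])
    rw [scalePhase, ne_eq, ite_eq_right_iff, not_forall] at hne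
    obtain ⟨⟨c, hc⟩, -⟩ := hne
    exact ⟨(c, i.2.1, i.2.2), Prod.ext hc.symm rfl⟩
  · obtain ⟨c, hc⟩ := h0 i fun h => hi (by rw [liftTerm, h, zero_mul, zero_mul])
    exact ⟨(i.1, i.2.1, c), Prod.ext rfl (Prod.ext rfl hc.symm)⟩

variable {ρ : Γℚ →* GL (Fin 2) (ZMod 3)} {n₀ : ℕ} [NeZero n₀]

/-- The lift of the datum on the dilated lattice. -/
theorem lift_scale (d : BianchiDatum ρ n₀) (hD : D ∣ n₀) {τ : ℂ} (hτ : 0 < τ.im) :
    lift (liftLevel n₀) d.F (liftPhase (3 * n₀)) τ =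
      lift (liftLevel n₀) (fun p => d.F (scaleK D • p))
        (scalePhase D (liftPhase (3 * n₀))) τ := by
  have : NeZero (liftLevel n₀ * D) := ⟨mul_ne_zero (NeZero.ne _) (NeZero.ne D)⟩
  have hC := d.isCuspFun (dvd_liftLevel n₀)
  have hφ := isPhase_liftPhase (dvd_liftLevel n₀)
  have hinv : ∀ g : integralK, (g : GL (Fin 2) ℂ) ∈ gammaZeroK n₀ → ∀ p,
      thetaSum (liftPhase (3 * n₀)) τ ((g : GL (Fin 2) ℂ) • p) * d.F ((g : GL (Fin 2) ℂ) • p) =
        thetaSum (liftPhase (3 * n₀)) τ p * d.F p := fun g hg p => by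
    rw [thetaSum_gl_smul, d.invariant _ (isBianchiGamma0_of_gammaZeroK hg),
      funext fun i => liftPhase_smul g hg i]
  have hconj : ∀ γ ∈ principalK (liftLevel n₀), ∃ g' : integralK,
      scaleK D * γ = (g' : GL (Fin 2) ℂ) * scaleK D ∧ (g' : GL (Fin 2) ℂ) ∈ gammaZeroK n₀ := by
    intro γ hγ
    have h01 := dvd_entry_of_principalK (hD.trans (dvd_liftLevel n₀)) hγ 0 1
    rw [if_neg (by decide), show ((0, 0) : Eis3) = 0 from rfl, sub_zero] at h01
    obtain ⟨g', hg', -, -, h10⟩ := exists_scale_conj ⟨γ, hγ.1⟩ h01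
    refine ⟨g', hg', g'.2, ?_⟩
    obtain ⟨x, hx⟩ := (principalK_le_gammaZeroK (dvd_liftLevel n₀) hγ).2
    rw [h10]
    refine ⟨Eis3.mul ((D : ℤ), 0) x, ?_⟩
    rw [← hx]
    simp only [Eis3.mul]
    ext <;> simp <;> ring
  obtain ⟨B, -, hB⟩ := hφ.bound
  obtain ⟨K, hK⟩ := exists_bound_thetaSum_mul hC hB hτ
  have key := integral_measK_smul (L := liftLevel n₀ * D) (dvd_mul_right _ D) (scaleK D)
    (Φ := fun p => thetaSum (liftPhase (3 * n₀)) τ p * d.F p)
    (fun γ hγ => (conj_mem_principalK scaleK_isCorrespK.1 scaleK_isCorrespK.2 hγ).2)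
    (fun γ hγ => by
      obtain ⟨g', hg', -⟩ := hconj γ hγ
      rw [hg', mul_inv_cancel_right]
      exact g'.2)
    ((measurable_thetaSum hB hτ).mul hC.continuous.measurable) hK
    (fun γ hγ p => hinv ⟨γ, hγ.1⟩ (principalK_le_gammaZeroK (dvd_liftLevel n₀) hγ) p)
    (fun γ hγ p => by
      obtain ⟨g', hg', hg0⟩ := hconj γ hγ
      rw [← mul_smul, hg', mul_smul]
      exact hinv g' hg0 _)
  have h0 : ∀ i : HermIdx, liftPhase (3 * n₀) i ≠ 0 → (D : ℤ) ∣ i.2.2 := fun i h => by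
    rw [liftPhase, ne_eq, ite_eq_right_iff, not_forall] at h
    obtain ⟨⟨-, -, h3⟩, -⟩ := h
    exact (Int.natCast_dvd_natCast.mpr (hD.mul_left 3)).trans h3
  simp only [thetaSum_scale h0] at key
  rw [lift, lift, ← key]

end Scale

/-! ### The twist -/

section Twist

variable {ρ : Γℚ →* GL (Fin 2) (ZMod 3)} {n₀ : ℕ} {d : BianchiDatum ρ n₀}
  (t : TameTwist d)

instance neZero_twistD : NeZero t.D := ⟨t.squarefree_D.ne_zero⟩

theorem TameTwist.isUnit_three : IsUnit (3 : ZMod t.D) := by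
  have h := (ZMod.isUnit_iff_coprime 3 t.D).mpr
    ((Nat.Prime.coprime_iff_not_dvd Nat.prime_three).mpr t.not_three)
  exact_mod_cast h

theorem TameTwist.D_dvd : t.D ∣ n₀ := by
  obtain ⟨e, he⟩ := t.level
  exact ⟨3 ^ e * t.D, he.trans (by ring)⟩

theorem TameTwist.chi_congr {x y : Eis3} (h : Eis3.dvd ((t.D : ℤ), 0) (x - y)) :
    t.chi x = t.chi y := by
  obtain ⟨z, hz⟩ := h
  rw [show x = y + Eis3.mul ((t.D : ℤ), 0) z by rw [hz, add_sub_cancel], t.chi_periodic]

theorem TameTwist.chi_one : t.chi (1, 0) = 1 := by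
  have h := t.chi_mul (1, 0) (1, 0)
  rw [show Eis3.mul (1, 0) (1, 0) = ((1, 0) : Eis3) by simp [Eis3.mul]] at h
  have h0 : t.chi (1, 0) ≠ 0 := (t.chi_ne_zero_iff _).mpr (by simp [Eis3.norm])
  exact mul_left_cancel₀ h0 (by rw [mul_one, ← h])

/-- The form of tame level after the dilation. -/
def tameG (p : H3) : ℂ := t.G (scaleK t.D • p)

/-- The dilated datum is a combination of translates of the form of tame level. -/
theorem datum_scale_eq (t : TameTwist d) : ∃ (s : Finset Eis3) (w : Eis3 → ℂ),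
    ∀ q, d.F (scaleK t.D • q) = ∑ b ∈ s, w b * tameG t (unipHom ℂ b.toC • q) := by
  obtain ⟨s, w, h⟩ := t.relation
  refine ⟨s, w, fun q => (h _).trans (Finset.sum_congr rfl fun b _ => ?_)⟩
  rw [tameG]
  congr 2
  obtain ⟨h1, h2⟩ := scaleK_smul (D := t.D) q
  obtain ⟨h3, h4⟩ := scaleK_smul (D := t.D) (unipHom ℂ b.toC • q)
  refine H3.ext ?_ ?_
  · rw [h3, unipHom_smul_H3]
    simp [BianchiForm.shiftH, h1, add_div]
  · rw [h4, unipHom_smul_H3]
    simp [BianchiForm.shiftH, h2]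

/-- The character by which the form of tame level transforms. -/
theorem tameG_smul {e : ℕ} (he : n₀ = 3 ^ e * t.D ^ 2) (g : integralK)
    (h10 : Eis3.dvd (((3 ^ e : ℕ) : ℤ), 0) (entry (g : GL (Fin 2) ℂ) 1 0))
    (h01 : Eis3.dvd ((t.D : ℤ), 0) (entry (g : GL (Fin 2) ℂ) 0 1)) (p : H3) :
    tameG t ((g : GL (Fin 2) ℂ) • p) = t.chi (entry (g : GL (Fin 2) ℂ) 0 0) *
      conj (t.chi (entry (g : GL (Fin 2) ℂ) 1 1)) * tameG t p := by
  obtain ⟨g', hg', h00, h11, h10'⟩ := exists_scale_conj g h01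
  have hdiv : n₀ / t.D = 3 ^ e * t.D :=
    Nat.div_eq_of_eq_mul_left (NeZero.pos t.D) (he.trans (by ring))
  rw [tameG, ← mul_smul, hg', mul_smul, t.invariant _ (entry (g' : GL (Fin 2) ℂ))
    (fun i j => (toC_entry g'.2 i j).symm) g'.2.2 ?_ (scaleK t.D • p), h00, h11, tameG]
  obtain ⟨x, hx⟩ := h10
  refine ⟨x, ?_⟩
  rw [h10', hdiv, ← hx]
  simp only [Eis3.mul]
  push_cast
  ext <;> simp <;> ring

/-- The form of tame level is a cusp function. -/
theorem isCuspFun_tameG : IsCuspFun (liftLevel n₀) (tameG t) := by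
  obtain ⟨e, he⟩ := t.level
  refine ⟨t.continuous.comp (H3.continuous_smul_gl _), fun g hg p => ?_, fun h A => ?_⟩
  · have hd : ∀ {m : ℕ}, m ∣ n₀ → ∀ i j, Eis3.dvd ((m : ℤ), 0)
        (entry g i j - if i = j then (1, 0) else (0, 0)) := fun hm =>
      dvd_entry_of_principalK (hm.trans (dvd_liftLevel n₀)) hg
    have h10 := hd (m := 3 ^ e) ⟨t.D ^ 2, he⟩ 1 0
    have h01 := hd t.D_dvd 0 1
    rw [if_neg (by decide), show ((0, 0) : Eis3) = 0 from rfl, sub_zero] at h10 h01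
    have h00 := hd t.D_dvd 0 0
    have h11 := hd t.D_dvd 1 1
    rw [if_pos rfl] at h00 h11
    rw [show g • p = ((⟨g, hg.1⟩ : integralK) : GL (Fin 2) ℂ) • p from rfl,
      tameG_smul t he ⟨g, hg.1⟩ h10 h01, t.chi_congr h00, t.chi_congr h11, t.chi_one]
    simp
  · obtain ⟨C, hC⟩ := t.decay (scaleK t.D * (h : GL (Fin 2) ℂ)) (fun i j => by
      obtain ⟨x, hx⟩ := (scaleK_isCorrespK (D := t.D)).1.mul (isOMat_of_mem h.2)
      exact ⟨x i j, 1, one_pos, by rw [Units.val_mul, hx, Nat.cast_one, div_one]⟩) A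
    exact ⟨C, fun q hq => by simp only [tameG, ← mul_smul]; exact hC q hq⟩

/-- The form of tame level is an eigenfunction. -/
theorem isEigenFun_tameG : IsEigenFun (tameG t) := by
  refine ⟨t.continuous.comp (H3.continuous_smul_gl _), fun k hk hs p => ?_⟩
  rw [tameG, ← t.eigen k hk hs, ← H3.integral_smul_gl (scaleK t.D)
    (fun q => k (H3.coshDist (scaleK t.D • p) q) * t.G q)]
  simp only [tameG, H3.coshDist_smul]

end Twist

end Fermat.Agent.ResidualThree
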