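import Mathlib.Analysis.SpecialFunctions.Complex.CircleAddChar
import Mathlib.NumberTheory.LegendreSymbol.AddCharacter
import Fermat.Agent.ResidualThree.ThetaLift.FamFun
import Fermat.Agent.ResidualThree.ThetaLift.HLevel

/-!
# Binary theta series with periodic coefficients

For a function `f` on `ℤ[ω] / D` (`3 ∤ D`) the series `Θ_f(τ; ξ, η)` transforms under `Γ₀(3)` like
the binary theta series, with `f` moved by a finite Weil representation.
-/

noncomputable section

open Matrix CongruenceSubgroup ModularGroup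
open scoped ComplexConjugate MatrixGroups

namespace Fermat.Agent.ResidualThree

variable (D : ℕ) [NeZero D]

/-- The residues of the Eisenstein integers. -/
abbrev EisRes : Type := ZMod D × ZMod D

variable {D}

/-- Reduction modulo `D`. -/
def eisRes (D : ℕ) (l : Eis3) : EisRes D := ((l.1 : ZMod D), (l.2 : ZMod D))

/-- A representative. -/
def eisLift (r : EisRes D) : Eis3 := ((r.1.val : ℤ), (r.2.val : ℤ))

theorem eisRes_eisLift (r : EisRes D) : eisRes D (eisLift r) = r := by
  simp [eisRes, eisLift]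

/-- The trace form. -/
def trForm (l x : EisRes D) : ZMod D :=
  2 * l.1 * x.1 - l.1 * x.2 - l.2 * x.1 + 2 * l.2 * x.2

/-- The norm form. -/
def normForm (l : EisRes D) : ZMod D := l.1 ^ 2 - l.1 * l.2 + l.2 ^ 2

/-- Division by `√-3`. -/
def dualPt (m : EisRes D) : EisRes D :=
  ((3 : ZMod D)⁻¹ * (-m.1 + 2 * m.2), (3 : ZMod D)⁻¹ * (-2 * m.1 + m.2))

/-- Multiplication by `√-3`. -/
def sqrtPt (x : EisRes D) : EisRes D := (x.1 - 2 * x.2, 2 * x.1 - x.2)

omit [NeZero D] in
theorem dualPt_sqrtPt (h3 : IsUnit (3 : ZMod D)) (x : EisRes D) : dualPt (sqrtPt x) = x := by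
  have h := ZMod.inv_mul_of_unit (3 : ZMod D) h3
  refine Prod.ext ?_ ?_ <;> simp only [dualPt, sqrtPt]
  · linear_combination x.1 * h
  · linear_combination x.2 * h

omit [NeZero D] in
theorem sqrtPt_dualPt (h3 : IsUnit (3 : ZMod D)) (m : EisRes D) : sqrtPt (dualPt m) = m := by
  have h := ZMod.inv_mul_of_unit (3 : ZMod D) h3
  refine Prod.ext ?_ ?_ <;> simp only [dualPt, sqrtPt]
  · linear_combination m.1 * h
  · linear_combination m.2 * h

/-- The Fourier coefficient. -/
def resFourier (f : EisRes D → ℂ) (x : EisRes D) : ℂ :=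
  ((D : ℂ) ^ 2)⁻¹ * ∑ l, f l * ZMod.stdAddChar (-trForm l x)

theorem sum_stdAddChar_trForm (h3 : IsUnit (3 : ZMod D)) (y : EisRes D) :
    ∑ x : EisRes D, (ZMod.stdAddChar (trForm y x) : ℂ) = if y = 0 then ((D : ℂ) ^ 2) else 0 := by
  have hψ := ZMod.isPrimitive_stdAddChar D
  have e : ∀ x : EisRes D, (ZMod.stdAddChar (trForm y x) : ℂ) =
      ZMod.stdAddChar (x.1 * (2 * y.1 - y.2)) * ZMod.stdAddChar (x.2 * (2 * y.2 - y.1)) := by
    intro x
    rw [← AddChar.map_add_eq_mul]
    congr 1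
    simp only [trForm]
    ring
  simp only [e]
  rw [Fintype.sum_prod_type]
  simp only [← Finset.mul_sum, ← Finset.sum_mul]
  rw [AddChar.sum_mulShift _ hψ, AddChar.sum_mulShift _ hψ, ZMod.card]
  by_cases hy : y = 0
  · simp [hy]
    ring
  · rw [if_neg hy]
    by_cases h1 : 2 * y.1 - y.2 = 0
    · have h2 : 2 * y.2 - y.1 ≠ 0 := fun h2 => hy (Prod.ext
        (h3.mul_right_eq_zero.mp (show (3 : ZMod D) * y.1 = 0 by linear_combination 2 * h1 + h2))
        (h3.mul_right_eq_zero.mp (show (3 : ZMod D) * y.2 = 0 by linear_combination h1 + 2 * h2)))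
      simp [h2]
    · simp [h1]

/-- Fourier inversion on `ℤ[ω] / D`. -/
theorem sum_resFourier (h3 : IsUnit (3 : ZMod D)) (f : EisRes D → ℂ) (l : EisRes D) :
    ∑ x, resFourier f x * ZMod.stdAddChar (trForm l x) = f l := by
  simp only [resFourier, mul_assoc, Finset.sum_mul, ← Finset.mul_sum]
  rw [Finset.sum_comm]
  have e : ∀ l' : EisRes D, ∑ x, f l' * (ZMod.stdAddChar (-trForm l' x) *
      ZMod.stdAddChar (trForm l x)) = f l' * if l - l' = 0 then ((D : ℂ) ^ 2) else 0 := by
    intro l'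
    rw [← sum_stdAddChar_trForm h3 (l - l'), Finset.mul_sum]
    refine Finset.sum_congr rfl fun x _ => ?_
    rw [← AddChar.map_add_eq_mul]
    congr 2
    simp only [trForm, Prod.fst_sub, Prod.snd_sub]
    ring
  simp only [e, sub_eq_zero, mul_ite, mul_zero, Finset.sum_ite_eq, Finset.mem_univ, if_true]
  have hD : (D : ℂ) ≠ 0 := Nat.cast_ne_zero.mpr (NeZero.ne D)
  field_simp

/-- The binary theta series with periodic coefficients. -/
def thetaPer (f : EisRes D → ℂ) (σ ξ η : ℂ) : ℂ :=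
  ∑' l : Eis3, f (eisRes D l) * hTerm (σ / D) ((D : ℂ) * ξ) η l

theorem im_div_natCast_pos {σ : ℂ} (hσ : 0 < σ.im) : 0 < (σ / (D : ℂ)).im := by
  rw [Complex.div_natCast_im]
  exact div_pos hσ (Nat.cast_pos.mpr (Nat.pos_of_ne_zero (NeZero.ne D)))

theorem summable_thetaPer (f : EisRes D → ℂ) {σ : ℂ} (hσ : 0 < σ.im) (ξ η : ℂ) :
    Summable fun l : Eis3 => f (eisRes D l) * hTerm (σ / D) ((D : ℂ) * ξ) η l := by
  refine Summable.of_norm_bounded ((summable_norm_hTerm (im_div_natCast_pos (D := D) hσ) ((D : ℂ) *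
    ξ) η).1.mul_left
    (∑ r, ‖f r‖)) fun l => ?_
  rw [norm_mul]
  exact mul_le_mul_of_nonneg_right
    (Finset.single_le_sum (fun r _ => norm_nonneg (f r)) (Finset.mem_univ _)) (norm_nonneg _)

omit [NeZero D] in
theorem eisRes_norm (l : Eis3) : normForm (eisRes D l) = ((l.norm : ℤ) : ZMod D) := by
  rw [Eis3.norm_cast_eq]
  simp [normForm, eisRes]

omit [NeZero D] in
theorem eisRes_trForm (l x : Eis3) :
    trForm (eisRes D l) (eisRes D x) = ((HermIdx.tr (Eis3.mul l (Eis3.bar x)) : ℤ) : ZMod D) := by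
  simp [trForm, eisRes, HermIdx.tr, Eis3.mul, Eis3.bar]
  ring

/-- Multiplication by a character of the norm. -/
def normTwist (k : ℤ) : (EisRes D → ℂ) →ₗ[ℂ] (EisRes D → ℂ) where
  toFun f l := ZMod.stdAddChar ((k : ZMod D) * normForm l) * f l
  map_add' f g := by funext l; simp [mul_add]
  map_smul' c f := by funext l; simp; ring

/-- The behaviour of `thetaPer` under integral translations of `σ`. -/
theorem thetaPer_add_int (f : EisRes D → ℂ) (n : ℤ) (σ ξ η : ℂ) :
    thetaPer f (σ + n) ξ η = thetaPer (normTwist n f) σ ξ (η + (n : ℂ) * ξ) := by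
  refine tsum_congr fun l => ?_
  show f (eisRes D l) * _ = ZMod.stdAddChar ((n : ZMod D) * normForm (eisRes D l)) * _ * _
  rw [eisRes_norm, ← Int.cast_mul, ZMod.stdAddChar_coe, mul_comm (Complex.exp _), mul_assoc]
  congr 1
  simp only [hTerm, ← Complex.exp_add]
  congr 1
  have hD : (D : ℂ) ≠ 0 := Nat.cast_ne_zero.mpr (NeZero.ne D)
  have hN : ((l.norm : ℤ) : ℂ) = l.toC * conj l.toC := by
    rw [Complex.mul_conj, Eis3.normSq_toC]; push_cast; rfl
  have hre := Complex.re_eq_add_conj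
  push_cast [← Complex.mul_conj, hN, hre]
  simp only [map_add, map_mul, Complex.conj_conj, Complex.conj_natCast, map_intCast]
  field_simp
  ring

/-- The reflection. -/
def negPer : (EisRes D → ℂ) →ₗ[ℂ] (EisRes D → ℂ) where
  toFun f l := f (-l)
  map_add' _ _ := rfl
  map_smul' _ _ := rfl

omit [NeZero D] in
theorem thetaPer_neg (f : EisRes D → ℂ) (σ ξ η : ℂ) :
    thetaPer f σ (-ξ) (-η) = thetaPer (negPer f) σ ξ η := by
  rw [thetaPer, thetaPer, ← (Equiv.neg Eis3).tsum_eq]
  refine tsum_congr fun l => ?_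
  show f (eisRes D (-l)) * _ = f (-eisRes D l) * _
  rw [show eisRes D (-l) = -eisRes D l by simp [eisRes]]
  congr 1
  simp only [hTerm, Equiv.neg_apply, Eis3.toC_neg]
  congr 2
  rw [show -l.toC + (D : ℂ) * -ξ = -(l.toC + (D : ℂ) * ξ) by ring, Complex.normSq_neg]
  simp

/-- The lattice split by residues. -/
def resSplit (D : ℕ) [NeZero D] : EisRes D × Eis3 ≃ Eis3 where
  toFun rl := ((D : ℤ) * rl.2.1 + (rl.1.1.val : ℤ), (D : ℤ) * rl.2.2 + (rl.1.2.val : ℤ))
  invFun m := (eisRes D m, ((m.1 - ((m.1 : ZMod D).val : ℤ)) / (D : ℤ),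
    (m.2 - ((m.2 : ZMod D).val : ℤ)) / (D : ℤ)))
  left_inv := fun ⟨⟨r1, r2⟩, l1, l2⟩ => by
    have hD : (D : ℤ) ≠ 0 := Int.natCast_ne_zero.mpr (NeZero.ne D)
    have hc : ∀ x : ℤ, (D : ℤ) * x / (D : ℤ) = x := fun x => Int.mul_ediv_cancel_left x hD
    simp [eisRes, hc]
  right_inv := fun m => by
    have h : ∀ x : ℤ, (D : ℤ) * ((x - ((x : ZMod D).val : ℤ)) / (D : ℤ)) +
        ((x : ZMod D).val : ℤ) = x := fun x => by
      rw [Int.mul_ediv_cancel' ((ZMod.intCast_zmod_eq_zero_iff_dvd _ D).mp (by simp)),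
        sub_add_cancel]
    exact Prod.ext (h m.1) (h m.2)

theorem resSplit_apply (r : EisRes D) (l : Eis3) :
    resSplit D (r, l) = Eis3.mul ((D : ℤ), 0) l + eisLift r := by
  refine Prod.ext ?_ ?_ <;> simp [resSplit, eisLift, Eis3.mul]

theorem eisRes_resSplit (r : EisRes D) (l : Eis3) : eisRes D (resSplit D (r, l)) = r := by
  simp [resSplit, eisRes]

theorem tsum_res_mul {G : Eis3 → ℂ} (hG : Summable fun m => ‖G m‖) (f : EisRes D → ℂ) :
    ∑' m, f (eisRes D m) * G m = ∑ r, f r * ∑' l, G (resSplit D (r, l)) := by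
  have hs : Summable fun m => f (eisRes D m) * G m :=
    Summable.of_norm_bounded (hG.mul_left (∑ r, ‖f r‖)) fun m => by
      rw [norm_mul]
      exact mul_le_mul_of_nonneg_right
        (Finset.single_le_sum (fun r _ => norm_nonneg (f r)) (Finset.mem_univ _)) (norm_nonneg _)
  have hs' : Summable fun p => f (eisRes D (resSplit D p)) * G (resSplit D p) :=
    ((resSplit D).summable_iff.mpr hs :)
  rw [← (resSplit D).tsum_eq, hs'.tsum_prod, tsum_fintype]
  simp only [eisRes_resSplit, tsum_mul_left]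

omit [NeZero D] in
theorem tsum_res_shift (G : Eis3 → ℂ) {y y' : Eis3} (h : eisRes D y = eisRes D y') :
    ∑' l, G (Eis3.mul ((D : ℤ), 0) l + y) = ∑' l, G (Eis3.mul ((D : ℤ), 0) l + y') := by
  have h1 := congrArg Prod.fst h
  have h2 := congrArg Prod.snd h
  simp only [eisRes, ZMod.intCast_eq_intCast_iff_dvd_sub] at h1 h2
  obtain ⟨a, ha⟩ := h1
  obtain ⟨b, hb⟩ := h2
  refine Eq.trans (tsum_congr fun l => ?_) ((Equiv.addRight ((-a, -b) : Eis3)).tsum_eq
    fun l => G (Eis3.mul ((D : ℤ), 0) l + y'))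
  congr 1
  refine Prod.ext ?_ ?_ <;> simp [Eis3.mul]
  · linear_combination -ha
  · linear_combination -hb

/-- The finite Fourier transform of the Weil representation. -/
def perFourier : (EisRes D → ℂ) →ₗ[ℂ] (EisRes D → ℂ) where
  toFun f m := resFourier f (dualPt m)
  map_add' f g := by
    funext m; simp [resFourier, add_mul, Finset.sum_add_distrib, mul_add]
  map_smul' c f := by
    funext m; simp [resFourier, mul_assoc, ← Finset.mul_sum, mul_left_comm]

/-- The series as a combination of binary theta series. -/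
theorem thetaPer_eq_sum (h3 : IsUnit (3 : ZMod D)) (f : EisRes D → ℂ) {σ : ℂ} (hσ : 0 < σ.im)
    (ξ η : ℂ) : thetaPer f σ ξ η = ∑ x, resFourier f x *
      (Complex.exp (-(2 * Real.pi * Complex.I * (((ξ * conj (eisLift x).toC).re : ℝ) : ℂ))) *
        hTheta (σ / D) ((D : ℂ) * ξ) (η + (eisLift x).toC / D)) := by
  have hD : (D : ℂ) ≠ 0 := Nat.cast_ne_zero.mpr (NeZero.ne D)
  have hre := Complex.re_eq_add_conj
  simp only [thetaPer, hTheta, ← tsum_mul_left]
  rw [← Summable.tsum_finsetSum fun x _ =>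
    ((summable_norm_hTerm (im_div_natCast_pos (D := D) hσ) _ _).1.of_norm.mul_left _).mul_left _]
  refine tsum_congr fun l => ?_
  rw [← sum_resFourier h3 f (eisRes D l), Finset.sum_mul]
  refine Finset.sum_congr rfl fun x _ => ?_
  rw [mul_assoc]
  congr 1
  rw [show trForm (eisRes D l) x = trForm (eisRes D l) (eisRes D (eisLift x)) by
      rw [eisRes_eisLift], eisRes_trForm, ZMod.stdAddChar_coe]
  simp only [hTerm, ← Complex.exp_add]
  congr 1
  have ht : ((HermIdx.tr (Eis3.mul l (Eis3.bar (eisLift x))) : ℤ) : ℂ) =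
      l.toC * conj (eisLift x).toC + conj l.toC * (eisLift x).toC := by
    rw [show ((HermIdx.tr (Eis3.mul l (Eis3.bar (eisLift x))) : ℤ) : ℂ) =
      ((2 * (Eis3.mul l (Eis3.bar (eisLift x))).toC.re : ℝ) : ℂ) by
        rw [Eis3.trace_eq]; simp [HermIdx.tr]]
    push_cast [hre]
    rw [Eis3.toC_mul, Eis3.toC_bar, map_mul, Complex.conj_conj]
    ring
  rw [ht]
  push_cast [← Complex.mul_conj, hre]
  simp only [map_add, map_mul, map_div₀, Complex.conj_conj, Complex.conj_natCast]
  field_simp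
  ring

/-- The functional equation. -/
theorem thetaPer_neg_inv (h3 : IsUnit (3 : ZMod D)) (f : EisRes D → ℂ) {s : ℂ} (hs : 0 < s.im)
    (ξ η : ℂ) : thetaPer f (-1 / s) ξ η = -Complex.I * ((D : ℂ) * s) / (Real.sqrt 3 : ℝ) *
      thetaPer (perFourier f) (s / 3) (sqrtNegThree * η) (-(sqrtNegThree * ξ) / 3) := by
  have hD : (D : ℂ) ≠ 0 := Nat.cast_ne_zero.mpr (NeZero.ne D)
  have hDs : 0 < ((D : ℂ) * s).im := by
    have : (0 : ℝ) < D := Nat.cast_pos.mpr (Nat.pos_of_ne_zero (NeZero.ne D))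
    simp; positivity
  have hre := Complex.re_eq_add_conj
  set A := sqrtNegThree * η with hA
  set B := -(sqrtNegThree * ξ) / 3 with hB
  set G : Eis3 → ℂ := fun m => hTerm (s / 3 / D) ((D : ℂ) * A) B m with hG
  have hL : thetaPer f (-1 / s) ξ η = ∑ x, resFourier f x *
      (Complex.exp (-(2 * Real.pi * Complex.I * (((ξ * conj (eisLift x).toC).re : ℝ) : ℂ))) *
        hTheta (-1 / ((D : ℂ) * s)) ((D : ℂ) * ξ) (η + (eisLift x).toC / D)) := by
    rw [show -1 / ((D : ℂ) * s) = -1 / s / (D : ℂ) by field_simp]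
    exact thetaPer_eq_sum h3 f (Eis.im_neg_inv_pos hs) ξ η
  -- each binary series
  have hR : ∀ x : EisRes D,
      Complex.exp (-(2 * Real.pi * Complex.I * (((ξ * conj (eisLift x).toC).re : ℝ) : ℂ))) *
        hTheta (-1 / ((D : ℂ) * s)) ((D : ℂ) * ξ) (η + (eisLift x).toC / D) =
      -Complex.I * ((D : ℂ) * s) / (Real.sqrt 3 : ℝ) *
        ∑' l, G (Eis3.mul ((D : ℤ), 0) l + Eis3.mul (1, 2) (eisLift x)) := by
    intro x
    rw [hTheta_neg_inv hDs, mul_left_comm]
    congr 1
    rw [hTheta, ← tsum_mul_left]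
    refine tsum_congr fun l => ?_
    simp only [hG, hTerm, ← Complex.exp_add, Eis3.toC_add, Eis3.toC_mul, Eis3.toC_intCast,
      ← Eis3.sqrtNegThree_eq, Int.cast_natCast]
    congr 1
    push_cast [← Complex.mul_conj, hre]
    simp only [hA, hB, map_add, map_mul, map_neg, map_div₀, map_ofNat, Complex.conj_conj,
      Complex.conj_natCast, conj_sqrtNegThree]
    have hsq := sqrtNegThree_sq
    set S := sqrtNegThree
    set X := (eisLift x).toC
    set X' := conj X
    set L := l.toC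
    set L' := conj L
    field_simp
    linear_combination (-(D : ℂ) * (ξ * X' + conj ξ * X)) * hsq
  rw [hL, Finset.sum_congr rfl fun x _ => by rw [hR x], thetaPer,
    tsum_res_mul (G := G) (summable_norm_hTerm (im_div_natCast_pos (by simp; positivity)) _ _).1]
  simp only [mul_left_comm (resFourier f _), ← Finset.mul_sum]
  congr 1
  let e : EisRes D ≃ EisRes D := ⟨sqrtPt, dualPt, dualPt_sqrtPt h3, sqrtPt_dualPt h3⟩
  refine Fintype.sum_equiv e _ _ fun x => ?_
  show resFourier f x * _ = resFourier f (dualPt (sqrtPt x)) * _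
  rw [dualPt_sqrtPt h3]
  congr 1
  refine Eq.trans ?_ (tsum_congr fun l => congrArg G (resSplit_apply (e x) l).symm)
  refine tsum_res_shift G ?_
  rw [eisRes_eisLift]
  refine Prod.ext ?_ ?_ <;> simp [e, eisRes, eisLift, sqrtPt, Eis3.mul]
  ring

/-- Distinct coefficient functions give distinct series. -/
theorem eq_zero_of_thetaPer_eq_zero (h3 : IsUnit (3 : ZMod D)) {f : EisRes D → ℂ}
    (h : ∀ η : ℂ, thetaPer f Complex.I 0 η = 0) : f = 0 := by
  set θ : EisRes D → ℂ := fun r => ∑' l : Eis3,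
    hTerm (Complex.I / D) 0 0 (resSplit D (r, l)) with hθ
  have hI : 0 < (Complex.I / (D : ℂ)).im := im_div_natCast_pos (by simp)
  have hre := Complex.re_eq_add_conj
  have hD : (D : ℂ) ≠ 0 := Nat.cast_ne_zero.mpr (NeZero.ne D)
  have hy : ∀ y : EisRes D, ∑ r, f r * θ r * ZMod.stdAddChar (trForm r y) = 0 := by
    intro y
    rw [← h ((eisLift y).toC / D), thetaPer, mul_zero, tsum_res_mul (summable_norm_hTerm hI _ _).1]
    refine Finset.sum_congr rfl fun r _ => ?_
    rw [hθ, mul_assoc, ← tsum_mul_right]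
    congr 1
    refine tsum_congr fun l => ?_
    rw [show trForm r y = trForm (eisRes D (resSplit D (r, l))) (eisRes D (eisLift y)) by
        rw [eisRes_resSplit, eisRes_eisLift], eisRes_trForm, ZMod.stdAddChar_coe]
    set m := resSplit D (r, l)
    simp only [hTerm, ← Complex.exp_add]
    congr 1
    rw [show ((HermIdx.tr (Eis3.mul m (Eis3.bar (eisLift y))) : ℤ) : ℂ) =
      ((2 * (Eis3.mul m (Eis3.bar (eisLift y))).toC.re : ℝ) : ℂ) by
        rw [Eis3.trace_eq]; simp [HermIdx.tr], Eis3.toC_mul, Eis3.toC_bar]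
    push_cast [← Complex.mul_conj, hre]
    simp only [map_add, map_mul, map_div₀, map_zero, Complex.conj_conj, Complex.conj_natCast]
    field_simp
    ring
  have hz : ∀ r, f r * θ r = 0 := by
    intro r
    have h1 := sum_resFourier h3 (fun l => f l * θ l) r
    have hzero : ∀ x, resFourier (fun l => f l * θ l) x = 0 := fun x => by
      rw [resFourier]
      have h2 := hy (-x)
      rw [mul_eq_zero]
      refine Or.inr (Eq.trans (Finset.sum_congr rfl fun l _ => ?_) h2)
      congr 2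
      simp only [trForm, Prod.fst_neg, Prod.snd_neg]
      ring
    simpa [hzero] using h1.symm
  funext r
  refine (mul_eq_zero.mp (hz r)).resolve_right ?_
  have hval : ∀ l : Eis3, hTerm (Complex.I / D) 0 0 (resSplit D (r, l)) =
      ((Real.exp (-(2 * Real.pi * (Complex.I / D).im *
        Complex.normSq ((resSplit D (r, l)).toC))) : ℝ) : ℂ) := fun l => by
    rw [hTerm, Complex.ofReal_exp]
    congr 1
    simp [Complex.div_natCast_im]
    field_simp
    rw [Complex.I_sq]
    ring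
  rw [hθ]
  simp only [hval, ← Complex.ofReal_tsum, ne_eq, Complex.ofReal_eq_zero]
  refine (Summable.tsum_pos ?_ (fun l => (Real.exp_pos _).le) 0 (Real.exp_pos _)).ne'
  have := ((summable_norm_hTerm hI 0 0).1.comp_injective (i := fun l => resSplit D (r, l))
    (fun a b hab => (Prod.ext_iff.mp ((resSplit D).injective hab)).2))
  refine this.congr fun l => ?_
  simp [hval, Complex.norm_exp]

/-- The transformation law with coefficient operator `A`. -/
def HasPerLaw (γ : SL(2, ℤ)) (A : (EisRes D → ℂ) →ₗ[ℂ] (EisRes D → ℂ)) : Prop :=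
  ∀ (f : EisRes D → ℂ) (τ : UpperHalfPlane) (ξ η : ℂ),
    thetaPer f ((γ • τ : UpperHalfPlane) : ℂ) ξ η = chiC (γ 1 1) * jFac γ τ *
      thetaPer (A f) τ ((γ 0 0 : ℂ) * ξ + (γ 1 0 : ℂ) * η) ((γ 0 1 : ℂ) * ξ + (γ 1 1 : ℂ) * η)

end Fermat.Agent.ResidualThree
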