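import Mathlib.RepresentationTheory.Basic
import Fermat.Agent.ResidualThree.ThetaLift.TameTheta

/-!
# The Weil representation of `Γ₀(3)` on functions of `ℤ[ω] / D`

The operator `A` of the law `HasPerLaw γ A` is unique and exists for the generators `-1`, `T` and
`[[1,0],[3,1]]` of `Γ₀(3)`, so `perOp` is an anti-homomorphism on `Γ₀(3)`.
-/

noncomputable section

open Matrix Matrix.SpecialLinearGroup CongruenceSubgroup ModularGroup
open scoped ComplexConjugate MatrixGroups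

namespace Fermat.Agent.ResidualThree

variable {D : ℕ} [NeZero D]

/-- The character of the lower right entry does not vanish on `Γ₀(3)`. -/
theorem chiC_lowerRight_ne_zero {γ : SL(2, ℤ)} (hγ : γ ∈ Gamma0 3) : chiC (γ 1 1) ≠ 0 :=
  right_ne_zero_of_mul (chiC_mul_diag hγ ▸ one_ne_zero)

theorem thetaPer_sub (f g : EisRes D → ℂ) {σ : ℂ} (hσ : 0 < σ.im) (ξ η : ℂ) :
    thetaPer (f - g) σ ξ η = thetaPer f σ ξ η - thetaPer g σ ξ η := by
  simp only [thetaPer, Pi.sub_apply, sub_mul]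
  exact (summable_thetaPer f hσ ξ η).tsum_sub (summable_thetaPer g hσ ξ η)

/-- The coefficient operator is determined by the law. -/
theorem HasPerLaw.eq_zero (h3 : IsUnit (3 : ZMod D)) {γ : SL(2, ℤ)}
    {A : (EisRes D → ℂ) →ₗ[ℂ] (EisRes D → ℂ)} (h : HasPerLaw γ A) {f : EisRes D → ℂ}
    (hf : A f = 0) : f = 0 := by
  refine eq_zero_of_thetaPer_eq_zero h3 fun η => ?_
  have h1 := h f (γ⁻¹ • UpperHalfPlane.I) 0 η
  rw [smul_inv_smul, hf] at h1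
  rw [show (UpperHalfPlane.I : ℂ) = Complex.I from rfl] at h1
  rw [h1]
  simp [thetaPer]

/-- The operator of a law is unique. -/
theorem HasPerLaw.unique (h3 : IsUnit (3 : ZMod D)) {γ : SL(2, ℤ)} (hγ : γ ∈ Gamma0 3)
    {A B : (EisRes D → ℂ) →ₗ[ℂ] (EisRes D → ℂ)} (hA : HasPerLaw γ A) (hB : HasPerLaw γ B) :
    A = B := by
  refine LinearMap.ext fun f => sub_eq_zero.mp (eq_zero_of_thetaPer_eq_zero h3 fun η => ?_)
  have h1 := hA f UpperHalfPlane.I (-(γ 1 0 : ℂ) * η) ((γ 0 0 : ℂ) * η)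
  have h2 := hB f UpperHalfPlane.I (-(γ 1 0 : ℂ) * η) ((γ 0 0 : ℂ) * η)
  have hdet : (γ 0 0 : ℂ) * (γ 1 1 : ℂ) - (γ 0 1 : ℂ) * (γ 1 0 : ℂ) = 1 := by
    exact_mod_cast (Matrix.det_fin_two (γ : Matrix (Fin 2) (Fin 2) ℤ)).symm.trans γ.det_coe
  rw [show (γ 0 0 : ℂ) * (-(γ 1 0 : ℂ) * η) + (γ 1 0 : ℂ) * ((γ 0 0 : ℂ) * η) = 0 by ring,
    show (γ 0 1 : ℂ) * (-(γ 1 0 : ℂ) * η) + (γ 1 1 : ℂ) * ((γ 0 0 : ℂ) * η) = η by
      linear_combination η * hdet,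
    show (UpperHalfPlane.I : ℂ) = Complex.I from rfl] at h1 h2
  rw [thetaPer_sub _ _ (by simp), sub_eq_zero]
  exact mul_left_cancel₀
    (mul_ne_zero (chiC_lowerRight_ne_zero hγ) (jFac_ne_zero γ UpperHalfPlane.I)) (h1.symm.trans h2)

/-- The elements of `Γ₀(3)` with a law. -/
def perLawGroup (h3 : IsUnit (3 : ZMod D)) : Subgroup SL(2, ℤ) where
  carrier := {γ | γ ∈ Gamma0 3 ∧ ∃ A : (EisRes D → ℂ) →ₗ[ℂ] (EisRes D → ℂ), HasPerLaw γ A}
  one_mem' := ⟨one_mem _, LinearMap.id, fun f τ ξ η => by simp [jFac, chiC_one]⟩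
  mul_mem' := by
    rintro γ δ ⟨hγ, A, h1⟩ ⟨hδ, B, h2⟩
    refine ⟨mul_mem hγ hδ, B.comp A, fun f τ ξ η => ?_⟩
    rw [mul_smul, h1, h2, jFac_mul]
    rw [chiC_lowerRight_mul hγ δ]
    simp only [Matrix.SpecialLinearGroup.coe_mul, Matrix.mul_apply, Fin.sum_univ_two,
      LinearMap.comp_apply]
    push_cast
    ring_nf
  inv_mem' := by
    rintro γ ⟨hγ, A, h1⟩
    have hinj : Function.Injective A := (injective_iff_map_eq_zero A).mpr fun f hf =>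
      h1.eq_zero h3 hf
    obtain ⟨B, hAB⟩ := LinearMap.exists_rightInverse_of_surjective A
      (LinearMap.range_eq_top.mpr (LinearMap.injective_iff_surjective.mp hinj))
    refine ⟨inv_mem hγ, B, fun f τ ξ η => ?_⟩
    have h := h1 (B f) (γ⁻¹ • τ) ((γ⁻¹ 0 0 : ℤ) * ξ + (γ⁻¹ 1 0 : ℤ) * η)
      ((γ⁻¹ 0 1 : ℤ) * ξ + (γ⁻¹ 1 1 : ℤ) * η)
    rw [smul_inv_smul, show A (B f) = f from LinearMap.congr_fun hAB f] at h
    have hj := jFac_mul γ γ⁻¹ τ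
    rw [mul_inv_cancel, show jFac 1 τ = 1 by simp [jFac]] at hj
    have hdet : (γ 0 0 : ℂ) * (γ 1 1 : ℂ) - (γ 0 1 : ℂ) * (γ 1 0 : ℂ) = 1 := by
      exact_mod_cast (Matrix.det_fin_two (γ : Matrix (Fin 2) (Fin 2) ℤ)).symm.trans γ.det_coe
    have hi : (γ⁻¹ : SL(2, ℤ)).1 = !![γ 1 1, -γ 0 1; -γ 1 0, γ 0 0] := by
      rw [Matrix.SpecialLinearGroup.coe_inv, Matrix.adjugate_fin_two]
    simp only [hi, Matrix.of_apply, Matrix.cons_val', Matrix.cons_val_zero, Matrix.cons_val_one,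
      Matrix.empty_val', Matrix.cons_val_fin_one, Int.cast_neg] at h ⊢
    rw [show (γ 0 0 : ℂ) * ((γ 1 1 : ℂ) * ξ + -(γ 1 0 : ℂ) * η) +
        (γ 1 0 : ℂ) * (-(γ 0 1 : ℂ) * ξ + (γ 0 0 : ℂ) * η) = ξ by linear_combination ξ * hdet,
      show (γ 0 1 : ℂ) * ((γ 1 1 : ℂ) * ξ + -(γ 1 0 : ℂ) * η) +
        (γ 1 1 : ℂ) * (-(γ 0 1 : ℂ) * ξ + (γ 0 0 : ℂ) * η) = η by linear_combination η * hdet] at h
    rw [h]
    linear_combination (-thetaPer f ((γ⁻¹ • τ : UpperHalfPlane) : ℂ) ξ η) *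
      ((jFac γ ((γ⁻¹ • τ : UpperHalfPlane) : ℂ) * jFac γ⁻¹ τ) * chiC_mul_diag hγ - hj)

omit [NeZero D] in
theorem hasPerLaw_neg_one : HasPerLaw (-1 : SL(2, ℤ)) (negPer (D := D)) := fun f τ ξ η => by
  rw [ModularGroup.SL_neg_smul, one_smul]
  simp only [Matrix.SpecialLinearGroup.coe_neg, Matrix.SpecialLinearGroup.coe_one, Matrix.neg_apply,
    Matrix.one_apply_eq, Matrix.one_apply_ne (show (1 : Fin 2) ≠ 0 by decide),
    Matrix.one_apply_ne (show (0 : Fin 2) ≠ 1 by decide), neg_zero, Int.cast_zero, Int.cast_neg,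
    Int.cast_one, zero_mul, zero_add, add_zero, neg_one_mul, chiC_neg_one]
  rw [← thetaPer_neg, neg_neg, neg_neg]
  simp [jFac]

theorem hasPerLaw_T : HasPerLaw T (normTwist (D := D) 1) := fun f τ ξ η => by
  rw [UpperHalfPlane.modular_T_smul, UpperHalfPlane.coe_vadd, Complex.ofReal_one, add_comm,
    show (τ : ℂ) + 1 = (τ : ℂ) + ((1 : ℤ) : ℂ) by push_cast; rfl, thetaPer_add_int]
  simp [jFac, chiC_one, coe_T, add_comm]

/-- The operator of `[[1,0],[3,1]]`. -/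
def lowerPer (D : ℕ) [NeZero D] : (EisRes D → ℂ) →ₗ[ℂ] (EisRes D → ℂ) :=
  ((D : ℂ) ^ 2) • perFourier.comp ((normTwist (-1)).comp perFourier)

theorem hasPerLaw_lower (h3 : IsUnit (3 : ZMod D)) : HasPerLaw lowerThreeQ (lowerPer D) := by
  intro f τ ξ η
  have h00 : lowerThreeQ 0 0 = 1 := rfl
  have h01 : lowerThreeQ 0 1 = 0 := rfl
  have h10 : lowerThreeQ 1 0 = 3 := rfl
  have h11 : lowerThreeQ 1 1 = 1 := rfl
  have hj := jFac_ne_zero lowerThreeQ τ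
  rw [coe_smul_eq]
  simp only [jFac, h00, h01, h10, h11, Int.cast_one, Int.cast_zero, Int.cast_ofNat, chiC_one,
    one_mul, zero_mul, add_zero, zero_add] at hj ⊢
  have hτ0 : (τ : ℂ) ≠ 0 := τ.ne_zero
  set σ : ℂ := -1 / (τ : ℂ) - 3 with hσ
  have hσim : 0 < σ.im := by
    rw [hσ, Complex.sub_im]
    simpa using Eis.im_neg_inv_pos τ.im_pos
  have hσ0 : σ ≠ 0 := fun h => by simp [h] at hσim
  have hW : (τ : ℂ) / (3 * τ + 1) = -1 / σ := by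
    rw [eq_div_iff hσ0, hσ, div_mul_eq_mul_div, div_eq_iff hj]
    field_simp
    ring
  rw [hW, thetaPer_neg_inv h3 f hσim,
    show σ / 3 = -1 / (3 * (τ : ℂ)) + ((-1 : ℤ) : ℂ) by rw [hσ]; field_simp; push_cast; ring,
    thetaPer_add_int, thetaPer_neg_inv h3 _ (s := 3 * (τ : ℂ)) (by simpa using τ.im_pos),
    show (3 * (τ : ℂ)) / 3 = τ by field_simp]
  have hs := sqrtNegThree_sq
  rw [show sqrtNegThree * (-(sqrtNegThree * ξ) / 3 + ((-1 : ℤ) : ℂ) * (sqrtNegThree * η)) =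
      ξ + 3 * η by push_cast; linear_combination (-ξ / 3 - η) * hs,
    show -(sqrtNegThree * (sqrtNegThree * η)) / 3 = η by linear_combination (-η / 3) * hs]
  simp only [lowerPer, LinearMap.smul_apply, LinearMap.comp_apply]
  rw [thetaPer, thetaPer]
  simp only [Pi.smul_apply, smul_eq_mul, mul_assoc, tsum_mul_left]
  simp only [← mul_assoc]
  congr 1
  have hs3 : ((Real.sqrt 3 : ℝ) : ℂ) * ((Real.sqrt 3 : ℝ) : ℂ) = 3 := by
    rw [← Complex.ofReal_mul, sqrtThree_mul_self]; simp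
  have hne : ((Real.sqrt 3 : ℝ) : ℂ) ≠ 0 := by simp
  rw [hσ]
  field_simp
  linear_combination ((-1 - 3 * (τ : ℂ)) * (D : ℂ) ^ 2) * hs3 +
    ((-3 - 9 * (τ : ℂ)) * (D : ℂ) ^ 2) * Complex.I_sq

/-- Every element of `Γ₀(3)` has a law. -/
theorem exists_perLaw (h3 : IsUnit (3 : ZMod D)) {γ : SL(2, ℤ)} (hγ : γ ∈ Gamma0 3) :
    ∃ A : (EisRes D → ℂ) →ₗ[ℂ] (EisRes D → ℂ), HasPerLaw γ A :=
  (gamma0Three_le (perLawGroup h3)
    ⟨Eis.neg_one_mem_Gamma0, _, hasPerLaw_neg_one⟩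
    ⟨by simp, _, hasPerLaw_T⟩
    ⟨Eis.mem_Gamma0_iff_dvd.mpr ⟨1, by simp [lowerThreeQ]⟩, _, hasPerLaw_lower h3⟩ hγ).2

/-- The operator of the law. -/
def perOp (h3 : IsUnit (3 : ZMod D)) (γ : Gamma0 3) : (EisRes D → ℂ) →ₗ[ℂ] (EisRes D → ℂ) :=
  (exists_perLaw h3 γ.2).choose

theorem hasPerLaw_perOp (h3 : IsUnit (3 : ZMod D)) (γ : Gamma0 3) :
    HasPerLaw (γ : SL(2, ℤ)) (perOp h3 γ) := (exists_perLaw h3 γ.2).choose_spec

theorem perOp_eq (h3 : IsUnit (3 : ZMod D)) (γ : Gamma0 3)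
    {A : (EisRes D → ℂ) →ₗ[ℂ] (EisRes D → ℂ)} (h : HasPerLaw (γ : SL(2, ℤ)) A) :
    perOp h3 γ = A := (hasPerLaw_perOp h3 γ).unique h3 γ.2 h

/-- The operators form an anti-homomorphism. -/
theorem perOp_mul (h3 : IsUnit (3 : ZMod D)) (γ δ : Gamma0 3) :
    perOp h3 (γ * δ) = (perOp h3 δ).comp (perOp h3 γ) := by
  refine perOp_eq h3 _ fun f τ ξ η => ?_
  have h1 := hasPerLaw_perOp h3 γ f ((δ : SL(2, ℤ)) • τ) ξ η
  have h2 := hasPerLaw_perOp h3 δ (perOp h3 γ f) τ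
  rw [h2, ← mul_smul] at h1
  rw [Subgroup.coe_mul, h1, jFac_mul]
  rw [chiC_lowerRight_mul γ.2 δ]
  simp only [Matrix.SpecialLinearGroup.coe_mul, Matrix.mul_apply, Fin.sum_univ_two,
    LinearMap.comp_apply]
  push_cast
  ring_nf

end Fermat.Agent.ResidualThree
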