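import Fermat.Agent.Raising.SquareRemoval.Weil.Herm
import Fermat.Agent.ResidualThree.ThetaLift.TameFrame
import Fermat.Agent.ResidualThree.ThetaLift.TameFull

/-!
# The lifts of the form of tame level

A function of residues of lattice forms modulo `D` gives a phase, hence a lift; the lifts transform
under `Γ₀(3^(e+1))` by the Weil action and under lower triangular matrices by the character.
-/

noncomputable section

open MeasureTheory Matrix CongruenceSubgroup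
open scoped ComplexConjugate MatrixGroups ModularForm

namespace Fermat.Agent.ResidualThree

open Fermat.Agent.Raising.SquareRemoval (EisQ lowAct)

local notation "Γℚ" => (AlgebraicClosure ℚ ≃ₐ[ℚ] AlgebraicClosure ℚ)
local notation "ℍ'" => UpperHalfPlane

section Phase

variable {D : ℕ} [NeZero D]

/-- The residues of a lattice form. -/
def resPt (D : ℕ) [NeZero D] (i : HermIdx) : FormRes D :=
  ((3 : ZMod D)⁻¹ * (i.1 : ZMod D), -dualPt (eisRes D i.2.1), (i.2.2 : ZMod D))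

/-- The phase of a function of residues. -/
def tamePhase (k : ℕ) (Φ : FormRes D → ℂ) (i : HermIdx) : ℂ :=
  liftPhase (3 * k) i * Φ (resPt D i)

theorem tamePhase_eq_rowPhase (k : ℕ) (Φ : FormRes D → ℂ) :
    tamePhase k Φ = rowPhase k (toRow Φ) := by
  funext i
  rw [tamePhase, rowPhase]
  congr 1
  conv_lhs => rw [← fromRow_toRow Φ]
  rfl

theorem tamePhase_add (k : ℕ) (Φ Ψ : FormRes D → ℂ) :
    tamePhase k (Φ + Ψ) = tamePhase k Φ + tamePhase k Ψ := by
  funext i; simp [tamePhase, mul_add]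

theorem tamePhase_smul (k : ℕ) (c : ℂ) (Φ : FormRes D → ℂ) :
    tamePhase k (c • Φ) = c • tamePhase k Φ := by
  funext i; simp [tamePhase, mul_left_comm]

theorem tamePhase_add_smul {N k : ℕ} (hk : 3 * k ∣ N) (hD : D ∣ N)
    (Φ : FormRes D → ℂ) (i j : HermIdx) :
    tamePhase k Φ (i + (N : ℤ) • j) = tamePhase k Φ i := by
  obtain ⟨a, ha⟩ : ((3 * k : ℕ) : ℤ) ∣ (N : ℤ) := Int.natCast_dvd_natCast.mpr hk
  have hN : ((N : ℤ) : ZMod D) = 0 :=
    (ZMod.intCast_zmod_eq_zero_iff_dvd _ D).mpr (Int.natCast_dvd_natCast.mpr hD)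
  simp only [Int.cast_natCast] at hN
  have h3 : (3 : ℤ) ∣ (N : ℤ) := Dvd.dvd.trans ⟨(k : ℤ), by push_cast; rfl⟩ ⟨a, ha⟩
  have e : ∀ m : ℤ, ∀ x y : ℤ, m ∣ (N : ℤ) → (m ∣ x + (N : ℤ) * y ↔ m ∣ x) :=
    fun m x y hm => dvd_add_left (hm.mul_right y)
  rw [tamePhase, tamePhase]
  congr 1
  · refine liftPhase_congr ?_ ?_ ?_
    · simpa using e 3 i.1 j.1 h3
    · have := e 3 (i.2.1.1 + i.2.1.2) (j.2.1.1 + j.2.1.2) h3
      simp only [Prod.fst_add, Prod.snd_add, Prod.smul_fst, Prod.smul_snd, smul_eq_mul] at this ⊢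
      rw [← this]
      congr! 1
      ring
    · simpa using e _ i.2.2 j.2.2 ⟨a, ha⟩
  · congr 1
    simp [resPt, eisRes, hN]

theorem isPhase_tamePhase {N k : ℕ} [NeZero N] (hk : 3 * k ∣ N) (hD : D ∣ N)
    (Φ : FormRes D → ℂ) : IsPhase N (tamePhase k Φ) :=
  IsPhase.of_periodic (tamePhase_add_smul hk hD Φ)

/-- The residues of an Eisenstein integer as a number. -/
def quadRes (D : ℕ) (x : Eis3) : EisQ (ZMod D) := ⟨(x.1 : ZMod D), (x.2 : ZMod D)⟩

theorem resPt_smul (h3 : IsUnit (3 : ZMod D)) (g : integralK)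
    (h01 : Eis3.dvd ((D : ℤ), 0) (entry (g : GL (Fin 2) ℂ) 0 1)) (i : HermIdx) :
    resPt D (g • i) = lowAct (quadRes D (entry (g : GL (Fin 2) ℂ) 0 0))
      (⟨-(sqrtPt (eisRes D (entry (g : GL (Fin 2) ℂ) 1 0))).1,
        -(sqrtPt (eisRes D (entry (g : GL (Fin 2) ℂ) 1 0))).2⟩ : EisQ (ZMod D))
      (quadRes D (entry (g : GL (Fin 2) ℂ) 1 1)) (resPt D i) := by
  obtain ⟨b, hb⟩ := h01
  have ht := ZMod.inv_mul_of_unit (3 : ZMod D) h3
  show resPt D (HermIdx.actFormula (entry (g : GL (Fin 2) ℂ)) i) = _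
  generalize entry (g : GL (Fin 2) ℂ) = e at hb ⊢
  obtain ⟨a, ⟨r1, r2⟩, δ⟩ := i
  have h1 : ((e 0 1).1 : ZMod D) = 0 := by rw [← hb]; simp [Eis3.mul]
  have h2 : ((e 0 1).2 : ZMod D) = 0 := by rw [← hb]; simp [Eis3.mul]
  simp only [resPt, quadRes, lowAct, HermIdx.actFormula, Fermat.Agent.Raising.SquareRemoval.midE,
    Fermat.Agent.Raising.SquareRemoval.trE, eisRes, sqrtPt, dualPt, Eis3.norm_cast_eq, Eis3.mul,
      Eis3.bar,
    HermIdx.tr, Prod.fst_add, Prod.snd_add, Prod.neg_mk,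
    QuadraticAlgebra.norm_def, QuadraticAlgebra.re_mul, QuadraticAlgebra.im_mul,
    QuadraticAlgebra.re_add, QuadraticAlgebra.im_add, QuadraticAlgebra.re_star,
    QuadraticAlgebra.im_star, QuadraticAlgebra.re_smul, QuadraticAlgebra.im_smul, smul_eq_mul]
  push_cast
  simp only [h1, h2]
  generalize ((e 0 0).1 : ZMod D) = x1
  generalize ((e 0 0).2 : ZMod D) = x2
  generalize ((e 1 0).1 : ZMod D) = c1
  generalize ((e 1 0).2 : ZMod D) = c2
  generalize ((e 1 1).1 : ZMod D) = y1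
  generalize ((e 1 1).2 : ZMod D) = y2
  generalize ((3 : ZMod D)⁻¹) = s at ht ⊢
  refine Prod.ext ?_ (Prod.ext (Prod.ext ?_ ?_) ?_) <;> grind

/-- Lifting lower triangular matrices modulo `D` to the integral group. -/
theorem exists_lowMat {k : ℕ} (hcop : Nat.Coprime k D) (h3 : IsUnit (3 : ZMod D))
    (x r y : EisQ (ZMod D)) (hxy : x * y = 1) :
    ∃ g : integralK, Eis3.dvd ((k : ℤ), 0) (entry (g : GL (Fin 2) ℂ) 1 0) ∧
      Eis3.dvd ((D : ℤ), 0) (entry (g : GL (Fin 2) ℂ) 0 1) ∧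
      quadRes D (entry (g : GL (Fin 2) ℂ) 0 0) = x ∧
      quadRes D (entry (g : GL (Fin 2) ℂ) 1 1) = y ∧
      (sqrtPt (eisRes D (entry (g : GL (Fin 2) ℂ) 1 0))) = (-r.re, -r.im) := by
  obtain ⟨u, v, huv⟩ := (Int.isCoprime_iff_nat_coprime.mpr (by simpa using hcop) :
    IsCoprime (k : ℤ) (D : ℤ))
  have huv' : (u : ZMod D) * (k : ZMod D) = 1 := by
    have := congrArg (fun z : ℤ => (z : ZMod D)) huv
    simpa using this
  set m := dualPt ((-r.re, -r.im) : EisRes D) with hm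
  set x' : Eis3 := eisLift (x.re, x.im)
  set y' : Eis3 := eisLift (y.re, y.im)
  set c' : Eis3 := eisLift ((((⟨m.1, m.2⟩ : EisQ (ZMod D)) * y).re,
    ((⟨m.1, m.2⟩ : EisQ (ZMod D)) * y).im) : EisRes D)
  set L : Eis3 → Eis3 := fun z => Eis3.mul (u * k, 0) z + (v * D, 0) with hL
  set X := L x'
  set Y := L y'
  set C : Eis3 := Eis3.mul (u * k, 0) c'
  set s : Eis3 := (1, 0) - Eis3.mul X Y with hs
  set e : Fin 2 → Fin 2 → Eis3 := ![![Eis3.mul X ((1, 0) + s), -s],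
    ![Eis3.mul C (Eis3.mul X ((1, 0) + s)) + s, Y - Eis3.mul C s]] with he
  have hdet : Eis3.mul (e 0 0) (e 1 1) - Eis3.mul (e 0 1) (e 1 0) = (1, 0) := by
    simp only [he, hs, Matrix.cons_val_zero, Matrix.cons_val_one, Matrix.cons_val_fin_one]
    generalize C = c
    generalize X = a
    generalize Y = b
    simp only [Eis3.mul]
    refine Prod.ext ?_ ?_ <;> simp <;> ring
  set g : GL (Fin 2) ℂ := Matrix.GeneralLinearGroup.mkOfDetNeZero
    !![(e 0 0).toC, (e 0 1).toC; (e 1 0).toC, (e 1 1).toC] (by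
      rw [Matrix.det_fin_two_of, ← Eis3.toC_mul, ← Eis3.toC_mul, ← Eis3.toC_sub, hdet,
        Eis3.toC_one]
      exact one_ne_zero)
  have hg : ∀ i j, (g : Matrix (Fin 2) (Fin 2) ℂ) i j = (e i j).toC := fun i j => by
    fin_cases i <;> fin_cases j <;> rfl
  have hgd : ‖(g : Matrix (Fin 2) (Fin 2) ℂ).det‖ = 1 := by
    rw [Matrix.det_fin_two, hg, hg, hg, hg, ← Eis3.toC_mul, ← Eis3.toC_mul, ← Eis3.toC_sub, hdet,
      Eis3.toC_one, norm_one]
  refine ⟨⟨g, ⟨e, hg⟩, hgd⟩, ?_⟩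
  simp only [entry_eq (hg _ _)]
  have hXY : (quadRes D X : EisQ (ZMod D)) = x ∧ quadRes D Y = y ∧
      quadRes D C = (⟨m.1, m.2⟩ : EisQ (ZMod D)) * y := by
    refine ⟨?_, ?_, ?_⟩ <;> refine QuadraticAlgebra.ext ?_ ?_ <;>
      simp [quadRes, X, Y, C, L, x', y', c', eisLift, Eis3.mul, huv']
  obtain ⟨hX, hY, hC⟩ := hXY
  have hmul : ∀ a b : Eis3, quadRes D (Eis3.mul a b) = quadRes D a * quadRes D b := fun a b => by
    refine QuadraticAlgebra.ext ?_ ?_ <;> simp [quadRes, Eis3.mul] <;> ring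
  have hadd : ∀ a b : Eis3, quadRes D (a + b) = quadRes D a + quadRes D b := fun a b => by
    refine QuadraticAlgebra.ext ?_ ?_ <;> simp [quadRes]
  have hsub : ∀ a b : Eis3, quadRes D (a - b) = quadRes D a - quadRes D b := fun a b => by
    refine QuadraticAlgebra.ext ?_ ?_ <;> simp [quadRes]
  have hone : quadRes D (1, 0) = 1 := by
    refine QuadraticAlgebra.ext ?_ ?_ <;>
      simp [quadRes, QuadraticAlgebra.re_one, QuadraticAlgebra.im_one]
  have hs0 : quadRes D s = 0 := by rw [hs, hsub, hmul, hX, hY, hxy, hone, sub_self]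
  refine ⟨?_, ?_, ?_, ?_, ?_⟩
  · have hXk : ∃ a, X = (1, 0) + Eis3.mul ((k : ℤ), 0) a :=
      ⟨Eis3.mul (u, 0) x' - (u, 0), by
        refine Prod.ext ?_ ?_ <;> simp [X, L, Eis3.mul] <;>
          first | ring1 | linear_combination huv⟩
    have hYk : ∃ b, Y = (1, 0) + Eis3.mul ((k : ℤ), 0) b :=
      ⟨Eis3.mul (u, 0) y' - (u, 0), by
        refine Prod.ext ?_ ?_ <;> simp [Y, L, Eis3.mul] <;>
          first | ring1 | linear_combination huv⟩
    obtain ⟨a, ha⟩ := hXk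
    obtain ⟨b, hb⟩ := hYk
    refine ⟨Eis3.mul (Eis3.mul (u, 0) c') (Eis3.mul X ((1, 0) + s)) -
      (a + b + Eis3.mul ((k : ℤ), 0) (Eis3.mul a b)), ?_⟩
    simp only [he, Matrix.cons_val_zero, Matrix.cons_val_one, Matrix.cons_val_fin_one, C]
    generalize Eis3.mul X ((1, 0) + s) = z
    simp only [hs, ha, hb, Eis3.mul]
    refine Prod.ext ?_ ?_ <;> simp <;> ring
  · have h0 : (s.1 : ZMod D) = 0 ∧ (s.2 : ZMod D) = 0 :=
      ⟨congrArg QuadraticAlgebra.re hs0, congrArg QuadraticAlgebra.im hs0⟩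
    obtain ⟨⟨a, ha⟩, ⟨b, hb⟩⟩ := And.intro ((ZMod.intCast_zmod_eq_zero_iff_dvd _ D).mp h0.1)
      ((ZMod.intCast_zmod_eq_zero_iff_dvd _ D).mp h0.2)
    exact ⟨(-a, -b), by simp [he, Eis3.mul, Prod.ext_iff, ha, hb]⟩
  · simp only [he, Matrix.cons_val_zero, hmul, hadd, hone, hX, hs0, add_zero, mul_one]
  · simp only [he, Matrix.cons_val_one, Matrix.cons_val_fin_one, hmul, hsub, hY, hs0, mul_zero,
      sub_zero]
  · have h1 : quadRes D (e 1 0) = ⟨m.1, m.2⟩ := by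
      simp only [he, Matrix.cons_val_zero, Matrix.cons_val_one, Matrix.cons_val_fin_one, hmul, hadd,
        hone, hX, hC, hs0, add_zero, mul_one]
      rw [mul_assoc, mul_comm y, hxy, mul_one]
    have h2 : eisRes D (e 1 0) = m :=
      Prod.ext (congrArg QuadraticAlgebra.re h1) (congrArg QuadraticAlgebra.im h1)
    rw [h2, hm, sqrtPt_dualPt h3]

end Phase

/-! ### The lifts -/

section Lift

variable {ρ : Γℚ →* GL (Fin 2) (ZMod 3)} {n₀ : ℕ} [NeZero n₀] {d : BianchiDatum ρ n₀}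
  (t : TameTwist d) {e : ℕ} (he : n₀ = 3 ^ e * t.D ^ 2)

theorem im_div_three_mul_pos (D : ℕ) [NeZero D] (τ : ℍ') :
    0 < ((τ : ℂ) / (3 * (D : ℂ))).im := by
  rw [show (3 * (D : ℂ)) = ((3 * D : ℕ) : ℂ) by push_cast; rfl, Complex.div_natCast_im]
  have := NeZero.pos D
  exact div_pos τ.im_pos (by positivity)

include he in
theorem isPhase_tame (Φ : FormRes t.D → ℂ) :
    IsPhase (liftLevel n₀) (tamePhase (3 ^ e) Φ) :=
  isPhase_tamePhase ((Nat.mul_dvd_mul_left 3 ⟨t.D ^ 2, he⟩).trans ⟨3 * (3 * n₀), by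
      show 3 * (3 * n₀) ^ 2 = _
      ring⟩)
    (t.D_dvd.trans (dvd_liftLevel n₀)) Φ

/-- The lift of a function of residues. -/
def tameLift : (FormRes t.D → ℂ) →ₗ[ℂ] (ℍ' → ℂ) where
  toFun Φ τ := lift (liftLevel n₀) (tameG t) (tamePhase (3 ^ e) Φ) ((τ : ℂ) / (3 * (t.D : ℂ)))
  map_add' Φ Ψ := funext fun τ => by
    rw [tamePhase_add, lift_add (isCuspFun_tameG t) (isPhase_tame t he Φ) (isPhase_tame t he Ψ)
      (im_div_three_mul_pos t.D τ)]
    rfl
  map_smul' c Φ := funext fun τ => by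
    rw [tamePhase_smul, lift_smul]
    rfl

theorem tameLift_apply (Φ : FormRes t.D → ℂ) (τ : ℍ') : tameLift t he Φ τ =
    lift (liftLevel n₀) (tameG t) (tamePhase (3 ^ e) Φ) ((τ : ℂ) / (3 * (t.D : ℂ))) := rfl

/-- The tame lift as an integral of a kernel with periodic coefficients. -/
theorem tameLift_eq_rowPer (Φ : FormRes t.D → ℂ) (τ : ℍ') :
    tameLift t he Φ τ = ((Real.sqrt 3 : ℝ) : ℂ)⁻¹ *
      ∫ p, rowPer (3 ^ e) (toRow Φ) τ (gK • p) * tameG t p ∂measK (liftLevel n₀) := by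
  rw [tameLift_apply, lift, tamePhase_eq_rowPhase,
    show (τ : ℂ) / (3 * (t.D : ℂ)) = (τ : ℂ) / t.D / 3 by rw [div_div, mul_comm],
    Complex.div_ofNat_im, Real.sqrt_div' _ (by norm_num), Complex.ofReal_div,
    div_mul_eq_mul_div, ← integral_const_mul, div_eq_inv_mul]
  congr 1
  refine integral_congr_ae (Filter.Eventually.of_forall fun p => ?_)
  simp only
  rw [← mul_assoc, thetaSum_rowPhase t.isUnit_three _ _ τ.im_pos p]

/-- The transformation law. -/
theorem tameLift_slash (γ : Gamma0 (3 * 3 ^ e)) (Φ : FormRes t.D → ℂ) :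
    tameLift t he Φ ∣[(1 : ℤ)] (γ : SL(2, ℤ)) = chiC ((γ : SL(2, ℤ)) 1 1) •
      tameLift t he (fullOp t.isUnit_three γ Φ) := by
  funext τ
  have hj := jFac_ne_zero (γ : SL(2, ℤ)) τ
  rw [ModularForm.SL_slash_apply, Pi.smul_apply, smul_eq_mul, ModularGroup.denom_apply,
    tameLift_eq_rowPer, tameLift_eq_rowPer]
  simp only [fullOp, LinearMap.comp_apply, toRow_fromRow, rowPer_smul t.isUnit_three, mul_assoc,
    integral_const_mul]
  simp only [jFac] at hj ⊢
  rw [_root_.zpow_neg, zpow_one]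
  field_simp

/-- The character on residues. -/
def chiRes (x : EisQ (ZMod t.D)) : ℂ := t.chi (eisLift ((x.re, x.im) : EisRes t.D))

omit [NeZero n₀] in
theorem chi_eq_chiRes (x : Eis3) : t.chi x = chiRes t (quadRes t.D x) := by
  refine t.chi_congr ?_
  have h := eisRes_eisLift (eisRes t.D x)
  obtain ⟨h1, h2⟩ := And.intro (congrArg Prod.fst h) (congrArg Prod.snd h)
  simp only [eisRes] at h1 h2
  obtain ⟨⟨a, ha⟩, ⟨b, hb⟩⟩ := And.intro ((ZMod.intCast_eq_intCast_iff_dvd_sub _ _ _).mp h1)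
    ((ZMod.intCast_eq_intCast_iff_dvd_sub _ _ _).mp h2)
  exact ⟨(a, b), by simp [Eis3.mul, Prod.ext_iff, quadRes, ← ha, ← hb]⟩

omit [NeZero n₀] in
theorem chiRes_one : chiRes t 1 = 1 := by
  rw [← t.chi_one, chi_eq_chiRes t (1, 0)]
  refine congrArg (chiRes t) (QuadraticAlgebra.ext ?_ ?_) <;>
    simp [quadRes, QuadraticAlgebra.re_one, QuadraticAlgebra.im_one]

omit [NeZero n₀] in
theorem chiRes_mul (x y : EisQ (ZMod t.D)) : chiRes t (x * y) = chiRes t x * chiRes t y := by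
  rw [chiRes, chiRes, chiRes, ← t.chi_mul, chi_eq_chiRes t (Eis3.mul _ _)]
  show chiRes t (x * y) = _
  refine congrArg (chiRes t) (QuadraticAlgebra.ext ?_ ?_) <;>
    simp [quadRes, Eis3.mul, eisLift] <;> ring

omit [NeZero n₀] in
theorem norm_chiRes {x y : EisQ (ZMod t.D)} (h : x * y = 1) : ‖chiRes t x‖ = 1 := by
  have h0 : chiRes t x ≠ 0 := fun h0 => by
    have := chiRes_one t
    rw [← h, chiRes_mul, h0, zero_mul] at this
    exact zero_ne_one this
  obtain ⟨k, hk⟩ := t.chi_root _ h0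
  exact Complex.norm_eq_one_of_pow_eq_one hk (pow_ne_zero k three_ne_zero)

/-- The lifts are eigenfunctions of the lower triangular substitutions. -/
theorem tameLift_comp_lowAct {x r y : EisQ (ZMod t.D)} (hxy : x * y = 1)
    (Φ : FormRes t.D → ℂ) : tameLift t he (Φ ∘ lowAct x r y) =
      (conj (chiRes t x) * chiRes t y) • tameLift t he Φ := by
  have hcop : Nat.Coprime (3 ^ e) t.D :=
    Nat.Coprime.pow_left e ((Nat.Prime.coprime_iff_not_dvd Nat.prime_three).mpr t.not_three)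
  obtain ⟨g, hk, h01, hx, hy, hr⟩ := exists_lowMat hcop t.isUnit_three x r y hxy
  have hphase : ∀ i, tamePhase (3 ^ e) Φ (g • i) = tamePhase (3 ^ e) (Φ ∘ lowAct x r y) i := by
    intro i
    rw [tamePhase, tamePhase, liftPhase_smul g ⟨g.2, hk⟩, Function.comp_apply,
      resPt_smul t.isUnit_three g h01, hx, hy, hr, neg_neg, neg_neg]
  funext τ
  have hτ := im_div_three_mul_pos t.D τ
  have key := lift_translate (isCuspFun_tameG t) (isPhase_tame t he (Φ ∘ lowAct x r y)) g hτ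
  simp only [← hphase, smul_inv_smul, tameG_smul t he g hk h01,
    chi_eq_chiRes t (entry _ _ _), hx, hy] at key
  have e1 : ∀ (c : ℂ) (φ : HermIdx → ℂ) (σ : ℂ),
      lift (liftLevel n₀) (fun p => c * tameG t p) φ σ =
        c * lift (liftLevel n₀) (tameG t) φ σ := fun c φ σ => by
    simp only [lift, mul_left_comm _ c, integral_const_mul]
  rw [e1] at key
  have hn := norm_chiRes t hxy
  have hn' := norm_chiRes t (show y * x = 1 by rwa [mul_comm])
  have hu : ∀ z : ℂ, ‖z‖ = 1 → z * conj z = 1 := fun z hz => by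
    rw [Complex.mul_conj, Complex.normSq_eq_norm_sq, hz]; norm_num
  rw [Pi.smul_apply, smul_eq_mul, tameLift_apply, tameLift_apply]
  linear_combination (conj (chiRes t x) * chiRes t y) * key -
    (lift (liftLevel n₀) (tameG t) (tamePhase (3 ^ e) (Φ ∘ lowAct x r y))
      ((τ : ℂ) / (3 * (t.D : ℂ)))) * ((hu _ hn') + (chiRes t y * conj (chiRes t y)) * (hu _ hn))

/-- The phase of the datum. -/
def baseRes (D : ℕ) [NeZero D] (b : Eis3) (z : FormRes D) : ℂ :=
  if 3 * z.1 + trForm (sqrtPt z.2.1) (eisRes D b) = 0 ∧ z.2.2 = 0 then 1 else 0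

theorem unipHom_mem_integralK (b : Eis3) : unipHom ℂ b.toC ∈ integralK :=
  ⟨⟨![![(1, 0), b], ![(0, 0), (1, 0)]], fun i j => by
      fin_cases i <;> fin_cases j <;> simp [coe_unipHom, Eis3.toC_one, Eis3.toC_zero]⟩,
    by simp [coe_unipHom, Matrix.det_fin_two_of]⟩

omit [NeZero n₀] in
include he in
theorem scalePhase_liftPhase (i : HermIdx) :
    scalePhase t.D (liftPhase (3 * n₀)) i = tamePhase (3 ^ e) (baseRes t.D (0, 0)) i := by
  have h3 := t.isUnit_three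
  have hu : IsUnit ((3 : ZMod t.D)⁻¹) :=
    IsUnit.of_mul_eq_one _ (ZMod.inv_mul_of_unit _ h3)
  have hc : IsCoprime (3 : ℤ) (t.D : ℤ) := by
    have := Int.isCoprime_iff_nat_coprime.mpr (show Nat.Coprime ((3 : ℤ).natAbs) (t.D : ℤ).natAbs by
      simpa using (Nat.Prime.coprime_iff_not_dvd Nat.prime_three).mpr t.not_three)
    exact this
  have hD : (t.D : ℤ) ≠ 0 := Int.natCast_ne_zero.mpr (NeZero.ne t.D)
  have hR : tamePhase (3 ^ e) (baseRes t.D (0, 0)) i = if ((3 : ℤ) ∣ i.1 ∧ (t.D : ℤ) ∣ i.1) ∧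
      (3 : ℤ) ∣ i.2.1.1 + i.2.1.2 ∧ (((3 * 3 ^ e : ℕ) : ℤ) ∣ i.2.2 ∧ (t.D : ℤ) ∣ i.2.2)
      then 1 else 0 := by
    rw [tamePhase, baseRes, liftPhase, ← ite_and_mul]
    refine if_congr ?_ rfl rfl
    have hz : trForm (sqrtPt (resPt t.D i).2.1) (eisRes t.D (0, 0)) = 0 := by
      simp [trForm, eisRes]
    rw [hz, add_zero, h3.mul_right_eq_zero]
    simp only [resPt, hu.mul_right_eq_zero, ZMod.intCast_zmod_eq_zero_iff_dvd]
    tauto
  rw [hR, scalePhase]
  have hn : ((3 * n₀ : ℕ) : ℤ) = ((3 * 3 ^ e : ℕ) : ℤ) * (t.D : ℤ) * (t.D : ℤ) := by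
    rw [show (3 * n₀ : ℕ) = 3 * (3 ^ e * t.D ^ 2) from congrArg (3 * ·) he]
    push_cast
    ring
  have hk : IsCoprime (((3 * 3 ^ e : ℕ) : ℤ)) (t.D : ℤ) := by
    push_cast
    exact hc.mul_left (hc.pow_left)
  by_cases ha : (t.D : ℤ) ∣ i.1
  · rw [if_pos ha, liftPhase]
    obtain ⟨c, hc'⟩ := ha
    refine if_congr ?_ rfl rfl
    simp only [hc', Int.mul_ediv_cancel_left _ hD, dvd_mul_right, and_true, hn,
      mul_comm (t.D : ℤ) i.2.2, mul_dvd_mul_iff_right hD]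
    refine and_congr ⟨fun h => h.mul_left _, hc.dvd_of_dvd_mul_left⟩ (and_congr Iff.rfl
      ⟨fun h => ⟨(dvd_mul_right _ _).trans h, (dvd_mul_left _ _).trans h⟩,
        fun h => hk.mul_dvd h.1 h.2⟩)
  · rw [if_neg ha, if_neg fun h => ha h.1.2]
where
  ite_and_mul {P Q : Prop} [Decidable P] [Decidable Q] [Decidable (P ∧ Q)] :
      (if P ∧ Q then (1 : ℂ) else 0) = (if P then 1 else 0) * (if Q then 1 else 0) := by
    by_cases hP : P <;> by_cases hQ : Q <;> simp [hP, hQ]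

omit [NeZero n₀] in
theorem tamePhase_baseRes_eq (b : Eis3) (i : HermIdx) :
    tamePhase (3 ^ e) (baseRes t.D (0, 0))
        ((⟨unipHom ℂ b.toC, unipHom_mem_integralK b⟩ : integralK)⁻¹ • i) =
      tamePhase (3 ^ e) (baseRes t.D b) i := by
  set g : integralK := (⟨unipHom ℂ b.toC, unipHom_mem_integralK b⟩ : integralK)⁻¹
  set e' : Fin 2 → Fin 2 → Eis3 := ![![(1, 0), -b], ![(0, 0), (1, 0)]] with he'
  have hg : ∀ k l, ((g : GL (Fin 2) ℂ) : Matrix (Fin 2) (Fin 2) ℂ) k l = (e' k l).toC :=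
      fun k l => by
    show (!![1, -b.toC; 0, 1] : Matrix (Fin 2) (Fin 2) ℂ) k l = _
    fin_cases k <;> fin_cases l <;> simp [he', Eis3.toC_one, Eis3.toC_zero, Eis3.toC_neg]
  have hgam : (g : GL (Fin 2) ℂ) ∈ gammaZeroK (3 ^ e) :=
    mem_gammaZeroK e' hg g.2.2 ⟨(0, 0), by simp [he', Eis3.mul]⟩
  rw [tamePhase, tamePhase, liftPhase_smul g hgam]
  congr 1
  show baseRes t.D (0, 0) (resPt t.D (HermIdx.actFormula (entry (g : GL (Fin 2) ℂ)) i)) = _
  rw [show entry (g : GL (Fin 2) ℂ) = e' from funext fun k => funext fun l => entry_eq (hg k l)]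
  have ht := ZMod.inv_mul_of_unit (3 : ZMod t.D) t.isUnit_three
  obtain ⟨a, ⟨r1, r2⟩, δ⟩ := i
  simp only [baseRes]
  refine if_congr ?_ rfl rfl
  simp only [resPt, he', HermIdx.actFormula, eisRes, sqrtPt, dualPt, trForm, HermIdx.tr, Eis3.mul,
    Eis3.bar, Eis3.norm_cast_eq, Matrix.cons_val_zero, Matrix.cons_val_one,
    Matrix.cons_val_fin_one, Prod.fst_neg, Prod.snd_neg, Prod.fst_add, Prod.snd_add]
  push_cast
  generalize (3 : ZMod t.D)⁻¹ = s at ht ⊢
  constructor <;> rintro ⟨h1, h2⟩ <;> refine ⟨?_, ?_⟩ <;> grind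

/-- The lift of the phase of the datum is the lift of the datum. -/
theorem exists_tameLift_base : ∃ ψ : FormRes t.D → ℂ, ∀ τ : ℍ', tameLift t he ψ τ =
    lift (liftLevel n₀) d.F (liftPhase (3 * n₀)) ((τ : ℂ) / (3 * (t.D : ℂ))) := by
  obtain ⟨s, w, hrel⟩ := datum_scale_eq t
  refine ⟨∑ b ∈ s, w b • baseRes t.D b, fun τ => ?_⟩
  have hτ := im_div_three_mul_pos t.D τ
  set G := tameG t
  set σ := (τ : ℂ) / (3 * (t.D : ℂ))
  have hC : ∀ b : Eis3, IsCuspFun (liftLevel n₀) fun p => G (unipHom ℂ b.toC • p) := fun b =>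
    (isCuspFun_tameG t).comp_integralK ⟨_, unipHom_mem_integralK b⟩
  rw [map_sum, Finset.sum_apply, lift_scale d t.D_dvd hτ,
    show scalePhase t.D (liftPhase (3 * n₀)) = tamePhase (3 ^ e) (baseRes t.D (0, 0)) from
      funext (scalePhase_liftPhase t he), lift]
  obtain ⟨B, -, hB⟩ := (isPhase_tame t he (baseRes t.D (0, 0))).bound
  simp only [hrel, Finset.mul_sum]
  rw [integral_finsetSum _ fun b _ => ((hasSum_integral_liftTerm (hC b) hB hτ).2.const_mul
    (w b)).congr (Filter.Eventually.of_forall fun p => by simp only [G]; ring), Finset.mul_sum]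
  refine Finset.sum_congr rfl fun b _ => ?_
  rw [map_smul, Pi.smul_apply, smul_eq_mul, tameLift_apply]
  simp only [mul_left_comm _ (w b), integral_const_mul]
  congr 1
  show _ = lift (liftLevel n₀) (fun p => G (unipHom ℂ b.toC • p))
    (tamePhase (3 ^ e) (baseRes t.D (0, 0))) σ
  rw [show (fun p => G (unipHom ℂ b.toC • p)) =
    fun p => G (((⟨_, unipHom_mem_integralK b⟩ : integralK) : GL (Fin 2) ℂ) • p) from rfl,
    lift_translate (isCuspFun_tameG t) (isPhase_tame t he _) _ hτ,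
    funext (tamePhase_baseRes_eq t b)]

end Lift

end Fermat.Agent.ResidualThree
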