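import Fermat.Agent.ResidualThree.ThetaLift.Correspond
import Fermat.Agent.ResidualThree.ThetaLift.TameLaw

/-!
# Theta kernels with periodic coefficients, as sums over rows

For `Ψ : (ℤ/D)² → (ℤ[ω]/D → ℂ)` the kernel `rowPer Ψ` transforms under `Γ₀(3k)` by the linear
action on the row tensored with the Weil representation, and equals a theta sum of lattice forms
with the phase `rowPhase Ψ`.
-/

noncomputable section

open Matrix CongruenceSubgroup
open scoped ComplexConjugate MatrixGroups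

namespace Fermat.Agent.ResidualThree

open Eis (eChar)

/-- The coefficient space. -/
abbrev RowCoef (D : ℕ) : Type := ZMod D × ZMod D → EisRes D → ℂ

variable {D : ℕ} [NeZero D]

open Classical in
/-- The kernel. -/
def rowPer (k : ℕ) (Ψ : RowCoef D) (τ : ℂ) (p : H3) : ℂ :=
  (p.y : ℂ) * ∑' mk : ℤ × ℤ, (if ((3 * k : ℕ) : ℤ) ∣ mk.2 then (1 : ℂ) else 0) *
    (((rowGauss (τ / D) p.y ((mk.1 : ℝ) / D) (mk.2 : ℝ) : ℝ) : ℂ) *
      thetaPer (Ψ ((mk.1 : ZMod D), (mk.2 : ZMod D))) τ (-((mk.2 : ℂ) * p.z) / D)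
        (-((mk.1 : ℂ) * p.z) / D))

theorem three_dvd_three_mul (k : ℕ) : 3 ∣ 3 * k := Dvd.intro k rfl

/-- An element of `Γ₀(3k)` in `Γ₀(3)`. -/
def toGammaThree {k : ℕ} (γ : Gamma0 (3 * k)) : Gamma0 3 :=
  ⟨(γ : SL(2, ℤ)), Eis.mem_Gamma0_iff_dvd.mpr ((Int.natCast_dvd_natCast.mpr
    (three_dvd_three_mul k)).trans (Eis.mem_Gamma0_iff_dvd.mp γ.2))⟩

theorem toGammaThree_mul {k : ℕ} (γ δ : Gamma0 (3 * k)) :
    toGammaThree (γ * δ) = toGammaThree γ * toGammaThree δ := rfl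

/-- The transform of a coefficient function under `γ`. -/
def rowAct (h3 : IsUnit (3 : ZMod D)) {k : ℕ} (γ : Gamma0 (3 * k)) :
    RowCoef D →ₗ[ℂ] RowCoef D where
  toFun Ψ md := perOp h3 (toGammaThree γ)
    (Ψ (((γ : SL(2, ℤ)) 0 0 : ZMod D) * md.1 - ((γ : SL(2, ℤ)) 0 1 : ZMod D) * md.2,
      -((γ : SL(2, ℤ)) 1 0 : ZMod D) * md.1 + ((γ : SL(2, ℤ)) 1 1 : ZMod D) * md.2))
  map_add' Ψ Φ := by funext md; simp
  map_smul' c Ψ := by funext md; simp

/-- The action on coefficients is an anti-homomorphism. -/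
theorem rowAct_mul (h3 : IsUnit (3 : ZMod D)) {k : ℕ} (γ δ : Gamma0 (3 * k)) :
    rowAct h3 (γ * δ) = (rowAct h3 δ).comp (rowAct h3 γ) := by
  refine LinearMap.ext fun Ψ => funext fun md => ?_
  show perOp h3 (toGammaThree (γ * δ)) _ = perOp h3 (toGammaThree δ) (perOp h3 (toGammaThree γ) _)
  rw [toGammaThree_mul, perOp_mul, LinearMap.comp_apply]
  congr 3
  simp only [Subgroup.coe_mul, Matrix.SpecialLinearGroup.coe_mul, Matrix.mul_apply,
    Fin.sum_univ_two]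
  refine Prod.ext ?_ ?_ <;> push_cast <;> ring

/-- The linear substitution on rows. -/
def rowEquiv (γ : SL(2, ℤ)) : ℤ × ℤ ≃ ℤ × ℤ where
  toFun md := (γ 0 0 * md.1 - γ 0 1 * md.2, -γ 1 0 * md.1 + γ 1 1 * md.2)
  invFun md := (γ 1 1 * md.1 + γ 0 1 * md.2, γ 1 0 * md.1 + γ 0 0 * md.2)
  left_inv md := by
    have h := γ.det_coe
    rw [Matrix.det_fin_two] at h
    refine Prod.ext ?_ ?_ <;> simp only
    · linear_combination md.1 * h
    · linear_combination md.2 * h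
  right_inv md := by
    have h := γ.det_coe
    rw [Matrix.det_fin_two] at h
    refine Prod.ext ?_ ?_ <;> simp only
    · linear_combination md.1 * h
    · linear_combination md.2 * h

/-- The transformation law of the kernel. -/
theorem rowPer_smul (h3 : IsUnit (3 : ZMod D)) {k : ℕ} (γ : Gamma0 (3 * k)) (Ψ : RowCoef D)
    (τ : UpperHalfPlane) (p : H3) :
    rowPer k Ψ (((γ : SL(2, ℤ)) • τ : UpperHalfPlane) : ℂ) p =
      chiC ((γ : SL(2, ℤ)) 1 1) * jFac γ τ * rowPer k (rowAct h3 γ Ψ) τ p := by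
  classical
  set g : SL(2, ℤ) := (γ : SL(2, ℤ)) with hg
  rw [rowPer, rowPer, ← (rowEquiv g).tsum_eq, mul_left_comm _ (p.y : ℂ)]
  congr 1
  rw [← tsum_mul_left]
  refine tsum_congr fun md => ?_
  have hlaw' : HasPerLaw g (perOp h3 (toGammaThree γ)) := hasPerLaw_perOp h3 (toGammaThree γ)
  simp only [HasPerLaw] at hlaw'
  have hdet : (g 0 0 : ℂ) * (g 1 1 : ℂ) - (g 0 1 : ℂ) * (g 1 0 : ℂ) = 1 := by
    exact_mod_cast (Matrix.det_fin_two (g : Matrix (Fin 2) (Fin 2) ℤ)).symm.trans g.det_coe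
  obtain ⟨c, hc⟩ := Eis.mem_Gamma0_iff_dvd.mp γ.2
  have hmd : (((3 * k : ℕ) : ℤ) ∣ -g 1 0 * md.1 + g 1 1 * md.2) ↔ ((3 * k : ℕ) : ℤ) ∣ md.2 := by
    have hd := g.det_coe
    rw [Matrix.det_fin_two] at hd
    rw [← hg] at hc
    refine ⟨fun ⟨e, he⟩ => ⟨g 0 0 * e + g 0 0 * c * md.1 - g 0 1 * c * md.2, ?_⟩,
      fun ⟨e, he⟩ => ⟨-c * md.1 + g 1 1 * e, ?_⟩⟩
    · linear_combination (-md.2) * hd + g 0 0 * he +
        (g 0 0 * md.1 - g 0 1 * md.2) * hc
    · rw [he, hc]; ring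
  simp only [rowEquiv, Equiv.coe_fn_mk, hmd]
  rw [hlaw']
  simp only [← hg, rowAct, LinearMap.coe_mk, AddHom.coe_mk]
  push_cast
  have hx : (g 0 0 : ℂ) * (-((-(g 1 0 : ℂ) * md.1 + (g 1 1 : ℂ) * md.2) * p.z) / (D : ℂ)) +
      (g 1 0 : ℂ) * (-(((g 0 0 : ℂ) * md.1 - (g 0 1 : ℂ) * md.2) * p.z) / (D : ℂ)) =
      -((md.2 : ℂ) * p.z) / (D : ℂ) := by
    linear_combination (-((md.2 : ℂ) * p.z) / (D : ℂ)) * hdet
  have hy : (g 0 1 : ℂ) * (-((-(g 1 0 : ℂ) * md.1 + (g 1 1 : ℂ) * md.2) * p.z) / (D : ℂ)) +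
      (g 1 1 : ℂ) * (-(((g 0 0 : ℂ) * md.1 - (g 0 1 : ℂ) * md.2) * p.z) / (D : ℂ)) =
      -((md.1 : ℂ) * p.z) / (D : ℂ) := by
    linear_combination (-((md.1 : ℂ) * p.z) / (D : ℂ)) * hdet
  rw [hx, hy]
  have hgauss : rowGauss (((g • τ : UpperHalfPlane) : ℂ) / D) p.y
      (((g 0 0 : ℝ) * md.1 - (g 0 1 : ℝ) * md.2) / D) (-(g 1 0 : ℝ) * md.1 + (g 1 1 : ℝ) * md.2) =
      rowGauss ((τ : ℂ) / D) p.y ((md.1 : ℝ) / D) (md.2 : ℝ) := by
    rw [rowGauss, rowGauss]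
    congr 1
    rw [Complex.div_natCast_im, Complex.div_natCast_im, UpperHalfPlane.coe_im,
      ModularGroup.im_smul_eq_div_normSq, ModularGroup.denom_apply]
    have hj := jFac_ne_zero g τ
    rw [show (((((g 0 0 : ℝ) * md.1 - (g 0 1 : ℝ) * md.2) / D : ℝ)) : ℂ) +
        ((g • τ : UpperHalfPlane) : ℂ) / D * ((-(g 1 0 : ℝ) * md.1 + (g 1 1 : ℝ) * md.2 : ℝ) : ℂ) =
        (((md.1 : ℝ) / D : ℝ) + (τ : ℂ) / D * ((md.2 : ℝ) : ℂ)) / jFac g τ by
      rw [coe_smul_eq]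
      have hD : (D : ℂ) ≠ 0 := Nat.cast_ne_zero.mpr (NeZero.ne D)
      generalize hJ : jFac g τ = J at hj ⊢
      push_cast
      field_simp
      simp only [jFac] at hJ
      linear_combination ((md.1 : ℂ) + (τ : ℂ) * md.2) * hdet -
        ((g 0 0 : ℂ) * md.1 - (g 0 1 : ℂ) * md.2) * hJ, map_div₀]
    have hn : Complex.normSq (jFac g τ) ≠ 0 := by simpa using hj
    have hv : (τ : UpperHalfPlane).im ≠ 0 := τ.im_pos.ne'
    have hDr : (D : ℝ) ≠ 0 := Nat.cast_ne_zero.mpr (NeZero.ne D)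
    simp only [UpperHalfPlane.coe_im, jFac] at hn ⊢
    generalize Complex.normSq ((g 1 0 : ℂ) * (τ : ℂ) + (g 1 1 : ℂ)) = E at hn ⊢
    field_simp
  rw [hgauss]
  simp only [jFac]
  ring

/-- The phase of a coefficient function. -/
def rowPhase (k : ℕ) (Ψ : RowCoef D) (i : HermIdx) : ℂ :=
  liftPhase (3 * k) i * ∑ M : ZMod D, Ψ (M, (i.2.2 : ZMod D)) (-dualPt (eisRes D i.2.1)) *
    ZMod.stdAddChar (-((3 : ZMod D)⁻¹ * (i.1 : ZMod D) * M))

/-- The characteristics of a row. -/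
def rowPar (M : ZMod D) (x : EisRes D) : ThetaPar :=
  ⟨0, 0, (M.val : ℝ) / D, 0, 0, (eisLift x).toC / D⟩

/-- Rows by residues of the first coordinate. -/
def rowSplit (D : ℕ) [NeZero D] : ZMod D × (ℤ × ℤ) ≃ ℤ × ℤ where
  toFun x := ((D : ℤ) * x.2.1 + (x.1.val : ℤ), x.2.2)
  invFun mk := ((mk.1 : ZMod D), ((mk.1 - ((mk.1 : ZMod D).val : ℤ)) / (D : ℤ), mk.2))
  left_inv := fun ⟨r, m, d⟩ => by
    have hD : (D : ℤ) ≠ 0 := Int.natCast_ne_zero.mpr (NeZero.ne D)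
    have hc : ∀ x : ℤ, (D : ℤ) * x / (D : ℤ) = x := fun x => Int.mul_ediv_cancel_left x hD
    simp [hc]
  right_inv := fun mk => by
    refine Prod.ext ?_ rfl
    show (D : ℤ) * ((mk.1 - ((mk.1 : ZMod D).val : ℤ)) / (D : ℤ)) +
      ((mk.1 : ZMod D).val : ℤ) = mk.1
    rw [Int.mul_ediv_cancel' ((ZMod.intCast_zmod_eq_zero_iff_dvd _ D).mp (by simp)), sub_add_cancel]

open Classical in
theorem rowPhase_jMap (h3 : IsUnit (3 : ZMod D)) (k : ℕ) (Ψ : RowCoef D) (n : HermIdx) :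
    rowPhase k Ψ (zeroIdx.jMap 1 n) =
      (if ((3 * k : ℕ) : ℤ) ∣ n.2.2 then (1 : ℂ) else 0) *
        ∑ M : ZMod D, Ψ (M, (n.2.2 : ZMod D)) (eisRes D n.2.1) *
          ZMod.stdAddChar (-((n.1 : ZMod D) * M)) := by
  have hj : zeroIdx.jMap 1 n =
      (3 * n.1, Eis3.mul (-1, -2) n.2.1, n.2.2) := by
    simp [ThetaIdx.jMap, Eis3.mul]
  rw [hj, rowPhase, liftPhase]
  congr 1
  · refine if_congr ⟨fun h => h.2.2, fun h => ⟨Dvd.intro n.1 rfl, ⟨n.2.1.2 - n.2.1.1, ?_⟩, h⟩⟩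
      rfl rfl
    simp [Eis3.mul]; ring
  · refine Finset.sum_congr rfl fun M _ => ?_
    have e : eisRes D (Eis3.mul (-1, -2) n.2.1) = -sqrtPt (eisRes D n.2.1) := by
      refine Prod.ext ?_ ?_ <;> simp [eisRes, sqrtPt, Eis3.mul] <;> ring
    have hneg : ∀ m : EisRes D, dualPt (-m) = -dualPt m := fun m => by
      refine Prod.ext ?_ ?_ <;> simp [dualPt] <;> ring
    rw [e, hneg, dualPt_sqrtPt h3, neg_neg, Int.cast_mul, Int.cast_ofNat, ← mul_assoc (_⁻¹),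
      ZMod.inv_mul_of_unit _ h3, one_mul]

theorem rowPhase_eq_zero_of_notMem (k : ℕ) (Ψ : RowCoef D) (i : HermIdx)
    (hi : i ∉ Set.range (zeroIdx.jMap 1)) :
    rowPhase k Ψ i = 0 := by
  rw [rowPhase, liftPhase, if_neg, zero_mul]
  rintro ⟨⟨u, hu⟩, ⟨s, hs⟩, -⟩
  refine hi ⟨(u, (s - i.2.1.2, 2 * s - i.2.1.2), i.2.2), ?_⟩
  refine Prod.ext ?_ (Prod.ext ?_ ?_)
  · simp [ThetaIdx.jMap, hu]
  · simp [ThetaIdx.jMap, Eis3.mul]
    ext <;> simp <;> linarith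
  · simp [ThetaIdx.jMap]

/-- The terms of the shifted kernel in lattice coordinates. -/
theorem shiftTerm_rowPar (M : ZMod D) (x : EisRes D) (σ : ℂ) (p : H3) (n : HermIdx) :
    shiftTerm (rowPar M x) σ (gK • p) n =
      (ZMod.stdAddChar (-((n.1 : ZMod D) * M)) *
        ZMod.stdAddChar (trForm (eisRes D n.2.1) x)) *
        (Complex.exp (2 * Real.pi * Complex.I * (σ / 3) *
            (HermIdx.q (zeroIdx.jMap 1 n) : ℂ)) *
          ((Real.exp (-(Real.pi * (σ / 3).im *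
            HermIdx.T (zeroIdx.jMap 1 n) p ^ 2)) : ℝ) : ℂ)) := by
  set I : ThetaIdx := zeroIdx with hI
  set q := gK • p with hq
  have hD : (D : ℂ) ≠ 0 := Nat.cast_ne_zero.mpr (NeZero.ne D)
  have hv : ∀ P : ThetaPar, P.a0 = 0 → P.δ0 = 0 → P.b0 = 0 →
      thetaShiftVec P n = thetaShiftVec (I.toPar 1) n := fun P e1 e2 e3 => by
    simp [thetaShiftVec, I, ThetaIdx.toPar, e1, e2, e3, Eis3.toC_zero]
  rw [shiftTerm, hv (rowPar M x) rfl rfl rfl, ← Complex.ofReal_intCast (HermIdx.q _),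
    ThetaIdx.q_jMap, ThetaIdx.T_jMap, ← hq, Complex.div_ofNat_im]
  set Q := thetaShiftVec (I.toPar 1) n with hQ
  rw [show Real.pi * (σ.im / 3) * (Real.sqrt 3 * ((1 : ℕ) : ℝ) * Q.T q) ^ 2 =
    Real.pi * σ.im * Q.T q ^ 2 by
      rw [mul_pow, mul_pow, Real.sq_sqrt (by norm_num)]; push_cast; field_simp]
  rw [show 2 * (Real.pi : ℂ) * Complex.I * (σ / 3) * ((3 * ((1 : ℕ) : ℝ) ^ 2 * Q.Q : ℝ) : ℂ) =
    2 * Real.pi * Complex.I * σ * (Q.Q : ℂ) by push_cast; ring, mul_assoc]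
  congr 1
  rw [← AddChar.map_add_eq_mul,
    show trForm (eisRes D n.2.1) x = trForm (eisRes D n.2.1) (eisRes D (eisLift x)) by
      rw [eisRes_eisLift], eisRes_trForm,
    show -((n.1 : ZMod D) * M) = ((-(n.1 * (M.val : ℤ)) : ℤ) : ZMod D) by simp,
    ← Int.cast_add, ZMod.stdAddChar_coe, Eis.eChar]
  congr 1
  have ht : ((HermIdx.tr (Eis3.mul n.2.1 (Eis3.bar (eisLift x))) : ℤ) : ℂ) =
      ((2 * (n.2.1.toC * conj (eisLift x).toC).re : ℝ) : ℂ) := by
    rw [← Eis3.toC_bar, ← Eis3.toC_mul, Eis3.trace_eq]; simp [HermIdx.tr]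
  push_cast [ht, hQ, thetaShiftVec, rowPar, hI, ThetaIdx.toPar]
  simp only [Eis3.toC_zero, zero_div, add_zero, mul_zero, sub_zero, Complex.div_natCast_re,
    map_div₀, Complex.conj_natCast, mul_div_assoc']
  push_cast
  field_simp
  ring

theorem summable_shiftTerm_rowPar (M : ZMod D) (x : EisRes D) {σ : ℂ} (hσ : 0 < σ.im) (p : H3)
    {w : ℤ → ℂ} (hw : ∀ d, ‖w d‖ ≤ 1) :
    Summable fun n : HermIdx => w n.2.2 * shiftTerm (rowPar M x) σ (gK • p) n := by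
  have h3' : 0 < (σ / 3).im := by rw [Complex.div_ofNat_im]; positivity
  have h := ((summable_liftTerm (φ := fun _ => (1 : ℂ)) (B := 1) (fun _ => by simp) h3' p).norm
    ).comp_injective (ThetaIdx.jMap_injective 1 zeroIdx)
  refine Summable.of_norm_bounded h fun n => ?_
  rw [norm_mul, shiftTerm_rowPar, norm_mul, norm_mul, AddChar.norm_apply, AddChar.norm_apply,
    one_mul, one_mul, Function.comp_apply, liftTerm, one_mul]
  exact mul_le_of_le_one_left (norm_nonneg _) (hw _)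

/-- The theta sum of the phase is the kernel. -/
theorem thetaSum_rowPhase (h3 : IsUnit (3 : ZMod D)) (k : ℕ) (Ψ : RowCoef D) {τ : ℂ}
    (hτ : 0 < τ.im) (p : H3) :
    ((Real.sqrt (τ / D).im : ℝ) : ℂ) * thetaSum (rowPhase k Ψ) (τ / D / 3) p =
      rowPer k Ψ τ (gK • p) := by
  classical
  set σ : ℂ := τ / D with hσdef
  have hσ : 0 < σ.im := im_div_natCast_pos hτ
  set q := gK • p with hq
  set I : ThetaIdx := zeroIdx with hI
  set c : ZMod D × ZMod D → EisRes D → ℂ := fun md => resFourier (Ψ md) with hc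
  set w : ZMod D → ℤ → ℂ := fun δ d =>
    if ((3 * k : ℕ) : ℤ) ∣ d ∧ (d : ZMod D) = δ then 1 else 0 with hw
  have hw1 : ∀ δ d, ‖w δ d‖ ≤ 1 := fun δ d => by simp only [hw]; split_ifs <;> simp
  have hD : (D : ℂ) ≠ 0 := Nat.cast_ne_zero.mpr (NeZero.ne D)
  have hre := Complex.re_eq_add_conj
  -- the lattice terms
  have hterm : ∀ n : HermIdx, liftTerm (rowPhase k Ψ) (σ / 3) p (I.jMap 1 n) =
      ∑ M : ZMod D, ∑ x : EisRes D, ∑ δ : ZMod D,
        c (M, δ) x * (w δ n.2.2 * shiftTerm (rowPar M x) σ q n) := by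
    intro n
    simp only [hq, shiftTerm_rowPar]
    rw [liftTerm, rowPhase_jMap h3, mul_assoc]
    generalize Complex.exp (2 * Real.pi * Complex.I * (σ / 3) * (HermIdx.q (I.jMap 1 n) : ℂ)) *
      ((Real.exp (-(Real.pi * (σ / 3).im * HermIdx.T (I.jMap 1 n) p ^ 2)) : ℝ) : ℂ) = E
    rw [Finset.mul_sum, Finset.sum_mul]
    refine Finset.sum_congr rfl fun M _ => ?_
    rw [← sum_resFourier h3 (Ψ (M, (n.2.2 : ZMod D))) (eisRes D n.2.1), Finset.sum_mul,
      Finset.mul_sum, Finset.sum_mul]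
    refine Finset.sum_congr rfl fun x _ => ?_
    rw [Finset.sum_eq_single (n.2.2 : ZMod D) (fun δ _ hδ => by simp [hw, Ne.symm hδ]) (by simp)]
    simp only [hw, hc, and_true]
    ring
  have hsum : thetaSum (rowPhase k Ψ) (σ / 3) p = ∑ M : ZMod D, ∑ x : EisRes D, ∑ δ : ZMod D,
      c (M, δ) x * ∑' n, w δ n.2.2 * shiftTerm (rowPar M x) σ q n := by
    have h0 : thetaSum (rowPhase k Ψ) (σ / 3) p =
        ∑' n, liftTerm (rowPhase k Ψ) (σ / 3) p (I.jMap 1 n) := by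
      rw [thetaSum]
      refine ((ThetaIdx.jMap_injective 1 I).tsum_eq fun i hi => ?_).symm
      by_contra h
      exact hi (by rw [liftTerm, rowPhase_eq_zero_of_notMem k Ψ i h, zero_mul, zero_mul])
    have hs : ∀ (M : ZMod D) (x : EisRes D) (δ : ZMod D),
        Summable fun n => c (M, δ) x * (w δ n.2.2 * shiftTerm (rowPar M x) σ q n) :=
      fun M x δ => (summable_shiftTerm_rowPar M x hσ p (hw1 δ)).mul_left _
    rw [h0, tsum_congr hterm, Summable.tsum_finsetSum fun M _ =>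
      summable_sum fun x _ => summable_sum fun δ _ => hs M x δ]
    refine Finset.sum_congr rfl fun M _ => ?_
    rw [Summable.tsum_finsetSum fun x _ => summable_sum fun δ _ => hs M x δ]
    refine Finset.sum_congr rfl fun x _ => ?_
    rw [Summable.tsum_finsetSum fun δ _ => hs M x δ]
    exact Finset.sum_congr rfl fun δ _ => tsum_mul_left
  rw [hsum]
  simp only [Finset.mul_sum, mul_left_comm ((Real.sqrt σ.im : ℝ) : ℂ),
    tsum_shiftTerm (rowPar _ _) hσ q (hw1 _)]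
  have he : ∀ (M : ZMod D) (x : EisRes D),
      eChar (((rowPar M x).b0 * conj (rowPar M x).ηb).re - (rowPar M x).a0 * (rowPar M x).η) = 1 :=
    fun M x => by simp [rowPar, Eis.eChar_zero]
  simp only [he, ← mul_assoc, mul_comm _ (q.y : ℂ)]
  simp only [mul_assoc, ← Finset.mul_sum]
  rw [rowPer]
  congr 1
  simp only [← tsum_mul_left]
  have hs2 : ∀ (M : ZMod D) (x : EisRes D) (δ : ZMod D), Summable fun mk : ℤ × ℤ =>
      c (M, δ) x * (w δ mk.2 * rowTerm (rowPar M x) σ q mk) := fun M x δ => by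
    have h : Summable fun mk : ℤ × ℤ => w δ mk.2 * rowTerm (rowPar M x) σ q mk :=
      Summable.of_norm_bounded (summable_rowTerm (rowPar M x) hσ q) fun mk => by
        rw [norm_mul]; exact mul_le_of_le_one_left (norm_nonneg _) (hw1 δ mk.2)
    exact h.mul_left (c (M, δ) x)
  set U : ℤ × ℤ → ℂ := fun mk => (if ((3 * k : ℕ) : ℤ) ∣ mk.2 then (1 : ℂ) else 0) *
    (((rowGauss σ q.y ((mk.1 : ℝ) / D) (mk.2 : ℝ) : ℝ) : ℂ) *
      thetaPer (Ψ ((mk.1 : ZMod D), (mk.2 : ZMod D))) τ (-((mk.2 : ℂ) * q.z) / D)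
        (-((mk.1 : ℂ) * q.z) / D)) with hU
  have hrow : ∀ (M : ZMod D) (mk : ℤ × ℤ), ∑ x : EisRes D, ∑ δ : ZMod D,
      c (M, δ) x * (w δ mk.2 * rowTerm (rowPar M x) σ q mk) = U (rowSplit D (M, mk)) := by
    intro M mk
    have hcast : (((D : ℤ) * mk.1 + (M.val : ℤ) : ℤ) : ZMod D) = M := by simp
    simp only [hU, rowSplit, Equiv.coe_fn_mk, hcast]
    rw [thetaPer_eq_sum h3 _ hτ, Finset.mul_sum, Finset.mul_sum]
    refine Finset.sum_congr rfl fun x _ => ?_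
    rw [Finset.sum_eq_single (mk.2 : ZMod D) (fun δ _ hδ => by simp [hw, Ne.symm hδ]) (by simp)]
    simp only [hw, hc, and_true, rowTerm, rowPar, ← hσdef]
    have hDr : (D : ℝ) ≠ 0 := Nat.cast_ne_zero.mpr (NeZero.ne D)
    rw [show ((((D : ℤ) * mk.1 + (M.val : ℤ) : ℤ) : ℝ) / D) = (mk.1 : ℝ) + (M.val : ℝ) / D by
      push_cast; field_simp]
    rw [show (D : ℂ) * (-((mk.2 : ℂ) * q.z) / D) = -((mk.2 : ℂ) * q.z) by field_simp]
    rw [show -((((D : ℤ) * mk.1 + (M.val : ℤ) : ℤ) : ℂ) * q.z) / D + (eisLift x).toC / D =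
      (eisLift x).toC / D - (((mk.1 : ℝ) + (M.val : ℝ) / D : ℝ) : ℂ) * q.z by
        push_cast; field_simp; ring]
    simp only [add_zero, zero_mul, sub_zero, Eis.eChar_zero, one_mul, mul_zero, zero_sub,
      Complex.ofReal_intCast]
    rw [show eChar (conj q.z * ((mk.2 : ℂ) * ((eisLift x).toC / D))).re =
      Complex.exp (-(2 * Real.pi * Complex.I *
        (((-((mk.2 : ℂ) * q.z) / D * conj (eisLift x).toC).re : ℝ) : ℂ))) by
      rw [Eis.eChar]
      congr 1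
      push_cast [hre]
      simp only [map_mul, map_div₀, map_neg, Complex.conj_conj, Complex.conj_natCast, map_intCast]
      ring]
    ring
  have hsU : Summable fun x : ZMod D × (ℤ × ℤ) => U (rowSplit D x) := by
    refine summable_of_fintype_prod fun M => ?_
    simp only [← hrow]
    exact summable_sum fun x _ => summable_sum fun δ _ => hs2 M x δ
  rw [← (rowSplit D).tsum_eq U, hsU.tsum_prod, tsum_fintype]
  refine Finset.sum_congr rfl fun M _ => ?_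
  simp only [← hrow]
  rw [Summable.tsum_finsetSum fun x _ => summable_sum fun δ _ => hs2 M x δ]
  refine Finset.sum_congr rfl fun x _ => ?_
  simp only [one_mul]
  exact (Summable.tsum_finsetSum fun δ _ => hs2 M x δ).symm
where
  summable_of_fintype_prod {ι β : Type} [Fintype ι] {f : ι × β → ℂ}
      (h : ∀ i, Summable fun b => f (i, b)) : Summable f := by
    refine Summable.of_norm ?_
    rw [summable_prod_of_nonneg (fun _ => norm_nonneg _)]
    exact ⟨fun i => (h i).norm, Summable.of_finite⟩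

end Fermat.Agent.ResidualThree
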